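import Fermat.Agent.Jac.AbelFibre

/-!
# The map from the curve to rigidified classes of degree zero

A point of the curve goes to its class minus that of the base point; these classes generate.
-/

set_option autoImplicit false
set_option maxHeartbeats 1000000
set_option linter.style.haveILetI false
set_option linter.unusedSectionVars false

noncomputable section

universe u

open CategoryTheory CategoryTheory.Limits AlgebraicGeometry TopologicalSpace
open NeronModelInfra AlgebraicGeometry.RelPicard AlgebraicCurve FA.Curve FA.AbTors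

namespace FA.Jac

/-- Classes on the spectrum of a field vanish. -/
theorem pic_spec_field_eq_zero {L : Type u} [Field L] (p : FA.AbTors.Pic (Spec (CommRingCat.of L))) :
    p = 0 := by
  obtain ⟨c, rfl⟩ := Pic.mk_surjective p
  let z : Spec (CommRingCat.of L) := IsLocalRing.closedPoint L
  have hU : ∀ q, (⊤ : (Spec (CommRingCat.of L)).Opens) ≤ c.U q := fun q y _ => by
    rw [Subsingleton.elim (α := PrimeSpectrum L) y q]
    exact c.mem q
  refine Pic.mk_eq_zero.mpr ⟨fun _ => ⊤, fun _ => trivial, hU,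
    fun q => c.at q z ⊤ (hU q) (hU z), fun x y O hx hy => ?_⟩
  rw [Coc.uRes_at, Coc.uRes_at, eq_div_iff_mul_eq']
  exact (c.at_mul x y z (hx.trans (hU x)) (hy.trans (hU y)) (hx.trans (hU z))).symm

/-- An effective divisor is a sum of places. -/
theorem exists_eq_sum_places {K F : Type*} [Field K] [Field F] [Algebra K F] [IsAlgClosed K]
    (hF : IsFunctionField K F) (n : ℕ) (D : Divisor K F) (hD : 0 ≤ D)
    (hn : Divisor.degree D = n) : ∃ v : Fin n → Place K F, D = ∑ j, Finsupp.single (v j) 1 := by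
  classical
  induction n generalizing D with
  | zero =>
    refine ⟨Fin.elim0, ?_⟩
    rw [Fintype.sum_empty]
    refine Finsupp.ext fun w => ?_
    have h0 := Finsupp.le_def.1 hD w
    by_contra hne
    have hw : w ∈ D.support := Finsupp.mem_support_iff.2 hne
    rw [degree_eq_sum hF, Finsupp.sum] at hn
    have h1 := Finset.single_le_sum (fun i _ => Finsupp.le_def.1 hD i) hw
    rw [hn] at h1
    simp only [Finsupp.coe_zero, Pi.zero_apply] at h0 hne h1
    push_cast at h1
    exact hne (le_antisymm h1 h0)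
  | succ n ih =>
    obtain ⟨w, hw⟩ : ∃ w, D w ≠ 0 := by
      by_contra hno
      push Not at hno
      rw [show D = 0 from Finsupp.ext hno, map_zero] at hn
      omega
    have hw1 : 1 ≤ D w := by
      have h0 := Finsupp.le_def.1 hD w
      simp only [Finsupp.coe_zero, Pi.zero_apply] at h0
      omega
    obtain ⟨v, hv⟩ := ih (D - Finsupp.single w 1) (Finsupp.le_def.2 fun q => by
        have h0 := Finsupp.le_def.1 hD q
        simp only [Finsupp.coe_zero, Pi.zero_apply, Finsupp.sub_apply, Finsupp.single_apply] at h0 ⊢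
        split_ifs with h
        · subst h; omega
        · omega)
      (by rw [map_sub, Divisor.degree_single, hF.deg_eq_one, hn]; push_cast; ring)
    refine ⟨Fin.cons w v, ?_⟩
    rw [Fin.sum_univ_succ]
    simp only [Fin.cons_zero, Fin.cons_succ]
    rw [← hv, add_sub_cancel]

namespace Crv

attribute [local instance] algFn

variable {k : Type u} [Field k] (V : Crv k)
variable {T T' : Scheme.{u}} {t : T ⟶ Spec (CommRingCat.of k)}
  {t' : T' ⟶ Spec (CommRingCat.of k)}

/-- The map to the base field. -/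
def toBase (t : T ⟶ Spec (CommRingCat.of k)) : SchemeHomOver t (𝟙 (Spec (CommRingCat.of k))) :=
  ⟨t, Category.comp_id t⟩

/-- A class made trivial on the section. -/
def nrm (t : T ⟶ Spec (CommRingCat.of k)) : FA.AbTors.Pic (V.X t) →+ FA.AbTors.Pic (V.X t) :=
  AddMonoidHom.id _ - (Pic.pull (pullback.snd V.str t)).comp (V.rig t)

theorem nrm_apply (p : FA.AbTors.Pic (V.X t)) :
    V.nrm t p = p - Pic.pull (pullback.snd V.str t) (V.rig t p) := rfl

theorem rig_nrm (p : FA.AbTors.Pic (V.X t)) : V.rig t (V.nrm t p) = 0 := by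
  have e : V.rig t (Pic.pull (pullback.snd V.str t) (V.rig t p)) = V.rig t p :=
    (Pic.pull_pull _ _ _).trans ((Pic.pull_congr (pullback.lift_snd _ _ _) _).trans (Pic.pull_id _))
  rw [nrm_apply, map_sub, e, sub_self]

theorem pullP_nrm (φ : SchemeHomOver t' t) (p : FA.AbTors.Pic (V.X t)) :
    V.pullP φ (V.nrm t p) = V.nrm t' (V.pullP φ p) := by
  rw [nrm_apply, nrm_apply, map_sub, V.rig_pullP]
  refine congrArg _ ((Pic.pull_pull _ _ _).trans ?_)
  exact (Pic.pull_congr (pullback.lift_snd _ _ _) _).trans (Pic.pull_pull _ _ _).symm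

theorem nrm_field {L : Type u} [Field L] (a : Spec (CommRingCat.of L) ⟶ Spec (CommRingCat.of k))
    (p : FA.AbTors.Pic (V.X a)) : V.nrm a p = p := by
  rw [nrm_apply, pic_spec_field_eq_zero (V.rig a p), map_zero, sub_zero]

/-- A point of the curve as a point of the base change by the identity. -/
def bcPt [IsAlgClosed k] (x : SchemeHomOver (𝟙 (Spec (CommRingCat.of k))) V.str) :
    SchemeHomOver (𝟙 (Spec (CommRingCat.of k))) (V.bc (𝟙 (Spec (CommRingCat.of k)))).str :=
  ⟨pullback.lift x.1 (𝟙 _) (by rw [x.2, Category.comp_id]), pullback.lift_snd _ _ _⟩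

/-- The divisor class of a class on the base change by the identity. -/
def divX [IsAlgClosed k] : FA.AbTors.Pic (V.X (𝟙 (Spec (CommRingCat.of k)))) →+
    AlgebraicCurve.Pic k (V.bc (𝟙 (Spec (CommRingCat.of k)))).F :=
  (V.bc (𝟙 (Spec (CommRingCat.of k)))).divCls

variable {V} [IsAlgClosed k]

/-- A chart with an equation of the diagonal. -/
structure Chart (V : Crv k) (q : V.C) : Type u where
  /-- The open. -/
  W : V.C.Opens
  aff : IsAffineOpen W
  mem : q ∈ W
  /-- The equation. -/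
  D : V.DiagPair W

variable (V) in
/-- A chosen chart. -/
def chart (q : V.C) : V.Chart q :=
  have h := V.exists_diagPair q
  ⟨h.choose, h.choose_spec.1, h.choose_spec.2.1, h.choose_spec.2.2.some⟩

/-- The class of the diagonal over a chart. -/
def diagCls (q : V.C) : FA.AbTors.Pic (V.X ((V.chart q).W.ι ≫ V.str)) :=
  Pic.mk ((V.chart q).D.coc (V.chart q).aff)

/-- A point of a chart. -/
def ptIn (x : SchemeHomOver (𝟙 (Spec (CommRingCat.of k))) V.str) {W : V.C.Opens}
    (h : ctr x.1 ∈ W) : SchemeHomOver (𝟙 (Spec (CommRingCat.of k))) (W.ι ≫ V.str) :=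
  have hr : Set.range x.1 ⊆ Set.range W.ι := by
    rw [Scheme.Opens.range_ι]
    rintro _ ⟨p, rfl⟩
    rw [Subsingleton.elim (α := PrimeSpectrum k) p (IsLocalRing.closedPoint k)]
    exact h
  ⟨IsOpenImmersion.lift W.ι x.1 hr, by rw [← Category.assoc, IsOpenImmersion.lift_fac]; exact x.2⟩

theorem ptIn_ι (x : SchemeHomOver (𝟙 (Spec (CommRingCat.of k))) V.str) {W : V.C.Opens}
    (h : ctr x.1 ∈ W) : (ptIn x h).1 ≫ W.ι = x.1 :=
  IsOpenImmersion.lift_fac _ _ _

variable (V) in
/-- The class of a rational point. -/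
def ptRaw (x : SchemeHomOver (𝟙 (Spec (CommRingCat.of k))) V.str) :
    FA.AbTors.Pic (V.X (𝟙 (Spec (CommRingCat.of k)))) :=
  V.pullP (ptIn x (V.chart (ctr x.1)).mem) (diagCls (ctr x.1))

variable (V) in
/-- The classes over the charts. -/
def abelRaw (q : V.C) : FA.AbTors.Pic (V.X ((V.chart q).W.ι ≫ V.str)) :=
  V.nrm _ (diagCls q - V.pullP (toBase _) (V.ptRaw V.pt))

/-- The divisor class of a point of a chart. -/
theorem divCls_pull (q : V.C)
    (ψ : SchemeHomOver (𝟙 (Spec (CommRingCat.of k))) ((V.chart q).W.ι ≫ V.str))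
    (x : SchemeHomOver (𝟙 (Spec (CommRingCat.of k))) V.str) (hx : ψ.1 ≫ (V.chart q).W.ι = x.1) :
    ∃ v : Place k (V.bc (𝟙 (Spec (CommRingCat.of k)))).F,
      (V.bc (𝟙 _)).ctrA v = ctr (V.bcPt x).1 ∧
      (∀ w, (V.bc (𝟙 _)).ctrA w = ctr (V.bcPt x).1 → w = v) ∧
      V.divX (V.pullP ψ (diagCls q)) = QuotientAddGroup.mk (Finsupp.single v 1) := by
  obtain ⟨v, hv, huniq, hdiv⟩ := exists_pullDiv_coc (V.chart q).aff (V.chart q).D ψ
  have e : fibPt ψ = V.bcPt x := Subtype.ext (pullback.hom_ext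
    ((fibPt_fst ψ).trans (hx.trans (pullback.lift_fst _ _ _).symm))
    ((fibPt_snd ψ).trans (pullback.lift_snd _ _ _).symm))
  exact ⟨v, e ▸ hv, e ▸ huniq, congrArg QuotientAddGroup.mk hdiv⟩

/-- On every geometric fibre the class of the diagonal has degree one. -/
theorem fibDeg_diagCls (q : V.C) {k' : Type u} [Field k'] [IsAlgClosed k']
    {a : Spec (CommRingCat.of k') ⟶ Spec (CommRingCat.of k)}
    (ψ : SchemeHomOver a ((V.chart q).W.ι ≫ V.str)) : V.fibDeg ψ (diagCls q) = 1 := by
  obtain ⟨v, -, -, hdiv⟩ := exists_pullDiv_coc (V.chart q).aff (V.chart q).D ψ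
  show Divisor.degree (pullDiv (RingHom.id k') (V.bc a).isFunctionField (V.bc a).gen
    (V.bc a).gen_str (((V.chart q).D.coc (V.chart q).aff).pull (baseChangeSnd V.str ψ))) = 1
  rw [hdiv, Divisor.degree_single, (V.bc a).isFunctionField.deg_eq_one]
  rfl

theorem abelRaw_mem (q : V.C) : V.abelRaw q ∈ V.P0 ((V.chart q).W.ι ≫ V.str) := by
  refine ⟨V.rig_nrm _, fun k' _ _ a ψ => ?_⟩
  let ξ := postComp (ptIn V.pt (V.chart (ctr V.pt.1)).mem) (postComp (toBase _) ψ)
  have h : V.pullP ψ (V.abelRaw q) =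
      V.pullP ψ (diagCls q) - V.pullP ξ (diagCls (ctr V.pt.1)) := by
    rw [abelRaw, V.pullP_nrm, V.nrm_field, map_sub, V.pullP_pullP, ptRaw, V.pullP_pullP]
  refine ((congrArg (V.bc a).deg h).trans (map_sub (V.bc a).deg _ _)).trans ?_
  refine (congrArg₂ (· - ·) (fibDeg_diagCls q ψ) (fibDeg_diagCls (ctr V.pt.1) ξ)).trans ?_
  exact sub_self 1

theorem pullP_abelRaw (q : V.C)
    (ψ : SchemeHomOver (𝟙 (Spec (CommRingCat.of k))) ((V.chart q).W.ι ≫ V.str)) :
    V.pullP ψ (V.abelRaw q) = V.pullP ψ (diagCls q) - V.ptRaw V.pt := by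
  rw [abelRaw, V.pullP_nrm, V.nrm_field, map_sub, V.pullP_pullP]
  refine congrArg _ ?_
  rw [show postComp (toBase ((V.chart q).W.ι ≫ V.str)) ψ =
    (⟨𝟙 _, Category.id_comp _⟩ : SchemeHomOver (𝟙 (Spec (CommRingCat.of k))) (𝟙 _)) from
    Subtype.ext ψ.2]
  exact V.pullP_id _

variable (hdiv : (V.bc (𝟙 (Spec (CommRingCat.of k)))).DivHolds)

include hdiv in
theorem pullP_diagCls_eq (q : V.C)
    (ψ : SchemeHomOver (𝟙 (Spec (CommRingCat.of k))) ((V.chart q).W.ι ≫ V.str))
    (x : SchemeHomOver (𝟙 (Spec (CommRingCat.of k))) V.str) (hx : ψ.1 ≫ (V.chart q).W.ι = x.1) :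
    V.pullP ψ (diagCls q) = V.ptRaw x := by
  obtain ⟨v, hv, -, e⟩ := divCls_pull q ψ x hx
  obtain ⟨w, -, hw, e'⟩ :=
    divCls_pull (ctr x.1) (ptIn x (V.chart (ctr x.1)).mem) x (ptIn_ι _ _)
  refine (show Function.Injective V.divX from hdiv.injective) ?_
  rw [ptRaw, e, e', hw v hv]

/-- The class of a rational point, as a class of degree zero. -/
def ptClsV (x : SchemeHomOver (𝟙 (Spec (CommRingCat.of k))) V.str) :
    V.P0 (𝟙 (Spec (CommRingCat.of k))) :=
  V.map0 (ptIn x (V.chart (ctr x.1)).mem) ⟨V.abelRaw _, abelRaw_mem _⟩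

theorem coe_ptClsV (x : SchemeHomOver (𝟙 (Spec (CommRingCat.of k))) V.str) :
    (ptClsV x : FA.AbTors.Pic (V.X (𝟙 (Spec (CommRingCat.of k))))) =
      V.ptRaw x - V.ptRaw V.pt :=
  pullP_abelRaw _ _

include hdiv in
/-- The points of the curve generate. -/
theorem abel_generate (q : V.P0 (𝟙 (Spec (CommRingCat.of k)))) :
    ∃ x : Fin (FA.Curve.genus k (V.bc (𝟙 (Spec (CommRingCat.of k)))).F) →
        SchemeHomOver (𝟙 (Spec (CommRingCat.of k))) V.str,
      q = ∑ j, ptClsV (x j) := by
  classical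
  let Vb := V.bc (𝟙 (Spec (CommRingCat.of k)))
  set n := FA.Curve.genus k Vb.F with hn
  obtain ⟨D, hD⟩ := QuotientAddGroup.mk_surjective (V.divX q.1)
  obtain ⟨v₀, -, -, e₀⟩ :=
    divCls_pull (ctr V.pt.1) (ptIn V.pt (V.chart (ctr V.pt.1)).mem) V.pt (ptIn_ι _ _)
  have hdeg : Divisor.degree D = 0 := by
    have h := q.2.2 k (𝟙 _) ⟨𝟙 _, Category.id_comp _⟩
    have e : Vb.degCls (QuotientAddGroup.mk D) = 0 := by
      rw [hD]
      exact (congrArg Vb.deg (V.pullP_id q.1)).symm.trans h
    exact e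
  have hE0 : Divisor.degree (D + Finsupp.single v₀ (n : ℤ)) = n := by
    rw [map_add, hdeg, Divisor.degree_single, Vb.isFunctionField.deg_eq_one]
    push_cast; ring
  have hR := riemann_inequality Vb.isFunctionField (D + Finsupp.single v₀ (n : ℤ))
  obtain ⟨f, hf, hpos⟩ := exists_effective_of_ell_pos Vb.isFunctionField
    (D := D + Finsupp.single v₀ (n : ℤ)) (by rw [hE0] at hR; omega)
  obtain ⟨v, hv⟩ := exists_eq_sum_places Vb.isFunctionField n _ hpos
    (by rw [map_add, hE0, degree_divOf, add_zero])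
  have hpt : ∀ j, ∃ x : SchemeHomOver (𝟙 (Spec (CommRingCat.of k))) V.str,
      (V.bcPt x).1 = (Vb.ptA (v j)).1 := fun j => by
    refine ⟨⟨(Vb.ptA (v j)).1 ≫ pullback.fst V.str (𝟙 _), ?_⟩, ?_⟩
    · exact (Category.assoc _ _ _).trans
        ((congrArg _ (pullback.condition.trans (Category.comp_id _))).trans (Vb.ptA (v j)).2)
    · exact pullback.hom_ext (pullback.lift_fst _ _ _)
        ((pullback.lift_snd _ _ _).trans (Vb.ptA (v j)).2.symm)
  choose x hx using hpt
  refine ⟨x, Subtype.ext ((show Function.Injective V.divX from hdiv.injective) ?_)⟩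
  rw [AddSubmonoidClass.coe_finsetSum, map_sum, ← hD]
  have key : ∀ j, V.divX (ptClsV (x j)).1 =
      QuotientAddGroup.mk (Finsupp.single (v j) 1 - Finsupp.single v₀ 1) := fun j => by
    obtain ⟨w, -, hw, e⟩ :=
      divCls_pull (ctr (x j).1) (ptIn (x j) (V.chart (ctr (x j).1)).mem) (x j) (ptIn_ι _ _)
    rw [coe_ptClsV, map_sub, ptRaw, ptRaw, e, e₀,
      hw (v j) ((Vb.ctrA_eq (v j)).trans (congrArg ctr (hx j).symm))]
    rfl
  refine Eq.trans ?_ (Finset.sum_congr rfl fun j _ => (key j).symm)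
  rw [← QuotientAddGroup.mk_sum, Finset.sum_sub_distrib, ← hv]
  refine QuotientAddGroup.eq.2 ⟨f, hf, fun w => ?_⟩
  simp only [Finset.sum_const, Finset.card_univ, Fintype.card_fin, Finsupp.add_apply,
    Finsupp.neg_apply, Finsupp.sub_apply, Finsupp.smul_apply, Finsupp.single_apply, divOf_apply,
    nsmul_eq_mul]
  split_ifs <;> ring

include hdiv in
/-- Points of the curve as classes of degree zero, generating all of them. -/
theorem abelData : Nonempty V.AbelData :=
  ⟨{ n := FA.Curve.genus k (V.bc (𝟙 (Spec (CommRingCat.of k)))).F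
     ι := V.C
     W := fun q => (V.chart q).W
     covers := Opens.ext (Set.eq_univ_of_forall fun q => Opens.mem_iSup.2 ⟨q, (V.chart q).mem⟩)
     cls := fun q => ⟨V.abelRaw q, abelRaw_mem q⟩
     ptCls := ptClsV
     compat := fun q x => Subtype.ext (by
       rw [coe_ptClsV, ← pullP_diagCls_eq hdiv q x (postComp (incl V.str (V.chart q).W) x) rfl]
       exact pullP_abelRaw q x)
     generate := abel_generate hdiv }⟩

end Crv

end FA.Jac

end
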