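import Mathlib.RingTheory.Unramified.Finite
import Mathlib.RingTheory.Etale.Basic
import Mathlib.RingTheory.Smooth.StandardSmooth
import Mathlib.RingTheory.Etale.StandardEtale
import Mathlib.RingTheory.RingHom.StandardSmooth

/-!
# The diagonal of a smooth algebra of relative dimension one

Near the diagonal its ideal is generated by one element.
-/

set_option autoImplicit false
set_option linter.style.haveILetI false
set_option linter.unusedSectionVars false

noncomputable section

universe u

open scoped TensorProduct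

namespace FA.Jac

/-- Near the diagonal its ideal is principal. -/
theorem exists_diag (k A : Type u) [CommRing k] [CommRing A] [Algebra k A]
    [Algebra.IsStandardSmoothOfRelativeDimension 1 k A] :
    ∃ d h : A ⊗[k] A, Algebra.TensorProduct.lmul' k d = 0 ∧ Algebra.TensorProduct.lmul' k h = 1 ∧
      ∀ s : A, ∃ b, h * (s ⊗ₜ[k] 1 - 1 ⊗ₜ[k] s) = d * b := by
  obtain ⟨ψ, hψ⟩ :=
    Algebra.IsStandardSmoothOfRelativeDimension.exists_etale_mvPolynomial (n := 1) k A
  letI algPA : Algebra (MvPolynomial (Fin 1) k) A := ψ.toRingHom.toAlgebra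
  haveI : IsScalarTower k (MvPolynomial (Fin 1) k) A :=
    IsScalarTower.of_algebraMap_eq fun c => (ψ.commutes c).symm
  haveI : Algebra.Etale (MvPolynomial (Fin 1) k) A := hψ
  haveI : Algebra.EssFiniteType (MvPolynomial (Fin 1) k) A := inferInstance
  obtain ⟨t, ht, ht1⟩ :=
    (Algebra.FormallyUnramified.iff_exists_tensorProduct (R := MvPolynomial (Fin 1) k) (S := A)).1
      inferInstance
  let τ : A := ψ (MvPolynomial.X 0)
  let d : A ⊗[k] A := τ ⊗ₜ[k] 1 - 1 ⊗ₜ[k] τ
  let J : Ideal (A ⊗[k] A) := Ideal.span {d}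
  let mkJ := Ideal.Quotient.mk J
  let l : A →+* (A ⊗[k] A) ⧸ J :=
    mkJ.comp (Algebra.TensorProduct.includeLeft (R := k) (S := k) (A := A) (B := A)).toRingHom
  let r : A →+* (A ⊗[k] A) ⧸ J :=
    mkJ.comp (Algebra.TensorProduct.includeRight (R := k) (A := A) (B := A)).toRingHom
  letI : Algebra (MvPolynomial (Fin 1) k) ((A ⊗[k] A) ⧸ J) := (l.comp ψ.toRingHom).toAlgebra
  have hP : ∀ p, r (ψ p) = l (ψ p) := fun p => by
    induction p using MvPolynomial.induction_on with
    | C c =>
      rw [show ψ (MvPolynomial.C c) = algebraMap k A c from ψ.commutes c]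
      exact congrArg mkJ ((Algebra.TensorProduct.tmul_one_eq_one_tmul c).symm :
        (1 : A) ⊗ₜ[k] algebraMap k A c = algebraMap k A c ⊗ₜ[k] 1)
    | add p q hp hq => simp only [map_add, hp, hq]
    | mul_X p i hp =>
      rw [map_mul, map_mul, map_mul, hp, Subsingleton.elim i 0]
      congr 1
      refine (Ideal.Quotient.eq.2 ?_).symm
      exact Ideal.subset_span rfl
  let la : A →ₐ[MvPolynomial (Fin 1) k] (A ⊗[k] A) ⧸ J := { l with commutes' := fun _ => rfl }
  let ra : A →ₐ[MvPolynomial (Fin 1) k] (A ⊗[k] A) ⧸ J := { r with commutes' := hP }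
  let Φ := Algebra.TensorProduct.productMap la ra
  obtain ⟨h, hh⟩ := Ideal.Quotient.mk_surjective (Φ t)
  have hd : Algebra.TensorProduct.lmul' k d = 0 := by
    simp [d]
  let μ : (A ⊗[k] A) ⧸ J →+* A :=
    Ideal.Quotient.lift J (Algebra.TensorProduct.lmul' k).toRingHom fun x hx => by
      obtain ⟨y, rfl⟩ := Ideal.mem_span_singleton'.1 hx
      simp only [AlgHom.toRingHom_eq_coe, RingHom.coe_coe, map_mul, hd, mul_zero]
  have hμ : ∀ z, μ (Φ z) = Algebra.TensorProduct.lmul' (MvPolynomial (Fin 1) k) z := fun z => by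
    induction z using TensorProduct.induction_on with
    | zero => simp
    | tmul a b =>
      simp [Φ, la, ra, μ, l, r, mkJ, Algebra.TensorProduct.lmul'_apply_tmul]
    | add a b ha hb => rw [map_add, map_add, map_add, ha, hb]
  refine ⟨d, h, hd, ?_, fun s => ?_⟩
  · have e := hμ t
    rw [ht1, ← hh] at e
    exact e
  · have e := congrArg Φ (ht s)
    rw [map_mul, map_zero, map_sub, ← hh] at e
    have e' : mkJ ((1 ⊗ₜ[k] s - s ⊗ₜ[k] 1) * h) = 0 := by
      rw [map_mul, map_sub]
      refine Eq.trans ?_ e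
      congr 1
      simp [Φ, la, ra, l, r, mkJ, ← Algebra.TensorProduct.one_def]
    obtain ⟨b, hb⟩ := Ideal.mem_span_singleton'.1 (Ideal.Quotient.eq_zero_iff_mem.1 e')
    exact ⟨-b, by rw [mul_neg, mul_comm d b, hb]; ring⟩

end FA.Jac

end
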