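import Fermat.Agent.Jac.Curve
import Fermat.Agent.AbTors.Transfer

/-!
# The place centred at a rational point with a principal ideal near it

If near a rational point `x` all functions vanishing at `x` are multiples of one function `d`,
there is exactly one place centred at `x` and `d` has order one there.
-/

set_option autoImplicit false
set_option linter.style.haveILetI false
set_option linter.unusedSectionVars false

noncomputable section

universe u

open CategoryTheory CategoryTheory.Limits AlgebraicGeometry TopologicalSpace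
open NeronModelInfra AlgebraicCurve FA.Curve FA.ModField FA.AbTors

namespace FA.Jac

/-- The value of a constant at a point. -/
theorem evF_sectionsConst {K M : Type u} [Field K] [CommRing M] (i : K →+* M) {X : Scheme.{u}}
    (s : X ⟶ Spec (CommRingCat.of K)) (p : Spec (CommRingCat.of M) ⟶ X)
    (hp : p ≫ s = Spec.map (CommRingCat.ofHom i)) {U : X.Opens} (hU : ⊤ ≤ p ⁻¹ᵁ U) (c : K) :
    evF p U hU (Loc.sectionsHom s U c) = i c := by
  set a : Γ(Spec (CommRingCat.of K), ⊤) := (Scheme.ΓSpecIso (CommRingCat.of K)).inv.hom c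
  have h1 : evF p U hU ((s.appLE ⊤ U (by simp)).hom a) = evF (p ≫ s) ⊤ le_top a :=
    congrArg (fun ψ : Γ(Spec (CommRingCat.of K), ⊤) ⟶ Γ(Spec (CommRingCat.of M), ⊤) =>
      (Scheme.ΓSpecIso (CommRingCat.of M)).hom.hom (ψ.hom a))
      (Scheme.Hom.appLE_comp_appLE p s ⊤ U ⊤ (by simp) hU)
  refine h1.trans ?_
  have h2 := evF_comp i (𝟙 (Spec (CommRingCat.of K))) (U := ⊤) le_top a
  have h3 : evF (𝟙 (Spec (CommRingCat.of K))) ⊤ le_top a = c := by
    show (Scheme.ΓSpecIso (CommRingCat.of K)).hom.hom (((𝟙 _ : Spec (CommRingCat.of K) ⟶ _).appLE ⊤ ⊤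
      le_top).hom a) = c
    rw [show (𝟙 (Spec (CommRingCat.of K)) : _ ⟶ _).appLE ⊤ ⊤ le_top = 𝟙 _ from
      (Scheme.Hom.appLE_eq_app _).trans (Scheme.Hom.id_app _)]
    exact congrArg (fun ψ : CommRingCat.of K ⟶ CommRingCat.of K => ψ.hom c)
      (Scheme.ΓSpecIso (CommRingCat.of K)).inv_hom_id
  rw [h3] at h2
  refine Eq.trans (FA.AbTors.evF_congr ?_ _ _ a) h2
  rw [Category.comp_id]
  exact hp

namespace Crv

variable {k : Type u} [Field k] [IsAlgClosed k] (V : Crv k)

/-- The centre of a place of the function field. -/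
def ctrA (v : Place k V.F) : V.C := placeCtr (RingHom.id k) V.gen V.gen_str v

/-- The rational point under a place. -/
def ptA (v : Place k V.F) : SchemeHomOver (𝟙 (Spec (CommRingCat.of k))) V.str :=
  ⟨valPt (RingHom.id k) V.isFunctionField V.gen V.gen_str v, by
    rw [valPt_str, CommRingCat.ofHom_id, Spec.map_id]⟩

theorem ctrA_eq (v : Place k V.F) : V.ctrA v = ctr (V.ptA v).1 :=
  placeCtr_eq_ctr_valPt _ V.isFunctionField _ _ v

theorem ptA_eq_of_ctrA (v : Place k V.F) (x : SchemeHomOver (𝟙 (Spec (CommRingCat.of k))) V.str)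
    (h : V.ctrA v = ctr x.1) : (V.ptA v).1 = x.1 :=
  ext_of_apply_closedPoint_eq V.str (V.ptA v).2 x.2 ((V.ctrA_eq v).symm.trans h)

variable (x : SchemeHomOver (𝟙 (Spec (CommRingCat.of k))) V.str) {U : V.C.Opens}
  (hxU : ctr x.1 ∈ U)

/-- The value of a function at the generic point. -/
def gv : Γ(V.C, U) →+* V.F := evF V.gen U (gen_le hxU)

/-- The value of a function at `x`. -/
def xv : Γ(V.C, U) →+* k := evF x.1 U (le_preimage_of_mem hxU)

theorem gv_injective : Function.Injective (V.gv x hxU) := evF_genPt_injective hxU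

theorem gv_const (c : k) :
    V.gv x hxU (Loc.sectionsHom V.str U c) = algebraMap k V.F c :=
  evF_sectionsConst _ V.str V.gen V.gen_str _ c

theorem xv_const (c : k) : V.xv x hxU (Loc.sectionsHom V.str U c) = c :=
  evF_sectionsConst (RingHom.id k) V.str x.1
    (by rw [x.2, CommRingCat.ofHom_id, Spec.map_id]) _ c

theorem hasValue_gv {v : Place k V.F} (hv : V.ctrA v = ctr x.1) (a : Γ(V.C, U)) :
    HasValue v (V.gv x hxU a) (V.xv x hxU a) := by
  have hU' : V.ctrA v ∈ U := hv.symm ▸ hxU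
  have h := hasValue_evF (RingHom.id k) V.isFunctionField V.gen V.gen_str v hU' a
  have e : valPt (RingHom.id k) V.isFunctionField V.gen V.gen_str v = x.1 :=
    V.ptA_eq_of_ctrA v x hv
  rw [FA.AbTors.evF_congr e] at h
  exact h

theorem gv_ord_eq_zero {v : Place k V.F} (hv : V.ctrA v = ctr x.1) {a : Γ(V.C, U)}
    (ha : V.xv x hxU a ≠ 0) : v.ord (V.gv x hxU a) = 0 := by
  have h := V.hasValue_gv x hxU hv a
  have h0 := h.atLeast
  rcases eq_or_ne (V.gv x hxU a) 0 with h' | h'
  · rw [h', Place.ord_zero]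
  rcases lt_or_eq_of_le ((atLeast_iff h').1 h0) with hlt | heq
  · have h1 : HasValue v (V.gv x hxU a) 0 :=
      hasValue_zero_iff.2 (Or.inr (Int.add_one_le_iff.2 hlt))
    exact absurd (h.unique h1) ha
  · exact heq.symm

theorem gv_ord_pos {v : Place k V.F} (hv : V.ctrA v = ctr x.1) {a : Γ(V.C, U)}
    (ha : V.xv x hxU a = 0) (h' : V.gv x hxU a ≠ 0) : 1 ≤ v.ord (V.gv x hxU a) := by
  have h := V.hasValue_gv x hxU hv a
  rw [ha, hasValue_zero_iff, atLeast_iff h'] at h
  exact h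

/-- Rational functions are fractions of functions on an affine open. -/
theorem exists_gv_div (hU : IsAffineOpen U) (f : V.F) :
    ∃ a b : Γ(V.C, U), b ≠ 0 ∧ f = V.gv x hxU a / V.gv x hxU b := by
  haveI : Nonempty U := ⟨⟨_, hxU⟩⟩
  haveI : IsFractionRing Γ(V.C, U) V.C.functionField :=
    functionField_isFractionRing_of_isAffineOpen V.C U hU
  obtain ⟨a, b, hb, e⟩ := IsFractionRing.div_surjective (A := Γ(V.C, U)) (K := V.C.functionField) f
  refine ⟨a, b, nonZeroDivisors.ne_zero hb, e.symm.trans ?_⟩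
  exact congrArg₂ (· / ·) (evF_genPt (genericPoint_mem hxU) a).symm
    (evF_genPt (genericPoint_mem hxU) b).symm

/-- Some nonzero function on an affine open vanishes at a given point. -/
theorem exists_xv_eq_zero (hU : IsAffineOpen U) :
    ∃ a : Γ(V.C, U), V.gv x hxU a ≠ 0 ∧ V.xv x hxU a = 0 := by
  by_contra hno
  push Not at hno
  have hconst : ∀ a : Γ(V.C, U), V.gv x hxU a = algebraMap k V.F (V.xv x hxU a) := fun a => by
    by_contra hne
    refine hno (a - Loc.sectionsHom V.str U (V.xv x hxU a)) ?_ ?_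
    · rw [map_sub, gv_const, sub_ne_zero]
      exact hne
    · rw [map_sub, xv_const, sub_self]
  obtain ⟨y, hy, -⟩ := V.isFunctionField
  obtain ⟨a, b, -, e⟩ := V.exists_gv_div x hxU hU y
  refine hy ?_
  rw [e, hconst, hconst, ← map_div₀]
  exact isAlgebraic_algebraMap _

variable (d h : Γ(V.C, U)) (hd : V.xv x hxU d = 0) (hh : V.xv x hxU h ≠ 0)
  (hdiv : ∀ a, V.xv x hxU a = 0 → ∃ b, h * a = d * b) (hU : IsAffineOpen U)

include hh hdiv hU in
theorem gv_d_ne_zero : V.gv x hxU d ≠ 0 := fun h0 => by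
  obtain ⟨a, ha, ha0⟩ := V.exists_xv_eq_zero x hxU hU
  obtain ⟨b, hb⟩ := hdiv a ha0
  have h1 := congrArg (V.gv x hxU) hb
  rw [map_mul, map_mul, h0, zero_mul, mul_eq_zero] at h1
  rcases h1 with h1 | h1
  · refine hh ?_
    rw [(map_eq_zero_iff _ (V.gv_injective x hxU)).1 h1, map_zero]
  · exact ha h1

include hd hh hdiv hU in
/-- At the places centred at `x` all orders are multiples of the order of `d`. -/
theorem exists_ord_eq (v₀ : Place k V.F) (hv₀ : V.ctrA v₀ = ctr x.1) (a : Γ(V.C, U)) :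
    ∃ m : ℕ, ∀ v, V.ctrA v = ctr x.1 → v.ord (V.gv x hxU a) = m * v.ord (V.gv x hxU d) := by
  suffices ∀ (N : ℕ) (a : Γ(V.C, U)), v₀.ord (V.gv x hxU a) ≤ N →
      ∃ m : ℕ, ∀ v, V.ctrA v = ctr x.1 → v.ord (V.gv x hxU a) = m * v.ord (V.gv x hxU d) from
    this (v₀.ord (V.gv x hxU a)).toNat a (by omega)
  have hd0 := V.gv_d_ne_zero x hxU d h hh hdiv hU
  intro N
  induction N using Nat.strong_induction_on with
  | _ N ih =>
    intro a hN
    by_cases ha : V.xv x hxU a = 0
    swap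
    · exact ⟨0, fun v hv => by rw [V.gv_ord_eq_zero x hxU hv ha, Nat.cast_zero, zero_mul]⟩
    by_cases ha0 : V.gv x hxU a = 0
    · exact ⟨0, fun v hv => by rw [ha0, Place.ord_zero, Nat.cast_zero, zero_mul]⟩
    obtain ⟨b, hb⟩ := hdiv a ha
    have h1 := congrArg (V.gv x hxU) hb
    rw [map_mul, map_mul] at h1
    have hh0 : V.gv x hxU h ≠ 0 := fun e => hh (by
      rw [(map_eq_zero_iff _ (V.gv_injective x hxU)).1 e, map_zero])
    have hb0 : V.gv x hxU b ≠ 0 := fun e => by
      rw [e, mul_zero] at h1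
      exact (mul_ne_zero hh0 ha0) h1
    have key : ∀ v, V.ctrA v = ctr x.1 →
        v.ord (V.gv x hxU a) = v.ord (V.gv x hxU d) + v.ord (V.gv x hxU b) := fun v hv => by
      have e := congrArg v.ord h1
      rw [v.ord_mul hh0 ha0, v.ord_mul hd0 hb0, V.gv_ord_eq_zero x hxU hv hh, zero_add] at e
      exact e
    have hd1 := V.gv_ord_pos x hxU hv₀ hd hd0
    have ha1 := V.gv_ord_pos x hxU hv₀ ha ha0
    obtain ⟨m, hm⟩ := ih (N - 1) (by omega) b (by have := key v₀ hv₀; omega)
    exact ⟨m + 1, fun v hv => by rw [key v hv, hm v hv]; push_cast; ring⟩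

include hd hh hdiv hU in
/-- At the places centred at `x` all orders are given multiples of the order of `d`. -/
theorem exists_ord_eq' (v₀ : Place k V.F) (hv₀ : V.ctrA v₀ = ctr x.1) (f : V.F) :
    ∃ m : ℤ, ∀ v, V.ctrA v = ctr x.1 → v.ord f = m * v.ord (V.gv x hxU d) := by
  obtain ⟨a, b, hb, rfl⟩ := V.exists_gv_div x hxU hU f
  have hb' : V.gv x hxU b ≠ 0 := (map_ne_zero_iff _ (V.gv_injective x hxU)).2 hb
  rcases eq_or_ne (V.gv x hxU a) 0 with ha | ha
  · exact ⟨0, fun v _ => by rw [ha, zero_div, Place.ord_zero, zero_mul]⟩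
  obtain ⟨m, hm⟩ := V.exists_ord_eq x hxU d h hd hh hdiv hU v₀ hv₀ a
  obtain ⟨m', hm'⟩ := V.exists_ord_eq x hxU d h hd hh hdiv hU v₀ hv₀ b
  refine ⟨(m : ℤ) - m', fun v hv => ?_⟩
  rw [div_eq_mul_inv, v.ord_mul ha (inv_ne_zero hb'), v.ord_inv, hm v hv, hm' v hv]
  ring

include hd hh hdiv hU in
theorem ord_d_eq_one {v : Place k V.F} (hv : V.ctrA v = ctr x.1) :
    v.ord (V.gv x hxU d) = 1 := by
  obtain ⟨t, ht⟩ := exists_uniformizer v
  obtain ⟨m, hm⟩ := V.exists_ord_eq' x hxU d h hd hh hdiv hU v hv t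
  have e := hm v hv
  rw [ht] at e
  exact Int.eq_one_of_mul_eq_one_left
    (le_trans zero_le_one (V.gv_ord_pos x hxU hv hd (V.gv_d_ne_zero x hxU d h hh hdiv hU))) e.symm

include hd hh hdiv hU in
theorem eq_of_ctrA {v w : Place k V.F} (hv : V.ctrA v = ctr x.1) (hw : V.ctrA w = ctr x.1) :
    v = w := by
  refine Place.ext (SetLike.ext fun f => ?_)
  obtain ⟨m, hm⟩ := V.exists_ord_eq' x hxU d h hd hh hdiv hU v hv f
  rw [mem_place_iff, mem_place_iff, hm v hv, hm w hw,
    V.ord_d_eq_one x hxU d h hd hh hdiv hU hv, V.ord_d_eq_one x hxU d h hd hh hdiv hU hw]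

include hxU hU in
/-- Some place is centred at `x`. -/
theorem exists_ctrA : ∃ v, V.ctrA v = ctr x.1 := by
  set g := V.gv x hxU
  let A := g.range
  let I : Ideal A := Ideal.map g.rangeRestrict (RingHom.ker (V.xv x hxU))
  have hbij : Function.Bijective g.rangeRestrict :=
    ⟨fun a b e => V.gv_injective x hxU (congrArg Subtype.val e), g.rangeRestrict_surjective⟩
  have hI : I ≠ ⊤ := fun e => by
    have h1 := congrArg (Ideal.comap g.rangeRestrict) e
    rw [Ideal.comap_map_of_bijective _ hbij, Ideal.comap_top] at h1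
    exact RingHom.ker_ne_top _ h1
  obtain ⟨O, hO, hsub⟩ := Ideal.image_subset_nonunits_valuationSubring I hI
  have hg : ∀ a, g a ∈ O := fun a => hO ⟨a, rfl⟩
  have hK : ∀ c : k, algebraMap k V.F c ∈ O := fun c => V.gv_const x hxU c ▸ hg _
  have hnu : ∀ a, V.xv x hxU a = 0 → g a ∈ O.nonunits := fun a ha =>
    hsub ⟨g.rangeRestrict a, Ideal.mem_map_of_mem _ ha, rfl⟩
  obtain ⟨a₀, ha₀, ha₀x⟩ := V.exists_xv_eq_zero x hxU hU
  have hne : O ≠ ⊤ := fun e => by
    have h1 : (g a₀)⁻¹ ∈ O := e ▸ ValuationSubring.mem_top _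
    have h2 := O.mem_nonunits_iff.1 (hnu a₀ ha₀x)
    rw [← O.valuation_le_one_iff, map_inv₀] at h1
    exact h1.not_gt ((one_lt_inv₀ (zero_lt_iff.2 ((Valuation.ne_zero_iff _).2 ha₀))).2 h2)
  let v := toPlace V.isFunctionField O hK hne
  refine ⟨v, ?_⟩
  have hval : ∀ a, HasValue v (g a) (V.xv x hxU a) := fun a => by
    have e : g a - algebraMap k V.F (V.xv x hxU a) =
        g (a - Loc.sectionsHom V.str U (V.xv x hxU a)) := by rw [map_sub, gv_const]
    rw [HasValue, e]
    rcases eq_or_ne (g (a - Loc.sectionsHom V.str U (V.xv x hxU a))) 0 with h0 | h0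
    · exact Or.inl h0
    refine Or.inr ?_
    have h2 : g (a - Loc.sectionsHom V.str U (V.xv x hxU a)) ∈ O.nonunits :=
      hnu _ (by rw [map_sub, xv_const, sub_self])
    by_contra hlt
    have hinv : (g (a - Loc.sectionsHom V.str U (V.xv x hxU a)))⁻¹ ∈ v.toValuationSubring := by
      rw [mem_place_iff, v.ord_inv]
      omega
    rw [toPlace_toValuationSubring, ← O.valuation_le_one_iff, map_inv₀] at hinv
    exact hinv.not_gt ((one_lt_inv₀ (zero_lt_iff.2 ((Valuation.ne_zero_iff _).2 h0))).2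
      (O.mem_nonunits_iff.1 h2))
  have e := valPt_eq_of_hasValue (RingHom.id k) V.isFunctionField V.gen V.gen_str v hU
    (gen_mem hxU) x.1 (by rw [x.2, CommRingCat.ofHom_id, Spec.map_id]) hxU hval
  rw [V.ctrA_eq]
  exact congrArg ctr e

end Crv

end FA.Jac

end
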