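import Fermat.Agent.Jac.Basic
import Fermat.Agent.Jac.AbelAlg
import Fermat.Agent.Jac.AbelPlace

/-!
# The class of the diagonal

Over an affine open `W` of the curve the diagonal in `C × W` is cut out by one function near it;
the class of the cocycle so obtained is the class of a point on every geometric fibre.
-/

set_option autoImplicit false
set_option maxHeartbeats 400000
set_option linter.style.haveILetI false
set_option linter.unusedSectionVars false

noncomputable section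

universe u

open CategoryTheory CategoryTheory.Limits AlgebraicGeometry TopologicalSpace
open NeronModelInfra AlgebraicGeometry.RelPicard AlgebraicCurve FA.Curve FA.AbTors
open scoped TensorProduct

namespace FA.Jac

/-! ### Points with values in fields -/

section points

variable {X Y : Scheme.{u}}

theorem evF_apF {R : Type u} [CommRing R] (e : Spec (CommRingCat.of R) ⟶ X) (f : X ⟶ Y)
    {U : Y.Opens} {V : X.Opens} (h : V ≤ f ⁻¹ᵁ U) (hV : ⊤ ≤ e ⁻¹ᵁ V) (a : Γ(Y, U)) :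
    evF e V hV (apF f h a) = evF (e ≫ f) U (fun _ hp => h (hV hp)) a :=
  congrArg (Scheme.ΓSpecIso (CommRingCat.of R)).hom.hom (apF_apF e f h hV a)

theorem evF_rsFun {R : Type u} [CommRing R] (e : Spec (CommRingCat.of R) ⟶ X) {U V : X.Opens}
    (h : V ≤ U) (hV : ⊤ ≤ e ⁻¹ᵁ V) (a : Γ(X, U)) :
    evF e V hV (rsF h a) = evF e U (fun _ hp => h (hV hp)) a :=
  (evF_apF e (𝟙 X) h hV a).trans (FA.AbTors.evF_congr (Category.comp_id e) _ _ a)

theorem evF_ne_zero_of_mem {L : Type u} [Field L] (e : Spec (CommRingCat.of L) ⟶ X) {U : X.Opens}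
    {a : Γ(X, U)} (h : ctr e ∈ X.basicOpen a) :
    evF e U (le_preimage_of_mem (X.basicOpen_le a h)) a ≠ 0 := by
  have hu : IsUnit (rsF (X.basicOpen_le a) a) := by
    rw [rsF_eq_map]
    exact X.toRingedSpace.isUnit_res_basicOpen a
  have h1 := (hu.map (evF e _ (le_preimage_of_mem h))).ne_zero
  rwa [evF_rsFun] at h1

theorem mem_of_evF_ne_zero {L : Type u} [Field L] (e : Spec (CommRingCat.of L) ⟶ X) {U : X.Opens}
    (hU : ⊤ ≤ e ⁻¹ᵁ U) {a : Γ(X, U)} (h : evF e U hU a ≠ 0) : ctr e ∈ X.basicOpen a := by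
  have h1 : IsUnit ((e.appLE U ⊤ hU).hom a) := by
    have h0 := (isUnit_iff_ne_zero.2 h).map (Scheme.ΓSpecIso (CommRingCat.of L)).inv.hom
    have e1 : (Scheme.ΓSpecIso (CommRingCat.of L)).inv.hom (evF e U hU a) =
        (e.appLE U ⊤ hU).hom a :=
      congrArg (fun φ : Γ(Spec (CommRingCat.of L), ⊤) ⟶ Γ(Spec (CommRingCat.of L), ⊤) => φ.hom _)
        (Scheme.ΓSpecIso (CommRingCat.of L)).hom_inv_id
    rwa [e1] at h0
  have h2 : (⊤ : (Spec (CommRingCat.of L)).Opens) ≤ e ⁻¹ᵁ X.basicOpen a := by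
    rw [Scheme.preimage_basicOpen]
    refine le_trans ?_ ((Scheme.basicOpen_res _ (e.app U a) (homOfLE hU).op).le.trans inf_le_right)
    exact (Scheme.basicOpen_of_isUnit _ h1).ge
  exact h2 (Set.mem_univ (IsLocalRing.closedPoint L))

theorem eq_of_evF {R : Type u} [CommRing R] (e e' : Spec (CommRingCat.of R) ⟶ X) {U : X.Opens}
    (hU : IsAffineOpen U) (h : ⊤ ≤ e ⁻¹ᵁ U) (h' : ⊤ ≤ e' ⁻¹ᵁ U)
    (heq : ∀ a, evF e U h a = evF e' U h' a) : e = e' := by
  rw [← specMap_evF_fromSpec e hU h, ← specMap_evF_fromSpec e' hU h', RingHom.ext heq]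

theorem evF_id {R : Type u} [CommRing R] (c : R) :
    evF (𝟙 (Spec (CommRingCat.of R))) ⊤ le_top
      ((Scheme.ΓSpecIso (CommRingCat.of R)).inv.hom c) = c := by
  show (Scheme.ΓSpecIso (CommRingCat.of R)).hom.hom
    (((𝟙 _ : Spec (CommRingCat.of R) ⟶ _).appLE ⊤ ⊤ le_top).hom _) = c
  rw [show (𝟙 (Spec (CommRingCat.of R)) : _ ⟶ _).appLE ⊤ ⊤ le_top = 𝟙 _ from
    (Scheme.Hom.appLE_eq_app _).trans (Scheme.Hom.id_app _)]
  exact congrArg (fun ψ : CommRingCat.of R ⟶ CommRingCat.of R => ψ.hom c)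
    (Scheme.ΓSpecIso (CommRingCat.of R)).inv_hom_id

theorem apF_sectionsHom {K : Type u} [Field K] (f : X ⟶ Y) (s : Y ⟶ Spec (CommRingCat.of K))
    {U : Y.Opens} {V : X.Opens} (h : V ≤ f ⁻¹ᵁ U) (c : K) :
    apF f h (Loc.sectionsHom s U c) = Loc.sectionsHom (f ≫ s) V c :=
  apF_apF f s (show U ≤ s ⁻¹ᵁ (⊤ : (Spec (CommRingCat.of K)).Opens) from fun _ _ => trivial) h
    ((Scheme.ΓSpecIso (CommRingCat.of K)).inv.hom c)

theorem gAt_pull {E : Type u} [Field E] (e : Spec (CommRingCat.of E) ⟶ X) (f : X ⟶ Y) (c : Coc Y)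
    (a b : X) (ha : ctr e ∈ (c.pull f).U a) (hb : ctr e ∈ (c.pull f).U b) :
    gAt (c.pull f) e a b ha hb = gAt c (e ≫ f) (f a) (f b) ha hb :=
  congrArg Units.val (evU_uApp e f (U := c.U (f a) ⊓ c.U (f b))
    (V := f ⁻¹ᵁ (c.U (f a) ⊓ c.U (f b))) le_rfl (le_preimage_of_mem ⟨ha, hb⟩) (c.g (f a) (f b)))

end points

/-! ### Cocycles on two opens -/

section two

variable {X : Scheme.{u}} (O : Bool → X.Opens)

/-- The transition functions on two opens. -/
def twoW (u : Γ(X, O true ⊓ O false)ˣ) : ∀ i j, Γ(X, O i ⊓ O j)ˣ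
  | true, true => 1
  | true, false => u
  | false, true => (uRes _ _ (le_inf inf_le_right inf_le_left) u)⁻¹
  | false, false => 1

/-- The cocycle of a unit on the intersection of two opens covering the space. -/
def twoCoc (σ : X → Bool) (hmem : ∀ x, x ∈ O (σ x)) (u : Γ(X, O true ⊓ O false)ˣ) : Coc X where
  U x := O (σ x)
  mem := hmem
  g x y := twoW O u (σ x) (σ y)
  cocycle x y z W hx hy hz := by
    revert hx hy hz
    generalize σ x = i
    generalize σ y = j
    generalize σ z = l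
    intro hx hy hz
    cases i <;> cases j <;> cases l <;> simp [twoW, uRes_uRes]

variable (σ : X → Bool) (hmem : ∀ x, x ∈ O (σ x)) (u : Γ(X, O true ⊓ O false)ˣ)

theorem gAt_twoCoc {E : Type u} [Field E] (e : Spec (CommRingCat.of E) ⟶ X) (p q : X)
    (ha : ctr e ∈ (twoCoc O σ hmem u).U p) (hb : ctr e ∈ (twoCoc O σ hmem u).U q)
    {i j : Bool} (hi : σ p = i) (hj : σ q = j) :
    gAt (twoCoc O σ hmem u) e p q ha hb =
      (evU e (O i ⊓ O j) (le_preimage_of_mem ⟨hi ▸ ha, hj ▸ hb⟩) (twoW O u i j) : E) := by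
  subst hi hj
  rfl

end two

/-! ### The diagonal -/

namespace Crv

variable {k : Type u} [Field k] (V : Crv k) (W : V.C.Opens)

/-- The algebra of functions on an open. -/
@[reducible]
def algFn : Algebra k Γ(V.C, W) := (Loc.sectionsHom V.str W).toAlgebra

attribute [local instance] algFn

/-- The preimage of `W` in `C × W`. -/
def preD : (V.X (W.ι ≫ V.str)).Opens := pullback.fst V.str (W.ι ≫ V.str) ⁻¹ᵁ W

/-- The diagonal. -/
def diag : (W : Scheme.{u}) ⟶ V.X (W.ι ≫ V.str) :=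
  pullback.lift W.ι (𝟙 _) (Category.id_comp _).symm

theorem le_preD : V.preD W ≤ (pullback.snd V.str (W.ι ≫ V.str) ≫ W.ι) ⁻¹ᵁ W :=
  fun q _ => (pullback.snd V.str (W.ι ≫ V.str) q).2

/-- The functions near the diagonal. -/
def rhoD : Γ(V.C, W) ⊗[k] Γ(V.C, W) →+* Γ(V.X (W.ι ≫ V.str), V.preD W) :=
  letI : Algebra k Γ(V.X (W.ι ≫ V.str), V.preD W) :=
    (Loc.sectionsHom (pullback.fst V.str (W.ι ≫ V.str) ≫ V.str) (V.preD W)).toAlgebra
  let l : Γ(V.C, W) →ₐ[k] Γ(V.X (W.ι ≫ V.str), V.preD W) :=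
    { apF (pullback.fst V.str (W.ι ≫ V.str)) (le_refl (V.preD W)) with
      commutes' := fun c => apF_sectionsHom _ V.str _ c }
  let r : Γ(V.C, W) →ₐ[k] Γ(V.X (W.ι ≫ V.str), V.preD W) :=
    { apF (pullback.snd V.str (W.ι ≫ V.str) ≫ W.ι) (V.le_preD W) with
      commutes' := fun c => (apF_sectionsHom _ V.str _ c).trans (congrArg
        (fun g : V.X (W.ι ≫ V.str) ⟶ Spec (CommRingCat.of k) => Loc.sectionsHom g (V.preD W) c)
        ((Category.assoc _ _ _).trans pullback.condition.symm)) }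
  (Algebra.TensorProduct.productMap l r).toRingHom

theorem rhoD_tmul (a b : Γ(V.C, W)) :
    V.rhoD W (a ⊗ₜ b) = apF (pullback.fst V.str (W.ι ≫ V.str)) (le_refl (V.preD W)) a *
      apF (pullback.snd V.str (W.ι ≫ V.str) ≫ W.ι) (V.le_preD W) b := by
  letI : Algebra k Γ(V.X (W.ι ≫ V.str), V.preD W) :=
    (Loc.sectionsHom (pullback.fst V.str (W.ι ≫ V.str) ≫ V.str) (V.preD W)).toAlgebra
  exact Algebra.TensorProduct.productMap_apply_tmul _ _ a b

theorem evF_rhoD_tmul {R : Type u} [CommRing R]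
    (e : Spec (CommRingCat.of R) ⟶ V.X (W.ι ≫ V.str)) (he : ⊤ ≤ e ⁻¹ᵁ V.preD W) (a b : Γ(V.C, W)) :
    evF e (V.preD W) he (V.rhoD W (a ⊗ₜ b)) =
      evF (e ≫ pullback.fst V.str (W.ι ≫ V.str)) W he a *
        evF (e ≫ pullback.snd V.str (W.ι ≫ V.str) ≫ W.ι) W
          (fun _ hp => V.le_preD W (he hp)) b := by
  rw [rhoD_tmul, map_mul, evF_apF, evF_apF]

theorem le_diag {R : Type u} [CommRing R] (e : Spec (CommRingCat.of R) ⟶ (W : Scheme.{u})) :
    ⊤ ≤ (e ≫ V.diag W) ⁻¹ᵁ V.preD W := fun p _ => by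
  show (pullback.fst V.str (W.ι ≫ V.str)) ((V.diag W) (e p)) ∈ W
  rw [← Scheme.Hom.comp_apply, diag, pullback.lift_fst]
  exact (e p).2

theorem evF_diag {R : Type u} [CommRing R] (e : Spec (CommRingCat.of R) ⟶ (W : Scheme.{u}))
    (z : Γ(V.C, W) ⊗[k] Γ(V.C, W)) :
    evF (e ≫ V.diag W) (V.preD W) (V.le_diag W e) (V.rhoD W z) =
      evF (e ≫ W.ι) W (fun p _ => (e p).2) (Algebra.TensorProduct.lmul' k z) := by
  induction z using TensorProduct.induction_on with
  | zero => simp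
  | tmul a b =>
    rw [evF_rhoD_tmul, Algebra.TensorProduct.lmul'_apply_tmul, map_mul]
    congr 1
    · exact FA.AbTors.evF_congr (by rw [Category.assoc, diag, pullback.lift_fst]) _ _ a
    · exact FA.AbTors.evF_congr
        (by rw [Category.assoc, diag, pullback.lift_snd_assoc, Category.id_comp]) _ _ b
  | add a b ha hb => rw [map_add, map_add, map_add, map_add, ha, hb]

/-- An equation of the diagonal near it. -/
structure DiagPair : Type u where
  /-- The equation. -/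
  d : Γ(V.C, W) ⊗[k] Γ(V.C, W)
  /-- The neighbourhood. -/
  h : Γ(V.C, W) ⊗[k] Γ(V.C, W)
  d_eq : Algebra.TensorProduct.lmul' k d = 0
  h_eq : Algebra.TensorProduct.lmul' k h = 1
  div : ∀ s, ∃ b, h * (s ⊗ₜ[k] 1 - 1 ⊗ₜ[k] s) = d * b

/-- Every point has an affine neighbourhood with such an equation. -/
theorem exists_diagPair (q : V.C) :
    ∃ W : V.C.Opens, IsAffineOpen W ∧ q ∈ W ∧ Nonempty (V.DiagPair W) := by
  obtain ⟨W, hW, hq, hs⟩ := Growth.exists_chart_dim V.str 1 q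
  obtain ⟨d, h, hd, hh, hdiv⟩ := exists_diag k Γ(V.C, W)
  exact ⟨W, hW, hq, ⟨⟨d, h, hd, hh, hdiv⟩⟩⟩

variable {V W} (hW : IsAffineOpen W) (D : V.DiagPair W)

include hW in
/-- Where the equation vanishes, near the diagonal, is the diagonal. -/
theorem mem_range_diag {L : Type u} [Field L] (e : Spec (CommRingCat.of L) ⟶ V.X (W.ι ≫ V.str))
    (he : ctr e ∈ (V.X (W.ι ≫ V.str)).basicOpen (V.rhoD W D.h))
    (hd : ctr e ∉ (V.X (W.ι ≫ V.str)).basicOpen (V.rhoD W D.d)) :
    ctr e ∈ Set.range (V.diag W) := by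
  have heP : ⊤ ≤ e ⁻¹ᵁ V.preD W :=
    le_preimage_of_mem ((V.X (W.ι ≫ V.str)).basicOpen_le _ he)
  have hd0 : evF e _ heP (V.rhoD W D.d) = 0 := by
    by_contra hne
    exact hd (mem_of_evF_ne_zero e heP hne)
  have key : e ≫ pullback.fst V.str (W.ι ≫ V.str) =
      e ≫ pullback.snd V.str (W.ι ≫ V.str) ≫ W.ι := by
    refine eq_of_evF _ _ hW heP (fun p hp => V.le_preD W (heP hp)) fun s => ?_
    obtain ⟨b, hb⟩ := D.div s
    have h1 := congrArg (fun z => evF e _ heP (V.rhoD W z)) hb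
    simp only [map_mul, map_sub, hd0, zero_mul, mul_eq_zero] at h1
    rcases h1 with h1 | h1
    · exact absurd h1 (evF_ne_zero_of_mem e he)
    · rw [evF_rhoD_tmul, evF_rhoD_tmul, map_one, map_one, mul_one, one_mul, sub_eq_zero] at h1
      exact h1
  have hfac : (e ≫ pullback.snd V.str (W.ι ≫ V.str)) ≫ V.diag W = e := by
    apply pullback.hom_ext
    · rw [Category.assoc, diag, pullback.lift_fst, Category.assoc]
      exact key.symm
    · rw [Category.assoc, diag, pullback.lift_snd, Category.comp_id]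
  exact ⟨ctr (e ≫ pullback.snd V.str (W.ι ≫ V.str)),
    congrArg (fun g : Spec (CommRingCat.of L) ⟶ V.X (W.ι ≫ V.str) => ctr g) hfac⟩

theorem diag_not_mem {z : Γ(V.C, W) ⊗[k] Γ(V.C, W)} (hz : Algebra.TensorProduct.lmul' k z = 0)
    {q : V.X (W.ι ≫ V.str)} (hq : q ∈ Set.range (V.diag W)) :
    q ∉ (V.X (W.ι ≫ V.str)).basicOpen (V.rhoD W z) := by
  obtain ⟨w, rfl⟩ := hq
  let e : Spec (CommRingCat.of ((W : Scheme.{u}).residueField w)) ⟶ (W : Scheme.{u}) :=
    (W : Scheme.{u}).fromSpecResidueField w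
  have hc : ctr (e ≫ V.diag W) = V.diag W w :=
    congrArg (V.diag W) (Scheme.fromSpecResidueField_apply w _)
  intro hm
  exact evF_ne_zero_of_mem (e ≫ V.diag W) (hc.symm ▸ hm) (by rw [evF_diag, hz, map_zero])

theorem diag_mem {q : V.X (W.ι ≫ V.str)} (hq : q ∈ Set.range (V.diag W)) :
    q ∈ (V.X (W.ι ≫ V.str)).basicOpen (V.rhoD W D.h) := by
  obtain ⟨w, rfl⟩ := hq
  let e : Spec (CommRingCat.of ((W : Scheme.{u}).residueField w)) ⟶ (W : Scheme.{u}) :=
    (W : Scheme.{u}).fromSpecResidueField w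
  have hc : ctr (e ≫ V.diag W) = V.diag W w :=
    congrArg (V.diag W) (Scheme.fromSpecResidueField_apply w _)
  rw [← hc]
  exact mem_of_evF_ne_zero _ (V.le_diag W e) (by rw [evF_diag, D.h_eq, map_one]; exact one_ne_zero)

instance : IsClosedImmersion (V.diag W) := by
  haveI : IsClosedImmersion (V.diag W ≫ pullback.snd V.str (W.ι ≫ V.str)) := by
    rw [diag, pullback.lift_snd]; infer_instance
  exact IsClosedImmersion.of_comp (V.diag W) (pullback.snd V.str (W.ι ≫ V.str))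

/-- The neighbourhood of the diagonal and its complement. -/
def DiagPair.O : Bool → (V.X (W.ι ≫ V.str)).Opens
  | true => (V.X (W.ι ≫ V.str)).basicOpen (V.rhoD W D.h)
  | false => ⟨(Set.range (V.diag W))ᶜ, (V.diag W).isClosedEmbedding.isClosed_range.isOpen_compl⟩

/-- Which of the two opens to use. -/
def DiagPair.σ (_D : V.DiagPair W) (q : V.X (W.ι ≫ V.str)) : Bool :=
  haveI := Classical.propDecidable (q ∈ Set.range (V.diag W))
  decide (q ∈ Set.range (V.diag W))

theorem DiagPair.σ_eq_true (D : V.DiagPair W) {q : V.X (W.ι ≫ V.str)} (h : q ∈ Set.range (V.diag W)) :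
    D.σ q = true := by
  simp [DiagPair.σ, h]

theorem DiagPair.σ_eq_false (D : V.DiagPair W) {q : V.X (W.ι ≫ V.str)} (h : q ∉ Set.range (V.diag W)) :
    D.σ q = false := by
  simp [DiagPair.σ, h]

theorem DiagPair.mem (q : V.X (W.ι ≫ V.str)) : q ∈ D.O (D.σ q) := by
  by_cases h : q ∈ Set.range (V.diag W)
  · rw [D.σ_eq_true h]; exact diag_mem D h
  · rw [D.σ_eq_false h]; exact h

theorem DiagPair.le_pre : D.O true ⊓ D.O false ≤ V.preD W :=
  inf_le_left.trans ((V.X (W.ι ≫ V.str)).basicOpen_le _)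

include hW in
theorem DiagPair.isUnit : IsUnit (rsF D.le_pre (V.rhoD W D.d)) := by
  have hle : D.O true ⊓ D.O false ≤ (V.X (W.ι ≫ V.str)).basicOpen (V.rhoD W D.d) := by
    rintro q ⟨hqt, hqf⟩
    let e : Spec (CommRingCat.of ((V.X (W.ι ≫ V.str)).residueField q)) ⟶ V.X (W.ι ≫ V.str) :=
      (V.X (W.ι ≫ V.str)).fromSpecResidueField q
    have hc : ctr e = q := Scheme.fromSpecResidueField_apply q _
    by_contra hd
    exact hqf (hc ▸ mem_range_diag hW D e (hc.symm ▸ hqt) (hc.symm ▸ hd))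
  have hu : IsUnit (rsF ((V.X (W.ι ≫ V.str)).basicOpen_le (V.rhoD W D.d)) (V.rhoD W D.d)) := by
    rw [rsF_eq_map]
    exact (V.X (W.ι ≫ V.str)).toRingedSpace.isUnit_res_basicOpen _
  have h2 := hu.map (rsF hle)
  rwa [rsF_rsF] at h2

/-- The cocycle of the diagonal. -/
def DiagPair.coc : Coc (V.X (W.ι ≫ V.str)) :=
  twoCoc D.O D.σ D.mem (D.isUnit hW).unit

/-! ### Fibres -/

variable {k' : Type u} [Field k'] {a : Spec (CommRingCat.of k') ⟶ Spec (CommRingCat.of k)}
  (ψ : SchemeHomOver a (W.ι ≫ V.str))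

theorem le_preD_fib : pullback.fst V.str a ⁻¹ᵁ W ≤ baseChangeSnd V.str ψ ⁻¹ᵁ V.preD W :=
  fun q hq => by
    show pullback.fst V.str (W.ι ≫ V.str) (baseChangeSnd V.str ψ q) ∈ W
    rw [← Scheme.Hom.comp_apply, baseChangeSnd, pullback.lift_fst, Category.comp_id]
    exact hq

/-- The functions near the diagonal, on a fibre. -/
def fibR : Γ(V.C, W) ⊗[k] Γ(V.C, W) →+* Γ(V.X a, pullback.fst V.str a ⁻¹ᵁ W) :=
  (apF (baseChangeSnd V.str ψ) (le_preD_fib ψ)).comp (V.rhoD W)

theorem fibR_left (r : Γ(V.C, W)) : fibR ψ (r ⊗ₜ 1) = V.fnW a W r := by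
  show apF _ _ (V.rhoD W _) = _
  rw [rhoD_tmul, map_one, mul_one, apF_apF]
  exact apF_congr ((pullback.lift_fst _ _ _).trans (Category.comp_id _)) _ _

theorem fibR_right (r : Γ(V.C, W)) : fibR ψ (1 ⊗ₜ r) =
    V.scalarW a W (evF (ψ.1 ≫ W.ι) W (fun p _ => (ψ.1 p).2) r) := by
  show apF _ _ (V.rhoD W _) = _
  rw [rhoD_tmul, map_one, one_mul, apF_apF]
  have hr : ((Scheme.ΓSpecIso (CommRingCat.of k')).inv.hom
      (evF (ψ.1 ≫ W.ι) W (fun p _ => (ψ.1 p).2) r)) =
      apF (ψ.1 ≫ W.ι) (V := ⊤) (fun p _ => (ψ.1 p).2) r :=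
    congrArg (fun φ : Γ(Spec (CommRingCat.of k'), ⊤) ⟶ Γ(Spec (CommRingCat.of k'), ⊤) => φ.hom _)
      (Scheme.ΓSpecIso (CommRingCat.of k')).hom_inv_id
  simp only [scalarW, scalar, RingHom.comp_apply]
  rw [hr, rsF_apF, apF_apF]
  exact apF_congr (by rw [baseChangeSnd, pullback.lift_snd_assoc, Category.assoc]) _ _

/-- The point of the fibre on the diagonal, as a map. -/
def fibMor : Spec (CommRingCat.of k') ⟶ V.X a :=
  pullback.lift (ψ.1 ≫ W.ι) (𝟙 _) (by rw [Category.assoc, ψ.2, Category.id_comp])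

/-- The point of the fibre on the diagonal. -/
def fibPt [IsAlgClosed k] [IsAlgClosed k'] :
    SchemeHomOver (𝟙 (Spec (CommRingCat.of k'))) (V.bc a).str :=
  ⟨fibMor ψ, pullback.lift_snd _ _ _⟩

variable [IsAlgClosed k] [IsAlgClosed k']

theorem fibPt_fst : fibMor ψ ≫ pullback.fst V.str a = ψ.1 ≫ W.ι := pullback.lift_fst _ _ _

theorem fibPt_snd : fibMor ψ ≫ pullback.snd V.str a = 𝟙 _ := pullback.lift_snd _ _ _

theorem fibPt_bc : fibMor ψ ≫ baseChangeSnd V.str ψ = ψ.1 ≫ V.diag W := by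
  apply pullback.hom_ext
  · rw [Category.assoc, Category.assoc, baseChangeSnd, pullback.lift_fst, Category.comp_id, diag,
      pullback.lift_fst]
    exact fibPt_fst ψ
  · rw [Category.assoc, Category.assoc, baseChangeSnd, pullback.lift_snd, diag, pullback.lift_snd,
      Category.comp_id, ← Category.assoc, fibPt_snd, Category.id_comp]

theorem fibPt_mem :
    ctr (fibMor ψ) ∈ pullback.fst V.str a ⁻¹ᵁ W := by
  have e : ∀ p, pullback.fst V.str a (fibMor ψ p) = W.ι (ψ.1 p) := fun p => by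
    rw [← Scheme.Hom.comp_apply, fibPt_fst]
    rfl
  exact Set.mem_of_eq_of_mem (s := (W : Set V.C)) (e (IsLocalRing.closedPoint k'))
    (ψ.1 (IsLocalRing.closedPoint k')).2

/-- The value at the point of the fibre on the diagonal. -/
def evFib : Γ(V.X a, pullback.fst V.str a ⁻¹ᵁ W) →+* k' :=
  evF (fibMor ψ) _ (le_preimage_of_mem (fibPt_mem ψ))

theorem xv_fnW (r : Γ(V.C, W)) : evFib ψ (V.fnW a W r) =
    evF (ψ.1 ≫ W.ι) W (fun p _ => (ψ.1 p).2) r :=
  (evF_apF _ _ _ _ r).trans (FA.AbTors.evF_congr (fibPt_fst ψ) _ _ r)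

theorem xv_scalarW (c : k') : evFib ψ (V.scalarW a W c) = c := by
  simp only [evFib, scalarW, scalar, RingHom.comp_apply]
  rw [evF_rsFun, evF_apF, FA.AbTors.evF_congr (fibPt_snd ψ), evF_id]

theorem xv_fibR (z : Γ(V.C, W) ⊗[k] Γ(V.C, W)) :
    evFib ψ (fibR ψ z) =
      evF (ψ.1 ≫ W.ι) W (fun p _ => (ψ.1 p).2) (Algebra.TensorProduct.lmul' k z) :=
  (evF_apF _ _ _ _ _).trans ((FA.AbTors.evF_congr (fibPt_bc ψ) _ _ _).trans (V.evF_diag W ψ.1 z))

include hW in
/-- On a fibre the equation generates the ideal of the point near it. -/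
theorem fib_div (z : Γ(V.X a, pullback.fst V.str a ⁻¹ᵁ W))
    (hz : evFib ψ z = 0) :
    ∃ b, fibR ψ D.h * z = fibR ψ D.d * b := by
  letI : Algebra k k' := (Spec.preimage a).hom.toAlgebra
  obtain ⟨e, he⟩ := V.exists_tensorEquiv a (U := W) (Spec.map_preimage a).symm hW
  have hgen : ∀ y, ∃ b, fibR ψ D.h *
      (y - V.scalarW a W (evFib ψ y)) = fibR ψ D.d * b := fun y => by
    obtain ⟨y, rfl⟩ := e.surjective y
    induction y using TensorProduct.induction_on with
    | zero => exact ⟨0, by simp⟩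
    | tmul x r =>
      obtain ⟨b, hb⟩ := D.div r
      have hb' := congrArg (fibR ψ) hb
      rw [map_mul, map_sub, map_mul, fibR_left, fibR_right] at hb'
      refine ⟨V.scalarW a W x * fibR ψ b, ?_⟩
      rw [he, map_mul, xv_scalarW, xv_fnW, map_mul]
      linear_combination (V.scalarW a W x) * hb'
    | add p q hp hq =>
      obtain ⟨b, hb⟩ := hp
      obtain ⟨b', hb'⟩ := hq
      exact ⟨b + b', by simp only [map_add]; linear_combination hb + hb'⟩
  obtain ⟨b, hb⟩ := hgen z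
  exact ⟨b, by rw [hz, map_zero, sub_zero] at hb; exact hb⟩

theorem bc_range_iff (hW : IsAffineOpen W) {q : V.X a} :
    baseChangeSnd V.str ψ q ∈ Set.range (V.diag W) ↔ q = ctr (fibMor ψ) := by
  constructor
  · intro hq
    let e : Spec (CommRingCat.of ((V.X a).residueField q)) ⟶ V.X a :=
      (V.X a).fromSpecResidueField q
    have hc : ctr e = q := Scheme.fromSpecResidueField_apply q _
    have hmem : ∀ p, (e ≫ pullback.fst V.str a) p ∈ W := fun p => by
      obtain ⟨w, hw⟩ := hq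
      show pullback.fst V.str a (e p) ∈ W
      rw [Subsingleton.elim (α := PrimeSpectrum ((V.X a).residueField q)) p
        (IsLocalRing.closedPoint _), show e (IsLocalRing.closedPoint _) = q from hc]
      have h1 : pullback.fst V.str a q =
          pullback.fst V.str (W.ι ≫ V.str) (baseChangeSnd V.str ψ q) := by
        rw [← Scheme.Hom.comp_apply, baseChangeSnd, pullback.lift_fst, Category.comp_id]
      rw [h1, ← hw, ← Scheme.Hom.comp_apply, diag, pullback.lift_fst]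
      exact w.2
    have key : e ≫ pullback.fst V.str a = (e ≫ pullback.snd V.str a) ≫ ψ.1 ≫ W.ι := by
      refine eq_of_evF _ _ hW (fun p _ => hmem p) (fun p _ => (ψ.1 _).2) fun s => ?_
      have hP : ⊤ ≤ (e ≫ baseChangeSnd V.str ψ) ⁻¹ᵁ V.preD W :=
        fun p _ => le_preD_fib ψ (hmem p)
      have h0 : evF (e ≫ baseChangeSnd V.str ψ) _ hP (V.rhoD W (s ⊗ₜ 1 - 1 ⊗ₜ s)) = 0 := by
        by_contra hne
        have hm := mem_of_evF_ne_zero _ hP hne
        rw [show ctr (e ≫ baseChangeSnd V.str ψ) = baseChangeSnd V.str ψ q from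
          congrArg (baseChangeSnd V.str ψ) hc] at hm
        exact diag_not_mem (by simp) hq hm
      rw [map_sub, map_sub, evF_rhoD_tmul, evF_rhoD_tmul, map_one, map_one, mul_one, one_mul,
        sub_eq_zero] at h0
      refine (FA.AbTors.evF_congr ?_ _ _ s).trans (h0.trans (FA.AbTors.evF_congr ?_ _ _ s))
      · rw [Category.assoc, baseChangeSnd, pullback.lift_fst, Category.comp_id]
      · simp only [Category.assoc, baseChangeSnd, pullback.lift_snd_assoc]
    have hfac : (e ≫ pullback.snd V.str a) ≫ fibMor ψ = e := by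
      apply pullback.hom_ext
      · exact (Category.assoc _ _ _).trans ((congrArg _ (fibPt_fst ψ)).trans key.symm)
      · exact (Category.assoc _ _ _).trans ((congrArg _ (fibPt_snd ψ)).trans (Category.comp_id _))
    rw [← hc, ← congrArg (fun g : Spec (CommRingCat.of ((V.X a).residueField q)) ⟶ V.X a => ctr g)
      hfac]
    exact congrArg (fibMor ψ) (Subsingleton.elim (α := PrimeSpectrum k') _ _)
  · rintro rfl
    exact ⟨ψ.1 (IsLocalRing.closedPoint k'),
      (congrArg (fun g : Spec (CommRingCat.of k') ⟶ V.X (W.ι ≫ V.str) => ctr g) (fibPt_bc ψ)).symm⟩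

end Crv

end FA.Jac

end
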