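import Fermat.Agent.Jac.AbelDiag

/-!
# The class of the diagonal

Over an affine open `W` of the curve the diagonal in `C × W` is cut out by one function near it;
the class of the cocycle so obtained is the class of a point on every geometric fibre.
-/

set_option autoImplicit false
set_option maxHeartbeats 400000
set_option linter.style.haveILetI false
set_option linter.unusedSectionVars false

noncomputable section

universe u

open CategoryTheory CategoryTheory.Limits AlgebraicGeometry TopologicalSpace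
open NeronModelInfra AlgebraicGeometry.RelPicard AlgebraicCurve FA.Curve FA.AbTors
open scoped TensorProduct

namespace FA.Jac.Crv

attribute [local instance] algFn

variable {k : Type u} [Field k] [IsAlgClosed k] {V : Crv k} {W : V.C.Opens} (hW : IsAffineOpen W)
  (D : V.DiagPair W) {k' : Type u} [Field k'] [IsAlgClosed k']
  {a : Spec (CommRingCat.of k') ⟶ Spec (CommRingCat.of k)} (ψ : SchemeHomOver a (W.ι ≫ V.str))

include hW in
/-- On a geometric fibre the divisor of the diagonal is the point. -/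
theorem exists_pullDiv_coc : ∃ v : Place k' (V.bc a).F, (V.bc a).ctrA v = ctr (fibPt ψ).1 ∧
    (∀ w, (V.bc a).ctrA w = ctr (fibPt ψ).1 → w = v) ∧
    pullDiv (RingHom.id k') (V.bc a).isFunctionField (V.bc a).gen (V.bc a).gen_str
      ((D.coc hW).pull (baseChangeSnd V.str ψ)) = Finsupp.single v 1 := by
  classical
  let U' : (V.bc a).C.Opens := pullback.fst V.str a ⁻¹ᵁ W
  let f : (V.bc a).C ⟶ V.X (W.ι ≫ V.str) := baseChangeSnd V.str ψ
  let R : Γ(V.C, W) ⊗[k] Γ(V.C, W) →+* Γ((V.bc a).C, U') := fibR ψ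
  have hU : IsAffineOpen U' := V.isAffineOpen_W a hW
  have hmem : ctr (fibPt ψ).1 ∈ U' := fibPt_mem ψ
  have hd : (V.bc a).xv (fibPt ψ) hmem (R D.d) = 0 :=
    (xv_fibR ψ D.d).trans (by rw [D.d_eq, map_zero])
  have hh : (V.bc a).xv (fibPt ψ) hmem (R D.h) ≠ 0 := fun h0 => one_ne_zero (α := k') (by
    have e := (xv_fibR ψ D.h).symm.trans h0
    rwa [D.h_eq, map_one] at e)
  have hdiv : ∀ z : Γ((V.bc a).C, U'), (V.bc a).xv (fibPt ψ) hmem z = 0 →
      ∃ b : Γ((V.bc a).C, U'), R D.h * z = R D.d * b := fun z hz => fib_div hW D ψ z hz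
  obtain ⟨v₀, hv₀⟩ := (V.bc a).exists_ctrA (fibPt ψ) hmem hU
  refine ⟨v₀, hv₀, fun w hw => (V.bc a).eq_of_ctrA (fibPt ψ) hmem _ _ hd hh hdiv hU hw hv₀,
    Finsupp.ext fun v => ?_⟩
  have hgen : ctr (V.bc a).gen ≠ ctr (fibPt ψ).1 := fun e => by
    obtain ⟨z, hz, hz0⟩ := (V.bc a).exists_xv_eq_zero (fibPt ψ) hmem hU
    exact evF_ne_zero_of_mem (fibPt ψ).1 (e ▸ mem_of_evF_ne_zero _ _ hz) hz0
  have hη : D.σ (f (ctr (V.bc a).gen)) = false :=
    D.σ_eq_false fun h => hgen ((bc_range_iff ψ hW).1 h)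
  rw [pullDiv_apply]
  show v.ord (gAt ((D.coc hW).pull f) (V.bc a).gen ((V.bc a).ctrA v) (ctr (V.bc a).gen) _ _) = _
  by_cases hv : (V.bc a).ctrA v = ctr (fibPt ψ).1
  · obtain rfl : v = v₀ := (V.bc a).eq_of_ctrA (fibPt ψ) hmem _ _ hd hh hdiv hU hv hv₀
    have hy : D.σ (f ((V.bc a).ctrA v)) = true := D.σ_eq_true ((bc_range_iff ψ hW).2 hv)
    refine (congrArg v.ord ((gAt_pull (V.bc a).gen f (D.coc hW) _ _ _ _).trans
      (gAt_twoCoc D.O D.σ D.mem _ _ _ _ _ _ hy hη))).trans ?_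
    rw [Finsupp.single_eq_same, coe_evU]
    show v.ord (evF _ _ _ (((D.isUnit hW).unit : Γ(V.X (W.ι ≫ V.str), D.O true ⊓ D.O false)ˣ) :
      Γ(V.X (W.ι ≫ V.str), D.O true ⊓ D.O false))) = 1
    rw [IsUnit.unit_spec, evF_rsFun]
    refine Eq.trans ?_ ((V.bc a).ord_d_eq_one (fibPt ψ) hmem _ _ hd hh hdiv hU hv)
    exact congrArg v.ord (evF_apF (V.bc a).gen f (le_preD_fib ψ) _ _).symm
  · have hy : D.σ (f ((V.bc a).ctrA v)) = false :=
      D.σ_eq_false fun h => hv ((bc_range_iff ψ hW).1 h)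
    refine (congrArg v.ord ((gAt_pull (V.bc a).gen f (D.coc hW) _ _ _ _).trans
      (gAt_twoCoc D.O D.σ D.mem _ _ _ _ _ _ hy hη))).trans ?_
    rw [Finsupp.single_eq_of_ne (fun e => hv (by rw [e]; exact hv₀))]
    simp only [twoW, map_one, Units.val_one, Place.ord_one]

end FA.Jac.Crv

end
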