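import Fermat.Agent.Jac.Cut

/-!
# The Jacobian from its pieces

Dictionary, gluing, charts and the map from the curve give the representation of the cut.
-/

set_option autoImplicit false

noncomputable section

universe u

open CategoryTheory CategoryTheory.Limits AlgebraicGeometry
open NeronModelInfra GoodReductionJacobian AlgebraicGeometry.RelPicard AlgebraicCurve FA.Curve
  FA.AbTors

namespace FA.Jac

/-- The Jacobian exists, given the pieces. -/
theorem exists_pic0_of_pieces {k : Type u} [Field k] [IsAlgClosed k] (V : Crv k)
    (hmp : ModulePicExists.{u}) (hglue : V.GlueHolds) (hchart : Nonempty V.ChartData)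
    (hdc : V.DegConst) (habel : Nonempty V.AbelData) :
    ∃ D : RelativePic0Designation k V.str,
      Nonempty (RepresentsRelSubPic V.str V.pt (algEquivZeroCut V.str V.pt) D) ∧
        Smooth D.toBase ∧ IsProper D.toBase ∧ GeometricallyConnected D.toBase := by
  obtain ⟨mp⟩ := hmp
  obtain ⟨D⟩ := hchart
  obtain ⟨R⟩ := Crv.repData V hglue D
  obtain ⟨A⟩ := habel
  exact Crv.exists_pic0 mp hdc R A

end FA.Jac

end
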