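import Fermat.Agent.Jac.Defs
import Mathlib.Algebra.Category.Ring.Constructions
import Mathlib.AlgebraicGeometry.Morphisms.Affine

/-!
# Sections along equivalent cocycles; functions on preimages of affines

* a coboundary identifies sections, compatibly with restriction and multiplication;
* over an affine base `A` the preimage of an affine `U` of the curve is affine, with functions
  `A ⊗ Γ(U)`.
-/

set_option autoImplicit false
set_option linter.unusedSectionVars false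
set_option linter.style.haveILetI false

noncomputable section

universe u

open CategoryTheory CategoryTheory.Limits AlgebraicGeometry TopologicalSpace
open NeronModelInfra AlgebraicGeometry.RelPicard AlgebraicCurve FA.Curve FA.AbTors
open scoped TensorProduct

namespace FA.Jac

variable {X : Scheme.{u}}

theorem rsF_eq_map {U V : X.Opens} (h : V ≤ U) (a : Γ(X, U)) :
    rsF h a = (X.presheaf.map (homOfLE h).op).hom a := by
  have h1 : ∀ e, (𝟙 X : X ⟶ X).appLE U V e = X.presheaf.map (homOfLE h).op := fun e =>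
    (Scheme.Hom.appLE_map (𝟙 X) (U := U) (V := U) le_rfl (homOfLE h).op).symm.trans (by
      rw [show (𝟙 X : X ⟶ X).appLE U U le_rfl = 𝟙 _ from
        (Scheme.Hom.appLE_eq_app (𝟙 X)).trans (Scheme.Hom.id_app _), Category.id_comp])
  exact congrArg (fun ψ : Γ(X, U) ⟶ Γ(X, V) => ψ.hom a) (h1 _)

theorem rsF_self {U : X.Opens} (h : U ≤ U) (a : Γ(X, U)) : rsF h a = a := by
  rw [rsF_eq_map]
  show (X.presheaf.map (𝟙 _)).hom a = a
  rw [CategoryTheory.Functor.map_id]; rfl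

theorem rsF_uRes {U V : X.Opens} (h : V ≤ U) (w : Γ(X, U)ˣ) :
    rsF h (w : Γ(X, U)) = (uRes U V h w : Γ(X, V)) := rfl

/-- Functions agreeing on a cover agree. -/
theorem rsF_ext {ι : Type u} (U : ι → X.Opens) {V : X.Opens} (hU : ∀ i, U i ≤ V)
    (hcov : V ≤ ⨆ i, U i) {a b : Γ(X, V)} (h : ∀ i, rsF (hU i) a = rsF (hU i) b) : a = b :=
  X.sheaf.eq_of_locally_eq' U V (fun i => homOfLE (hU i)) hcov a b fun i => by
    exact (rsF_eq_map (hU i) a).symm.trans ((h i).trans (rsF_eq_map (hU i) b))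

/-- Compatible functions glue. -/
theorem rsF_glue {ι : Type u} (U : ι → X.Opens) {V : X.Opens} (hU : ∀ i, U i ≤ V)
    (hcov : V ≤ ⨆ i, U i) (f : ∀ i, Γ(X, U i))
    (h : ∀ i j, rsF (inf_le_left : U i ⊓ U j ≤ U i) (f i) = rsF (inf_le_right) (f j)) :
    ∃ a : Γ(X, V), ∀ i, rsF (hU i) a = f i := by
  obtain ⟨a, ha, -⟩ := X.sheaf.existsUnique_gluing' U V (fun i => homOfLE (hU i)) hcov f
    (fun i j => by
      exact (rsF_eq_map _ (f i)).symm.trans ((h i j).trans (rsF_eq_map _ (f j))))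
  exact ⟨a, fun i => (rsF_eq_map (hU i) a).trans (ha i)⟩

namespace Sec

variable {c d : Coc X} {W W' : X.Opens}

theorem res_val (h : W' ≤ W) (s : Sec c W) (x : X) :
    (res h s).1 x = rsF (inf_le_inf_right _ h) (s.1 x) := rfl

theorem smulF_val (a : Γ(X, W)) (s : Sec c W) (x : X) :
    (smulF a s).1 x = rsF inf_le_left a * s.1 x := rfl

/-- Sections are determined on smaller neighbourhoods. -/
theorem eq_of_nhd (V : X → X.Opens) (hV : ∀ x, x ∈ V x) (hc : ∀ x, V x ≤ c.U x) {s t : Sec c W}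
    (h : ∀ x, rsF (inf_le_inf_left W (hc x)) (s.1 x) = rsF (inf_le_inf_left W (hc x)) (t.1 x)) :
    s = t := by
  refine Subtype.ext (funext fun x => rsF_ext (fun y => W ⊓ c.U x ⊓ V y) (fun _ => inf_le_left)
    (fun z hz => Opens.mem_iSup.2 ⟨z, hz, hV z⟩) fun y => ?_)
  have hW : W ⊓ c.U x ⊓ V y ≤ W := inf_le_left.trans inf_le_left
  have hx : W ⊓ c.U x ⊓ V y ≤ c.U x := inf_le_left.trans inf_le_right
  have hy : W ⊓ c.U x ⊓ V y ≤ c.U y := inf_le_right.trans (hc y)
  have h' := congrArg (rsF (le_inf hW inf_le_right : W ⊓ c.U x ⊓ V y ≤ W ⊓ V y)) (h y)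
  rw [rsF_rsF, rsF_rsF] at h'
  exact (s.2 x y _ hW hx hy).trans ((congrArg _ h').trans (t.2 x y _ hW hx hy).symm)

/-- A compatible family on smaller neighbourhoods is a section. -/
theorem exists_of_nhd (V : X → X.Opens) (hV : ∀ x, x ∈ V x) (hc : ∀ x, V x ≤ c.U x)
    (f : ∀ x, Γ(X, W ⊓ V x))
    (h : ∀ (x y : X) (O : X.Opens) (hW : O ≤ W) (hx : O ≤ V x) (hy : O ≤ V y),
      rsF (le_inf hW hx) (f x) =
        (c.at x y O (hx.trans (hc x)) (hy.trans (hc y)) : Γ(X, O)) * rsF (le_inf hW hy) (f y)) :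
    ∃ s : Sec c W, ∀ x, rsF (inf_le_inf_left W (hc x)) (s.1 x) = f x := by
  have key : ∀ x : X, ∃ a : Γ(X, W ⊓ c.U x), ∀ y : X,
      rsF (inf_le_left : W ⊓ c.U x ⊓ V y ≤ W ⊓ c.U x) a =
        (c.at x y (W ⊓ c.U x ⊓ V y) (inf_le_left.trans inf_le_right)
            (inf_le_right.trans (hc y)) : Γ(X, W ⊓ c.U x ⊓ V y)) *
          rsF (le_inf (inf_le_left.trans inf_le_left) inf_le_right) (f y) := fun x =>
    rsF_glue (fun y => W ⊓ c.U x ⊓ V y) (fun _ => inf_le_left)
      (fun z hz => Opens.mem_iSup.2 ⟨z, hz, hV z⟩)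
      (fun y => (c.at x y (W ⊓ c.U x ⊓ V y) (inf_le_left.trans inf_le_right)
          (inf_le_right.trans (hc y)) : Γ(X, W ⊓ c.U x ⊓ V y)) *
        rsF (le_inf (inf_le_left.trans inf_le_left) inf_le_right) (f y)) fun y y' => by
      set O := (W ⊓ c.U x ⊓ V y) ⊓ (W ⊓ c.U x ⊓ V y')
      have hW : O ≤ W := inf_le_left.trans (inf_le_left.trans inf_le_left)
      have hx : O ≤ c.U x := inf_le_left.trans (inf_le_left.trans inf_le_right)
      have hy : O ≤ V y := inf_le_left.trans inf_le_right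
      have hy' : O ≤ V y' := inf_le_right.trans inf_le_right
      rw [map_mul, map_mul, rsF_rsF, rsF_rsF, rsF_uRes, rsF_uRes, Coc.uRes_at, Coc.uRes_at]
      rw [h y y' O hW hy hy', ← mul_assoc, ← Units.val_mul]
      exact congrArg (fun u : Γ(X, O)ˣ => (u : Γ(X, O)) * rsF (le_inf hW hy') (f y'))
        (c.at_mul x y y' hx (hy.trans (hc y)) (hy'.trans (hc y'))).symm
  choose s hs using key
  refine ⟨⟨s, fun x x' O hW hx hx' => ?_⟩, fun x => ?_⟩
  · refine rsF_ext (fun y => O ⊓ V y) (fun _ => inf_le_left)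
      (fun z hz => Opens.mem_iSup.2 ⟨z, hz, hV z⟩) fun y => ?_
    have hy : O ⊓ V y ≤ c.U y := inf_le_right.trans (hc y)
    have e := congrArg (rsF (le_inf (le_inf (inf_le_left.trans hW) (inf_le_left.trans hx))
      inf_le_right : O ⊓ V y ≤ W ⊓ c.U x ⊓ V y)) (hs x y)
    have e' := congrArg (rsF (le_inf (le_inf (inf_le_left.trans hW) (inf_le_left.trans hx'))
      inf_le_right : O ⊓ V y ≤ W ⊓ c.U x' ⊓ V y)) (hs x' y)
    rw [map_mul, rsF_rsF, rsF_rsF, rsF_uRes, Coc.uRes_at] at e e'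
    rw [map_mul, rsF_rsF, rsF_rsF, rsF_uRes, Coc.uRes_at, e, e', ← mul_assoc, ← Units.val_mul]
    exact congrArg (fun u : Γ(X, O ⊓ V y)ˣ => (u : Γ(X, O ⊓ V y)) *
      rsF (le_inf (inf_le_left.trans hW) inf_le_right) (f y))
      (c.at_mul x x' y (inf_le_left.trans hx) (inf_le_left.trans hx') hy)
  · refine rsF_ext (fun y => W ⊓ V x ⊓ V y) (fun _ => inf_le_left)
      (fun z hz => Opens.mem_iSup.2 ⟨z, hz, hV z⟩) fun y => ?_
    have e := congrArg (rsF (inf_le_inf_right _ (inf_le_inf_left W (hc x)) :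
      W ⊓ V x ⊓ V y ≤ W ⊓ c.U x ⊓ V y)) (hs x y)
    rw [map_mul, rsF_rsF, rsF_rsF, rsF_uRes, Coc.uRes_at] at e
    rw [rsF_rsF, e]
    exact (h x y _ (inf_le_left.trans inf_le_left) (inf_le_left.trans inf_le_right)
      inf_le_right).symm

/-- A coboundary identifies sections. -/
theorem exists_congr (h : c.Rel d) : ∃ e : ∀ W : X.Opens, Sec c W ≃+ Sec d W,
    (∀ (W W' : X.Opens) (hle : W' ≤ W) (s : Sec c W), res hle (e W s) = e W' (res hle s)) ∧
    ∀ (W : X.Opens) (a : Γ(X, W)) (s : Sec c W), e W (smulF a s) = smulF a (e W s) := by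
  obtain ⟨V, hV, hc, hd, w, hw⟩ := h
  have hwO : ∀ (x y : X) (O : X.Opens) (hx : O ≤ V x) (hy : O ≤ V y),
      (d.at x y O (hx.trans (hd x)) (hy.trans (hd y)) : Γ(X, O)) * (uRes _ O hy (w y) : Γ(X, O)) =
        (c.at x y O (hx.trans (hc x)) (hy.trans (hc y)) : Γ(X, O)) *
          (uRes _ O hx (w x) : Γ(X, O)) := fun x y O hx hy => by
    rw [← Units.val_mul, ← Units.val_mul, hw x y O hx hy, mul_assoc, div_mul_cancel]
  have fwd : ∀ (W : X.Opens) (s : Sec c W), ∃ t : Sec d W, ∀ x,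
      rsF (inf_le_inf_left W (hd x)) (t.1 x) =
        rsF (inf_le_inf_left W (hc x)) (s.1 x) * rsF inf_le_right (w x : Γ(X, V x)) :=
    fun W s => exists_of_nhd V hV hd _ fun x y O hW hx hy => by
      simp only [map_mul, rsF_rsF, rsF_uRes, uRes_uRes]
      rw [s.2 x y O hW (hx.trans (hc x)) (hy.trans (hc y))]
      linear_combination (norm := ring) -(rsF (le_inf hW (hy.trans (hc y))) (s.1 y)) * hwO x y O hx hy
  have bwd : ∀ (W : X.Opens) (t : Sec d W), ∃ s : Sec c W, ∀ x,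
      rsF (inf_le_inf_left W (hc x)) (s.1 x) =
        rsF (inf_le_inf_left W (hd x)) (t.1 x) *
          rsF inf_le_right (((w x)⁻¹ : Γ(X, V x)ˣ) : Γ(X, V x)) :=
    fun W t => exists_of_nhd V hV hc _ fun x y O hW hx hy => by
      simp only [map_mul, rsF_rsF, rsF_uRes, uRes_uRes, map_inv]
      rw [t.2 x y O hW (hx.trans (hd x)) (hy.trans (hd y))]
      have h1 := hwO x y O hx hy
      set a := (d.at x y O (hx.trans (hd x)) (hy.trans (hd y)) : Γ(X, O))
      set b := (c.at x y O (hx.trans (hc x)) (hy.trans (hc y)) : Γ(X, O))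
      have e : a * ↑(uRes _ O hx (w x))⁻¹ = b * ↑(uRes _ O hy (w y))⁻¹ := by
        rw [Units.mul_inv_eq_iff_eq_mul, mul_right_comm, Units.eq_mul_inv_iff_mul_eq]
        exact h1
      rw [mul_right_comm, e]
      ring
  choose f hf using fwd
  choose g hg using bwd
  have hgf : ∀ W s, g W (f W s) = s := fun W s => eq_of_nhd V hV hc fun x => by
    rw [hg, hf, mul_assoc, ← map_mul, Units.mul_inv, map_one, mul_one]
  have hfg : ∀ W t, f W (g W t) = t := fun W t => eq_of_nhd V hV hd fun x => by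
    rw [hf, hg, mul_assoc, ← map_mul, Units.inv_mul, map_one, mul_one]
  refine ⟨fun W => AddEquiv.mk' ⟨f W, g W, hgf W, hfg W⟩
    (fun s t => eq_of_nhd V hV hd fun x => ?_), fun W W' hle s => ?_, fun W a s => ?_⟩
  · show rsF _ ((f W (s + t)).1 x) = rsF _ ((f W s).1 x + (f W t).1 x)
    rw [map_add, hf, hf, hf, AddSubgroup.coe_add, Pi.add_apply, map_add, add_mul]
  · refine eq_of_nhd V hV hd fun x => ?_
    have e := congrArg (rsF (inf_le_inf_right _ hle : W' ⊓ V x ≤ W ⊓ V x)) (hf W s x)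
    simp only [map_mul, rsF_rsF] at e
    show _ = rsF _ ((f W' (res hle s)).1 x)
    rw [hf, res_val, res_val, rsF_rsF, rsF_rsF]
    exact e
  · refine eq_of_nhd V hV hd fun x => ?_
    show rsF _ ((f W (smulF a s)).1 x) = rsF _ ((smulF a (f W s)).1 x)
    simp only [hf, smulF_val, map_mul, rsF_rsF, mul_assoc]

end Sec

/-! ### Preimages of affines -/

theorem appTop_topIso {Z : Scheme.{u}} (g : X ⟶ Z) (U : X.Opens) :
    (U.ι ≫ g).appTop ≫ U.topIso.hom = g.appLE ⊤ U le_top := by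
  simp [Scheme.Hom.appLE, Scheme.Opens.topIso_hom]
  exact congrArg (g.app ⊤ ≫ ·) (X.presheaf.map_comp _ _).symm

theorem appTop_restrict {Z : Scheme.{u}} (g : X ⟶ Z) (U : Z.Opens) :
    (g ∣_ U).appTop ≫ (g ⁻¹ᵁ U).topIso.hom = U.topIso.hom ≫ g.appLE U (g ⁻¹ᵁ U) le_rfl := by
  rw [← Scheme.Hom.resLE_eq_morphismRestrict]
  show Scheme.Hom.app (g.resLE U (g ⁻¹ᵁ U) le_rfl) ⊤ ≫ _ = _
  rw [Scheme.Hom.resLE_app_top]
  show (U.topIso.hom ≫ g.appLE U (g ⁻¹ᵁ U) le_rfl ≫ (g ⁻¹ᵁ U).topIso.inv : Γ(U, ⊤) ⟶ Γ(g ⁻¹ᵁ U, ⊤))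
    ≫ (g ⁻¹ᵁ U).topIso.hom = _
  rw [Category.assoc, Category.assoc, Iso.inv_hom_id, Category.comp_id]

namespace Crv

variable {k : Type u} [Field k] (V : Crv k)
variable {A : Type u} [CommRing A] (a : Spec (CommRingCat.of A) ⟶ Spec (CommRingCat.of k))
variable (U : V.C.Opens)

/-- Functions of the base on a preimage. -/
def scalarW : A →+* Γ(V.X a, pullback.fst V.str a ⁻¹ᵁ U) := (rsF le_top).comp (V.scalar a)

/-- Functions of the curve on a preimage. -/
def fnW : Γ(V.C, U) →+* Γ(V.X a, pullback.fst V.str a ⁻¹ᵁ U) := apF (pullback.fst V.str a) le_rfl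

variable {U}

/-- The restricted square is cartesian. -/
theorem isPullback_W : IsPullback (pullback.fst V.str a ∣_ U)
    ((pullback.fst V.str a ⁻¹ᵁ U).ι ≫ pullback.snd V.str a) (U.ι ≫ V.str) a :=
  ((isPullback_morphismRestrict (pullback.fst V.str a) U).flip.paste_horiz
    (IsPullback.of_hasPullback V.str a).flip).flip

/-- The preimage of an affine is affine. -/
theorem isAffineOpen_W (hU : IsAffineOpen U) :
    IsAffineOpen (pullback.fst V.str a ⁻¹ᵁ U) := by
  haveI : IsAffine (U : Scheme.{u}) := hU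
  exact IsAffine.of_isPullback (V.isPullback_W a (U := U))

/-- The functions on the preimage of an affine. -/
theorem exists_tensorEquiv [Algebra k A] (ha : a = Spec.map (CommRingCat.ofHom (algebraMap k A)))
    (hU : IsAffineOpen U) :
    letI := (Loc.sectionsHom V.str U).toAlgebra
    ∃ e : A ⊗[k] Γ(V.C, U) ≃+* Γ(V.X a, pullback.fst V.str a ⁻¹ᵁ U),
      ∀ (x : A) (r : Γ(V.C, U)), e (x ⊗ₜ r) = V.scalarW a U x * V.fnW a U r := by
  letI := (Loc.sectionsHom V.str U).toAlgebra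
  haveI : IsAffine (U : Scheme.{u}) := hU
  set W := pullback.fst V.str a ⁻¹ᵁ U
  let ik : Γ(Spec (CommRingCat.of k), ⊤) ≅ CommRingCat.of k := Scheme.ΓSpecIso _
  let iA : Γ(Spec (CommRingCat.of A), ⊤) ≅ CommRingCat.of A := Scheme.ΓSpecIso _
  have hp := isPushout_appTop_of_isPullback (V.isPullback_W a (U := U))
  have hq : IsPushout (CommRingCat.ofHom (algebraMap k A))
      (CommRingCat.ofHom (algebraMap k Γ(V.C, U)))
      (CommRingCat.ofHom (V.scalarW a U)) (CommRingCat.ofHom (V.fnW a U)) := by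
    refine hp.flip.of_iso ik iA U.topIso W.topIso ?_ ?_ ?_ ?_
    · subst ha
      exact Scheme.ΓSpecIso_naturality _
    · rw [appTop_topIso V.str U, ← Iso.inv_comp_eq]
      rfl
    · rw [appTop_topIso (pullback.snd V.str a) W]
      ext x
      simp only [CommRingCat.hom_comp, RingHom.comp_apply, CommRingCat.hom_ofHom, scalarW,
        Crv.scalar, iA]
      rw [rsF_apF]
      exact congrArg (apF (pullback.snd V.str a) _) (congrArg
        (fun ψ : Γ(Spec (CommRingCat.of A), ⊤) ⟶ Γ(Spec (CommRingCat.of A), ⊤) => ψ.hom x)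
        (Scheme.ΓSpecIso (CommRingCat.of A)).hom_inv_id).symm
    · exact appTop_restrict _ U
  refine ⟨((CommRingCat.isPushout_tensorProduct k A Γ(V.C, U)).isoIsPushout _ _ hq)
    |>.commRingCatIsoToRingEquiv, fun x r => ?_⟩
  have h1 := congrArg (fun φ : CommRingCat.of A ⟶ CommRingCat.of Γ(V.X a, W) => φ.hom x)
    ((CommRingCat.isPushout_tensorProduct k A Γ(V.C, U)).inl_isoIsPushout_hom _ _ hq)
  have h2 := congrArg (fun φ : CommRingCat.of Γ(V.C, U) ⟶ CommRingCat.of Γ(V.X a, W) => φ.hom r)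
    ((CommRingCat.isPushout_tensorProduct k A Γ(V.C, U)).inr_isoIsPushout_hom _ _ hq)
  rw [show x ⊗ₜ[k] r = (x ⊗ₜ[k] (1 : Γ(V.C, U))) * ((1 : A) ⊗ₜ[k] r) by simp, map_mul]
  exact congrArg₂ (· * ·) h1 h2

variable {A' : Type u} [CommRing A'] (φ : A →+* A')

/-- Base change on functions of the base. -/
theorem apF_scalar (x : A) :
    apF (baseChangeSnd V.str (ringOver a φ)) (U := ⊤) (V := ⊤) le_top (V.scalar a x) =
      V.scalar (Spec.map (CommRingCat.ofHom φ) ≫ a) (φ x) := by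
  simp only [scalar, RingHom.comp_apply]
  rw [apF_apF]
  have hn := congrArg (fun ψ : CommRingCat.of A ⟶ Γ(Spec (CommRingCat.of A'), ⊤) => ψ.hom x)
    (Scheme.ΓSpecIso_inv_naturality (CommRingCat.ofHom φ))
  have h2 : apF (Spec.map (CommRingCat.ofHom φ)) (U := ⊤) (V := ⊤) le_top
      ((Scheme.ΓSpecIso (CommRingCat.of A)).inv.hom x) =
      (Scheme.ΓSpecIso (CommRingCat.of A')).inv.hom (φ x) := by
    refine Eq.trans ?_ hn.symm
    show ((Spec.map (CommRingCat.ofHom φ)).appLE ⊤ ⊤ le_top).hom _ = _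
    erw [Scheme.Hom.appLE_eq_app]
    rfl
  rw [← h2, apF_apF]
  exact apF_congr (pullback.lift_snd _ _ _) _ _

/-- Base change on functions of the curve. -/
theorem apF_fnW (r : Γ(V.C, U)) {W : (V.X (Spec.map (CommRingCat.ofHom φ) ≫ a)).Opens}
    (h : W ≤ baseChangeSnd V.str (ringOver a φ) ⁻¹ᵁ (pullback.fst V.str a ⁻¹ᵁ U))
    (h' : W ≤ pullback.fst V.str (Spec.map (CommRingCat.ofHom φ) ≫ a) ⁻¹ᵁ U) :
    apF (baseChangeSnd V.str (ringOver a φ)) h (V.fnW a U r) =
      rsF h' (V.fnW (Spec.map (CommRingCat.ofHom φ) ≫ a) U r) := by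
  simp only [fnW]
  rw [apF_apF, rsF_apF]
  exact apF_congr ((pullback.lift_fst _ _ _).trans (Category.comp_id _)) _ _

/-- The vanishing of the first cohomology depends only on the class. -/
theorem Cover.nonspecial_congr {T : Scheme.{u}} {t : T ⟶ Spec (CommRingCat.of k)} (Cv : V.Cover)
    {c d : Coc (V.X t)} (h : c.Rel d) : Cv.Nonspecial t c ↔ Cv.Nonspecial t d := by
  suffices ∀ {c d : Coc (V.X t)}, c.Rel d → Cv.Nonspecial t c → Cv.Nonspecial t d from
    ⟨this h, this h.symm⟩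
  intro c d h hc z
  obtain ⟨e, hres, -⟩ := Sec.exists_congr h
  obtain ⟨⟨s₀, s₁⟩, hs⟩ := hc ((e _).symm z)
  have hs' : Sec.res inf_le_left s₀ - Sec.res inf_le_right s₁ = (e _).symm z := hs
  refine ⟨(e _ s₀, e _ s₁), ?_⟩
  show Sec.res inf_le_left (e _ s₀) - Sec.res inf_le_right (e _ s₁) = z
  rw [hres, hres, ← map_sub, hs', AddEquiv.apply_symm_apply]

end Crv

end FA.Jac

end
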