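import Fermat.Agent.Jac.BridgeGlue

/-!
# Invertible modules are cocycle classes, compatibly with pullback
-/

set_option autoImplicit false

noncomputable section

universe u

open CategoryTheory AlgebraicGeometry TopologicalSpace Opposite FA.AbTors

namespace FA.Jac.Bridge

variable {X Y : Scheme.{u}} (f : X ⟶ Y)

theorem pushforward_smul (Q : X.Modules) {U : Y.Opens} (r : Γ(Y, U))
    (x : Γ((Scheme.Modules.pushforward f).obj Q, U)) :
    r • x = (show Γ((Scheme.Modules.pushforward f).obj Q, U) from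
      ((f.app U).hom r : Γ(X, f ⁻¹ᵁ U)) • (show Γ(Q, f ⁻¹ᵁ U) from x)) := rfl

theorem uApp_coe {U : Y.Opens} (a : Γ(Y, U)ˣ) :
    (uApp f U (f ⁻¹ᵁ U) le_rfl a : Γ(X, f ⁻¹ᵁ U)) = (f.app U).hom (a : Γ(Y, U)) :=
  congrArg (fun ψ : Γ(Y, U) ⟶ Γ(X, f ⁻¹ᵁ U) => ψ.hom (a : Γ(Y, U))) (Scheme.Hom.appLE_eq_app f)

theorem pre_le (c : Coc Y) (y : Y) (z : X) :
    f ⁻¹ᵁ c.U y ⊓ (c.pull f).U z ≤ f ⁻¹ᵁ (c.U y ⊓ c.U (f z)) := fun _ hp => hp

variable {M : Y.Modules} (c : Coc Y) (e : ∀ y, Γ(M, c.U y))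
  (htr : ∀ (y y' : Y) (W : Y.Opens) (hy : W ≤ c.U y) (hy' : W ≤ c.U y'),
    rs M hy (e y) = (c.at y y' W hy hy' : Γ(Y, W)) • rs M hy' (e y'))

include htr in
/-- Sections coming from frames transform by the pulled back cocycle. -/
theorem image_frames_tr {Q : X.Modules} (φ : M ⟶ (Scheme.Modules.pushforward f).obj Q) (y y' : Y)
    {W : Y.Opens} (hy : W ≤ c.U y) (hy' : W ≤ c.U y') {V : X.Opens} (hV : V ≤ f ⁻¹ᵁ W) :
    rs Q (hV.trans (f.preimage_mono hy)) (show Γ(Q, f ⁻¹ᵁ c.U y) from ha φ _ (e y)) =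
      (uApp f W V hV (c.at y y' W hy hy') : Γ(X, V)) •
        rs Q (hV.trans (f.preimage_mono hy')) (show Γ(Q, f ⁻¹ᵁ c.U y') from ha φ _ (e y')) := by
  have h := congrArg (ha φ W) (htr y y' W hy hy')
  rw [ha_smul, ha_rs, ha_rs, pushforward_smul, ← uApp_coe] at h
  have h' := congrArg (rs Q hV) (show rs Q (f.preimage_mono hy)
      (show Γ(Q, f ⁻¹ᵁ c.U y) from ha φ _ (e y)) =
    (uApp f W (f ⁻¹ᵁ W) le_rfl (c.at y y' W hy hy') : Γ(X, f ⁻¹ᵁ W)) •
      rs Q (f.preimage_mono hy')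
        (show Γ(Q, f ⁻¹ᵁ c.U y') from ha φ _ (e y')) from h)
  rw [rs_rs, rs_smul, rs_rs, ← uRes_coe, uRes_uApp] at h'
  exact h'

/-- The section of the pulled back module over the preimage of an open of the cocycle. -/
def pullSec (y : Y) : Γ(cocModule (c.pull f), f ⁻¹ᵁ c.U y) :=
  show Sec (c.pull f) (f ⁻¹ᵁ c.U y) from
    ⟨fun z => ((uApp f (c.U y ⊓ c.U (f z)) (f ⁻¹ᵁ c.U y ⊓ (c.pull f).U z) (pre_le f c _ _)
        (c.at y (f z) _ inf_le_left inf_le_right) : Γ(X, f ⁻¹ᵁ c.U y ⊓ (c.pull f).U z)ˣ) :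
        Γ(X, f ⁻¹ᵁ c.U y ⊓ (c.pull f).U z)),
      fun z w V hW hz hw => by
        rw [← uRes_coe, ← uRes_coe, uRes_uApp, uRes_uApp, ← Units.val_mul]
        refine congrArg Units.val ?_
        let T : Y.Opens := c.U y ⊓ c.U (f z) ⊓ c.U (f w)
        have hT : V ≤ f ⁻¹ᵁ T := le_inf (le_inf hW hz) hw
        rw [Coc.pull_at f c z w hz hw (V := T) (inf_le_left.trans inf_le_right) inf_le_right hT,
          ← uApp_uRes f (U' := T) (le_inf (inf_le_left.trans inf_le_left) inf_le_right) hT,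
          ← uApp_uRes f (U' := T) (inf_le_left : T ≤ c.U y ⊓ c.U (f z)) hT,
          Coc.uRes_at, Coc.uRes_at, ← map_mul]
        exact congrArg _ (c.at_mul y (f z) (f w) _ _ _)⟩

theorem pullSec_tr (y y' : Y) {W : Y.Opens} (hy : W ≤ c.U y) (hy' : W ≤ c.U y') {V : X.Opens}
    (hV : V ≤ f ⁻¹ᵁ W) :
    rs (cocModule (c.pull f)) (hV.trans (f.preimage_mono hy)) (pullSec f c y) =
      (uApp f W V hV (c.at y y' W hy hy') : Γ(X, V)) •
        rs (cocModule (c.pull f)) (hV.trans (f.preimage_mono hy')) (pullSec f c y') := by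
  refine Subtype.ext (funext fun z => ?_)
  let T : Y.Opens := W ⊓ c.U (f z)
  have hT : V ⊓ (c.pull f).U z ≤ f ⁻¹ᵁ T := le_inf (inf_le_left.trans hV) inf_le_right
  show rr _ ((uApp f (c.U y ⊓ c.U (f z)) (f ⁻¹ᵁ c.U y ⊓ (c.pull f).U z) (pre_le f c _ _)
      (c.at y (f z) _ inf_le_left inf_le_right) : Γ(X, f ⁻¹ᵁ c.U y ⊓ (c.pull f).U z)ˣ) :
        Γ(X, f ⁻¹ᵁ c.U y ⊓ (c.pull f).U z)) =
    rr inf_le_left ((uApp f W V hV (c.at y y' W hy hy') : Γ(X, V)ˣ) : Γ(X, V)) *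
      rr _ ((uApp f (c.U y' ⊓ c.U (f z)) (f ⁻¹ᵁ c.U y' ⊓ (c.pull f).U z) (pre_le f c _ _)
        (c.at y' (f z) _ inf_le_left inf_le_right) : Γ(X, f ⁻¹ᵁ c.U y' ⊓ (c.pull f).U z)ˣ) :
          Γ(X, f ⁻¹ᵁ c.U y' ⊓ (c.pull f).U z))
  rw [← uRes_coe, ← uRes_coe, ← uRes_coe, uRes_uApp, uRes_uApp, uRes_uApp, ← Units.val_mul,
    ← uApp_uRes f (U' := T) (le_inf (inf_le_left.trans hy) inf_le_right) hT,
    ← uApp_uRes f (U' := T) (le_inf (inf_le_left.trans hy') inf_le_right) hT,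
    ← uApp_uRes f (U' := T) (inf_le_left : T ≤ W) hT, Coc.uRes_at, Coc.uRes_at, Coc.uRes_at,
    ← map_mul]
  exact congrArg Units.val (congrArg _ (c.at_mul y y' (f z) _ _ _))

theorem pullSec_apply (x : X) : pullSec f c (f x) = cocFrame (c.pull f) x := by
  refine Subtype.ext (funext fun z => ?_)
  refine congrArg Units.val ?_
  exact (Coc.pull_at f c x z _ _ inf_le_left inf_le_right _).symm

include htr in
/-- The pullback of a module with frames is the module of the pulled back cocycle. -/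
theorem nonempty_iso_pullback (hframe : ∀ y, IsFrame M (c.U y) (e y)) :
    Nonempty ((Scheme.Modules.pullback f).obj M ≅ cocModule (c.pull f)) := by
  let F : Frames M Y := ⟨c.U, fun p => ⟨p, c.mem p⟩, e, hframe⟩
  let adj := Scheme.Modules.pullbackPushforwardAdjunction f
  let P := (Scheme.Modules.pullback f).obj M
  let N := cocModule (c.pull f)
  let G := cocFrames (c.pull f)
  let η : M ⟶ (Scheme.Modules.pushforward f).obj P := adj.unit.app M
  let q : ∀ x : X, Γ(P, (c.pull f).U x) := fun x => ha η _ (e (f x))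
  have hq : G.Compat q := fun x x' V hx hx' r h => by
    have hr : r = ((c.pull f).at x x' V hx hx' : Γ(X, V)) :=
      G.smul_inj x' hx' (h.symm.trans (cocFrames_tr (c.pull f) x x' hx hx'))
    have hW : V ≤ f ⁻¹ᵁ (c.U (f x) ⊓ c.U (f x')) := le_inf hx hx'
    rw [hr, Coc.pull_at f c x x' hx hx' inf_le_left inf_le_right hW]
    exact image_frames_tr f c e htr η (f x) (f x') inf_le_left inf_le_right hW
  let t : ∀ y, Γ((Scheme.Modules.pushforward f).obj N, F.U y) := fun y => pullSec f c y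
  have ht : F.Compat t := fun y y' V hy hy' r h => by
    have hr : r = (c.at y y' V hy hy' : Γ(Y, V)) :=
      F.smul_inj y' hy' (h.symm.trans (htr y y' V hy hy'))
    rw [hr, pushforward_smul, ← uApp_coe]
    exact pullSec_tr f c y y' hy hy' le_rfl
  let ψ : N ⟶ P := G.lift hq
  let χ : P ⟶ N := (adj.homEquiv M N).symm (F.lift ht)
  have hχ : η ≫ (Scheme.Modules.pushforward f).map χ = F.lift ht :=
    ((adj.homEquiv_unit (f := χ)).symm).trans ((adj.homEquiv M N).apply_symm_apply _)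
  have hχe : ∀ y, ha χ (f ⁻¹ᵁ c.U y) (show Γ(P, f ⁻¹ᵁ c.U y) from ha η _ (e y)) =
      pullSec f c y := fun y =>
    (congrArg (fun φ : M ⟶ _ => ha φ (c.U y) (e y)) hχ).trans (F.ha_lift ht y)
  refine ⟨⟨χ, ψ, ?_, ?_⟩⟩
  · refine (adj.homEquiv M P).injective (F.hom_ext fun y => ?_)
    have h1 : adj.homEquiv M P (χ ≫ ψ) = F.lift ht ≫ (Scheme.Modules.pushforward f).map ψ := by
      rw [← hχ, Category.assoc, ← CategoryTheory.Functor.map_comp]
      exact adj.homEquiv_unit _ _ _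
    have h2 : adj.homEquiv M P (𝟙 P) = η := adj.homEquiv_id M
    refine (congrArg (fun φ : M ⟶ _ => ha φ (c.U y) (e y)) h1).trans
      (Eq.trans ?_ (congrArg (fun φ : M ⟶ _ => ha φ (c.U y) (e y)) h2).symm)
    show ha ψ (f ⁻¹ᵁ c.U y) (ha (F.lift ht) (c.U y) (e y)) = _
    rw [show ha (F.lift ht) (c.U y) (e y) = t y from F.ha_lift ht y]
    refine eq_of_locally (fun x : X => f ⁻¹ᵁ c.U y ⊓ (c.pull f).U x) (fun x => inf_le_left)
      (fun p hp => ⟨p, hp, (c.pull f).mem p⟩) fun x => ?_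
    have hW : f ⁻¹ᵁ c.U y ⊓ (c.pull f).U x ≤ f ⁻¹ᵁ (c.U y ⊓ c.U (f x)) := fun _ hp => hp
    refine ((ha_rs ψ _ _).symm.trans ?_).trans
      (image_frames_tr f c e htr η y (f x) inf_le_left inf_le_right hW).symm
    rw [show rs N _ (t y) = _ from pullSec_tr f c y (f x) inf_le_left inf_le_right hW, ha_smul]
    refine congrArg _ ?_
    rw [pullSec_apply]
    exact (ha_rs ψ inf_le_right (G.e x)).trans (congrArg _ (G.ha_lift hq x))
  · refine G.hom_ext fun x => ?_
    rw [ha_comp, show ha ψ (G.U x) (G.e x) = q x from G.ha_lift hq x]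
    exact (hχe (f x)).trans (pullSec_apply f c x)

theorem cls_pullback {M : Y.Modules} (hM : M.IsInvertible) :
    cls ((Scheme.Modules.pullback f).obj M) = Pic.pull f (cls M) := by
  obtain ⟨F⟩ := exists_frames hM
  obtain ⟨φ⟩ := nonempty_iso_pullback f F.coc (fun y => F.e (F.idx y))
    (fun y y' W hy hy' => F.coc_at y y' hy hy') fun y => F.isFrame (F.idx y)
  rw [cls_eq F, Pic.pull_mk, ← cls_cocModule]
  exact (cls_iso_iff (hM.pullback f) (isInvertible_of_frames (cocFrames _))).2 ⟨φ⟩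

end FA.Jac.Bridge

namespace FA.Jac

open Bridge in
/-- **Invertible modules are cocycle classes.** -/
theorem modulePicExists : ModulePicExists.{u} :=
  ⟨{ cls := fun M => cls M
     iso_iff := fun hM hN => cls_iso_iff hM hN
     exists_module := fun p => by
       obtain ⟨c, rfl⟩ := Pic.mk_surjective p
       exact ⟨cocModule c, isInvertible_of_frames (cocFrames c), cls_cocModule c⟩
     cls_pullback := fun f _ hM => cls_pullback f hM
     cls_unit := fun X => cls_unit X }⟩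

end FA.Jac

end
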