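import Fermat.Agent.Jac.BridgeFrames

/-!
# The class of an invertible module

Invertible modules are the modules with frames; the transition functions of the frames give the
class.
-/

set_option autoImplicit false

noncomputable section

universe u

open CategoryTheory AlgebraicGeometry TopologicalSpace Opposite FA.AbTors

namespace FA.Jac.Bridge

variable {X : Scheme.{u}} {M N : X.Modules}

theorem IsFrame.mono {U V : X.Opens} {e : Γ(M, U)} (he : IsFrame M U e) (h : V ≤ U) :
    IsFrame M V (rs M h e) := fun W hW => by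
  simpa only [rs_rs] using he W (hW.trans h)

theorem IsFrame.unit_smul {U : X.Opens} {e : Γ(M, U)} (he : IsFrame M U e) (w : Γ(X, U)ˣ) :
    IsFrame M U ((w : Γ(X, U)) • e) := fun W hW => by
  have h : (fun r : Γ(X, W) => r • rs M hW ((w : Γ(X, U)) • e)) =
      (fun r : Γ(X, W) => r • rs M hW e) ∘ (fun r => r * rr hW (w : Γ(X, U))) := by
    funext r
    rw [rs_smul, Function.comp_apply, mul_smul]
  rw [h]
  exact (he W hW).comp
    ((Units.map (rr hW).toMonoidHom w).mulRight.bijective)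

theorem IsFrame.exists_unit {U : X.Opens} {e e' : Γ(M, U)} (he : IsFrame M U e)
    (he' : IsFrame M U e') : ∃ w : Γ(X, U)ˣ, e' = (w : Γ(X, U)) • e := by
  obtain ⟨r, hr⟩ := (he U le_rfl).2 e'
  obtain ⟨t, ht⟩ := (he' U le_rfl).2 e
  simp only [rs_self] at hr ht
  have hrt : t * r = 1 := (he U le_rfl).1 (by
    show (t * r) • rs M le_rfl e = (1 : Γ(X, U)) • rs M le_rfl e
    rw [rs_self, one_smul, mul_smul, hr, ht])
  exact ⟨⟨r, t, (mul_comm r t).trans hrt, hrt⟩, hr.symm⟩

theorem ha_inv_hom (φ : M ≅ N) (U : X.Opens) (m : Γ(M, U)) :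
    ha φ.inv U (ha φ.hom U m) = m := by
  rw [← ha_comp, φ.hom_inv_id]; rfl

theorem ha_hom_inv (φ : M ≅ N) (U : X.Opens) (m : Γ(N, U)) :
    ha φ.hom U (ha φ.inv U m) = m := ha_inv_hom φ.symm U m

theorem ha_bijective (φ : M ≅ N) (U : X.Opens) : Function.Bijective (ha φ.hom U) :=
  Function.bijective_iff_has_inverse.2 ⟨ha φ.inv U, ha_inv_hom φ U, ha_hom_inv φ U⟩

theorem trans_aux {R P : Type*} [CommRing R] [AddCommGroup P] [Module R P] {a b a' b' : P}
    (c w v : Rˣ) (h : a = (c : R) • b) (ha' : a' = (w : R) • a) (hb' : b' = (v : R) • b) :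
    a' = ((c * (w / v) : Rˣ) : R) • b' := by
  rw [ha', h, hb', smul_smul, smul_smul, ← Units.val_mul, ← Units.val_mul]
  congr 2
  rw [mul_assoc, div_mul_cancel, mul_comm]

/-- The module of functions. -/
abbrev oX (X : Scheme.{u}) : X.Modules := SheafOfModules.unit X.ringCatSheaf

/-- Frames transported by an isomorphism. -/
def Frames.map {ι : Type u} (F : Frames M ι) (φ : M ≅ N) : Frames N ι where
  U := F.U
  cover := F.cover
  e i := ha φ.hom _ (F.e i)
  isFrame i V h := by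
    have he : (fun r : Γ(X, V) => r • rs N h (ha φ.hom _ (F.e i))) =
        ha φ.hom V ∘ fun r : Γ(X, V) => r • rs M h (F.e i) := by
      funext r
      rw [Function.comp_apply, ha_smul, ha_rs]
    rw [he]
    exact (ha_bijective φ V).comp (F.isFrame i V h)

/-- The transition between two frames. -/
def Frames.tr {ι : Type u} (F : Frames M ι) (i j : ι) : Γ(X, F.U i ⊓ F.U j)ˣ :=
  (((F.isFrame j).mono (inf_le_right : F.U i ⊓ F.U j ≤ F.U j)).exists_unit
    ((F.isFrame i).mono (inf_le_left : F.U i ⊓ F.U j ≤ F.U i))).choose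

theorem Frames.tr_spec {ι : Type u} (F : Frames M ι) (i j : ι) :
    rs M inf_le_left (F.e i) = (F.tr i j : Γ(X, F.U i ⊓ F.U j)) • rs M inf_le_right (F.e j) :=
  (((F.isFrame j).mono (inf_le_right : F.U i ⊓ F.U j ≤ F.U j)).exists_unit
    ((F.isFrame i).mono (inf_le_left : F.U i ⊓ F.U j ≤ F.U i))).choose_spec

theorem Frames.tr_res {ι : Type u} (F : Frames M ι) (i j : ι) {V : X.Opens} (hi : V ≤ F.U i)
    (hj : V ≤ F.U j) :
    rs M hi (F.e i) = (uRes _ V (le_inf hi hj) (F.tr i j) : Γ(X, V)) • rs M hj (F.e j) := by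
  have h := congrArg (rs M (le_inf hi hj)) (F.tr_spec i j)
  rwa [rs_smul, rs_rs, rs_rs, ← uRes_coe] at h

/-- The index of an open containing a point. -/
def Frames.idx {ι : Type u} (F : Frames M ι) (p : X) : ι := (F.cover p).choose

theorem Frames.mem_idx {ι : Type u} (F : Frames M ι) (p : X) : p ∈ F.U (F.idx p) :=
  (F.cover p).choose_spec

/-- The cocycle of frames. -/
def Frames.coc {ι : Type u} (F : Frames M ι) : Coc X where
  U p := F.U (F.idx p)
  mem := F.mem_idx
  g p q := F.tr (F.idx p) (F.idx q)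
  cocycle p q s W hp hq hs := by
    refine Units.ext (F.smul_inj (F.idx s) hs ?_)
    rw [Units.val_mul, mul_smul, ← F.tr_res _ _ hq hs, ← F.tr_res _ _ hp hq, ← F.tr_res _ _ hp hs]

theorem Frames.coc_at {ι : Type u} (F : Frames M ι) (p q : X) {W : X.Opens}
    (hp : W ≤ F.coc.U p) (hq : W ≤ F.coc.U q) :
    rs M hp (F.e (F.idx p)) = (F.coc.at p q W hp hq : Γ(X, W)) • rs M hq (F.e (F.idx q)) :=
  F.tr_res _ _ hp hq

/-- Changing the frames changes the cocycle by a coboundary. -/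
theorem Frames.rel {ι κ : Type u} (F : Frames M ι) (G : Frames M κ) : F.coc.Rel G.coc := by
  let V : X → X.Opens := fun p => F.coc.U p ⊓ G.coc.U p
  choose w hw using fun p => ((F.isFrame (F.idx p)).mono (inf_le_left : V p ≤ F.coc.U p)).exists_unit
    ((G.isFrame (G.idx p)).mono (inf_le_right : V p ≤ G.coc.U p))
  refine ⟨V, fun p => ⟨F.mem_idx p, G.mem_idx p⟩, fun _ => inf_le_left, fun _ => inf_le_right, w,
    fun p q W hp hq => ?_⟩
  refine Units.ext (G.smul_inj (G.idx q) (hq.trans inf_le_right) ?_)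
  refine (G.coc_at p q _ _).symm.trans ?_
  refine trans_aux _ _ _ (F.coc_at p q (hp.trans inf_le_left) (hq.trans inf_le_left)) ?_ ?_
  all_goals rw [uRes_coe]
  · exact (rs_rs _ hp _).symm.trans ((congrArg (rs M hp) (hw p)).trans ((rs_smul hp _ _).trans
      (congrArg _ (rs_rs _ hp _))))
  · exact (rs_rs _ hq _).symm.trans ((congrArg (rs M hq) (hw q)).trans ((rs_smul hq _ _).trans
      (congrArg _ (rs_rs _ hq _))))

/-- Modules with frames whose cocycles are cohomologous are isomorphic. -/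
theorem Frames.nonempty_iso_of_rel {ι κ : Type u} (F : Frames M ι) (G : Frames N κ)
    (h : F.coc.Rel G.coc) : Nonempty (M ≅ N) := by
  obtain ⟨V, hV, hF, hG, w, hw⟩ := h
  let F' : Frames M X := ⟨V, fun p => ⟨p, hV p⟩,
    fun p => (w p : Γ(X, V p)) • rs M (hF p) (F.e (F.idx p)),
    fun p => ((F.isFrame _).mono (hF p)).unit_smul (w p)⟩
  let G' : Frames N X := ⟨V, fun p => ⟨p, hV p⟩, fun p => rs N (hG p) (G.e (G.idx p)),
    fun p => (G.isFrame _).mono (hG p)⟩
  have hF' : ∀ (p q : X) (W : X.Opens) (hp : W ≤ V p) (hq : W ≤ V q),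
      rs M hp (F'.e p) =
        (G.coc.at p q W (hp.trans (hG p)) (hq.trans (hG q)) : Γ(X, W)) • rs M hq (F'.e q) := by
    intro p q W hp hq
    rw [hw p q W hp hq]
    refine trans_aux _ _ _ (F.coc_at p q (hp.trans (hF p)) (hq.trans (hF q))) ?_ ?_
    all_goals rw [uRes_coe]
    · exact (rs_smul hp _ _).trans (congrArg _ (rs_rs _ hp _))
    · exact (rs_smul hq _ _).trans (congrArg _ (rs_rs _ hq _))
  have hG' : ∀ (p q : X) (W : X.Opens) (hp : W ≤ V p) (hq : W ≤ V q),
      rs N hp (G'.e p) =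
        (G.coc.at p q W (hp.trans (hG p)) (hq.trans (hG q)) : Γ(X, W)) • rs N hq (G'.e q) :=
    fun p q W hp hq => ((rs_rs _ hp _).trans (G.coc_at p q _ _)).trans
      (congrArg _ (rs_rs _ hq _).symm)
  refine F'.nonempty_iso G' (fun _ => rfl) fun p q W hp hq hp' hq' r => ?_
  rw [hF' p q W hp hq, hG' p q W hp' hq']
  exact ⟨fun e => by rw [F'.smul_inj q hq e], fun e => by rw [G'.smul_inj q hq' e]⟩

theorem oX_smul {V : X.Opens} (r : Γ(X, V)) (m : Γ(oX X, V)) :
    r • m = (show Γ(oX X, V) from (r * (show Γ(X, V) from m) : Γ(X, V))) := rfl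

/-- The unit section. -/
def oneSec (U : X.Opens) : Γ(oX X, U) := show Γ(oX X, U) from (1 : Γ(X, U))

theorem smul_rs_oneSec {U V : X.Opens} (h : V ≤ U) (r : Γ(X, V)) :
    r • rs (oX X) h (oneSec U) = (show Γ(oX X, V) from r) := by
  show r * rr h 1 = r
  rw [map_one, mul_one]

/-- The frame of the unit module. -/
theorem isFrame_one : IsFrame (oX X) ⊤ (oneSec ⊤) := fun V h => by
  rw [funext (smul_rs_oneSec h)]
  exact Function.bijective_id

theorem exists_opens_eq_image {U V : X.Opens} (h : V ≤ U) :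
    ∃ V' : U.toScheme.Opens, U.ι ''ᵁ V' = V :=
  ⟨U.ι ⁻¹ᵁ V, by rw [Scheme.Hom.image_preimage_eq_opensRange_inf, Scheme.Opens.opensRange_ι,
    inf_eq_right.2 h]⟩

theorem restrict_smul {U : X.Opens} (V' : U.toScheme.Opens) (r : Γ(U.toScheme, V'))
    (x : Γ(M.restrict U.ι, V')) :
    (M.restrictAppIso U.ι V').hom (r • x) =
      (show Γ(X, U.ι ''ᵁ V') from r) • (M.restrictAppIso U.ι V').hom x := by
  show (U.ι.appIso V').inv r • (M.restrictAppIso U.ι V').hom x = _
  rw [Scheme.Opens.ι_appIso]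
  rfl

/-- An invertible module has frames. -/
theorem exists_frames (hM : M.IsInvertible) : Nonempty (Frames M X) := by
  have h : ∀ p : X, ∃ U : X.Opens, p ∈ U ∧ ∃ e, IsFrame M U e := by
    intro p
    obtain ⟨U, hp, ⟨φ⟩⟩ := hM.exists_trivialization p
    let ψ : M.restrict U.ι ≅ oX U.toScheme :=
      (Scheme.Modules.restrictFunctorIsoPullback U.ι).app M ≪≫ φ
    refine ⟨U, hp, rs M (U.ι_image_top).ge
      ((M.restrictAppIso U.ι ⊤).hom (ha ψ.inv ⊤ (oneSec ⊤))), fun V hV => ?_⟩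
    obtain ⟨V', rfl⟩ := exists_opens_eq_image hV
    have hb : Function.Bijective (ha ψ.inv V') := ha_bijective ψ.symm V'
    have key : ∀ r : Γ(X, U.ι ''ᵁ V'), (M.restrictAppIso U.ι V').hom
        (ha ψ.inv V' (show Γ(oX U.toScheme, V') from r)) = r • rs M hV (rs M (U.ι_image_top).ge
          ((M.restrictAppIso U.ι ⊤).hom (ha ψ.inv ⊤ (oneSec ⊤)))) := by
      intro r
      refine (congrArg (fun x => (M.restrictAppIso U.ι V').hom (ha ψ.inv V' x))
        (smul_rs_oneSec (le_top : V' ≤ ⊤) (show Γ(U.toScheme, V') from r)).symm).trans ?_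
      rw [ha_smul, ha_rs, restrict_smul, rs_rs]
      rfl
    rw [funext fun r => (key r).symm]
    exact hb
  choose U hU e he using h
  exact ⟨⟨U, fun p => ⟨p, hU p⟩, e, he⟩⟩

/-- A module with frames is invertible. -/
theorem isInvertible_of_frames {ι : Type u} (F : Frames M ι) : M.IsInvertible := by
  refine ⟨fun p => ⟨F.U (F.idx p), F.mem_idx p, ?_⟩⟩
  set U := F.U (F.idx p)
  let e' : Γ(M.restrict U.ι, ⊤) :=
    (M.restrictAppIso U.ι ⊤).inv (rs M U.ι_image_top.le (F.e (F.idx p)))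
  have he' : IsFrame (M.restrict U.ι) ⊤ e' := fun V' hV => by
    have hb := (F.isFrame (F.idx p)) (U.ι ''ᵁ V') (U.ι_image_le V')
    have key : ∀ r : Γ(X, U.ι ''ᵁ V'), (M.restrictAppIso U.ι V').hom
        ((show Γ(U.toScheme, V') from r) • rs (M.restrict U.ι) hV e') =
          r • rs M (U.ι_image_le V') (F.e (F.idx p)) := by
      intro r
      rw [restrict_smul]
      refine congrArg _ ?_
      show rs M (U.ι.image_mono hV) (rs M U.ι_image_top.le (F.e (F.idx p))) = _
      exact rs_rs _ _ _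
    refine ⟨fun r r' h => hb.1 ((key r).symm.trans ((congrArg _ h).trans (key r'))), fun m => ?_⟩
    obtain ⟨r, hr⟩ := hb.2 ((M.restrictAppIso U.ι V').hom m)
    exact ⟨(show Γ(U.toScheme, V') from r), ((key r).trans hr :)⟩
  let F₁ : Frames (M.restrict U.ι) PUnit.{u + 1} :=
    ⟨fun _ => ⊤, fun _ => ⟨⟨⟩, trivial⟩, fun _ => e', fun _ => he'⟩
  let F₂ : Frames (oX U.toScheme) PUnit.{u + 1} :=
    ⟨fun _ => ⊤, fun _ => ⟨⟨⟩, trivial⟩, fun _ => oneSec ⊤, fun _ => isFrame_one⟩
  obtain ⟨ψ⟩ := F₁.nonempty_iso F₂ (fun _ => rfl) fun i j V hi hj hi' hj' r =>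
    ⟨fun h => by
      rw [F₁.smul_inj j hj (r := r) (r' := 1) (by rw [one_smul]; exact h.symm), one_smul],
    fun h => by
      rw [F₂.smul_inj j hj' (r := r) (r' := 1) (by rw [one_smul]; exact h.symm), one_smul]⟩
  exact ⟨((Scheme.Modules.restrictFunctorIsoPullback U.ι).app M).symm ≪≫ ψ⟩

open Classical in
/-- The class of a module: that of frames, if there are any. -/
def cls (M : X.Modules) : Pic X :=
  if h : Nonempty (Frames M X) then Pic.mk h.some.coc else 0

theorem cls_eq {ι : Type u} (F : Frames M ι) : cls M = Pic.mk F.coc := by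
  have h : Nonempty (Frames M X) := exists_frames (isInvertible_of_frames F)
  rw [cls, dif_pos h]
  exact Pic.mk_eq_mk.2 (h.some.rel F)

theorem cls_unit (X : Scheme.{u}) : cls (oX X) = 0 := by
  let F : Frames (oX X) PUnit.{u + 1} :=
    ⟨fun _ => ⊤, fun _ => ⟨⟨⟩, trivial⟩, fun _ => oneSec ⊤, fun _ => isFrame_one⟩
  rw [cls_eq F, ← Pic.mk_one]
  refine Pic.mk_eq_mk.2 (Coc.rel_of_eq fun p q W hp hq hp' hq' => ?_)
  rw [Coc.one_at]
  refine (Units.ext (F.smul_inj (F.idx q) hq ?_)).symm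
  rw [Units.val_one, one_smul]
  exact (F.coc_at p q hp hq).symm

theorem cls_iso_iff (hM : M.IsInvertible) (hN : N.IsInvertible) :
    cls M = cls N ↔ Nonempty (M ≅ N) := by
  obtain ⟨F⟩ := exists_frames hM
  obtain ⟨G⟩ := exists_frames hN
  rw [cls_eq F, cls_eq G, Pic.mk_eq_mk]
  refine ⟨F.nonempty_iso_of_rel G, fun ⟨φ⟩ => ?_⟩
  refine Coc.Rel.trans (Coc.rel_of_eq fun p q W hp hq hp' hq' => ?_) ((F.map φ).rel G)
  refine (Units.ext ((F.map φ).smul_inj ((F.map φ).idx q) hq' ?_))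
  refine ((F.map φ).coc_at p q hp' hq').symm.trans ?_
  refine (ha_rs φ.hom hp (F.e (F.idx p))).symm.trans ?_
  rw [F.coc_at p q hp hq, ha_smul]
  exact congrArg _ (ha_rs φ.hom hq _)

end FA.Jac.Bridge

end
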