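import Fermat.Agent.AbTors.Pic
import Fermat.Prelude.Def_AlgebraicGeometry_RelativePicardFunctor

/-!
# Invertible modules and cocycles: the contract

Isomorphism classes of invertible modules are classes of cocycles, compatibly with pullback.
-/

set_option autoImplicit false

noncomputable section

universe u

open CategoryTheory AlgebraicGeometry FA.AbTors

namespace FA.Jac

/-- The dictionary between invertible modules and cocycle classes. -/
structure ModulePic : Type (u + 1) where
  /-- The class of a module. -/
  cls : ∀ {X : Scheme.{u}}, X.Modules → Pic X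
  iso_iff : ∀ {X : Scheme.{u}} {M N : X.Modules}, M.IsInvertible → N.IsInvertible →
    (cls M = cls N ↔ Nonempty (M ≅ N))
  exists_module : ∀ {X : Scheme.{u}} (p : Pic X), ∃ M : X.Modules, M.IsInvertible ∧ cls M = p
  cls_pullback : ∀ {X Y : Scheme.{u}} (f : X ⟶ Y) {M : Y.Modules}, M.IsInvertible →
    cls ((Scheme.Modules.pullback f).obj M) = Pic.pull f (cls M)
  cls_unit : ∀ X : Scheme.{u}, cls (SheafOfModules.unit X.ringCatSheaf) = 0

/-- The dictionary exists. -/
def ModulePicExists : Prop := Nonempty ModulePic.{u}

end FA.Jac

end
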