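import Fermat.Agent.Jac.BridgeDefs
import Mathlib.AlgebraicGeometry.Modules.Sheaf
import Mathlib.Topology.Sheaves.SheafCondition.UniqueGluing

/-!
# Frames of modules

A frame of a module on an open is a section generating it freely over every smaller open.  A
module with frames is universal: morphisms out of it are compatible families of sections.
-/

set_option autoImplicit false

noncomputable section

universe u w

open CategoryTheory AlgebraicGeometry TopologicalSpace Opposite FA.AbTors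

namespace FA.Jac.Bridge

variable {X : Scheme.{u}}

/-- Restriction of functions. -/
def rr {U V : X.Opens} (h : V ≤ U) : Γ(X, U) →+* Γ(X, V) :=
  (X.presheaf.map (homOfLE h).op).hom

theorem rr_rr {U V W : X.Opens} (h : V ≤ U) (h' : W ≤ V) (r : Γ(X, U)) :
    rr h' (rr h r) = rr (h'.trans h) r :=
  congrArg (fun ψ : Γ(X, U) ⟶ Γ(X, W) => ψ.hom r)
    (X.presheaf.map_comp (homOfLE h).op (homOfLE h').op).symm

theorem rr_self {U : X.Opens} (h : U ≤ U) (r : Γ(X, U)) : rr h r = r :=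
  congrArg (fun ψ : Γ(X, U) ⟶ Γ(X, U) => ψ.hom r) (X.presheaf.map_id (op U))

theorem uRes_coe {U V : X.Opens} (h : V ≤ U) (r : Γ(X, U)ˣ) :
    (uRes U V h r : Γ(X, V)) = rr h (r : Γ(X, U)) := by
  have h1 : ∀ e, (𝟙 X : X ⟶ X).appLE U V e = X.presheaf.map (homOfLE h).op := fun e =>
    (Scheme.Hom.appLE_map (𝟙 X) (U := U) (V := U) le_rfl (homOfLE h).op).symm.trans (by
      rw [show (𝟙 X : X ⟶ X).appLE U U le_rfl = 𝟙 _ from
        (Scheme.Hom.appLE_eq_app (𝟙 X)).trans (Scheme.Hom.id_app _), Category.id_comp])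
  exact congrArg (fun ψ : Γ(X, U) ⟶ Γ(X, V) => ψ.hom (r : Γ(X, U))) (h1 _)

/-- Restriction of sections. -/
def rs (M : X.Modules) {U V : X.Opens} (h : V ≤ U) : Γ(M, U) →+ Γ(M, V) :=
  (M.presheaf.map (homOfLE h).op).hom

variable {M N P : X.Modules}

theorem rs_rs {U V W : X.Opens} (h : V ≤ U) (h' : W ≤ V) (m : Γ(M, U)) :
    rs M h' (rs M h m) = rs M (h'.trans h) m :=
  congrArg (fun ψ : Γ(M, U) ⟶ Γ(M, W) => ψ.hom m)
    (M.presheaf.map_comp (homOfLE h).op (homOfLE h').op).symm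

theorem rs_self {U : X.Opens} (h : U ≤ U) (m : Γ(M, U)) : rs M h m = m :=
  congrArg (fun ψ : Γ(M, U) ⟶ Γ(M, U) => ψ.hom m) (M.presheaf.map_id (op U))

theorem rs_smul {U V : X.Opens} (h : V ≤ U) (r : Γ(X, U)) (m : Γ(M, U)) :
    rs M h (r • m) = rr h r • rs M h m :=
  Scheme.Modules.map_smul M (homOfLE h) r m

/-- The action of a morphism on sections. -/
def ha (φ : M ⟶ N) (U : X.Opens) : Γ(M, U) →+ Γ(N, U) := (φ.app U).hom

theorem ha_smul (φ : M ⟶ N) {U : X.Opens} (r : Γ(X, U)) (m : Γ(M, U)) :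
    ha φ U (r • m) = r • ha φ U m := φ.app_smul r m

theorem ha_rs (φ : M ⟶ N) {U V : X.Opens} (h : V ≤ U) (m : Γ(M, U)) :
    ha φ V (rs M h m) = rs N h (ha φ U m) :=
  congrArg (fun ψ : Γ(M, U) ⟶ Γ(N, V) => ψ.hom m) (φ.mapPresheaf.naturality (homOfLE h).op)

theorem ha_comp (φ : M ⟶ N) (ψ : N ⟶ P) (U : X.Opens) (m : Γ(M, U)) :
    ha (φ ≫ ψ) U m = ha ψ U (ha φ U m) := rfl

/-- A section generating freely on every smaller open. -/
def IsFrame (M : X.Modules) (U : X.Opens) (e : Γ(M, U)) : Prop :=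
  ∀ (V : X.Opens) (h : V ≤ U), Function.Bijective fun r : Γ(X, V) => r • rs M h e

/-- Two sections agree once they agree locally. -/
theorem eq_of_locally {U : X.Opens} {m m' : Γ(M, U)} {ι : Type w} (W : ι → X.Opens)
    (hle : ∀ i, W i ≤ U) (hcov : ∀ p ∈ U, ∃ i, p ∈ W i)
    (h : ∀ i, rs M (hle i) m = rs M (hle i) m') : m = m' := by
  let F : TopCat.Sheaf AddCommGrpCat.{u} X := ⟨M.presheaf, M.isSheaf⟩
  let W' : U → X.Opens := fun p => W (hcov p p.2).choose
  exact F.eq_of_locally_eq' W' U (fun p => homOfLE (hle _))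
    (fun p hp => Opens.mem_iSup.2 ⟨⟨p, hp⟩, (hcov p hp).choose_spec⟩) m m' fun p => h _

/-- Compatible local sections glue. -/
theorem exists_glue {U : X.Opens} {ι : Type u} (W : ι → X.Opens) (hle : ∀ i, W i ≤ U)
    (hcov : ∀ p ∈ U, ∃ i, p ∈ W i) (m : ∀ i, Γ(M, W i))
    (h : ∀ i j, rs M (inf_le_left : W i ⊓ W j ≤ W i) (m i) =
      rs M (inf_le_right : W i ⊓ W j ≤ W j) (m j)) :
    ∃ s : Γ(M, U), ∀ i, rs M (hle i) s = m i := by
  let F : TopCat.Sheaf AddCommGrpCat.{u} X := ⟨M.presheaf, M.isSheaf⟩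
  obtain ⟨s, hs, -⟩ := F.existsUnique_gluing' W U (fun i => homOfLE (hle i))
    (fun p hp => Opens.mem_iSup.2 (hcov p hp)) m h
  exact ⟨s, hs⟩

/-- Frames on an open cover. -/
structure Frames (M : X.Modules) (ι : Type u) where
  /-- The opens. -/
  U : ι → X.Opens
  cover : ∀ p : X, ∃ i, p ∈ U i
  /-- The frames. -/
  e : ∀ i, Γ(M, U i)
  isFrame : ∀ i, IsFrame M (U i) (e i)

variable {ι : Type u}

/-- The coefficient of a section. -/
def Frames.coef (F : Frames M ι) (i : ι) {V : X.Opens} (h : V ≤ F.U i) (m : Γ(M, V)) : Γ(X, V) :=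
  Function.surjInv (F.isFrame i V h).2 m

theorem Frames.coef_smul (F : Frames M ι) (i : ι) {V : X.Opens} (h : V ≤ F.U i) (m : Γ(M, V)) :
    F.coef i h m • rs M h (F.e i) = m :=
  Function.surjInv_eq (F.isFrame i V h).2 m

theorem Frames.smul_inj (F : Frames M ι) (i : ι) {V : X.Opens} (h : V ≤ F.U i) {r r' : Γ(X, V)}
    (e : r • rs M h (F.e i) = r' • rs M h (F.e i)) : r = r' := (F.isFrame i V h).1 e

/-- A family of sections compatible with the transitions of frames. -/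
def Frames.Compat (F : Frames M ι) (q : ∀ i, Γ(N, F.U i)) : Prop :=
  ∀ (i j : ι) (V : X.Opens) (hi : V ≤ F.U i) (hj : V ≤ F.U j) (r : Γ(X, V)),
    rs M hi (F.e i) = r • rs M hj (F.e j) → rs N hi (q i) = r • rs N hj (q j)

theorem Frames.compat_ha (F : Frames M ι) (φ : M ⟶ N) : F.Compat fun i => ha φ _ (F.e i) := by
  intro i j V hi hj r h
  rw [← ha_rs, ← ha_rs, h, ha_smul]

/-- Morphisms are determined by the images of frames. -/
theorem Frames.hom_ext (F : Frames M ι) {φ ψ : M ⟶ N}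
    (h : ∀ i, ha φ _ (F.e i) = ha ψ _ (F.e i)) : φ = ψ := by
  refine Scheme.Modules.hom_ext φ ψ fun W => ?_
  ext m
  refine eq_of_locally (fun i => W ⊓ F.U i) (fun i => inf_le_left)
    (fun p hp => (F.cover p).imp fun i hi => ⟨hp, hi⟩) fun i => ?_
  change rs N _ (ha φ W m) = rs N _ (ha ψ W m)
  rw [← ha_rs, ← ha_rs,
    ← F.coef_smul i inf_le_right (rs M (inf_le_left : W ⊓ F.U i ≤ W) m), ha_smul, ha_smul,
    ha_rs, ha_rs, h]

/-- The sections corresponding under a compatible family. -/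
def Frames.Corr (F : Frames M ι) (q : ∀ i, Γ(N, F.U i)) {W : X.Opens} (m : Γ(M, W))
    (n : Γ(N, W)) : Prop :=
  ∀ (i : ι) (V : X.Opens) (hW : V ≤ W) (hi : V ≤ F.U i) (r : Γ(X, V)),
    rs M hW m = r • rs M hi (F.e i) → rs N hW n = r • rs N hi (q i)

theorem Frames.corr_unique (F : Frames M ι) {q : ∀ i, Γ(N, F.U i)} {W : X.Opens} {m : Γ(M, W)}
    {n n' : Γ(N, W)} (h : F.Corr q m n) (h' : F.Corr q m n') : n = n' :=
  eq_of_locally (fun i => W ⊓ F.U i) (fun i => inf_le_left)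
    (fun p hp => (F.cover p).imp fun i hi => ⟨hp, hi⟩) fun i => by
      have e := (F.coef_smul i inf_le_right (rs M (inf_le_left : W ⊓ F.U i ≤ W) m)).symm
      rw [h i _ _ _ _ e, h' i _ _ _ _ e]

theorem Frames.exists_corr (F : Frames M ι) {q : ∀ i, Γ(N, F.U i)} (hq : F.Compat q) {W : X.Opens}
    (m : Γ(M, W)) : ∃ n, F.Corr q m n := by
  let V₀ : ι → X.Opens := fun i => W ⊓ F.U i
  let n₀ : ∀ i, Γ(N, V₀ i) := fun i =>
    F.coef i inf_le_right (rs M (inf_le_left : V₀ i ≤ W) m) •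
      rs N (inf_le_right : V₀ i ≤ F.U i) (q i)
  have key : ∀ (i j : ι) (V : X.Opens) (hi : V ≤ V₀ i) (hj : V ≤ F.U j) (r : Γ(X, V)),
      rs M (hi.trans inf_le_left) m = r • rs M hj (F.e j) →
        rs N hi (n₀ i) = r • rs N hj (q j) := by
    intro i j V hi hj r h
    have hi' := hi.trans inf_le_right
    set t := F.coef i hi' (rs M hj (F.e j))
    have ht : t • rs M hi' (F.e i) = rs M hj (F.e j) := F.coef_smul i hi' _
    have hu : rr hi (F.coef i inf_le_right (rs M (inf_le_left : V₀ i ≤ W) m)) = r * t := by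
      refine F.smul_inj i hi' ?_
      rw [mul_smul, ht, ← h, ← rs_rs (inf_le_right : V₀ i ≤ F.U i) hi, ← rs_smul,
        F.coef_smul, rs_rs]
    show rs N hi (_ • _) = _
    rw [rs_smul, rs_rs, hu, hq j i V hj hi' t ht.symm, mul_smul]
  obtain ⟨n, hn⟩ := exists_glue V₀ (fun i => inf_le_left)
    (fun p hp => (F.cover p).imp fun i hi => ⟨hp, hi⟩) n₀ fun i j => by
      have e := F.coef_smul j (inf_le_right.trans inf_le_right)
        (rs M ((inf_le_left : V₀ i ⊓ V₀ j ≤ V₀ i).trans inf_le_left) m)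
      rw [key i j _ inf_le_left (inf_le_right.trans inf_le_right) _ e.symm,
        key j j _ inf_le_right (inf_le_right.trans inf_le_right) _ e.symm]
  refine ⟨n, fun j V hW hj r h => eq_of_locally (fun i => V ⊓ F.U i) (fun i => inf_le_left)
    (fun p hp => (F.cover p).imp fun i hi => ⟨hp, hi⟩) fun i => ?_⟩
  have hle : V ⊓ F.U i ≤ V₀ i := inf_le_inf hW le_rfl
  rw [rs_rs, show rs N _ n = rs N hle (rs N inf_le_left n) from (rs_rs _ hle n).symm, hn i,
    key i j _ hle (inf_le_left.trans hj) (rr inf_le_left r) (by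
      rw [← rs_rs hW inf_le_left, h, rs_smul, rs_rs]), rs_smul, rs_rs]

/-- The corresponding section. -/
def Frames.liftFun (F : Frames M ι) {q : ∀ i, Γ(N, F.U i)} (hq : F.Compat q) (W : X.Opens)
    (m : Γ(M, W)) : Γ(N, W) := (F.exists_corr hq m).choose

theorem Frames.corr_liftFun (F : Frames M ι) {q : ∀ i, Γ(N, F.U i)} (hq : F.Compat q)
    {W : X.Opens} (m : Γ(M, W)) : F.Corr q m (F.liftFun hq W m) := (F.exists_corr hq m).choose_spec

theorem Frames.liftFun_eq (F : Frames M ι) {q : ∀ i, Γ(N, F.U i)} (hq : F.Compat q) {W : X.Opens}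
    {m : Γ(M, W)} {n : Γ(N, W)} (h : F.Corr q m n) : F.liftFun hq W m = n :=
  F.corr_unique (F.exists_corr hq m).choose_spec h

theorem Frames.liftFun_smul (F : Frames M ι) {q : ∀ i, Γ(N, F.U i)} (hq : F.Compat q)
    (W : X.Opens) (a : Γ(X, W)) (m : Γ(M, W)) :
    F.liftFun hq W (a • m) = a • F.liftFun hq W m := by
  refine F.liftFun_eq hq fun i V hW hi r h => ?_
  have e := F.coef_smul i hi (rs M hW m)
  rw [rs_smul, F.corr_liftFun hq m i V hW hi _ e.symm, ← mul_smul]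
  congr 1
  refine F.smul_inj i hi ?_
  rw [mul_smul, e, ← rs_smul, h]

theorem Frames.liftFun_add (F : Frames M ι) {q : ∀ i, Γ(N, F.U i)} (hq : F.Compat q)
    (W : X.Opens) (m m' : Γ(M, W)) :
    F.liftFun hq W (m + m') = F.liftFun hq W m + F.liftFun hq W m' := by
  refine F.liftFun_eq hq fun i V hW hi r h => ?_
  have e := F.coef_smul i hi (rs M hW m)
  have e' := F.coef_smul i hi (rs M hW m')
  rw [map_add, F.corr_liftFun hq m i V hW hi _ e.symm,
    F.corr_liftFun hq m' i V hW hi _ e'.symm, ← add_smul]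
  congr 1
  refine F.smul_inj i hi ?_
  rw [add_smul, e, e', ← map_add, h]

theorem Frames.liftFun_rs (F : Frames M ι) {q : ∀ i, Γ(N, F.U i)} (hq : F.Compat q)
    {W W' : X.Opens} (hle : W' ≤ W) (m : Γ(M, W)) :
    F.liftFun hq W' (rs M hle m) = rs N hle (F.liftFun hq W m) := by
  refine F.liftFun_eq hq fun i V hW hi r h => ?_
  rw [rs_rs] at h ⊢
  exact F.corr_liftFun hq m i V _ hi r h

/-- The morphism given by a compatible family. -/
def Frames.lift (F : Frames M ι) {q : ∀ i, Γ(N, F.U i)} (hq : F.Compat q) : M ⟶ N :=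
  ⟨PresheafOfModules.homMk
    { app := fun W => AddCommGrpCat.ofHom
        (AddMonoidHom.mk' (F.liftFun hq W.unop) (F.liftFun_add hq W.unop))
      naturality := fun W W' i => by
        ext m
        exact F.liftFun_rs hq (leOfHom i.unop) m }
    fun W r m => F.liftFun_smul hq W.unop r m⟩

theorem Frames.ha_lift (F : Frames M ι) {q : ∀ i, Γ(N, F.U i)} (hq : F.Compat q) (i : ι) :
    ha (F.lift hq) _ (F.e i) = q i :=
  F.liftFun_eq hq fun j V hW hj r h => hq i j V hW hj r h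

/-- Two modules with the same frames are isomorphic. -/
theorem Frames.nonempty_iso (F : Frames M ι) (G : Frames N ι) (hU : ∀ i, F.U i = G.U i)
    (hc : ∀ (i j : ι) (V : X.Opens) (hi : V ≤ F.U i) (hj : V ≤ F.U j) (hi' : V ≤ G.U i)
      (hj' : V ≤ G.U j) (r : Γ(X, V)),
      rs M hi (F.e i) = r • rs M hj (F.e j) ↔ rs N hi' (G.e i) = r • rs N hj' (G.e j)) :
    Nonempty (M ≅ N) := by
  have hq : F.Compat fun i => rs N (hU i).le (G.e i) := fun i j V hi hj r h => by
    rw [rs_rs, rs_rs]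
    exact (hc i j V hi hj _ _ r).1 h
  have hq' : G.Compat fun i => rs M (hU i).ge (F.e i) := fun i j V hi hj r h => by
    rw [rs_rs, rs_rs]
    exact (hc i j V _ _ hi hj r).2 h
  refine ⟨⟨F.lift hq, G.lift hq', F.hom_ext fun i => ?_, G.hom_ext fun i => ?_⟩⟩
  · rw [ha_comp, F.ha_lift, ha_rs, G.ha_lift, rs_rs]
    exact rs_self _ _
  · rw [ha_comp, G.ha_lift, ha_rs, F.ha_lift, rs_rs]
    exact rs_self _ _

end FA.Jac.Bridge

end
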