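import Fermat.Agent.Jac.BridgeClass

/-!
# The module of a cocycle

Its sections are the families of functions compatible with the transition functions.
-/

set_option autoImplicit false

noncomputable section

universe u

open CategoryTheory AlgebraicGeometry TopologicalSpace Opposite FA.AbTors

namespace FA.Jac.Bridge

variable {X : Scheme.{u}}

/-- Functions agree once they agree locally. -/
theorem fun_eq_of_locally {U : X.Opens} {a b : Γ(X, U)} {ι : Type u} (W : ι → X.Opens)
    (hle : ∀ i, W i ≤ U) (hcov : ∀ p ∈ U, ∃ i, p ∈ W i) (h : ∀ i, rr (hle i) a = rr (hle i) b) :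
    a = b :=
  X.sheaf.eq_of_locally_eq' W U (fun i => homOfLE (hle i))
    (fun p hp => Opens.mem_iSup.2 (hcov p hp)) a b h

/-- The group of compatible families on an open. -/
def secGroup (c : Coc X) (W : X.Opens) : AddSubgroup (∀ x : X, Γ(X, W ⊓ c.U x)) where
  carrier := {f | ∀ (x y : X) (V : X.Opens) (hW : V ≤ W) (hx : V ≤ c.U x) (hy : V ≤ c.U y),
    rr (le_inf hW hy) (f y) = rr (le_inf hW hx) (f x) * (c.at x y V hx hy : Γ(X, V))}
  zero_mem' x y V hW hx hy := by simp
  add_mem' {f g} hf hg x y V hW hx hy := by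
    simp only [Pi.add_apply, map_add, hf x y V hW hx hy, hg x y V hW hx hy, add_mul]
  neg_mem' {f} hf x y V hW hx hy := by
    simp only [Pi.neg_apply, map_neg, hf x y V hW hx hy, neg_mul]

/-- The sections of the module of a cocycle. -/
abbrev Sec (c : Coc X) (W : X.Opens) : Type u := secGroup c W

variable {c : Coc X}

instance secSMul (W : X.Opens) : SMul Γ(X, W) (Sec c W) :=
  ⟨fun a f => ⟨fun x => rr inf_le_left a * f.1 x, fun x y V hW hx hy => by
    rw [map_mul, map_mul, f.2 x y V hW hx hy, rr_rr, rr_rr, mul_assoc]⟩⟩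

theorem sec_smul_val {W : X.Opens} (a : Γ(X, W)) (f : Sec c W) (x : X) :
    (a • f).1 x = rr inf_le_left a * f.1 x := rfl

instance secModule (W : X.Opens) : Module Γ(X, W) (Sec c W) where
  one_smul f := Subtype.ext (funext fun x => by rw [sec_smul_val, map_one, one_mul])
  mul_smul a b f := Subtype.ext (funext fun x => by
    rw [sec_smul_val, sec_smul_val, sec_smul_val, map_mul, mul_assoc])
  smul_zero a := Subtype.ext (funext fun x => by
    rw [sec_smul_val]; exact mul_zero _)
  smul_add a f g := Subtype.ext (funext fun x => by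
    rw [sec_smul_val]; exact mul_add _ _ _)
  add_smul a b f := Subtype.ext (funext fun x => by
    rw [sec_smul_val, map_add, add_mul]; rfl)
  zero_smul f := Subtype.ext (funext fun x => by
    rw [sec_smul_val, map_zero, zero_mul]; rfl)

/-- Restriction of families. -/
def secRes {W W' : X.Opens} (h : W' ≤ W) : Sec c W →+ Sec c W' :=
  AddMonoidHom.mk' (fun f => ⟨fun x => rr (inf_le_inf_right _ h) (f.1 x), fun x y V hW hx hy => by
    rw [rr_rr, rr_rr]; exact f.2 x y V (hW.trans h) hx hy⟩)
    fun f g => Subtype.ext (funext fun x => map_add _ _ _)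

theorem secRes_val {W W' : X.Opens} (h : W' ≤ W) (f : Sec c W) (x : X) :
    (secRes h f).1 x = rr (inf_le_inf_right _ h) (f.1 x) := rfl

variable (c)

/-- The presheaf of compatible families. -/
def secPresheaf : TopCat.Presheaf AddCommGrpCat.{u} X where
  obj W := AddCommGrpCat.of (Sec c W.unop)
  map i := AddCommGrpCat.ofHom (secRes (leOfHom i.unop))
  map_id W := by
    ext f x
    exact rr_self _ _
  map_comp i j := by
    ext f x
    exact (rr_rr _ _ _).symm

instance secPresheafModule (W : X.Opensᵒᵖ) :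
    Module (X.ringCatSheaf.obj.obj W) ((secPresheaf c).obj W) :=
  inferInstanceAs (Module Γ(X, W.unop) (Sec c W.unop))

theorem secPresheaf_isSheaf : TopCat.Presheaf.IsSheaf (secPresheaf c) := by
  rw [TopCat.Presheaf.isSheaf_iff_isSheafUniqueGluing]
  intro ι W sf hsf
  have hcov : ∀ x : X, ∀ p ∈ iSup W ⊓ c.U x, ∃ i, p ∈ W i ⊓ c.U x := fun x p hp =>
    (Opens.mem_iSup.1 hp.1).imp fun i hi => ⟨hi, hp.2⟩
  have hle : ∀ (x : X) (i : ι), W i ⊓ c.U x ≤ iSup W ⊓ c.U x := fun x i =>
    inf_le_inf_right _ (le_iSup W i)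
  have hex : ∀ x : X, ∃ s : Γ(X, iSup W ⊓ c.U x), ∀ i, rr (hle x i) s = (sf i).1 x := by
    intro x
    obtain ⟨s, hs, -⟩ := X.sheaf.existsUnique_gluing' (fun i => W i ⊓ c.U x) _
      (fun i => homOfLE (hle x i)) (fun p hp => Opens.mem_iSup.2 (hcov x p hp))
      (fun i => (sf i).1 x) fun i j => by
        have h := congrArg (fun f : Sec c (W i ⊓ W j) => rr
          (le_inf (le_inf (inf_le_left.trans inf_le_left) (inf_le_right.trans inf_le_left))
            (inf_le_left.trans inf_le_right) :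
            (W i ⊓ c.U x) ⊓ (W j ⊓ c.U x) ≤ (W i ⊓ W j) ⊓ c.U x) (f.1 x)) (hsf i j)
        exact (rr_rr _ _ _).symm.trans (h.trans (rr_rr _ _ _))
    exact ⟨s, hs⟩
  choose s hs using hex
  have hmem : s ∈ secGroup c (iSup W) := fun x y V hW hx hy =>
    fun_eq_of_locally (fun i => V ⊓ W i) (fun i => inf_le_left)
      (fun p hp => (Opens.mem_iSup.1 (hW hp)).imp fun i hi => ⟨hp, hi⟩) fun i => by
        have hVy : V ⊓ W i ≤ W i ⊓ c.U y := le_inf inf_le_right (inf_le_left.trans hy)
        have hVx : V ⊓ W i ≤ W i ⊓ c.U x := le_inf inf_le_right (inf_le_left.trans hx)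
        rw [map_mul, rr_rr, rr_rr, ← uRes_coe, Coc.uRes_at, ← rr_rr (hle y i) hVy, hs y i,
          ← rr_rr (hle x i) hVx, hs x i]
        exact (sf i).2 x y (V ⊓ W i) inf_le_right (inf_le_left.trans hx) (inf_le_left.trans hy)
  refine ⟨⟨s, hmem⟩, fun i => Subtype.ext (funext fun x => hs x i), fun t ht => ?_⟩
  refine Subtype.ext (funext fun x => fun_eq_of_locally (fun i => W i ⊓ c.U x) (hle x) (hcov x)
    fun i => ?_)
  exact (congrArg (fun f : Sec c (W i) => f.1 x) (ht i)).trans (hs x i).symm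

/-- The module of a cocycle. -/
def cocModule : X.Modules :=
  ⟨PresheafOfModules.ofPresheaf (secPresheaf c) fun {U V} i r m => Subtype.ext (funext fun x => by
    show rr _ (rr inf_le_left (show Γ(X, U.unop) from r) * (show Sec c U.unop from m).1 x) =
      rr inf_le_left (rr (leOfHom i.unop) (show Γ(X, U.unop) from r)) *
        rr _ ((show Sec c U.unop from m).1 x)
    rw [map_mul, rr_rr, rr_rr]),
    secPresheaf_isSheaf c⟩

/-- The frame of the module at a point. -/
def cocFrame (x : X) : Γ(cocModule c, c.U x) :=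
  show Sec c (c.U x) from ⟨fun y => (c.at x y _ inf_le_left inf_le_right : Γ(X, c.U x ⊓ c.U y)),
    fun y z V hW hy hz => by
      rw [← uRes_coe, ← uRes_coe, Coc.uRes_at, Coc.uRes_at, ← Units.val_mul]
      exact congrArg Units.val (c.at_mul x y z hW hy hz)⟩

theorem smul_cocFrame {x : X} {V : X.Opens} (h : V ≤ c.U x) (r : Γ(X, V)) (y : X) :
    (show Sec c V from r • rs (cocModule c) h (cocFrame c x)).1 y =
      rr inf_le_left r * (c.at x y _ (inf_le_left.trans h) inf_le_right : Γ(X, V ⊓ c.U y)) := by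
  show rr inf_le_left r * rr _ ((c.at x y (c.U x ⊓ c.U y) inf_le_left inf_le_right : Γ(X, c.U x ⊓ c.U y)ˣ) : Γ(X, c.U x ⊓ c.U y)) = _
  rw [← uRes_coe, Coc.uRes_at]

theorem isFrame_cocFrame (x : X) : IsFrame (cocModule c) (c.U x) (cocFrame c x) := by
  intro V h
  refine ⟨fun r r' e => ?_, fun m => ?_⟩
  · have e' := congrArg (fun f : Sec c V => rr (le_inf le_rfl h : V ≤ V ⊓ c.U x) (f.1 x)) e
    simp only [smul_cocFrame, Coc.at_self, Units.val_one, mul_one, rr_rr, rr_self] at e'
    exact e'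
  · set f : Sec c V := m
    refine ⟨rr (le_inf le_rfl h) (f.1 x), Subtype.ext (funext fun y => ?_)⟩
    refine (smul_cocFrame c h _ y).trans ?_
    rw [rr_rr]
    exact ((f.2 x y (V ⊓ c.U y) inf_le_left (inf_le_left.trans h) inf_le_right).symm.trans
      (rr_self _ _))

/-- The frames of the module of a cocycle. -/
def cocFrames : Frames (cocModule c) X :=
  ⟨c.U, fun p => ⟨p, c.mem p⟩, cocFrame c, isFrame_cocFrame c⟩

theorem cocFrames_tr (x y : X) {V : X.Opens} (hx : V ≤ c.U x) (hy : V ≤ c.U y) :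
    rs (cocModule c) hx (cocFrame c x) =
      (c.at x y V hx hy : Γ(X, V)) • rs (cocModule c) hy (cocFrame c y) := by
  refine Subtype.ext (funext fun z => Eq.trans ?_ (smul_cocFrame c hy _ z).symm)
  show rr _ ((c.at x z (c.U x ⊓ c.U z) inf_le_left inf_le_right : Γ(X, c.U x ⊓ c.U z)ˣ) : Γ(X, c.U x ⊓ c.U z)) = _
  rw [← uRes_coe, Coc.uRes_at, ← uRes_coe, Coc.uRes_at, ← Units.val_mul]
  exact congrArg Units.val (c.at_mul x y z _ _ _)

theorem cls_cocModule : cls (cocModule c) = Pic.mk c := by
  rw [cls_eq (cocFrames c), Pic.mk_eq_mk]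
  set F := cocFrames c
  refine ⟨fun p => c.U (F.idx p) ⊓ c.U p, fun p => ⟨F.mem_idx p, c.mem p⟩,
    fun p => inf_le_left, fun p => inf_le_right,
    fun p => c.at p (F.idx p) _ inf_le_right inf_le_left, fun p q W hp hq => ?_⟩
  have h : F.coc.at p q W (hp.trans inf_le_left) (hq.trans inf_le_left) =
      c.at (F.idx p) (F.idx q) W (hp.trans inf_le_left) (hq.trans inf_le_left) :=
    Units.ext (F.smul_inj (F.idx q) (hq.trans inf_le_left)
      ((F.coc_at p q _ _).symm.trans (cocFrames_tr c _ _ _ _)))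
  have e1 := c.at_mul p (F.idx p) (F.idx q) (hp.trans inf_le_right) (hp.trans inf_le_left)
    (hq.trans inf_le_left)
  have e2 := c.at_mul p q (F.idx q) (hp.trans inf_le_right) (hq.trans inf_le_right)
    (hq.trans inf_le_left)
  rw [h, Coc.uRes_at, Coc.uRes_at, mul_div_assoc', eq_div_iff_mul_eq', ← e2, e1, mul_comm]

end FA.Jac.Bridge

end
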