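import Fermat.Agent.Jac.DictBc
import Fermat.Agent.AbTors.Ext

/-!
# Twisting a divisor down to degree `g - 1`

After an extension of constants every divisor of degree zero has a twist by a divisor from the
small field, of degree `g - 1`, without functions; adding one place gives exactly one.
-/

set_option autoImplicit false
set_option linter.style.haveILetI false
set_option linter.unusedSectionVars false

noncomputable section

open AlgebraicCurve FA.Curve FA.PicTors FA.AbTors

namespace FA.Jac.Twist

section abstract

variable {k L F F' : Type*} [Field k] [Field L] [Field F] [Field F'] [Algebra k F] [Algebra L F']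
  [IsAlgClosed k] [IsAlgClosed L] {i : k →+* L} {φ : F →+* F'} (h : IsExt i φ)

include h

/-- Away from finitely many places, removing a place removes a dimension. -/
theorem exists_drop {D : Divisor L F'} (hD : 0 < ell D) :
    ∃ R : Place k F, ell (D - Finsupp.single (h.up R) 1) = ell D - 1 := by
  classical
  have hF' := h.isFunctionField
  haveI := infinite_places h.func
  obtain ⟨f, hf0, hf⟩ : ∃ f : F', f ≠ 0 ∧ f ∈ riemannRochSpace D := by
    by_contra hno
    push Not at hno
    have h0 : riemannRochSpace D = ⊥ := (Submodule.eq_bot_iff _).2 fun f hf =>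
      by_contra fun hne => hno f hne hf
    rw [ell, h0, finrank_bot] at hD
    simp at hD
  obtain ⟨R, hR⟩ := ((D.support.finite_toSet.union (finite_support hF' f)).preimage
    h.up_injective.injOn).infinite_compl.nonempty
  simp only [Set.mem_compl_iff, Set.mem_preimage, Set.mem_union, SetLike.mem_coe,
    Finsupp.mem_support_iff, Set.mem_ofPred_eq, not_or, not_not] at hR
  refine ⟨R, le_antisymm ?_ ?_⟩
  · haveI := finite_riemannRochSpace hF' D
    have hle : D - Finsupp.single (h.up R) 1 ≤ D := by
      rw [sub_le_self_iff]
      exact Finsupp.single_nonneg.2 zero_le_one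
    have hlt : riemannRochSpace (D - Finsupp.single (h.up R) 1) < riemannRochSpace D := by
      refine lt_of_le_of_ne (riemannRochSpace_mono hle) fun e => ?_
      have h1 := (mem_riemannRochSpace.1 (e ▸ hf)) (h.up R)
      rw [Finsupp.sub_apply, Finsupp.single_eq_same, hR.1, atLeast_iff hf0, hR.2] at h1
      omega
    have := Submodule.finrank_lt_finrank_of_lt hlt
    simp only [ell]
    omega
  · have := ell_sub_degree_anti hF' (D := D - Finsupp.single (h.up R) 1) (D' := D) (by
      rw [sub_le_self_iff]; exact Finsupp.single_nonneg.2 zero_le_one)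
    rw [map_sub, Divisor.degree_single, hF'.deg_eq_one] at this
    omega

/-- A twist without functions in degree `g - 1`. -/
theorem exists_twist (D : Divisor L F') (hD : Divisor.degree D = 0) :
    ∃ E : Divisor k F, Divisor.degree E = (FA.Curve.genus k F : ℤ) - 1 ∧
      ell (D + h.pull E) = 0 := by
  have hF' := h.isFunctionField
  haveI := infinite_places h.func
  have hg : FA.Curve.genus L F' = FA.Curve.genus k F := genus_map h
  obtain ⟨c, hc⟩ := exists_threshold hF'
  obtain ⟨P⟩ := (inferInstance : Nonempty (Place k F))
  have main : ∀ m : ℕ, ∀ E : Divisor k F, ell (D + h.pull E) = m →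
      Divisor.degree E = (FA.Curve.genus k F : ℤ) - 1 + m →
      ∃ E : Divisor k F, Divisor.degree E = (FA.Curve.genus k F : ℤ) - 1 ∧
        ell (D + h.pull E) = 0 := by
    intro m
    induction m with
    | zero => exact fun E h1 h2 => ⟨E, by simpa using h2, by simpa using h1⟩
    | succ m ih =>
      intro E h1 h2
      obtain ⟨R, hR⟩ := exists_drop h (D := D + h.pull E) (by omega)
      refine ih (E - Finsupp.single R 1) ?_ ?_
      · rw [map_sub, show h.pull (Finsupp.single R 1) = Finsupp.single (h.up R) (1 : ℤ) from
          Finsupp.mapDomain_single, ← add_sub_assoc, hR, h1]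
        omega
      · rw [map_sub, Divisor.degree_single, h.func.deg_eq_one, h2]
        omega
  set n : ℤ := max c ((FA.Curve.genus k F : ℤ) - 1)
  have hdeg : Divisor.degree (Finsupp.single P n : Divisor k F) = n := by
    rw [Divisor.degree_single, h.func.deg_eq_one]; omega
  have hell := hc (D + h.pull (Finsupp.single P n)) (by
    rw [map_add, hD, h.degree_pull, hdeg, zero_add]; exact le_max_left _ _)
  rw [map_add, hD, h.degree_pull, hdeg, hg] at hell
  have hn : (FA.Curve.genus k F : ℤ) - 1 ≤ n := le_max_right _ _
  exact main (n - ((FA.Curve.genus k F : ℤ) - 1)).toNat (Finsupp.single P n) (by omega) (by omega)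

/-- One more place gives one function. -/
theorem ell_twist_add_single {D : Divisor L F'} (hD : Divisor.degree D = 0) {E : Divisor k F}
    (hE : Divisor.degree E = (FA.Curve.genus k F : ℤ) - 1) (h0 : ell (D + h.pull E) = 0)
    (P : Place k F) : ell (D + h.pull (E + Finsupp.single P 1)) = 1 := by
  have hF' := h.isFunctionField
  have hdeg : Divisor.degree (E + Finsupp.single P 1) = (FA.Curve.genus k F : ℤ) := by
    rw [map_add, Divisor.degree_single, h.func.deg_eq_one, hE]; omega
  refine le_antisymm ?_ ?_
  · have hle : D + h.pull E ≤ D + h.pull (E + Finsupp.single P 1) := by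
      rw [map_add, show h.pull (Finsupp.single P 1) = Finsupp.single (h.up P) (1 : ℤ) from
          Finsupp.mapDomain_single, ← add_assoc]
      exact le_add_of_nonneg_right (Finsupp.single_nonneg.2 zero_le_one)
    have := ell_sub_degree_anti hF' hle
    rw [map_add Divisor.degree, map_add Divisor.degree, h.degree_pull, h.degree_pull, hdeg, hE,
      hD, h0] at this
    omega
  · have := riemann_inequality hF' (D + h.pull (E + Finsupp.single P 1))
    rw [map_add, hD, h.degree_pull, hdeg, genus_map h] at this
    omega

end abstract

end FA.Jac.Twist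

namespace FA.Jac.Crv

universe u

open CategoryTheory AlgebraicGeometry

variable {k : Type u} [Field k] [IsAlgClosed k] (V : Crv k) {k' : Type u} [Field k']
  [IsAlgClosed k'] (a : Spec (CommRingCat.of k') ⟶ Spec (CommRingCat.of k))

/-- A twist from `k` of degree `g - 1` without functions, and with one more place exactly one. -/
theorem exists_twist (D : Divisor k' (V.bc a).F) (hD : Divisor.degree D = 0) :
    ∃ E : Divisor k V.F, Divisor.degree E = (FA.Curve.genus k V.F : ℤ) - 1 ∧
      ell (D + (V.isExt_bcFF a).pull E) = 0 ∧
      ∀ P : Place k V.F, ell (D + (V.isExt_bcFF a).pull (E + Finsupp.single P 1)) = 1 := by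
  obtain ⟨E, hE, h0⟩ := Twist.exists_twist (V.isExt_bcFF a) D hD
  exact ⟨E, hE, h0, Twist.ell_twist_add_single (V.isExt_bcFF a) hD hE h0⟩

end FA.Jac.Crv

end
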