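import Fermat.Agent.Jac.ChartCoverAlg
import Fermat.Agent.Jac.Twist

/-!
# Covering by charts: a class of degree zero over a field is, up to a constant class, the class of
an ideal

The twisted class has one section; its zeros avoid the base point and cut out an ideal of
colength the genus, which is a `b`-ideal for a basis chosen among the functions of the curve.
-/

set_option autoImplicit false
set_option linter.style.haveILetI false
set_option linter.unusedSectionVars false

noncomputable section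

universe u

open CategoryTheory CategoryTheory.Limits AlgebraicGeometry TopologicalSpace
open NeronModelInfra AlgebraicGeometry.RelPicard AlgebraicCurve FA.Curve FA.AbTors FA.ModField
open scoped TensorProduct

namespace FA.Jac

namespace Chart

section Germs

variable {k : Type u} [Field k] {V : Crv k}

/-- A germ as a rational function. -/
def toFF (z : V.C) : V.C.presheaf.stalk z →+* V.C.functionField :=
  algebraMap (V.C.presheaf.stalk z) V.C.functionField

theorem toFF_injective (z : V.C) : Function.Injective (toFF z) :=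
  IsFractionRing.injective (V.C.presheaf.stalk z) V.C.functionField

theorem toFF_gm {W : V.C.Opens} {z : V.C} (hz : z ∈ W) (a : Γ(V.C, W)) :
    toFF z (gm W z hz a) = evF (genPt V.C) W (gen_le hz) a := by
  rw [evF_genPt (genericPoint_mem hz)]
  exact congrArg (fun ψ : Γ(V.C, W) ⟶ V.C.functionField => ψ.hom a)
    (V.C.presheaf.germ_stalkSpecializes hz _)

theorem toFF_germAt {c : Coc V.C} (s : Sec c ⊤) (z : V.C) :
    toFF z (germAt s z (Opens.mem_top z)) =
      c.rat z (ctr V.gen) * (show V.C.functionField from V.secVal c s) :=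
  (toFF_gm (mi (Opens.mem_top z) (c.mem z)) (s.1 z)).trans
    (Crv.evF_sec (V := V) (W := ⊤) trivial s z)

theorem isUnit_of_unitAt {z : V.C} {r : V.C.presheaf.stalk z} (h : UnitAt z (toFF z r)) :
    IsUnit r := by
  obtain ⟨r', hr'⟩ := regAt_iff_mem_range.1 h.inv.regAt
  refine isUnit_iff_exists_inv.2 ⟨r', toFF_injective z ?_⟩
  rw [map_mul, map_one, show toFF z r' = (toFF z r)⁻¹ from hr', mul_inv_cancel₀ h.ne_zero]

theorem mem_span_iff_regAt {z : V.C} {a b : V.C.presheaf.stalk z} (hb : b ≠ 0) :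
    a ∈ Ideal.span {b} ↔ RegAt z (toFF z a / toFF z b) := by
  have hb' : toFF z b ≠ 0 := (map_ne_zero_iff _ (toFF_injective z)).2 hb
  rw [Ideal.mem_span_singleton', regAt_iff_mem_range]
  constructor
  · rintro ⟨r, rfl⟩
    exact ⟨r, by rw [map_mul, mul_div_cancel_right₀ _ hb']; rfl⟩
  · rintro ⟨r, hr⟩
    refine ⟨r, toFF_injective z ?_⟩
    rw [map_mul, show toFF z r = toFF z a / toFF z b from hr, div_mul_cancel₀ _ hb']

variable {c : Coc V.C} {s : Sec c ⊤} (hs : V.secVal c s ≠ 0)
include hs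

theorem rat_mul_ne_zero (z : V.C) :
    c.rat z (ctr V.gen) * (show V.C.functionField from V.secVal c s) ≠ 0 :=
  mul_ne_zero (c.rat_ne_zero _ _) hs

theorem germAt_ne_zero (z : V.C) : germAt s z (Opens.mem_top z) ≠ 0 := fun h =>
  rat_mul_ne_zero hs z (by rw [← toFF_germAt s z, h, map_zero])

theorem regular_of_secVal_ne_zero : Regular s := fun z _ =>
  (IsRegular.of_ne_zero (germAt_ne_zero hs z))

variable [IsAlgClosed k]

theorem isUnit_germAt {v : Place k V.F} (h : V.dv c v + v.ord (V.secVal c s) = 0) :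
    IsUnit (germAt s (V.cen v) (Opens.mem_top _)) :=
  isUnit_of_unitAt (by rw [toFF_germAt]; exact Crv.unitAt_rat_mul hs h)

/-- Membership in the ideal of a section. -/
theorem mem_ideal_iff_atLeast {W : V.C.Opens} (hW : IsAffineOpen W) {J : Ideal Γ(V.C, W)}
    (hJ : ∀ z (hz : z ∈ W), J.map (gm W z hz) = Ideal.span {germAt s z (Opens.mem_top z)})
    (hη : genericPoint V.C ∈ W) (y : Γ(V.C, W)) :
    y ∈ J ↔ ∀ v : Place k V.F, V.cen v ∈ W →
      AtLeast v (V.dv c v + v.ord (V.secVal c s))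
        (show V.F from evF (genPt V.C) W (gen_le hη) y) := by
  set φ : V.F := evF (genPt V.C) W (gen_le hη) y
  have key : ∀ (v : Place k V.F) (hv : V.cen v ∈ W),
      gm W (V.cen v) hv y ∈ Ideal.span {germAt s (V.cen v) (Opens.mem_top _)} ↔
        AtLeast v (V.dv c v + v.ord (V.secVal c s)) φ := by
    intro v hv
    rw [mem_span_iff_regAt (germAt_ne_zero hs _), toFF_germAt, toFF_gm]
    let r : V.F := c.rat (V.cen v) (ctr V.gen)
    have hr : r ≠ 0 := c.rat_ne_zero _ _
    show RegAt (V.cen v) (φ / (r * V.secVal c s)) ↔ AtLeast v (v.ord r + _) φ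
    rw [Crv.regAt_cen_iff, div_eq_mul_inv, mul_comm,
      Crv.atLeast_zero_mul (inv_ne_zero (mul_ne_zero hr hs)), v.ord_inv, neg_neg, v.ord_mul hr hs]
  rw [hW.mem_ideal_iff]
  refine ⟨fun h v hv => (key v hv).1 (hJ _ hv ▸ h _ hv), fun h z hz => ?_⟩
  rw [show (V.C.presheaf.germ W z hz).hom y = gm W z hz y from rfl, hJ z hz]
  obtain rfl | ⟨v, rfl⟩ := Crv.eq_generic_or_cen z
  · have hu : IsUnit (germAt s (genericPoint V.C) (Opens.mem_top _)) :=
      isUnit_of_unitAt (unitAt_generic (by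
        rw [map_ne_zero_iff _ (toFF_injective _)]; exact germAt_ne_zero hs _))
    rw [Ideal.span_singleton_eq_top.2 hu]
    exact Submodule.mem_top
  · exact (key v hz).2 (h v hz)

end Germs

variable {k : Type u} [Field k] [IsAlgClosed k] {V : Crv k} (Cv : V.Cover)
variable {k' : Type u} [Field k'] [IsAlgClosed k'] [Algebra k k']

theorem genericPoint_mem_W0 : genericPoint (V.bc (st k')).C ∈ Cv.W0 (st k') := by
  show V.bcFst (st k') (genericPoint (V.bc (st k')).C) ∈ Cv.U0
  rw [V.bcFst_generic]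
  exact Cv.generic_mem

theorem cen_mem_W0_iff {P₀ : Place k V.F} (hP₀ : V.cen P₀ = V.ptPt)
    (v : Place k' (V.bc (st k')).F) :
    (V.bc (st k')).cen v ∈ Cv.W0 (st k') ↔ v ≠ (V.isExt_bcFF (st k')).up P₀ := by
  have hout : (V.bc (st k')).cen ((V.isExt_bcFF (st k')).up P₀) ∉ Cv.W0 (st k') := fun h => by
    have h' : V.bcFst (st k') ((V.bc (st k')).cen ((V.isExt_bcFF (st k')).up P₀)) ∈
        (Cv.U0 : Set V.C) := h
    rw [V.bcFst_cen_up, hP₀, Cv.coe_U0] at h'
    exact h' rfl
  refine ⟨fun h e => hout (e ▸ h), fun hne => ?_⟩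
  by_contra h
  obtain ⟨y, hy⟩ := Cv.exists_rig h
  obtain ⟨y', hy'⟩ := Cv.exists_rig hout
  haveI : Subsingleton (Spec (CommRingCat.of k') : Scheme.{u}) :=
    inferInstanceAs (Subsingleton (PrimeSpectrum k'))
  exact hne (Crv.cen_injective
    (hy.symm.trans ((congrArg _ (Subsingleton.elim y y')).trans hy')))

theorem evF_scalarW (x : k') {z : (V.bc (st k')).C} (hz : z ∈ Cv.W0 (st k')) :
    evF (genPt (V.bc (st k')).C) (Cv.W0 (st k')) (gen_le hz) (V.scalarW (st k') Cv.U0 x) =
      algebraMap k' (V.bc (st k')).F x := by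
  refine Eq.trans (congrArg (evF (genPt (V.bc (st k')).C) _ (gen_le hz)) ?_)
    (Growth.evF_sectionsHom (V.bc (st k')).str hz x)
  exact rsF_apF (pullback.snd V.str (st k')) (U := ⊤) (V := ⊤) le_top le_top _

/-- The functions away from the base point as rational functions. -/
def evW : k' ⊗[k] Γ(V.C, Cv.U0) →ₗ[k'] (V.bc (st k')).F where
  toFun z := (evF (genPt (V.bc (st k')).C) (Cv.W0 (st k'))
    (gen_le (genericPoint_mem_W0 Cv)) (Cv.eW k' z) : (V.bc (st k')).C.functionField)
  map_add' z w := by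
    rw [map_add]; exact map_add _ _ _
  map_smul' x z := by
    rw [RingHom.id_apply, Algebra.smul_def x z, map_mul,
      Algebra.TensorProduct.algebraMap_apply, Cv.eW_tmul, map_one, mul_one]
    refine (map_mul _ _ _).trans ?_
    refine Eq.trans ?_ (Algebra.smul_def x _).symm
    exact congrArg (· * _) (evF_scalarW Cv x (genericPoint_mem_W0 Cv))

theorem evW_injective : Function.Injective (evW Cv (k' := k')) := fun _ _ h =>
  (Cv.eW k').injective (evF_genPt_injective (X := (V.bc (st k')).C) (genericPoint_mem_W0 Cv) h)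

theorem mem_range_evW {P₀ : Place k V.F} (hP₀ : V.cen P₀ = V.ptPt) (φ : (V.bc (st k')).F) :
    φ ∈ LinearMap.range (evW Cv (k' := k')) ↔
      ∀ v, v ≠ (V.isExt_bcFF (st k')).up P₀ → AtLeast v 0 φ := by
  constructor
  · rintro ⟨z, rfl⟩ v hv
    exact Crv.regAt_cen_iff.1
      ⟨Cv.W0 (st k'), (cen_mem_W0_iff Cv hP₀ v).2 hv, Cv.eW k' z, rfl⟩
  · intro h
    have hreg : ∀ z ∈ Cv.W0 (st k'), RegAt (X := (V.bc (st k')).C) z φ := fun z hz => by
      obtain rfl | ⟨v, rfl⟩ := Crv.eq_generic_or_cen (V := V.bc (st k')) z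
      · exact Crv.regAt_generic φ
      · exact Crv.regAt_cen_iff.2 (h v ((cen_mem_W0_iff Cv hP₀ v).1 hz))
    obtain ⟨a, ha⟩ := exists_sec (X := (V.bc (st k')).C) (genericPoint_mem_W0 Cv) hreg
    obtain ⟨z, rfl⟩ := (Cv.eW k').surjective a
    exact ⟨z, ha⟩

/-- A divisor with one section gives a frame of rank one. -/
theorem exists_oneFrame {a : Spec (CommRingCat.of k') ⟶ Spec (CommRingCat.of k)}
    (c : Coc (V.bc a).C) (hdeg : Divisor.degree ((V.bc a).dv c) = (FA.Curve.genus k V.F : ℤ))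
    (hell : ell ((V.bc a).dv c) = 1) :
    ∃ s : Sec c ⊤, (V.bc a).secVal c s ≠ 0 ∧
      (V.bc a).secVal c s ∈ riemannRochSpace ((V.bc a).dv c) ∧ OneFrame Cv a c s := by
  haveI := finite_riemannRochSpace (V.bc a).isFunctionField ((V.bc a).dv c)
  have hfr : Module.finrank k' (riemannRochSpace ((V.bc a).dv c)) = 1 := by
    rw [ell] at hell; exact_mod_cast hell
  obtain ⟨⟨f, hfD⟩, hf0, hfspan⟩ :=
    (finrank_eq_one_iff' (K := k') (V := riemannRochSpace ((V.bc a).dv c))).1 hfr
  replace hf0 : f ≠ 0 := fun e => hf0 (Subtype.ext e)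
  obtain ⟨s, hs⟩ : f ∈ Set.range ((V.bc a).secVal c) := by
    rw [Crv.range_secVal]; exact hfD
  subst hs
  refine ⟨s, hf0, hfD, (V.nonspecial_iff a Cv c).2 (by rw [hell, hdeg]; ring),
    fun x y hxy => ?_, fun t => ?_⟩
  · have h1 : (V.bc a).secVal c (Sec.smulF (V.scalar a x) s) =
        (V.bc a).secVal c (Sec.smulF (V.scalar a y) s) :=
      congrArg ((V.bc a).secVal c) hxy
    have h2 : algebraMap k' (V.bc a).F x * (V.bc a).secVal c s =
        algebraMap k' (V.bc a).F y * (V.bc a).secVal c s :=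
      (secVal_smul x s).symm.trans (h1.trans (secVal_smul y s))
    exact (algebraMap k' (V.bc a).F).injective (mul_right_cancel₀ hf0 h2)
  · have ht : (V.bc a).secVal c t ∈ riemannRochSpace ((V.bc a).dv c) :=
      ((V.bc a).range_secVal c).le ⟨t, rfl⟩
    obtain ⟨x, hx'⟩ := hfspan ⟨_, ht⟩
    refine ⟨x, (V.bc a).secVal_injective c ?_⟩
    refine (secVal_smul x s).trans ((Algebra.smul_def _ _).symm.trans ?_)
    exact congrArg Subtype.val hx'

/-- The zeros of a section cut out a `b`-ideal. -/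
theorem exists_bIdeal_of_sec {P₀ : Place k V.F} (hP₀ : V.cen P₀ = V.ptPt)
    {c : Coc (V.bc (st k')).C} {s : Sec c ⊤} (hs0 : (V.bc (st k')).secVal c s ≠ 0)
    (hD : (V.bc (st k')).secVal c s ∈ riemannRochSpace ((V.bc (st k')).dv c))
    (hP : (V.bc (st k')).dv c ((V.isExt_bcFF (st k')).up P₀) +
      ((V.isExt_bcFF (st k')).up P₀).ord ((V.bc (st k')).secVal c s) = 0)
    {g : ℕ} (hdeg : Divisor.degree ((V.bc (st k')).dv c) = (g : ℤ)) :
    ∃ (b : Fin g → Γ(V.C, Cv.U0)) (J : Ideal (k' ⊗[k] Γ(V.C, Cv.U0))),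
      Hilb.IsBIdeal b J ∧ Pres Cv J s := by
  classical
  have hF' := (V.bc (st k')).isFunctionField
  set P := (V.isExt_bcFF (st k')).up P₀
  set f := (V.bc (st k')).secVal c s
  set Z : Divisor k' (V.bc (st k')).F := (V.bc (st k')).dv c + divOf hF' f with hZdef
  have hZv : ∀ v, Z v = (V.bc (st k')).dv c v + v.ord f := fun v => rfl
  have hZ : 0 ≤ Z := Finsupp.le_def.2 fun v => by
    have h := (atLeast_iff hs0).1 (mem_riemannRochSpace.1 hD v)
    rw [hZv, Finsupp.zero_apply]
    omega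
  have hdegZ : Divisor.degree Z = g := by
    rw [hZdef, map_add, hdeg, degree_divOf, add_zero]
  obtain ⟨JW, hJW⟩ := exists_ideal (Cv.affine_W0 (st k')) s
  obtain ⟨J, hJ⟩ := Cv.idealW_surjective (A := k') JW
  have hreg : Regular s := regular_of_secVal_ne_zero (V := V.bc (st k')) hs0
  have hunit : ∀ z, z ∉ Cv.W0 (st k') → IsUnit (germAt s z (Opens.mem_top z)) := fun z hz => by
    obtain rfl | ⟨v, rfl⟩ := Crv.eq_generic_or_cen (V := V.bc (st k')) z
    · exact absurd (genericPoint_mem_W0 Cv) hz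
    · have hv : v = P := by
        by_contra hne
        exact hz ((cen_mem_W0_iff Cv hP₀ v).2 hne)
      subst hv
      exact isUnit_germAt (V := V.bc (st k')) hs0 hP
  have hmemJ : ∀ z : k' ⊗[k] Γ(V.C, Cv.U0), z ∈ J.restrictScalars k' ↔
      ∀ v, v ≠ P → AtLeast v (Z v) (evW Cv z) := fun z => by
    have h1 : z ∈ J ↔ Cv.eW k' z ∈ JW := by
      rw [← hJ]
      refine ⟨fun h => Ideal.mem_map_of_mem (Cv.eW k').toRingHom h, fun h => ?_⟩
      obtain ⟨z', hz', e⟩ :=
        (Ideal.mem_map_iff_of_surjective (Cv.eW k').toRingHom (Cv.eW k').surjective).1 h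
      exact (Cv.eW k').injective e ▸ hz'
    refine (Submodule.restrictScalars_mem k' J z).trans (h1.trans
      ((mem_ideal_iff_atLeast (V := V.bc (st k')) hs0 (Cv.affine_W0 (st k')) hJW
        (genericPoint_mem_W0 Cv) (Cv.eW k' z)).trans ?_))
    exact forall_congr' fun v => imp_congr_left (cen_mem_W0_iff Cv hP₀ v)
  obtain ⟨hfin, hdim⟩ := finrank_quot_eq_degree hF' (evW Cv) (evW_injective Cv) P Z hZ
    (show Z P = 0 from hP) (mem_range_evW Cv hP₀) (J.restrictScalars k') hmemJ
  let e := Submodule.Quotient.restrictScalarsEquiv k' J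
  haveI : Module.Finite k' ((k' ⊗[k] Γ(V.C, Cv.U0)) ⧸ J) := Module.Finite.equiv e
  have hdim' : Module.finrank k' ((k' ⊗[k] Γ(V.C, Cv.U0)) ⧸ J) = g := by
    rw [← LinearEquiv.finrank_eq e]
    omega
  obtain ⟨b, hb⟩ := exists_isBIdeal J hdim'
  exact ⟨b, J, hb, ⟨⟨fun z hz => hJ ▸ hJW z hz, hunit⟩, hreg⟩⟩

/-- A class of degree zero over a field with a nonspecial twist is the class of an ideal, up to a
constant class. -/
theorem exists_bIdeal_of_twist (q : FA.AbTors.Pic (V.X (st (k := k) k')))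
    (hq : (V.bc (st k')).deg q = 0)
    (htw : ∀ D : Divisor k' (V.bc (st k')).F, Divisor.degree D = 0 →
      ∃ E : Divisor k V.F, Divisor.degree E = (FA.Curve.genus k V.F : ℤ) - 1 ∧
        ell (D + (V.isExt_bcFF (st k')).pull E) = 0) :
    ∃ p0 : FA.AbTors.Pic V.C, V.deg p0 = (FA.Curve.genus k V.F : ℤ) ∧
      ∃ (b : Fin (FA.Curve.genus k V.F) → Γ(V.C, Cv.U0))
        (J : Ideal (k' ⊗[k] Γ(V.C, Cv.U0))),
        Hilb.IsBIdeal b J ∧ OneFrameI Cv J ∧ clsI Cv J = q + Crv.cst (st k') p0 := by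
  classical
  set hx := V.isExt_bcFF (st k') with hxdef
  have hF' := (V.bc (st k')).isFunctionField
  obtain ⟨(c₁ : Coc (V.bc (st k')).C), rfl⟩ := FA.AbTors.Pic.mk_surjective q
  obtain ⟨E, hE, hell0⟩ := htw ((V.bc (st k')).dv c₁) hq
  obtain ⟨P₀, hP₀⟩ := Crv.exists_cen_eq (V := V) (z := V.ptPt) (V.point_ne_generic V.pt)
  set E' : Divisor k V.F := E + Finsupp.single P₀ 1
  have hE' : Divisor.degree E' = FA.Curve.genus k V.F := by
    rw [map_add, hE, Divisor.degree_single, V.isFunctionField.deg_eq_one]; simp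
  refine ⟨FA.AbTors.Pic.mk (Crv.divCoc E'), by rw [Crv.deg_mk, Crv.dv_divCoc, hE'], ?_⟩
  let c : Coc (V.bc (st k')).C := c₁ * (Crv.divCoc E').pull (V.bcFst (st k'))
  have hdv : (V.bc (st k')).dv c =
      (V.bc (st k')).dv c₁ + hx.pull E + Finsupp.single (hx.up P₀) 1 := by
    rw [Crv.dv_mul, Crv.dv_pull_fst, Crv.dv_divCoc, map_add, ← add_assoc]
    congr 1
    exact Finsupp.mapDomain_single
  set D := (V.bc (st k')).dv c with hD
  set g := FA.Curve.genus k V.F
  have hg' : FA.Curve.genus k' (V.bc (st k')).F = g := V.genus_bc (st k')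
  have hD0 : Divisor.degree ((V.bc (st k')).dv c₁) = 0 := hq
  have hdeg : Divisor.degree D = g := by
    rw [hdv, map_add, map_add, hD0, hx.degree_pull, hE, Divisor.degree_single, hF'.deg_eq_one]
    simp
  have hell : ell D = 1 := by
    have h1 := riemann_inequality hF' D
    have h2 := ell_sub_degree_anti hF'
      (show (V.bc (st k')).dv c₁ + hx.pull E ≤ D by
        rw [hdv]; exact le_add_of_nonneg_right (Finsupp.le_def.2 fun v => by
          rw [Finsupp.single_apply]; split_ifs <;> simp))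
    rw [hell0, map_add, hD0, hx.degree_pull, hE, hdeg] at h2
    omega
  obtain ⟨s, hs0, hfD, hframe⟩ := exists_oneFrame Cv c hdeg hell
  have hP : D (hx.up P₀) + (hx.up P₀).ord ((V.bc (st k')).secVal c s) = 0 := by
    by_contra hne
    have hmem : (V.bc (st k')).secVal c s ∈
        riemannRochSpace ((V.bc (st k')).dv c₁ + hx.pull E) := by
      refine mem_riemannRochSpace.2 fun v => Or.inr ?_
      have h : -D v ≤ v.ord ((V.bc (st k')).secVal c s) :=
        (atLeast_iff hs0).1 (mem_riemannRochSpace.1 hfD v)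
      rcases eq_or_ne v (hx.up P₀) with rfl | hv
      · simp only [hdv, Finsupp.add_apply, Finsupp.single_eq_same] at h hne ⊢
        omega
      · simp only [hdv, Finsupp.add_apply, Finsupp.single_eq_of_ne hv] at h ⊢
        omega
    haveI := finite_riemannRochSpace hF' ((V.bc (st k')).dv c₁ + hx.pull E)
    have h0 : riemannRochSpace ((V.bc (st k')).dv c₁ + hx.pull E) = ⊥ :=
      Submodule.finrank_eq_zero.1 (by rw [ell] at hell0; exact_mod_cast hell0)
    rw [h0, Submodule.mem_bot] at hmem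
    exact hs0 hmem
  obtain ⟨b, J, hb, hpres⟩ := exists_bIdeal_of_sec Cv hP₀ hs0 hfD hP hdeg
  exact ⟨b, J, hb, ⟨c, s, hpres, hframe⟩, clsI_eq hpres⟩

/-- A class of degree zero over a field is the class of an ideal up to a constant class. -/
theorem exists_bIdeal_of_class (q : FA.AbTors.Pic (V.X (st (k := k) k')))
    (hq : (V.bc (st k')).deg q = 0) :
    ∃ p0 : FA.AbTors.Pic V.C, V.deg p0 = (FA.Curve.genus k V.F : ℤ) ∧
      ∃ (b : Fin (FA.Curve.genus k V.F) → Γ(V.C, Cv.U0))
        (J : Ideal (k' ⊗[k] Γ(V.C, Cv.U0))),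
        Hilb.IsBIdeal b J ∧ OneFrameI Cv J ∧ clsI Cv J = q + Crv.cst (st k') p0 :=
  exists_bIdeal_of_twist Cv q hq fun D hD => by
    obtain ⟨E, hE, h0, -⟩ := V.exists_twist (st k') D hD
    exact ⟨E, hE, h0⟩

end Chart

end FA.Jac

end
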