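import Fermat.Agent.Jac.DictSec
import Mathlib.LinearAlgebra.Dimension.Finite

/-!
# The complex of two opens computes the speciality of a divisor

The sections over an open are the union of the spaces of `D + m E` for the sum `E` of the missing
places; for large `m` these have the expected dimensions.
-/

set_option autoImplicit false
set_option linter.style.haveILetI false
set_option linter.unusedSectionVars false

noncomputable section

universe u

open CategoryTheory CategoryTheory.Limits AlgebraicGeometry TopologicalSpace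
open NeronModelInfra AlgebraicCurve FA.Curve FA.AbTors FA.ModField

namespace FA.Jac.Crv

variable {k : Type u} [Field k] {F : Type u} [Field F] [Algebra k F]

/-- The sum of finitely many places. -/
def sumPl (S : Finset (Place k F)) : Divisor k F := ∑ v ∈ S, Finsupp.single v (1 : ℤ)

theorem sumPl_apply [DecidableEq (Place k F)] (S : Finset (Place k F)) (v : Place k F) :
    sumPl S v = if v ∈ S then 1 else 0 := by
  simp [sumPl, Finsupp.finsetSum_apply, Finsupp.single_apply]

theorem degree_sumPl [IsAlgClosed k] (hF : IsFunctionField k F) (S : Finset (Place k F)) :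
    Divisor.degree (sumPl S) = S.card := by
  rw [sumPl, map_sum, Finset.sum_congr rfl fun v _ => by
    rw [Divisor.degree_single, hF.deg_eq_one]]
  simp

variable [IsAlgClosed k] {V : Crv k} {c : Coc V.C}

/-- The sections over an open, as functions with bounded poles at the missing places. -/
theorem mem_range_iff_exists {W : V.C.Opens} (hW : genericPoint V.C ∈ W)
    {S : Finset (Place k V.F)} (hS : ∀ v, V.cen v ∈ W ↔ v ∉ S) {f : V.F} :
    f ∈ Set.range (secValW c hW) ↔
      ∃ m : ℕ, f ∈ riemannRochSpace (V.dv c + m • sumPl S) := by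
  classical
  simp only [mem_range_secValW, hS, mem_riemannRochSpace, Finsupp.add_apply, Finsupp.smul_apply,
    sumPl_apply]
  constructor
  · intro h
    refine ⟨S.sup fun v => (-v.ord f - V.dv c v).toNat, fun v => ?_⟩
    by_cases hv : v ∈ S
    · rw [if_pos hv]
      refine Or.inr ?_
      have := Finset.le_sup (f := fun v => (-v.ord f - V.dv c v).toNat) hv
      simp only [nsmul_eq_mul, mul_one]
      omega
    · rw [if_neg hv, smul_zero, add_zero]
      exact h v hv
  · rintro ⟨m, hm⟩ v hv
    simpa [if_neg hv] using hm v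

/-- The first cohomology of two opens vanishes exactly when the divisor is nonspecial. -/
theorem surjective_iff {W0 W1 : V.C.Opens} (h0 : genericPoint V.C ∈ W0)
    (h1 : genericPoint V.C ∈ W1) {S0 S1 : Finset (Place k V.F)}
    (hS0 : ∀ v, V.cen v ∈ W0 ↔ v ∉ S0) (hS1 : ∀ v, V.cen v ∈ W1 ↔ v ∉ S1)
    (hd : Disjoint S0 S1) (hn0 : S0.Nonempty) (hn1 : S1.Nonempty) :
    Function.Surjective (((Sec.res (c := c) (inf_le_left : W0 ⊓ W1 ≤ W0)).comp
        (AddMonoidHom.fst (Sec c W0) (Sec c W1))) -
          ((Sec.res (c := c) (inf_le_right : W0 ⊓ W1 ≤ W1)).comp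
            (AddMonoidHom.snd (Sec c W0) (Sec c W1)))) ↔
      ell (V.dv c) = Divisor.degree (V.dv c) + 1 - FA.Curve.genus k V.F := by
  classical
  have h01 : genericPoint V.C ∈ W0 ⊓ W1 := ⟨h0, h1⟩
  have hS01 : ∀ v, V.cen v ∈ W0 ⊓ W1 ↔ v ∉ S0 ∪ S1 := fun v => by
    rw [Finset.mem_union, not_or, ← hS0, ← hS1]; rfl
  have hF := V.isFunctionField
  set D := V.dv c
  let L0 := fun m : ℕ => riemannRochSpace (D + m • sumPl S0)
  let L1 := fun m : ℕ => riemannRochSpace (D + m • sumPl S1)
  let L := fun m : ℕ => riemannRochSpace (D + m • sumPl (S0 ∪ S1))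
  have hnot : ∀ v, v ∈ S0 → v ∉ S1 := fun v hv => Finset.disjoint_left.1 hd hv
  have hle : ∀ m : ℕ, L0 m ⊔ L1 m ≤ L m := fun m => by
    refine sup_le (riemannRochSpace_mono (Finsupp.le_def.2 fun v => ?_))
      (riemannRochSpace_mono (Finsupp.le_def.2 fun v => ?_)) <;>
    · simp only [Finsupp.add_apply, Finsupp.smul_apply, sumPl_apply, Finset.mem_union,
        nsmul_eq_mul]
      split_ifs with h h' <;> first | (simp; done) | exact absurd (by tauto) h'
  have hinf : ∀ m : ℕ, L0 m ⊓ L1 m = riemannRochSpace D := fun m => by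
    ext f
    simp only [Submodule.mem_inf, L0, L1, mem_riemannRochSpace, Finsupp.add_apply,
      Finsupp.smul_apply, sumPl_apply, nsmul_eq_mul]
    refine ⟨fun ⟨ha, hb⟩ v => ?_, fun h => ⟨fun v => (h v).mono ?_, fun v => (h v).mono ?_⟩⟩
    · by_cases hv : v ∈ S0
      · simpa [if_neg (hnot v hv)] using hb v
      · simpa [if_neg hv] using ha v
    all_goals (split_ifs <;> simp)
  obtain ⟨c₀, hc₀⟩ := exists_threshold hF
  set m₀ : ℕ := (c₀ - Divisor.degree D).toNat
  have hdeg : ∀ (m : ℕ) (S : Finset (Place k V.F)),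
      Divisor.degree (D + m • sumPl S) = Divisor.degree D + m * S.card := fun m S => by
    rw [map_add, map_nsmul, degree_sumPl hF, nsmul_eq_mul]
  have hdim : ∀ m : ℕ, m₀ ≤ m → ∀ S : Finset (Place k V.F), S.Nonempty →
      ell (D + m • sumPl S) = Divisor.degree D + m * S.card + 1 - FA.Curve.genus k V.F := by
    intro m hm S hS
    rw [hc₀ _ ?_, hdeg]
    rw [hdeg]
    have : (m : ℤ) * 1 ≤ m * S.card :=
      mul_le_mul_of_nonneg_left (by exact_mod_cast hS.card_pos) (Int.natCast_nonneg m)
    omega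
  have hcrit : ∀ m : ℕ, m₀ ≤ m →
      (L0 m ⊔ L1 m = L m ↔
        ell D = Divisor.degree D + 1 - FA.Curve.genus k V.F) := by
    intro m hm
    haveI : Module.Finite k (L0 m) := finite_riemannRochSpace hF _
    haveI : Module.Finite k (L1 m) := finite_riemannRochSpace hF _
    haveI : Module.Finite k (L m) := finite_riemannRochSpace hF _
    have e := Submodule.finrank_sup_add_finrank_inf_eq (L0 m) (L1 m)
    rw [hinf m] at e
    have e0 : (Module.finrank k (L0 m) : ℤ) = _ := hdim m hm S0 hn0
    have e1 : (Module.finrank k (L1 m) : ℤ) = _ := hdim m hm S1 hn1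
    have eL : (Module.finrank k (L m) : ℤ) = _ :=
      hdim m hm (S0 ∪ S1) (hn0.mono Finset.subset_union_left)
    have eD : ell D = (Module.finrank k (riemannRochSpace D) : ℤ) := rfl
    rw [Finset.card_union_of_disjoint hd] at eL
    push_cast at eL
    rw [mul_add] at eL
    refine ⟨fun h => ?_, fun h => Submodule.eq_of_le_of_finrank_eq (hle m) ?_⟩
    · have h' : Module.finrank k ↥(L0 m ⊔ L1 m) = Module.finrank k (L m) := by rw [h]
      omega
    · omega
  constructor
  · intro hsur
    refine (hcrit m₀ le_rfl).1 (le_antisymm (hle m₀) fun f hf => ?_)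
    obtain ⟨s, hs⟩ := (mem_range_iff_exists h01 hS01 (c := c)).2 ⟨m₀, hf⟩
    obtain ⟨⟨s₀, s₁⟩, hd'⟩ := hsur s
    have hv : secValW c h0 s₀ - secValW c h1 s₁ = f := by
      rw [← hs, ← hd', ← secValW_res inf_le_left h01 s₀, ← secValW_res inf_le_right h01 s₁,
        ← map_sub]
      simp only [AddMonoidHom.sub_apply, AddMonoidHom.comp_apply, AddMonoidHom.coe_fst,
        AddMonoidHom.coe_snd]
    have hx : ∀ v, v ∉ S0 → AtLeast v (-D v) (secValW c h0 s₀) := fun v hv' =>
      (mem_range_secValW h0).1 ⟨s₀, rfl⟩ v ((hS0 v).2 hv')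
    have hy : ∀ v, v ∉ S1 → AtLeast v (-D v) (secValW c h1 s₁) := fun v hv' =>
      (mem_range_secValW h1).1 ⟨s₁, rfl⟩ v ((hS1 v).2 hv')
    have hf' := mem_riemannRochSpace.1 hf
    simp only [Finsupp.add_apply, Finsupp.smul_apply, sumPl_apply, Finset.mem_union,
      nsmul_eq_mul] at hf'
    rw [Submodule.mem_sup]
    refine ⟨secValW c h0 s₀, mem_riemannRochSpace.2 fun v => ?_, -secValW c h1 s₁,
      Submodule.neg_mem _ (mem_riemannRochSpace.2 fun v => ?_),
      by rw [← hv, sub_eq_add_neg]⟩
    · simp only [Finsupp.add_apply, Finsupp.smul_apply, sumPl_apply, nsmul_eq_mul]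
      by_cases hv0 : v ∈ S0
      · rw [show secValW c h0 s₀ = f + secValW c h1 s₁ by rw [← hv]; ring, if_pos hv0]
        exact ((hf' v).mono (by rw [if_pos (Or.inl hv0)])).add
          ((hy v (hnot v hv0)).mono (by omega))
      · exact (hx v hv0).mono (by simp [hv0])
    · simp only [Finsupp.add_apply, Finsupp.smul_apply, sumPl_apply, nsmul_eq_mul]
      by_cases hv1 : v ∈ S1
      · rw [show secValW c h1 s₁ = secValW c h0 s₀ + -f by rw [← hv]; ring, if_pos hv1]
        exact ((hx v fun h => hnot v h hv1).mono (by omega)).add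
          ((hf' v).neg.mono (by rw [if_pos (Or.inr hv1)]))
      · exact (hy v hv1).mono (by simp [hv1])
  · intro hell s
    obtain ⟨m, hm⟩ := (mem_range_iff_exists h01 hS01).1 ⟨s, rfl⟩
    have hmem : secValW c h01 s ∈ L (max m m₀) := by
      refine riemannRochSpace_mono (Finsupp.le_def.2 fun v => ?_) hm
      simp only [Finsupp.add_apply, Finsupp.smul_apply, sumPl_apply, nsmul_eq_mul]
      split_ifs <;> simp [D]
    rw [← (hcrit _ (le_max_right _ _)).2 hell, Submodule.mem_sup] at hmem
    obtain ⟨x, hx, y, hy, hxy⟩ := hmem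
    obtain ⟨s₀, hs₀⟩ := (mem_range_iff_exists h0 hS0 (c := c)).2 ⟨_, hx⟩
    obtain ⟨s₁, hs₁⟩ := (mem_range_iff_exists h1 hS1 (c := c)).2 ⟨_, Submodule.neg_mem _ hy⟩
    refine ⟨(s₀, s₁), secValW_injective h01 ?_⟩
    simp only [AddMonoidHom.sub_apply, AddMonoidHom.comp_apply, AddMonoidHom.coe_fst,
      AddMonoidHom.coe_snd]
    rw [map_sub, secValW_res inf_le_left h01 s₀, secValW_res inf_le_right h01 s₁, hs₀, hs₁,
      sub_neg_eq_add, hxy]

end FA.Jac.Crv

end
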