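import Fermat.Agent.Jac.DictBc
import Fermat.Agent.Jac.DictCount

/-!
# The complex of two affines over a field
-/

set_option autoImplicit false
set_option linter.style.haveILetI false
set_option linter.unusedSectionVars false

noncomputable section

universe u

open CategoryTheory CategoryTheory.Limits AlgebraicGeometry TopologicalSpace
open NeronModelInfra AlgebraicGeometry.RelPicard AlgebraicCurve FA.Curve FA.AbTors FA.ModField

namespace FA.Jac.Crv

/-- A non-generic closed point is not the generic point. -/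
theorem generic_mem_of_compl_singleton {k : Type u} [Field k] [IsAlgClosed k] (V : Crv k)
    {U : V.C.Opens} {x : V.C} (h : (U : Set V.C) = {x}ᶜ) : genericPoint V.C ∈ U := by
  have hcl : IsClosed ({x} : Set V.C) := isOpen_compl_iff.1 (h ▸ U.2)
  show genericPoint V.C ∈ (U : Set V.C)
  rw [h]
  intro hx
  haveI := infinite_places V.isFunctionField
  obtain ⟨v⟩ := (inferInstance : Nonempty (Place k V.F))
  have h1 : V.cen v ∈ closure ({genericPoint V.C} : Set V.C) :=
    specializes_iff_mem_closure.1 ((genericPoint_spec V.C).specializes trivial)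
  rw [Set.mem_singleton_iff] at hx
  rw [hx, hcl.closure_eq, Set.mem_singleton_iff, ← hx] at h1
  exact cen_ne v h1

variable {k : Type u} [Field k] [IsAlgClosed k] (V : Crv k)
variable {k' : Type u} [Field k'] [IsAlgClosed k']
variable (a : Spec (CommRingCat.of k') ⟶ Spec (CommRingCat.of k))

/-- A preimage of the complement of a point. -/
theorem exists_missing {U : V.C.Opens} {x : V.C} (h : (U : Set V.C) = {x}ᶜ) :
    genericPoint (V.bc a).C ∈ V.bcFst a ⁻¹ᵁ U ∧
      ∃ S : Finset (Place k' (V.bc a).F), S.Nonempty ∧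
        (∀ v, (V.bc a).cen v ∈ V.bcFst a ⁻¹ᵁ U ↔ v ∉ S) ∧
        ∀ v ∈ S, V.bcFst a ((V.bc a).cen v) = x := by
  have hgen : genericPoint (V.bc a).C ∈ V.bcFst a ⁻¹ᵁ U := by
    show V.bcFst a _ ∈ U
    rw [V.bcFst_generic a]
    exact V.generic_mem_of_compl_singleton h
  refine ⟨hgen, (finite_cen_notMem hgen).toFinset, ?_, fun v => ?_, fun v hv => ?_⟩
  · obtain ⟨z, hz⟩ := V.bcFst_surjective a x
    have hzU : z ∉ V.bcFst a ⁻¹ᵁ U := fun hm => by
      have hm' : V.bcFst a z ∈ (U : Set V.C) := hm
      rw [h, hz] at hm'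
      exact hm' rfl
    obtain ⟨v, rfl⟩ := exists_cen_eq (fun e => hzU (e ▸ hgen) : z ≠ genericPoint (V.bc a).C)
    exact ⟨v, (finite_cen_notMem hgen).mem_toFinset.2 hzU⟩
  · rw [Set.Finite.mem_toFinset]
    exact not_not.symm
  · have h1 : V.bcFst a ((V.bc a).cen v) ∉ (U : Set V.C) :=
      (finite_cen_notMem hgen).mem_toFinset.1 hv
    rw [h] at h1
    simpa using h1

/-- The first cohomology vanishes exactly when the divisor is nonspecial. -/
theorem nonspecial_iff (Cv : V.Cover) (c : Coc (V.bc a).C) :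
    Cv.Nonspecial a c ↔
      ell ((V.bc a).dv c) =
        Divisor.degree ((V.bc a).dv c) + 1 - FA.Curve.genus k V.F := by
  obtain ⟨h0, S0, hn0, hS0, hx0⟩ := V.exists_missing a Cv.coe_U0
  obtain ⟨h1, S1, hn1, hS1, hx1⟩ := V.exists_missing a Cv.coe_U1
  have hd : Disjoint S0 S1 := Finset.disjoint_left.2 fun v hv hv' =>
    Cv.ne ((hx1 v hv').symm.trans (hx0 v hv))
  rw [← V.genus_bc a]
  exact surjective_iff (V := V.bc a) (c := c) h0 h1 hS0 hS1 hd hn0 hn1

/-- The complex over a field computes the space of the divisor. -/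
theorem fieldHolds : V.FieldHolds := fun Cv _ _ _ a c =>
  ⟨V.nonspecial_iff a Cv c, (V.bc a).secVal_injective c, (V.bc a).range_secVal c⟩

/-- A divisor of large degree is nonspecial after every extension of constants. -/
theorem exists_nonspecial_bound :
    ∃ b : ℤ, ∀ (Cv : V.Cover) (k' : Type u) [Field k'] [IsAlgClosed k']
      (a : Spec (CommRingCat.of k') ⟶ Spec (CommRingCat.of k)) (c : Coc (V.bc a).C),
      b ≤ (V.bc a).deg (FA.AbTors.Pic.mk c) → Cv.Nonspecial a c := by
  obtain ⟨D₀, hD₀⟩ := exists_defect_eq_genus V.isFunctionField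
  refine ⟨Divisor.degree D₀ + FA.Curve.genus k V.F, fun Cv k' _ _ a c hc => ?_⟩
  have hF := (V.bc a).isFunctionField
  set D := (V.bc a).dv c
  set E := (V.isExt_bcFF a).pull D₀
  have hg := V.genus_bc a
  have hE : defect E = FA.Curve.genus k' (V.bc a).F := by
    rw [hg, ← hD₀]
    simp only [defect, E, ell_pull_eq (V.isExt_bcFF a), FA.PicTors.IsExt.degree_pull]
  have hdeg : Divisor.degree E = Divisor.degree D₀ := (V.isExt_bcFF a).degree_pull D₀
  replace hc : Divisor.degree D₀ + (FA.Curve.genus k V.F : ℤ) ≤ Divisor.degree D := hc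
  have hpos : 0 < ell (D - E) := by
    have := riemann_inequality hF (D - E)
    rw [map_sub] at this
    omega
  obtain ⟨f, hf0, hle⟩ := exists_effective_of_ell_pos hF hpos
  have hle' : E ≤ D + divOf hF f := by
    rw [sub_add_eq_add_sub, sub_nonneg] at hle
    exact hle
  have h1 := defect_mono hF hle'
  rw [defect_add_divOf hF D hf0, hE] at h1
  have h2 := defect_le_genus hF D
  simp only [defect] at h1 h2
  refine (V.nonspecial_iff a Cv c).2 ?_
  show ell D = Divisor.degree D + 1 - FA.Curve.genus k V.F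
  omega

end FA.Jac.Crv

end
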