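import Fermat.Agent.Jac.DictPlace
import Fermat.Agent.Jac.Basic
import Mathlib.AlgebraicGeometry.Morphisms.Affine

/-!
# Functions on the complements of one and of two rational points

`R01 = R0 + R1(-N pt) + finite`, and the elements of `R0` with bounded pole form a finite space.
-/

set_option autoImplicit false
set_option linter.style.haveILetI false
set_option linter.unusedSectionVars false

noncomputable section

universe u

open CategoryTheory AlgebraicGeometry TopologicalSpace NeronModelInfra
open AlgebraicCurve FA.Curve FA.AbTors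

namespace FA.Jac.Crv

variable {k : Type u} [Field k] {V : Crv k} [IsAlgClosed k]

/-- The functions with poles only at `P`. -/
def awayL (P : Place k V.F) : Submodule k V.F where
  carrier := {f | ∀ w, w ≠ P → AtLeast w 0 f}
  zero_mem' := fun _ _ => atLeast_zero
  add_mem' := fun hf hg w hw => (hf w hw).add (hg w hw)
  smul_mem' := fun a f hf w hw => by rw [Algebra.smul_def]; exact (hf w hw).smul a

/-- The functions with poles only at `Q` vanishing to order `N` at `P`. -/
def vanL (Q P : Place k V.F) (N : ℕ) : Submodule k V.F where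
  carrier := {f | (∀ w, w ≠ Q → AtLeast w 0 f) ∧ AtLeast P N f}
  zero_mem' := ⟨fun _ _ => atLeast_zero, atLeast_zero⟩
  add_mem' := fun hf hg => ⟨fun w hw => (hf.1 w hw).add (hg.1 w hw), hf.2.add hg.2⟩
  smul_mem' := fun a f hf => by
    rw [Algebra.smul_def]; exact ⟨fun w hw => (hf.1 w hw).smul a, hf.2.smul a⟩

theorem le_step (hF : IsFunctionField k V.F) {T : Submodule k V.F} {D : Divisor k V.F}
    {v : Place k V.F} {g : V.F} (hD : riemannRochSpace D ≤ T) (hgT : g ∈ T)
    (hg : g ∈ riemannRochSpace (D + Finsupp.single v 1)) (hg' : g ∉ riemannRochSpace D) :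
    riemannRochSpace (D + Finsupp.single v 1) ≤ T :=
  (codim_single hF D v hg hg').trans
    (sup_le hD (Submodule.span_le.2 (Set.singleton_subset_iff.2 hgT)))

/-- `R01 = R0 + R1(-N P) + finite`. -/
theorem exists_decomp {P Q : Place k V.F} (hPQ : P ≠ Q) (N : ℕ) :
    ∃ S : Finset V.F, (∀ s ∈ S, ∀ w, w ≠ P → w ≠ Q → AtLeast w 0 s) ∧
      ∀ f : V.F, (∀ w, w ≠ P → w ≠ Q → AtLeast w 0 f) →
        f ∈ awayL P ⊔ vanL Q P N ⊔ Submodule.span k (S : Set V.F) := by
  classical
  have hF := V.isFunctionField
  obtain ⟨c, hc⟩ := exists_threshold hF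
  set c₀ : ℕ := c.toNat + N + 1 with hc₀
  let D : ℕ → ℕ → Divisor k V.F := fun m m' => Finsupp.single P (m : ℤ) + Finsupp.single Q (m' : ℤ)
  have hD : ∀ m m' w, D m m' w = (if w = P then (m : ℤ) else 0) + (if w = Q then (m' : ℤ) else 0) :=
    fun m m' w => by simp [D, Finsupp.single_apply, eq_comm]
  haveI := finite_riemannRochSpace hF (D c₀ c₀)
  obtain ⟨S, hS⟩ := (Submodule.fg_iff_finiteDimensional (riemannRochSpace (D c₀ c₀))).2 inferInstance
  refine ⟨S, fun s hs w hwP hwQ => ?_, fun f hf => ?_⟩
  · have h := mem_riemannRochSpace.1 (hS ▸ Submodule.subset_span hs : s ∈ riemannRochSpace (D c₀ c₀)) w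
    simpa [hD, hwP, hwQ] using h
  set T := awayL P ⊔ vanL Q P N ⊔ Submodule.span k (S : Set V.F)
  have hlt : ∀ E : Divisor k V.F, ∀ v, c ≤ Divisor.degree E →
      ∃ g, g ∈ riemannRochSpace (E + Finsupp.single v 1) ∧ g ∉ riemannRochSpace E := fun E v hE => by
    by_contra hno
    push Not at hno
    haveI := finite_riemannRochSpace hF E
    have h := Submodule.finrank_mono (show riemannRochSpace (E + Finsupp.single v 1) ≤
      riemannRochSpace E from hno)
    have h1 := hc E hE
    have h2 := hc (E + Finsupp.single v 1) (by rw [map_add]; simp [hF.deg_eq_one]; omega)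
    rw [map_add] at h2
    simp [hF.deg_eq_one] at h2
    simp only [ell] at h1 h2
    omega
  have hQ : ∀ m', riemannRochSpace (D c₀ (c₀ + m')) ≤ T := by
    intro m'
    induction m' with
    | zero => exact (hS.ge).trans le_sup_right
    | succ m' ih =>
      obtain ⟨g, hg, hg'⟩ := hlt (Finsupp.single Q ((c₀ + m' : ℕ) : ℤ) - Finsupp.single P (N : ℤ)) Q
        (by rw [map_sub]; simp [hF.deg_eq_one]; omega)
      rw [mem_riemannRochSpace] at hg hg'
      have hgother : ∀ w, w ≠ Q → AtLeast w (if w = P then (N : ℤ) else 0) g := fun w hw => by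
        have h := hg w
        simpa [Finsupp.single_apply, Ne.symm hw, eq_comm, apply_ite (fun z : ℤ => -z)] using h
      have hgQ : AtLeast Q (-(((c₀ + m' : ℕ) : ℤ) + 1)) g := by
        have h := hg Q
        simpa [Finsupp.single_apply, hPQ] using h
      have hnQ : ¬ AtLeast Q (-((c₀ + m' : ℕ) : ℤ)) g := fun h => hg' fun w => by
        rcases eq_or_ne w Q with rfl | hw
        · simpa [Finsupp.single_apply, hPQ] using h
        · have h' := hgother w hw
          simpa [Finsupp.single_apply, Ne.symm hw, eq_comm, apply_ite (fun z : ℤ => -z)] using h'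
      have hgT : g ∈ T := Submodule.mem_sup_left (Submodule.mem_sup_right
        ⟨fun w hw => (hgother w hw).mono (by split_ifs <;> omega),
          by simpa using hgother P hPQ⟩)
      have e : D c₀ (c₀ + (m' + 1)) = D c₀ (c₀ + m') + Finsupp.single Q 1 := Finsupp.ext fun w => by
        simp only [Finsupp.add_apply, hD, Finsupp.single_apply, eq_comm (a := Q)]
        split_ifs <;> push_cast <;> ring
      rw [e]
      refine le_step hF ih hgT (mem_riemannRochSpace.2 fun w => ?_) fun h => hnQ ?_
      · rw [Finsupp.add_apply, hD]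
        rcases eq_or_ne w Q with rfl | hw
        · simpa [hPQ.symm] using hgQ
        · refine (hgother w hw).mono ?_
          simp [hw]
          split_ifs <;> omega
      · have h' := mem_riemannRochSpace.1 h Q
        simpa [hD, hPQ.symm] using h'
  have hP : ∀ m m', riemannRochSpace (D (c₀ + m) (c₀ + m')) ≤ T := by
    intro m
    induction m with
    | zero => exact hQ
    | succ m ih =>
      intro m'
      obtain ⟨g, hg, hg'⟩ := hlt (Finsupp.single P ((c₀ + m : ℕ) : ℤ)) P
        (by simp [hF.deg_eq_one]; omega)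
      rw [mem_riemannRochSpace] at hg hg'
      have hgother : ∀ w, w ≠ P → AtLeast w 0 g := fun w hw => by
        simpa [Finsupp.single_apply, Ne.symm hw] using hg w
      have hgT : g ∈ T := Submodule.mem_sup_left (Submodule.mem_sup_left hgother)
      have e : D (c₀ + (m + 1)) (c₀ + m') = D (c₀ + m) (c₀ + m') + Finsupp.single P 1 :=
        Finsupp.ext fun w => by
          simp only [Finsupp.add_apply, hD, Finsupp.single_apply, eq_comm (a := P)]
          split_ifs <;> push_cast <;> ring
      rw [e]
      refine le_step hF (ih m') hgT (mem_riemannRochSpace.2 fun w => ?_) fun h => hg' fun w => ?_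
      · rw [Finsupp.add_apply, hD]
        rcases eq_or_ne w P with rfl | hw
        · simpa [hPQ, Finsupp.single_apply] using hg w
        · refine (hgother w hw).mono ?_
          simp [hw]
          split_ifs <;> omega
      · rcases eq_or_ne w P with rfl | hw
        · simpa [hD, hPQ, Finsupp.single_apply] using mem_riemannRochSpace.1 h w
        · simpa [Finsupp.single_apply, Ne.symm hw] using hgother w hw
  refine hP ((-(P.ord f)).toNat) ((-(Q.ord f)).toNat) (mem_riemannRochSpace.2 fun w => ?_)
  rw [hD]
  rcases eq_or_ne w P with rfl | hwP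
  · refine Or.inr ?_
    simp [hPQ]
    omega
  rcases eq_or_ne w Q with rfl | hwQ
  · refine Or.inr ?_
    simp [hPQ.symm]
    omega
  simpa [hwP, hwQ] using hf w hwP hwQ

/-! ### Functions on opens -/

variable (V)

/-- A function on an open as a rational function. -/
def evR (U : V.C.Opens) (hη : genericPoint V.C ∈ U) : Γ(V.C, U) →+* V.F :=
  evF (genPt V.C) U (gen_le hη)

variable {V} {U U' : V.C.Opens} (hη : genericPoint V.C ∈ U) (hη' : genericPoint V.C ∈ U')

theorem evR_injective : Function.Injective (V.evR U hη) := evF_genPt_injective (X := V.C) hη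

theorem evR_algebraMap (x : k) :
    V.evR U hη (Loc.sectionsHom V.str U x) = algebraMap k V.F x :=
  Growth.evF_sectionsHom V.str hη x

theorem evR_rsF (h : U' ≤ U) (r : Γ(V.C, U)) : V.evR U' hη' (rsF h r) = V.evR U hη r := by
  rw [show rsF h r = (V.C.presheaf.map (homOfLE h).op).hom r from rsF_eq_map h r]
  exact evF_res _ _ _ _

/-- The functions on an open are those regular at its places. -/
theorem mem_range_evR_iff (f : V.F) :
    f ∈ Set.range (V.evR U hη) ↔ ∀ w : Place k V.F, V.cen w ∈ U → AtLeast w 0 f := by
  constructor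
  · rintro ⟨r, rfl⟩ w hw
    exact regAt_cen_iff.1 ⟨U, hw, r, rfl⟩
  · intro h
    refine exists_sec (X := V.C) hη fun z hz => ?_
    obtain rfl | ⟨w, rfl⟩ := eq_generic_or_cen z
    · exact regAt_generic f
    · exact regAt_cen_iff.2 (h w hz)

theorem atLeast_evR (r : Γ(V.C, U)) {w : Place k V.F} (hw : V.cen w ∈ U) :
    AtLeast w 0 (V.evR U hη r) := (mem_range_evR_iff hη _).1 ⟨r, rfl⟩ w hw

variable (V) in
/-- An affine meet of affines. -/
theorem isAffineOpen_inf {U U' : V.C.Opens} (h : IsAffineOpen U) (h' : IsAffineOpen U') :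
    IsAffineOpen (U ⊓ U') := by
  haveI : IsSeparated (Limits.terminal.from V.C) := by
    rw [← Limits.terminal.comp_from V.str]
    infer_instance
  exact h.inf h'

end FA.Jac.Crv

end
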