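import Fermat.Agent.Jac.FrameBC
import Fermat.Agent.Jac.FrameRR

/-!
# Pole bounds for the complex of two affines

The cokernel of the difference map is finite over the base, and its kernel lies in a finite
submodule.
-/

set_option autoImplicit false
set_option linter.style.haveILetI false
set_option linter.unusedSectionVars false

noncomputable section

universe u

open CategoryTheory CategoryTheory.Limits AlgebraicGeometry TopologicalSpace
open NeronModelInfra AlgebraicGeometry.RelPicard AlgebraicCurve FA.Curve FA.AbTors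
open scoped TensorProduct

namespace FA.Jac.Crv

variable {k : Type u} [Field k] (V : Crv k)
variable {A : Type u} [CommRing A] (a : Spec (CommRingCat.of A) ⟶ Spec (CommRingCat.of k))
variable {U U' O : V.C.Opens} (c : Coc (V.X a))

/-- Restriction of functions as a linear map. -/
def resGL (h : O ≤ U) : V.GW a U →ₗ[A] V.GW a O where
  toFun g := V.mkGW a O (rsF (V.wu_mono a h) ((V.mkGW a U).symm g))
  map_add' g g' := map_add (rsF (V.wu_mono a h)) _ _
  map_smul' x g := by
    show rsF (V.wu_mono a h) (V.scalarW a U x * (V.mkGW a U).symm g) =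
      V.scalarW a O x * rsF (V.wu_mono a h) ((V.mkGW a U).symm g)
    rw [map_mul, V.rsF_scalarW a h]

theorem resGL_fnW (h : O ≤ U) (r : Γ(V.C, U)) :
    V.resGL a h (V.mkGW a U (V.fnW a U r)) = V.mkGW a O (V.fnW a O (rsF h r)) := by
  show rsF (V.wu_mono a h) (apF (pullback.fst V.str a) le_rfl r) =
    apF (pullback.fst V.str a) le_rfl (rsF h r)
  exact (rsF_apF _ _ _ _).trans (apF_rsF _ _ _ _).symm

variable (O) in
/-- Multiplication of functions. -/
def gmul : V.GW a O →ₗ[A] V.GW a O →ₗ[A] V.GW a O :=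
  LinearMap.mk₂ A (fun g h => V.mkGW a O ((V.mkGW a O).symm g * (V.mkGW a O).symm h))
    (fun g _ _ => add_mul ((V.mkGW a O).symm g) _ _)
    (fun x _ _ => mul_assoc (V.scalarW a O x) _ _)
    (fun g _ _ => mul_add ((V.mkGW a O).symm g) _ _)
    (fun x g _ => mul_left_comm ((V.mkGW a O).symm g) (V.scalarW a O x) _)

theorem gmul_fnW (r s : Γ(V.C, O)) :
    V.gmul a O (V.mkGW a O (V.fnW a O r)) (V.mkGW a O (V.fnW a O s)) =
      V.mkGW a O (V.fnW a O (r * s)) :=
  (map_mul (V.fnW a O) r s).symm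

theorem resGL_gmul (h : O ≤ U) (g g' : V.GW a U) :
    V.resGL a h (V.gmul a U g g') = V.gmul a O (V.resGL a h g) (V.resGL a h g') :=
  map_mul (rsF (V.wu_mono a h)) _ _

variable (U) in
/-- Multiplication of a section by a function. -/
def gsmul : V.GW a U →ₗ[A] V.SW a U c →ₗ[A] V.SW a U c :=
  LinearMap.mk₂ A (fun g s => V.mkSW a U c ((V.mkGW a U).symm g • (V.mkSW a U c).symm s))
    (fun g g' s => add_smul ((V.mkGW a U).symm g) ((V.mkGW a U).symm g') ((V.mkSW a U c).symm s))
    (fun x g s => mul_smul (V.scalarW a U x) ((V.mkGW a U).symm g) ((V.mkSW a U c).symm s))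
    (fun g s s' => smul_add ((V.mkGW a U).symm g) ((V.mkSW a U c).symm s)
      ((V.mkSW a U c).symm s'))
    (fun x g s => by
      show ((V.mkGW a U).symm g) • (V.scalarW a U x • (V.mkSW a U c).symm s) =
        V.scalarW a U x • (((V.mkGW a U).symm g) • (V.mkSW a U c).symm s)
      exact smul_comm _ _ _)

theorem gsmul_gmul (g g' : V.GW a O) (s : V.SW a O c) :
    V.gsmul a O c (V.gmul a O g g') s = V.gsmul a O c g (V.gsmul a O c g' s) :=
  mul_smul ((V.mkGW a O).symm g) ((V.mkGW a O).symm g') ((V.mkSW a O c).symm s)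

theorem resL_gsmul (h : O ≤ U) (g : V.GW a U) (s : V.SW a U c) :
    V.resL a c h (V.gsmul a U c g s) = V.gsmul a O c (V.resGL a h g) (V.resL a c h s) :=
  Sec.res_smul (V.wu_mono a h) _ _

variable {c}

/-- A coordinate in a dual frame. -/
def coordG (Φ : Sec.DualFrame c (V.WU a U)) (i : Fin Φ.n) : V.SW a U c →ₗ[A] V.GW a U :=
  (LinearMap.proj i).comp (V.coordL a U Φ)

theorem coordG_gsmul (Φ : Sec.DualFrame c (V.WU a U)) (i : Fin Φ.n) (g : V.GW a U)
    (s : V.SW a U c) :
    V.coordG a Φ i (V.gsmul a U c g s) = V.gmul a U g (V.coordG a Φ i s) :=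
  Sec.pair_smul (Φ.v i) _ _

theorem resGL_coordG (h : O ≤ U) (Φ : Sec.DualFrame c (V.WU a U)) (i : Fin Φ.n)
    (s : V.SW a U c) :
    V.resGL a h (V.coordG a Φ i s) =
      V.coordG a (Φ.res (V.wu_mono a h)) i (V.resL a c h s) :=
  (Sec.pair_res (V.wu_mono a h) _ _).symm

theorem sum_gsmul_coordG (Φ : Sec.DualFrame c (V.WU a U)) (s : V.SW a U c) :
    (∑ i, V.gsmul a U c (V.coordG a Φ i s) (V.mkSW a U c (Φ.u i))) = s :=
  ((Φ.comb_apply (Φ.coord ((V.mkSW a U c).symm s))).symm.trans (Φ.comb_coord _) :)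

variable (U)

/-- The span of functions of the curve among the functions of the family. -/
def gSpan (G : Set Γ(V.C, U)) : Submodule A (V.GW a U) :=
  Submodule.span A ((fun r => V.mkGW a U (V.fnW a U r)) '' G)

variable {U}

theorem gSpan_mono {G G' : Set Γ(V.C, U)} (h : G ⊆ G') : V.gSpan a U G ≤ V.gSpan a U G' :=
  Submodule.span_mono (Set.image_mono h)

theorem fnW_mem_gSpan {G : Set Γ(V.C, U)} {r : Γ(V.C, U)} (h : r ∈ G) :
    V.mkGW a U (V.fnW a U r) ∈ V.gSpan a U G :=
  Submodule.subset_span ⟨r, h, rfl⟩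

theorem gSpan_univ (hU : IsAffineOpen U) : V.gSpan a U Set.univ = ⊤ := by
  letI : Algebra k A := (Spec.preimage a).hom.toAlgebra
  have ha : a = Spec.map (CommRingCat.ofHom (algebraMap k A)) := (Spec.map_preimage a).symm
  letI := (Loc.sectionsHom V.str U).toAlgebra
  obtain ⟨e, he⟩ := V.exists_gEquiv a U ha hU
  refine eq_top_iff.2 fun g hg => ?_
  clear hg
  obtain ⟨z, rfl⟩ := e.surjective g
  induction z using TensorProduct.induction_on with
  | zero => rw [map_zero]; exact zero_mem _
  | tmul x r =>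
    rw [he]
    exact Submodule.smul_mem _ _ (V.fnW_mem_gSpan a (Set.mem_univ r))
  | add y z hy hz => rw [map_add]; exact add_mem hy hz

theorem gSpan_mul {G₁ G₂ G₃ : Set Γ(V.C, O)} (hG : ∀ r ∈ G₁, ∀ s ∈ G₂, r * s ∈ G₃)
    {g g' : V.GW a O} (hg : g ∈ V.gSpan a O G₁) (hg' : g' ∈ V.gSpan a O G₂) :
    V.gmul a O g g' ∈ V.gSpan a O G₃ := by
  have h : Submodule.map₂ (V.gmul a O) (V.gSpan a O G₁) (V.gSpan a O G₂) ≤ V.gSpan a O G₃ := by
    rw [gSpan, gSpan, Submodule.map₂_span_span, Submodule.span_le]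
    rintro _ ⟨_, ⟨r, hr, rfl⟩, _, ⟨s, hs, rfl⟩, rfl⟩
    simp only
    rw [SetLike.mem_coe, gmul_fnW]
    exact V.fnW_mem_gSpan a (hG r hr s hs)
  exact h (Submodule.apply_mem_map₂ _ hg hg')

variable [IsAlgClosed k]

/-- The hypotheses on two affines and their intersection. -/
structure TwoOpens (U U' O : V.C.Opens) (P Q : Place k V.F) : Prop where
  affine : IsAffineOpen U
  affine' : IsAffineOpen U'
  affineO : IsAffineOpen O
  le : O ≤ U
  le' : O ≤ U'
  gen : genericPoint V.C ∈ O
  ne : P ≠ Q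
  mem : ∀ w, V.cen w ∈ U ↔ w ≠ P
  mem' : ∀ w, V.cen w ∈ U' ↔ w ≠ Q
  memO : ∀ w, V.cen w ∈ O ↔ w ≠ P ∧ w ≠ Q

variable {V} {P Q : Place k V.F} (T : V.TwoOpens U U' O P Q)

/-- The functions with pole order at most `N` at `P`. -/
def TwoOpens.bdd (N : ℕ) : Set Γ(V.C, O) := {r | AtLeast P (-(N : ℤ)) (V.evR O T.gen r)}

theorem TwoOpens.exists_bdd (g : V.GW a O) : ∃ N, g ∈ V.gSpan a O (T.bdd N) := by
  have hg : g ∈ V.gSpan a O Set.univ := by rw [V.gSpan_univ a T.affineO]; trivial
  induction hg using Submodule.span_induction with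
  | mem x hx =>
    obtain ⟨r, -, rfl⟩ := hx
    refine ⟨(-(P.ord (V.evR O T.gen r))).toNat, V.fnW_mem_gSpan a (Or.inr ?_)⟩
    omega
  | zero => exact ⟨0, zero_mem _⟩
  | add x y _ _ hx hy =>
    obtain ⟨N, hN⟩ := hx
    obtain ⟨M, hM⟩ := hy
    exact ⟨max N M, add_mem
      (V.gSpan_mono a (fun r (hr : AtLeast P _ _) => hr.mono (by omega)) hN)
      (V.gSpan_mono a (fun r (hr : AtLeast P _ _) => hr.mono (by omega)) hM)⟩
  | smul x y _ hy =>
    obtain ⟨N, hN⟩ := hy
    exact ⟨N, Submodule.smul_mem _ _ hN⟩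

theorem TwoOpens.exists_bdd_family {ι : Type} [Fintype ι] (g : ι → V.GW a O) :
    ∃ N, ∀ i, g i ∈ V.gSpan a O (T.bdd N) := by
  choose N hN using fun i => T.exists_bdd a (g i)
  exact ⟨Finset.univ.sup N, fun i => V.gSpan_mono a (fun r (hr : AtLeast P _ _) => hr.mono
    (by have := Finset.le_sup (f := N) (Finset.mem_univ i); omega)) (hN i)⟩

theorem TwoOpens.resGL_mem (g : V.GW a U') :
    V.resGL a T.le' g ∈ V.gSpan a O (T.bdd 0) := by
  have hg : g ∈ V.gSpan a U' Set.univ := by rw [V.gSpan_univ a T.affine']; trivial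
  induction hg using Submodule.span_induction with
  | mem x hx =>
    obtain ⟨r, -, rfl⟩ := hx
    rw [V.resGL_fnW]
    refine V.fnW_mem_gSpan a ?_
    show AtLeast P _ _
    rw [evR_rsF (T.le' T.gen) T.gen T.le']
    exact (atLeast_evR _ r ((T.mem' P).2 T.ne)).mono (by simp)
  | zero => rw [map_zero]; exact zero_mem _
  | add x y _ _ hx hy => rw [map_add]; exact add_mem hx hy
  | smul x y _ hy => rw [map_smul]; exact Submodule.smul_mem _ _ hy

/-- Constants of the curve are scalars of the family. -/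
theorem fnW_sectionsHom [Algebra k A] (ha : a = Spec.map (CommRingCat.ofHom (algebraMap k A)))
    {U : V.C.Opens} (hU : IsAffineOpen U) (x : k) (r : Γ(V.C, U)) :
    V.mkGW a U (V.fnW a U (Loc.sectionsHom V.str U x * r)) =
      algebraMap k A x • V.mkGW a U (V.fnW a U r) := by
  letI := (Loc.sectionsHom V.str U).toAlgebra
  obtain ⟨e, he⟩ := V.exists_gEquiv a U ha hU
  have h1 : e (algebraMap k A x ⊗ₜ r) = e ((1 : A) ⊗ₜ (x • r)) := by
    rw [← TensorProduct.smul_tmul, Algebra.smul_def, mul_one]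
  rw [he, he, one_smul] at h1
  exact h1.symm

/-- Functions with bounded pole restricted from `U`: a finite set spans them. -/
theorem TwoOpens.exists_fin (N : ℕ) : ∃ S : Finset Γ(V.C, U), ∀ g : V.GW a U,
    V.resGL a T.le g ∈ V.gSpan a O (T.bdd N) → g ∈ V.gSpan a U (S : Set Γ(V.C, U)) := by
  classical
  letI : Algebra k A := (Spec.preimage a).hom.toAlgebra
  have ha : a = Spec.map (CommRingCat.ofHom (algebraMap k A)) := (Spec.map_preimage a).symm
  letI algU := (Loc.sectionsHom V.str U).toAlgebra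
  letI algO := (Loc.sectionsHom V.str O).toAlgebra
  have hηU : genericPoint V.C ∈ U := T.le T.gen
  let evU' : Γ(V.C, U) →ₐ[k] V.F :=
    { V.evR U hηU with commutes' := fun x => evR_algebraMap hηU x }
  let evO : Γ(V.C, O) →ₐ[k] V.F :=
    { V.evR O T.gen with commutes' := fun x => evR_algebraMap T.gen x }
  let res : Γ(V.C, U) →ₐ[k] Γ(V.C, O) :=
    { rsF T.le with commutes' := fun x => evR_injective T.gen (by
        show V.evR O T.gen (rsF T.le (Loc.sectionsHom V.str U x)) =
          V.evR O T.gen (Loc.sectionsHom V.str O x)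
        rw [evR_rsF hηU T.gen T.le, evR_algebraMap, evR_algebraMap]) }
  let BF : Submodule k V.F :=
    { carrier := {f | AtLeast P (-(N : ℤ)) f}
      zero_mem' := atLeast_zero
      add_mem' := fun hf hg => hf.add hg
      smul_mem' := fun x f hf => by rw [Algebra.smul_def]; exact hf.smul x }
  let G : Submodule k Γ(V.C, O) := BF.comap evO.toLinearMap
  let B : Submodule k Γ(V.C, U) := G.comap res.toLinearMap
  -- finitely generated
  haveI := finite_riemannRochSpace V.isFunctionField (Finsupp.single P (N : ℤ))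
  let j : B →ₗ[k] riemannRochSpace (Finsupp.single P (N : ℤ)) :=
    LinearMap.codRestrict _ (evU'.toLinearMap.comp B.subtype) fun r => mem_riemannRochSpace.2
      fun w => by
        rcases eq_or_ne w P with rfl | hw
        · have h : AtLeast w (-(N : ℤ)) (V.evR O T.gen (rsF T.le (r : Γ(V.C, U)))) := r.2
          rw [evR_rsF hηU T.gen T.le] at h
          simpa [evU'] using h
        · simpa [evU', Finsupp.single_eq_of_ne hw] using
            atLeast_evR hηU (r : Γ(V.C, U)) ((T.mem w).2 hw)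
  haveI : Module.Finite k B := Module.Finite.of_injective j fun r s h => Subtype.ext
    (evR_injective hηU (congrArg Subtype.val h))
  obtain ⟨S, hS⟩ := (Module.Finite.iff_fg.1 ‹Module.Finite k B› : B.FG)
  refine ⟨S, fun g hg => ?_⟩
  obtain ⟨eU, heU⟩ := V.exists_gEquiv a U ha T.affine
  obtain ⟨eO, heO⟩ := V.exists_gEquiv a O ha T.affineO
  obtain ⟨z, rfl⟩ := eU.surjective g
  have hres : ∀ y, eO (res.toLinearMap.lTensor A y) = V.resGL a T.le (eU y) := fun y => by
    induction y using TensorProduct.induction_on with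
    | zero => simp
    | tmul x r =>
      rw [LinearMap.lTensor_tmul, heU, heO, map_smul, V.resGL_fnW]
      rfl
    | add y z hy hz => simp only [map_add, hy, hz]
  have hG : V.gSpan a O (T.bdd N) ≤
      (LinearMap.range (G.subtype.baseChange A)).map eO.toLinearMap := by
    rw [gSpan, Submodule.span_le]
    rintro _ ⟨r, hr, rfl⟩
    refine ⟨1 ⊗ₜ r, ⟨1 ⊗ₜ ⟨r, hr⟩, rfl⟩, ?_⟩
    rw [LinearEquiv.coe_coe, heO, one_smul]
  obtain ⟨_, ⟨y, rfl⟩, hy⟩ := hG hg
  rw [← hres] at hy
  have hy' : G.subtype.lTensor A y = res.toLinearMap.lTensor A z := eO.injective hy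
  have h0 : (G.mkQ.comp res.toLinearMap).lTensor A z = 0 := by
    rw [LinearMap.lTensor_comp, LinearMap.comp_apply, ← hy', ← LinearMap.comp_apply,
      ← LinearMap.lTensor_comp, show G.mkQ.comp G.subtype = 0 from LinearMap.ext fun r =>
        (Submodule.Quotient.mk_eq_zero _).2 r.2, LinearMap.lTensor_zero, LinearMap.zero_apply]
  have hker : LinearMap.ker (G.mkQ.comp res.toLinearMap) = B := by
    rw [LinearMap.ker_comp, Submodule.ker_mkQ]
  obtain ⟨w, rfl⟩ := (Module.Flat.lTensor_exact A (LinearMap.exact_subtype_ker_map _) z).1 h0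
  clear hg hres hy hy' h0
  induction w using TensorProduct.induction_on with
  | zero => rw [map_zero, map_zero]; exact zero_mem _
  | tmul x r =>
    rw [LinearMap.lTensor_tmul, heU]
    refine Submodule.smul_mem _ _ ?_
    rw [Submodule.subtype_apply]
    have hr : (r : Γ(V.C, U)) ∈ Submodule.span k (S : Set Γ(V.C, U)) := by
      rw [hS, ← hker]; exact r.2
    generalize (r : Γ(V.C, U)) = r' at hr
    induction hr using Submodule.span_induction with
    | mem y hy => exact V.fnW_mem_gSpan a hy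
    | zero => rw [map_zero, map_zero]; exact zero_mem _
    | add y z _ _ hy hz => rw [map_add, map_add]; exact add_mem hy hz
    | smul y z _ hz =>
      rw [Algebra.smul_def, show algebraMap k Γ(V.C, U) y = Loc.sectionsHom V.str U y from rfl,
        fnW_sectionsHom a ha T.affine]
      exact Submodule.smul_mem _ _ hz
  | add y z hy hz => rw [map_add, map_add]; exact add_mem hy hz

variable (c)

/-- The sections of `U` agreeing with a section of `U'` on `O` lie in a finite module. -/
theorem TwoOpens.exists_fg : ∃ F₀ : Submodule A (V.SW a U c), F₀.FG ∧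
    ∀ (s : V.SW a U c) (t : V.SW a U' c), V.resL a c T.le s = V.resL a c T.le' t → s ∈ F₀ := by
  classical
  obtain ⟨Φ⟩ := Sec.nonempty_dualFrame c (V.isAffineOpen_W a T.affine)
  obtain ⟨Φ'⟩ := Sec.nonempty_dualFrame c (V.isAffineOpen_W a T.affine')
  let d : Fin Φ.n × Fin Φ'.n → V.GW a O := fun q =>
    V.coordG a (Φ.res (V.wu_mono a T.le)) q.1 (V.resL a c T.le' (V.mkSW a U' c (Φ'.u q.2)))
  obtain ⟨N, hN⟩ := T.exists_bdd_family a d
  obtain ⟨S, hS⟩ := T.exists_fin a N
  refine ⟨Submodule.span A ↑((Finset.univ ×ˢ S).image fun q : Fin Φ.n × Γ(V.C, U) =>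
      V.gsmul a U c (V.mkGW a U (V.fnW a U q.2)) (V.mkSW a U c (Φ.u q.1))),
    ⟨_, rfl⟩, fun s t hst => ?_⟩
  rw [← V.sum_gsmul_coordG a Φ s]
  refine Submodule.sum_mem _ fun i _ => ?_
  have hmem : V.coordG a Φ i s ∈ V.gSpan a U (S : Set Γ(V.C, U)) := hS _ (by
    rw [V.resGL_coordG a T.le, hst, ← V.sum_gsmul_coordG a Φ' t, map_sum, map_sum]
    refine Submodule.sum_mem _ fun β _ => ?_
    rw [V.resL_gsmul]
    erw [V.coordG_gsmul]
    exact V.gSpan_mul a (fun r (hr : AtLeast P _ _) s (hs : AtLeast P _ _) => by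
      show AtLeast P _ _
      rw [map_mul]
      exact (hr.mul hs).mono (by simp)) (T.resGL_mem a _) (hN (i, β)))
  generalize V.coordG a Φ i s = g at hmem
  induction hmem using Submodule.span_induction with
  | mem x hx =>
    obtain ⟨r, hr, rfl⟩ := hx
    exact Submodule.subset_span (Finset.mem_image.2 ⟨(i, r), by simpa using hr, rfl⟩)
  | zero => rw [map_zero, LinearMap.zero_apply]; exact zero_mem _
  | add x y _ _ hx hy => rw [map_add, LinearMap.add_apply]; exact add_mem hx hy
  | smul x y _ hy => rw [map_smul, LinearMap.smul_apply]; exact Submodule.smul_mem _ _ hy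

/-- The sections on `O` are those of `U` and of `U'` up to a finite module. -/
theorem TwoOpens.exists_fg_sup : ∃ E : Submodule A (V.SW a O c), E.FG ∧
    ⊤ ≤ LinearMap.range (V.resL a c T.le) ⊔ LinearMap.range (V.resL a c T.le') ⊔ E := by
  classical
  letI : Algebra k A := (Spec.preimage a).hom.toAlgebra
  have ha : a = Spec.map (CommRingCat.ofHom (algebraMap k A)) := (Spec.map_preimage a).symm
  obtain ⟨Φ⟩ := Sec.nonempty_dualFrame c (V.isAffineOpen_W a T.affine)
  obtain ⟨Φ'⟩ := Sec.nonempty_dualFrame c (V.isAffineOpen_W a T.affine')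
  let uO : Fin Φ.n → V.SW a O c := fun i => V.resL a c T.le (V.mkSW a U c (Φ.u i))
  let d : Fin Φ'.n × Fin Φ.n → V.GW a O := fun q =>
    V.coordG a (Φ'.res (V.wu_mono a T.le')) q.1 (uO q.2)
  obtain ⟨N, hN⟩ := T.exists_bdd_family a d
  obtain ⟨S, hS, hdec⟩ := exists_decomp T.ne N
  have hηU : genericPoint V.C ∈ U := T.le T.gen
  have hηU' : genericPoint V.C ∈ U' := T.le' T.gen
  have hpre : ∀ s ∈ S, ∃ r : Γ(V.C, O), V.evR O T.gen r = s := fun s hs =>
    (mem_range_evR_iff T.gen s).2 fun w hw => hS s hs w ((T.memO w).1 hw).1 ((T.memO w).1 hw).2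
  choose! σ hσ using hpre
  refine ⟨Submodule.span A ↑((Finset.univ ×ˢ S).image fun q : Fin Φ.n × V.F =>
      V.gsmul a O c (V.mkGW a O (V.fnW a O (σ q.2))) (uO q.1)), ⟨_, rfl⟩, fun m _ => ?_⟩
  set L := LinearMap.range (V.resL a c T.le) ⊔ LinearMap.range (V.resL a c T.le') ⊔
    Submodule.span A ↑((Finset.univ ×ˢ S).image fun q : Fin Φ.n × V.F =>
      V.gsmul a O c (V.mkGW a O (V.fnW a O (σ q.2))) (uO q.1))
  have key : ∀ (i : Fin Φ.n) (r : Γ(V.C, O)),
      V.gsmul a O c (V.mkGW a O (V.fnW a O r)) (uO i) ∈ L := by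
    intro i r
    have hr := hdec (V.evR O T.gen r) fun w hwP hwQ => atLeast_evR T.gen r ((T.memO w).2 ⟨hwP, hwQ⟩)
    obtain ⟨_, hf, fs, hfs, hsum⟩ := Submodule.mem_sup.1 hr
    obtain ⟨f0, hf0, f1, hf1, rfl⟩ := Submodule.mem_sup.1 hf
    obtain ⟨r0, rfl⟩ := (mem_range_evR_iff hηU f0).2 fun w hw => hf0 w ((T.mem w).1 hw)
    obtain ⟨r1, rfl⟩ := (mem_range_evR_iff hηU' f1).2 fun w hw => hf1.1 w ((T.mem' w).1 hw)
    have h3 : ∀ fs ∈ Submodule.span k (S : Set V.F), ∃ rs : Γ(V.C, O),
        V.evR O T.gen rs = fs ∧ V.gsmul a O c (V.mkGW a O (V.fnW a O rs)) (uO i) ∈ L := by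
      intro fs hfs
      induction hfs using Submodule.span_induction with
      | mem x hx =>
        exact ⟨σ x, hσ x hx, Submodule.mem_sup_right (Submodule.subset_span
          (Finset.mem_image.2 ⟨(i, x), by simpa using hx, rfl⟩))⟩
      | zero =>
        refine ⟨0, map_zero _, ?_⟩
        rw [map_zero, map_zero, map_zero, LinearMap.zero_apply]
        exact zero_mem _
      | add x y _ _ hx hy =>
        obtain ⟨rx, hrx, hx⟩ := hx
        obtain ⟨ry, hry, hy⟩ := hy
        refine ⟨rx + ry, by rw [map_add, hrx, hry], ?_⟩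
        rw [map_add, map_add, map_add, LinearMap.add_apply]
        exact add_mem hx hy
      | smul x y _ hy =>
        obtain ⟨ry, hry, hy⟩ := hy
        refine ⟨Loc.sectionsHom V.str O x * ry, ?_, ?_⟩
        · rw [map_mul, evR_algebraMap, hry, Algebra.smul_def]
        · rw [fnW_sectionsHom a ha T.affineO, map_smul, LinearMap.smul_apply]
          exact Submodule.smul_mem _ _ hy
    obtain ⟨rs, hrs, hsmem⟩ := h3 fs hfs
    have hr' : r = rsF T.le r0 + rsF T.le' r1 + rs := evR_injective T.gen (by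
      rw [map_add, map_add, evR_rsF hηU T.gen T.le, evR_rsF hηU' T.gen T.le', hrs, hsum])
    rw [hr', map_add, map_add, map_add, map_add, map_add, map_add, LinearMap.add_apply,
      LinearMap.add_apply]
    refine add_mem (add_mem ?_ ?_) hsmem
    · refine Submodule.mem_sup_left (Submodule.mem_sup_left ?_)
      rw [← V.resGL_fnW a T.le, ← V.resL_gsmul]
      exact ⟨_, rfl⟩
    · refine Submodule.mem_sup_left (Submodule.mem_sup_right ?_)
      have hu : uO i = ∑ β, V.gsmul a O c (d (β, i))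
          (V.resL a c T.le' (V.mkSW a U' c (Φ'.u β))) :=
        (V.sum_gsmul_coordG a (Φ'.res (V.wu_mono a T.le')) (uO i)).symm
      rw [hu, map_sum]
      refine Submodule.sum_mem _ fun β _ => ?_
      have hprod : V.gmul a O (V.mkGW a O (V.fnW a O (rsF T.le' r1))) (d (β, i)) ∈
          LinearMap.range (V.resGL a T.le') := by
        have hd := hN (β, i)
        generalize d (β, i) = g at hd
        induction hd using Submodule.span_induction with
        | mem x hx =>
          obtain ⟨r', hr', rfl⟩ := hx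
          rw [V.gmul_fnW]
          obtain ⟨r'', hr''⟩ := (mem_range_evR_iff hηU'
            (V.evR O T.gen (rsF T.le' r1 * r'))).2 fun w hw => by
              have hwQ := (T.mem' w).1 hw
              rw [map_mul, evR_rsF hηU' T.gen T.le']
              rcases eq_or_ne w P with rfl | hwP
              · exact (hf1.2.mul hr').mono (by simp)
              · simpa using (hf1.1 w hwQ).mul (atLeast_evR T.gen r' ((T.memO w).2 ⟨hwP, hwQ⟩))
          refine ⟨V.mkGW a U' (V.fnW a U' r''), ?_⟩
          rw [V.resGL_fnW, evR_injective T.gen ((evR_rsF hηU' T.gen T.le' r'').trans hr'')]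
        | zero => rw [map_zero]; exact zero_mem _
        | add x y _ _ hx hy => rw [map_add]; exact add_mem hx hy
        | smul x y _ hy => rw [map_smul]; exact Submodule.smul_mem _ _ hy
      obtain ⟨g', hg'⟩ := hprod
      exact ⟨V.gsmul a U' c g' (V.mkSW a U' c (Φ'.u β)), by
        rw [V.resL_gsmul, hg', V.gsmul_gmul]⟩
  rw [← V.sum_gsmul_coordG a (Φ.res (V.wu_mono a T.le)) m]
  refine Submodule.sum_mem _ fun i _ => ?_
  have hall : ∀ g : V.GW a O, V.gsmul a O c g (uO i) ∈ L := fun g => by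
    have hg : g ∈ V.gSpan a O Set.univ := by rw [V.gSpan_univ a T.affineO]; trivial
    induction hg using Submodule.span_induction with
    | mem x hx =>
      obtain ⟨r, -, rfl⟩ := hx
      exact key i r
    | zero => rw [map_zero, LinearMap.zero_apply]; exact zero_mem _
    | add x y _ _ hx hy => rw [map_add, LinearMap.add_apply]; exact add_mem hx hy
    | smul x y _ hy => rw [map_smul, LinearMap.smul_apply]; exact Submodule.smul_mem _ _ hy
  exact hall _

end FA.Jac.Crv

end
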