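import Fermat.Agent.Jac.CoverAff
import Fermat.Agent.Jac.FrameBound

/-!
# Where the first cohomology vanishes the global sections are locally free
-/

set_option autoImplicit false
set_option linter.style.haveILetI false
set_option linter.unusedSectionVars false

noncomputable section

universe u

open CategoryTheory CategoryTheory.Limits AlgebraicGeometry TopologicalSpace
open NeronModelInfra AlgebraicGeometry.RelPicard AlgebraicCurve FA.Curve FA.AbTors
open scoped TensorProduct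

namespace FA.Jac

theorem baseChange_comm {A A' : Type u} [CommRing A] [CommRing A'] [Algebra A A']
    {M N M' N' : Type u} [AddCommGroup M] [Module A M] [AddCommGroup N] [Module A N]
    [AddCommGroup M'] [Module A M'] [Module A' M'] [IsScalarTower A A' M']
    [AddCommGroup N'] [Module A N'] [Module A' N'] [IsScalarTower A A' N']
    {d : M →ₗ[A] N} {d' : M' →ₗ[A'] N'} {fM : M →ₗ[A] M'} {fN : N →ₗ[A] N'}
    (hM : IsBaseChange A' fM) (hN : IsBaseChange A' fN)
    (hcomm : ∀ x, d' (fM x) = fN (d x)) (z : A' ⊗[A] M) :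
    hN.equiv (d.baseChange A' z) = d' (hM.equiv z) := by
  induction z using TensorProduct.induction_on with
  | zero => simp
  | tmul x m => simp [IsBaseChange.equiv_tmul, hcomm]
  | add y z hy hz => simp only [map_add, hy, hz]

namespace Crv

variable {k : Type u} [Field k] (V : Crv k)
variable {A : Type u} [CommRing A] (a : Spec (CommRingCat.of A) ⟶ Spec (CommRingCat.of k))
variable (c : Coc (V.X a)) (Cv : V.Cover)

/-- The difference map, linear over the base. -/
def Cover.dL : (V.SW a Cv.U0 c × V.SW a Cv.U1 c) →ₗ[A] V.SW a (Cv.U0 ⊓ Cv.U1) c :=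
  (V.resL a c inf_le_left).comp (LinearMap.fst A _ _) -
    (V.resL a c inf_le_right).comp (LinearMap.snd A _ _)

theorem Cover.surjective_dL_iff :
    Function.Surjective (Cv.dL V a c) ↔ Cv.Nonspecial a c := Iff.rfl

theorem Cover.sup_eq_top : (⊤ : (V.X a).Opens) ≤ V.WU a Cv.U0 ⊔ V.WU a Cv.U1 := by
  intro z _
  by_cases h : pullback.fst V.str a z ∈ Cv.U0
  · exact Or.inl h
  · refine Or.inr ?_
    show pullback.fst V.str a z ∈ Cv.U1
    have h0 : pullback.fst V.str a z = V.pt.1 (IsLocalRing.closedPoint k) := by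
      by_contra hne
      exact h (show pullback.fst V.str a z ∈ (Cv.U0 : Set V.C) by rw [Cv.coe_U0]; exact hne)
    show pullback.fst V.str a z ∈ (Cv.U1 : Set V.C)
    rw [Cv.coe_U1, h0]
    exact fun e => Cv.ne (Set.mem_singleton_iff.1 e).symm

/-- Global sections as elements of the kernel. -/
def Cover.toKer : Sec c ⊤ →+ LinearMap.ker (Cv.dL V a c) :=
  AddMonoidHom.mk' (fun s => ⟨(V.mkSW a Cv.U0 c (Sec.res le_top s),
      V.mkSW a Cv.U1 c (Sec.res le_top s)), by
      show Sec.res (V.wu_mono a (inf_le_left : Cv.U0 ⊓ Cv.U1 ≤ Cv.U0))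
          (Sec.res (le_top : V.WU a Cv.U0 ≤ ⊤) s) -
        Sec.res (V.wu_mono a (inf_le_right : Cv.U0 ⊓ Cv.U1 ≤ Cv.U1))
          (Sec.res (le_top : V.WU a Cv.U1 ≤ ⊤) s) = 0
      rw [Sec.res_res, Sec.res_res, sub_self]⟩)
    fun s t => Subtype.ext (Prod.ext (map_add (Sec.res le_top) s t) (map_add (Sec.res le_top) s t))

theorem Cover.toKer_bijective : Function.Bijective (Cv.toKer V a c) := by
  refine ⟨fun s t h => ?_, fun z => ?_⟩
  · have h0 : Sec.res (le_top : V.WU a Cv.U0 ≤ ⊤) s = Sec.res le_top t :=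
      congrArg (fun z : LinearMap.ker (Cv.dL V a c) => (V.mkSW a Cv.U0 c).symm z.1.1) h
    have h1 : Sec.res (le_top : V.WU a Cv.U1 ≤ ⊤) s = Sec.res le_top t :=
      congrArg (fun z : LinearMap.ker (Cv.dL V a c) => (V.mkSW a Cv.U1 c).symm z.1.2) h
    refine ((Sec.existsUnique_glue₂ (V.WU a Cv.U0) (V.WU a Cv.U1) le_top le_top
      (Cv.sup_eq_top V a) (Sec.res le_top s) (Sec.res le_top s) ?_).unique ⟨rfl, rfl⟩
      ⟨h0.symm, h1.symm⟩)
    rw [Sec.res_res, Sec.res_res]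
  · obtain ⟨⟨s₀, s₁⟩, hz⟩ := z
    have hz' : Sec.res inf_le_left ((V.mkSW a Cv.U0 c).symm s₀) -
        Sec.res inf_le_right ((V.mkSW a Cv.U1 c).symm s₁) = 0 := hz
    obtain ⟨s, ⟨e₀, e₁⟩, -⟩ := Sec.existsUnique_glue₂ (V.WU a Cv.U0) (V.WU a Cv.U1) le_top le_top
      (Cv.sup_eq_top V a) ((V.mkSW a Cv.U0 c).symm s₀) ((V.mkSW a Cv.U1 c).symm s₁)
      (sub_eq_zero.1 hz')
    exact ⟨s, Subtype.ext (Prod.ext e₀ e₁)⟩

theorem Cover.toKer_smulF (x : A) (s : Sec c ⊤) :
    Cv.toKer V a c (Sec.smulF (V.scalar a x) s) = x • Cv.toKer V a c s := by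
  refine Subtype.ext (Prod.ext ?_ ?_)
  · exact Sec.res_smul (le_top : V.WU a Cv.U0 ≤ ⊤) (V.scalar a x) s
  · exact Sec.res_smul (le_top : V.WU a Cv.U1 ≤ ⊤) (V.scalar a x) s

variable (A' : Type u) [CommRing A'] [Algebra A A']

theorem resL_sPullL {U U' : V.C.Opens} (h : U' ≤ U) (s : V.SW a U c) :
    V.resL _ (c.pull (V.bcMap a (algebraMap A A'))) h (V.sPullL a U c A' s) =
      V.sPullL a U' c A' (V.resL a c h s) :=
  Sec.pull_res _ (V.bc_le a U _) (V.bc_le a U' _) (V.wu_mono a h) (V.wu_mono _ h) _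

/-- The comparison of the sources of the difference maps. -/
def Cover.pullM : (V.SW a Cv.U0 c × V.SW a Cv.U1 c) →ₗ[A]
    (V.SW (Spec.map (CommRingCat.ofHom (algebraMap A A')) ≫ a) Cv.U0
      (c.pull (V.bcMap a (algebraMap A A'))) ×
     V.SW (Spec.map (CommRingCat.ofHom (algebraMap A A')) ≫ a) Cv.U1
      (c.pull (V.bcMap a (algebraMap A A')))) :=
  (V.sPullL a Cv.U0 c A').prodMap (V.sPullL a Cv.U1 c A')

theorem Cover.isBaseChange_pullM : IsBaseChange A' (Cv.pullM V a c A') :=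
  IsBaseChange.prodMap _ _ (V.isBaseChange_sPullL a Cv.U0 Cv.affine0)
    (V.isBaseChange_sPullL a Cv.U1 Cv.affine1)

theorem Cover.dL_pullM (x : V.SW a Cv.U0 c × V.SW a Cv.U1 c) :
    Cv.dL V _ (c.pull (V.bcMap a (algebraMap A A'))) (Cv.pullM V a c A' x) =
      V.sPullL a (Cv.U0 ⊓ Cv.U1) c A' (Cv.dL V a c x) := by
  have e : V.sPullL a (Cv.U0 ⊓ Cv.U1) c A' (Cv.dL V a c x) =
      V.sPullL a (Cv.U0 ⊓ Cv.U1) c A' (V.resL a c inf_le_left x.1) -
        V.sPullL a (Cv.U0 ⊓ Cv.U1) c A' (V.resL a c inf_le_right x.2) := map_sub _ _ _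
  rw [e]
  exact congrArg₂ (· - ·) (V.resL_sPullL a c A' _ x.1) (V.resL_sPullL a c A' _ x.2)

variable [IsAlgClosed k]

/-- A frame where the difference map is surjective with free finite kernel. -/
theorem exists_isFrame (hd : Function.Surjective (Cv.dL V a c))
    [Module.Finite A (LinearMap.ker (Cv.dL V a c))]
    [Module.Free A (LinearMap.ker (Cv.dL V a c))] :
    ∃ (r : ℕ) (s : Fin r → Sec c ⊤), V.IsFrame a Cv c s := by
  classical
  let bI := Module.Free.chooseBasis A (LinearMap.ker (Cv.dL V a c))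
  let b := bI.reindex (Fintype.equivFin _)
  choose s hs using fun j => (Cv.toKer_bijective V a c).2 (b j)
  refine ⟨_, s, fun A' _ φ => ?_⟩
  letI := φ.toAlgebra
  haveI : Module.Projective A (V.SW a (Cv.U0 ⊓ Cv.U1) c) :=
    V.projective_SW a (Cv.U0 ⊓ Cv.U1) (V.isAffineOpen_inf Cv.affine0 Cv.affine1)
  have hN := V.isBaseChange_sPullL (A' := A') a (c := c) (Cv.U0 ⊓ Cv.U1)
    (V.isAffineOpen_inf Cv.affine0 Cv.affine1)
  have hsurj := FrAlg.surjective_of_isBaseChange hd hN (Cv.dL_pullM V a c A')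
  refine ⟨hsurj, ?_⟩
  have hK := FrAlg.isBaseChange_kerMap hd (Cv.isBaseChange_pullM V a c A') hN
    (Cv.dL_pullM V a c A')
  let b' := (b.baseChange A').map hK.equiv
  set K' := Cv.toKer V (Spec.map (CommRingCat.ofHom φ) ≫ a)
    (c.pull (V.bcMap a φ)) with hK'
  have hsec : ∀ j, K' (V.secMap a φ c (s j)) = b' j := fun j => by
    have e1 : b' j = FrAlg.kerMap _ _ _ _ (Cv.dL_pullM V a c A') (b j) := by
      simp only [b', Module.Basis.map_apply, Module.Basis.baseChange_apply,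
        IsBaseChange.equiv_tmul, one_smul]
    rw [e1, ← hs j]
    exact Subtype.ext (Prod.ext
      (Sec.pull_res (W := ⊤) (V.bcMap a φ) (fun _ _ => trivial) (V.bc_le a Cv.U0 φ) le_top le_top (s j))
      (Sec.pull_res (W := ⊤) (V.bcMap a φ) (fun _ _ => trivial) (V.bc_le a Cv.U1 φ) le_top le_top (s j)))
  have hcomb : ∀ x, K' (V.comb (fun j => V.secMap a φ c (s j)) x) = b'.equivFun.symm x :=
    fun x => by
    rw [Module.Basis.equivFun_symm_apply, comb, map_sum]
    refine Finset.sum_congr rfl fun j _ => ?_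
    rw [hK', Cover.toKer_smulF, ← hK', hsec]
  have hbij : Function.Bijective fun x => K' (V.comb (fun j => V.secMap a φ c (s j)) x) := by
    rw [funext hcomb]; exact b'.equivFun.symm.bijective
  exact ((Cv.toKer_bijective V _ _).of_comp_iff' _).1 hbij

omit a c in
/-- The opens of a cover satisfy the hypotheses of the pole bounds. -/
theorem Cover.exists_twoOpens : ∃ P Q : Place k V.F,
    V.TwoOpens Cv.U0 Cv.U1 (Cv.U0 ⊓ Cv.U1) P Q ∧ V.TwoOpens Cv.U1 Cv.U0 (Cv.U0 ⊓ Cv.U1) Q P := by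
  obtain ⟨P, hP⟩ := exists_cen_eq (V.point_ne_generic V.pt)
  obtain ⟨Q, hQ⟩ := exists_cen_eq (V.point_ne_generic Cv.q)
  have hne : P ≠ Q := fun e => Cv.ne (by rw [← hP, ← hQ, e])
  have h0 : ∀ w, V.cen w ∈ Cv.U0 ↔ w ≠ P := fun w => by
    show V.cen w ∈ (Cv.U0 : Set V.C) ↔ _
    rw [Cv.coe_U0, Set.mem_compl_singleton_iff, ← hP]
    exact cen_injective.ne_iff
  have h1 : ∀ w, V.cen w ∈ Cv.U1 ↔ w ≠ Q := fun w => by
    show V.cen w ∈ (Cv.U1 : Set V.C) ↔ _
    rw [Cv.coe_U1, Set.mem_compl_singleton_iff, ← hQ]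
    exact cen_injective.ne_iff
  have hgen : genericPoint V.C ∈ Cv.U0 ⊓ Cv.U1 := by
    refine ⟨?_, ?_⟩
    · show genericPoint V.C ∈ (Cv.U0 : Set V.C)
      rw [Cv.coe_U0, Set.mem_compl_singleton_iff]
      exact (V.point_ne_generic V.pt).symm
    · show genericPoint V.C ∈ (Cv.U1 : Set V.C)
      rw [Cv.coe_U1, Set.mem_compl_singleton_iff]
      exact (V.point_ne_generic Cv.q).symm
  have haO := V.isAffineOpen_inf Cv.affine0 Cv.affine1
  exact ⟨P, Q, ⟨Cv.affine0, Cv.affine1, haO, inf_le_left, inf_le_right, hgen, hne, h0, h1,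
    fun w => (h0 w).and (h1 w)⟩, ⟨Cv.affine1, Cv.affine0, haO, inf_le_right, inf_le_left, hgen,
    hne.symm, h1, h0, fun w => ((h0 w).and (h1 w)).trans and_comm⟩⟩

/-- Where the first cohomology vanishes the global sections are locally free and commute with
base change. -/
theorem frameHolds : V.FrameHolds := by
  intro Cv A _ a c k' _ _ a' ψ hns
  obtain ⟨g, hg⟩ := ψ
  obtain ⟨χ, rfl⟩ : ∃ χ : A →+* k', g = Spec.map (CommRingCat.ofHom χ) :=
    ⟨(Spec.preimage g).hom, (Spec.map_preimage g).symm⟩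
  subst hg
  letI : Algebra A k' := χ.toAlgebra
  have haO := V.isAffineOpen_inf Cv.affine0 Cv.affine1
  haveI : Module.Projective A (V.SW a (Cv.U0 ⊓ Cv.U1) c) := V.projective_SW a _ haO
  haveI : Module.Projective A (V.SW a Cv.U0 c) := V.projective_SW a _ Cv.affine0
  haveI : Module.Projective A (V.SW a Cv.U1 c) := V.projective_SW a _ Cv.affine1
  obtain ⟨P, Q, T, T'⟩ := Cv.exists_twoOpens V
  -- the cokernel is finite
  obtain ⟨E, hE, hEtop⟩ := T.exists_fg_sup a c
  have hQ : Module.Finite A (V.SW a (Cv.U0 ⊓ Cv.U1) c ⧸ LinearMap.range (Cv.dL V a c)) := by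
    haveI : Module.Finite A E := Module.Finite.iff_fg.2 hE
    refine Module.Finite.of_surjective ((Submodule.mkQ _).comp E.subtype) fun z => ?_
    obtain ⟨m, rfl⟩ := Submodule.mkQ_surjective _ z
    obtain ⟨_, hl, e, he, rfl⟩ := Submodule.mem_sup.1 (hEtop (Submodule.mem_top : m ∈ ⊤))
    obtain ⟨_, ⟨s₀, rfl⟩, _, ⟨s₁, rfl⟩, rfl⟩ := Submodule.mem_sup.1 hl
    refine ⟨⟨e, he⟩, ?_⟩
    show Submodule.mkQ _ e = Submodule.mkQ _ _
    rw [Submodule.mkQ_apply, Submodule.mkQ_apply, Submodule.Quotient.eq]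
    exact ⟨(-s₀, s₁), by
      show V.resL a c inf_le_left (-s₀) - V.resL a c inf_le_right s₁ = _
      rw [map_neg]; abel⟩
  -- the kernel is bounded
  obtain ⟨F₀, hF₀, hF₀'⟩ := T.exists_fg a c
  obtain ⟨F₁, hF₁, hF₁'⟩ := T'.exists_fg a c
  have hker : LinearMap.ker (Cv.dL V a c) ≤ F₀.prod F₁ := by
    rintro ⟨s₀, s₁⟩ hz
    have hz' : V.resL a c inf_le_left s₀ = V.resL a c inf_le_right s₁ := sub_eq_zero.1 hz
    exact ⟨hF₀' s₀ s₁ hz', hF₁' s₁ s₀ hz'.symm⟩
  -- surjectivity at the point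
  have hsurj : Function.Surjective ((Cv.dL V a c).baseChange k') := fun y => by
    have hN := V.isBaseChange_sPullL (A' := k') a (c := c) (Cv.U0 ⊓ Cv.U1) haO
    obtain ⟨x, hx⟩ := ((Cv.surjective_dL_iff V _ _).2 hns : Function.Surjective
      (Cv.dL V (Spec.map (CommRingCat.ofHom (algebraMap A k')) ≫ a)
        (c.pull (V.bcMap a (algebraMap A k'))))) (hN.equiv y)
    refine ⟨(Cv.isBaseChange_pullM V a c k').equiv.symm x, hN.equiv.injective ?_⟩
    rw [baseChange_comm (Cv.isBaseChange_pullM V a c k') hN (Cv.dL_pullM V a c k'),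
      LinearEquiv.apply_symm_apply, hx]
  obtain ⟨F, hF, hsurjB, hfin, hfree⟩ := FrAlg.exists_free_ker (Cv.dL V a c) hQ (F₀.prod F₁)
    (hF₀.prod hF₁) hker hsurj
  refine ⟨F, ?_, ?_⟩
  · show F ∉ Ideal.comap χ (IsLocalRing.closedPoint k').asIdeal
    rw [Ideal.mem_comap]
    intro h
    by_contra
    exact ((IsLocalRing.mem_maximalIdeal _).1 h) (isUnit_iff_ne_zero.2 hF)
  -- the frame
  let B := Localization.Away F
  have hN := V.isBaseChange_sPullL (A' := B) a (c := c) (Cv.U0 ⊓ Cv.U1) haO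
  have hM := Cv.isBaseChange_pullM V a c B
  have hcomm := Cv.dL_pullM V a c B
  set dB := Cv.dL V (Spec.map (CommRingCat.ofHom (algebraMap A B)) ≫ a)
    (c.pull (V.bcMap a (algebraMap A B)))
  have hdB : Function.Surjective dB := fun y => by
    obtain ⟨z, hz⟩ := hsurjB (hN.equiv.symm y)
    exact ⟨hM.equiv z, by
      rw [← baseChange_comm hM hN hcomm, hz, LinearEquiv.apply_symm_apply]⟩
  let eK : LinearMap.ker ((Cv.dL V a c).baseChange B) ≃ₗ[B] LinearMap.ker dB :=
    hM.equiv.ofSubmodules _ _ (by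
      ext y
      obtain ⟨z, rfl⟩ := hM.equiv.surjective y
      rw [Submodule.mem_map_equiv, LinearEquiv.symm_apply_apply, LinearMap.mem_ker,
        LinearMap.mem_ker, ← baseChange_comm hM hN hcomm, LinearEquiv.map_eq_zero_iff])
  haveI := hfin
  haveI := hfree
  haveI : Module.Finite B (LinearMap.ker dB) := Module.Finite.equiv eK
  haveI : Module.Free B (LinearMap.ker dB) := Module.Free.of_equiv eK
  exact V.exists_isFrame _ _ Cv hdB

end Crv

end FA.Jac

end
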