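import Fermat.Agent.Jac.ChartLift
import Fermat.Agent.Jac.ChartCover
import Fermat.Agent.Jac.DictField
import Fermat.Agent.Jac.Frame
import Mathlib.RingTheory.RingHom.Smooth
import Mathlib.AlgebraicGeometry.Morphisms.Smooth

/-!
# The charts

A chart is indexed by a constant class of degree the genus and by functions `b`: it is the open
part of the parameter scheme of `b`-ideals where the section of the ideal is a frame of rank one;
its class is the class of the ideal minus the constant class.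
-/

set_option autoImplicit false
set_option linter.style.haveILetI false
set_option linter.unusedSectionVars false

noncomputable section

universe u

open CategoryTheory CategoryTheory.Limits AlgebraicGeometry TopologicalSpace
open NeronModelInfra AlgebraicGeometry.RelPicard AlgebraicCurve FA.Curve FA.AbTors
open scoped TensorProduct

namespace FA.Jac

namespace Chart

/-- An element killed outside every prime is zero. -/
theorem eq_zero_of_forall_prime {A : Type u} [CommRing A] {z : A}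
    (h : ∀ Q : PrimeSpectrum A, ∃ a ∉ Q.asIdeal, a * z = 0) : z = 0 := by
  let ann : Ideal A := LinearMap.ker (LinearMap.mulRight A z)
  by_contra hz
  have htop : ann ≠ ⊤ := fun e => hz (by
    have h1 : (1 : A) ∈ ann := e ▸ trivial
    simpa [ann] using h1)
  obtain ⟨M, hM, hle⟩ := Ideal.exists_le_maximal ann htop
  obtain ⟨a, ha, he⟩ := h ⟨M, hM.isPrime⟩
  exact ha (hle (show a * z = 0 from he))

variable {k : Type u} [Field k] [IsAlgClosed k] {V : Crv k} (Cv : V.Cover)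

/-- The index of a chart. -/
abbrev Idx : Type u :=
  {p : FA.AbTors.Pic V.C // V.deg p = (FA.Curve.genus k V.F : ℤ)} ×
    (Fin (FA.Curve.genus k V.F) → Γ(V.C, Cv.U0))

variable {Cv} (i : Idx Cv)

/-- The parameter ring. -/
abbrev Hr : Type u := Hilb.HRing (k := k) i.2

/-- The universal ideal. -/
abbrev uI : Ideal (Hr i ⊗[k] Γ(V.C, Cv.U0)) := Hilb.univIdeal (k := k) i.2

/-- The parameters where the ideal has a frame of rank one. -/
def Good (P : PrimeSpectrum (Hr i)) : Prop :=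
  ∃ f, f ∉ P.asIdeal ∧ ∀ (A : Type u) [CommRing A] [Algebra k A] (φ : Hr i →ₐ[k] A),
    IsUnit (φ f) → OneFrameI Cv ((uI i).map (Hilb.mapId Γ(V.C, Cv.U0) φ))

/-- The open of good parameters. -/
def openH : (Spec (CommRingCat.of (Hr i))).Opens :=
  ⟨{P | Good i P}, isOpen_iff_forall_mem_open.2 fun _ ⟨f, hf, h⟩ =>
    ⟨(PrimeSpectrum.basicOpen f : Set (PrimeSpectrum (Hr i))), fun _ hQ => ⟨f, hQ, h⟩,
      (PrimeSpectrum.basicOpen f).2, hf⟩⟩

/-- The structure map of a chart. -/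
def hH : (openH i : Scheme.{u}) ⟶ Spec (CommRingCat.of k) := (openH i).ι ≫ st (Hr i)

/-- The class on all parameters. -/
def cls₀ : FA.AbTors.Pic (V.X (st (k := k) (Hr i))) := clsI Cv (uI i) - Crv.cst (st (Hr i)) i.1.1

/-- The class on a chart. -/
def clsH : FA.AbTors.Pic (V.X (hH i)) := V.pullP (Crv.incl (st (Hr i)) (openH i)) (cls₀ i)

theorem pullP_cls₀ {A : Type u} [CommRing A] [Algebra k A] (φ : Hr i →ₐ[k] A) :
    V.pullP (overAlg φ) (cls₀ i) =
      clsI Cv ((uI i).map (Hilb.mapId Γ(V.C, Cv.U0) φ)) - Crv.cst (st A) i.1.1 := by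
  rw [cls₀, map_sub, pullP_clsI (Hilb.isBIdeal_univ i.2), Crv.pullP_cst]

/-- A point of a chart over an algebra. -/
theorem exists_point {A : Type u} [CommRing A] [Algebra k A]
    (g : SchemeHomOver (st (k := k) A) (hH i)) :
    ∃ φ : Hr i →ₐ[k] A, g.1 ≫ (openH i).ι = (overAlg φ).1 ∧
      (∀ Q : Spec (CommRingCat.of A), (overAlg φ).1 Q ∈ openH i) ∧
      V.pullP g (clsH i) =
        clsI Cv ((uI i).map (Hilb.mapId Γ(V.C, Cv.U0) φ)) - Crv.cst (st A) i.1.1 := by
  obtain ⟨φ, hφ⟩ := exists_eq_overAlg (postComp (Crv.incl (st (Hr i)) (openH i)) g)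
  have h1 : g.1 ≫ (openH i).ι = (overAlg φ).1 := congrArg Subtype.val hφ
  refine ⟨φ, h1, fun Q => ?_, ?_⟩
  · rw [← h1, Scheme.Hom.comp_apply]
    exact (g.1 Q).2
  · rw [← pullP_cls₀, ← hφ]
    exact V.pullP_pullP _ _ _

theorem oneFrameI_of_mem {A : Type u} [Field A] [Algebra k A] {φ : Hr i →ₐ[k] A}
    (h : (overAlg φ).1 (IsLocalRing.closedPoint A) ∈ openH i) :
    OneFrameI Cv ((uI i).map (Hilb.mapId Γ(V.C, Cv.U0) φ)) := by
  obtain ⟨f, hf, hall⟩ := h
  have hf' : φ f ∉ IsLocalRing.maximalIdeal A := hf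
  rw [IsLocalRing.mem_maximalIdeal, mem_nonunits_iff, not_not] at hf'
  exact hall A φ hf'

theorem clsH_mem (hfi : V.FieldHolds) : clsH i ∈ V.P0 (hH i) := by
  refine ⟨?_, fun k' _ _ a ψ => ?_⟩
  · refine (V.rig_pullP (Crv.incl (st (Hr i)) (openH i)) (cls₀ i)).trans ?_
    rw [cls₀, map_sub, rig_clsI (Hilb.isBIdeal_univ i.2), Crv.rig_cst, sub_zero]
    exact map_zero _
  · obtain ⟨ρ, rfl⟩ := Spec.map_surjective a
    letI : Algebra k k' := ρ.hom.toAlgebra
    show (V.bc (st k')).deg (V.pullP (t' := st k') ψ (clsH i)) = 0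
    obtain ⟨φ, -, hmem, he⟩ := exists_point i (A := k') ψ
    rw [he]
    refine (map_sub (V.bc (st k')).deg _ _).trans ?_
    have h1 := oneFrameI_of_mem i (hmem (IsLocalRing.closedPoint k'))
    obtain ⟨c, s, hp, hfr⟩ := h1
    rw [clsI_eq hp]
    refine (congrArg₂ (· - ·) (deg_of_oneFrame (a := st k') hfi hfr)
      ((V.deg_pull_fst (st k') i.1.1).trans i.1.2)).trans (sub_self _)

theorem smooth_hH : Smooth (hH i) := by
  haveI := Cv.finiteType_R0
  haveI := Cv.isDedekindDomain_R0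
  haveI : Smooth (st (k := k) (Hr i)) := by
    rw [HasRingHomProperty.Spec_iff (P := @Smooth)]
    exact RingHom.smooth_algebraMap.2 (Hilb.smooth_hRing i.2 Cv.not_isField_R0)
  exact inferInstanceAs (Smooth ((openH i).ι ≫ st (k := k) (Hr i)))

theorem inj_hH (A : Type u) [CommRing A] [Algebra k A]
    (g g' : SchemeHomOver (st (k := k) A) (hH i))
    (h : V.pullP g (clsH i) = V.pullP g' (clsH i)) : g = g' := by
  obtain ⟨φ, h1, hmem, he⟩ := exists_point i g
  obtain ⟨φ', h1', hmem', he'⟩ := exists_point i g'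
  rw [he, he', sub_left_inj] at h
  suffices hφ : φ = φ' by
    exact Subtype.ext ((cancel_mono (openH i).ι).1 (h1.trans (hφ ▸ h1'.symm)))
  refine AlgHom.ext fun x => sub_eq_zero.1 (eq_zero_of_forall_prime fun Q => ?_)
  obtain ⟨f, hf, hall⟩ := hmem Q
  obtain ⟨f', hf', hall'⟩ := hmem' Q
  set a := φ f * φ' f'
  have ha : a ∉ Q.asIdeal := fun hmem => (Q.isPrime.mem_or_mem hmem).elim hf hf'
  let l := IsScalarTower.toAlgHom k A (Localization.Away a)
  have hu : IsUnit (l (φ f) * l (φ' f')) := by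
    rw [← map_mul]
    exact IsLocalization.Away.algebraMap_isUnit a
  have hb := Hilb.isBIdeal_univ (k := k) i.2
  have hcomp : ∀ ψ : Hr i →ₐ[k] A,
      ((uI i).map (Hilb.mapId Γ(V.C, Cv.U0) ψ)).map (Hilb.mapId Γ(V.C, Cv.U0) l) =
        (uI i).map (Hilb.mapId Γ(V.C, Cv.U0) (l.comp ψ)) := fun ψ => by
    rw [Hilb.mapId_comp]
    exact Ideal.map_map (Hilb.mapId Γ(V.C, Cv.U0) ψ).toRingHom (Hilb.mapId Γ(V.C, Cv.U0) l).toRingHom
  have hc := congrArg (V.pullP (overAlg l)) h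
  rw [pullP_clsI (hb.map φ), pullP_clsI (hb.map φ'), hcomp, hcomp] at hc
  have hJ := eq_of_clsI_eq (hall _ (l.comp φ) (isUnit_of_mul_isUnit_left hu))
    (hall' _ (l.comp φ') (isUnit_of_mul_isUnit_right hu)) hc
  have e := (Hilb.existsUnique_map_eq (hb.map (l.comp φ))).unique (y₁ := l.comp φ)
    (y₂ := l.comp φ') rfl hJ.symm
  obtain ⟨⟨_, n, rfl⟩, hn⟩ := IsLocalization.exists_of_eq (M := Submonoid.powers a)
    (S := Localization.Away a) (DFunLike.congr_fun e x)
  refine ⟨a ^ n, fun hmem => ha (Q.isPrime.mem_of_pow_mem n hmem), ?_⟩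
  rw [mul_sub, sub_eq_zero]
  exact hn

theorem cover_hH {k' : Type u} [Field k'] [IsAlgClosed k'] [Algebra k k']
    (hfr : V.FrameHolds) (p : FA.AbTors.Pic (V.X (st (k := k) k'))) (hp : p ∈ V.P0 (st k')) :
    ∃ (i : Idx Cv) (g : SchemeHomOver (st (k := k) k') (hH i)), V.pullP g (clsH i) = p := by
  have hq : (V.bc (st k')).deg p = 0 := by
    have h := hp.2 k' (st k') (⟨𝟙 _, Category.id_comp _⟩ : SchemeHomOver (st (k := k) k') (st k'))
    exact (congrArg (V.bc (st k')).deg (V.pullP_id p)).symm.trans h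
  obtain ⟨p0, hp0, b, J, hb, hJ, hcls⟩ := exists_bIdeal_of_class Cv p hq
  let i : Idx Cv := (⟨p0, hp0⟩, b)
  obtain ⟨φ, hφ : (uI i).map (Hilb.mapId Γ(V.C, Cv.U0) φ) = J, -⟩ := Hilb.existsUnique_map_eq hb
  rw [← hφ] at hJ hcls
  obtain ⟨f, hf, hall⟩ := exists_oneFrame_nhd hfr φ (Hilb.isBIdeal_univ i.2) hJ
  have hmem : (overAlg φ).1 (IsLocalRing.closedPoint k') ∈ openH i :=
    ⟨f, (point_mem_iff φ f).2 hf, hall⟩
  have hrange : Set.range (overAlg φ).1 ⊆ Set.range (openH i).ι := by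
    rintro _ ⟨Q, rfl⟩
    rw [Scheme.Opens.range_ι, Subsingleton.elim Q (IsLocalRing.closedPoint k')]
    exact hmem
  let g : SchemeHomOver (st (k := k) k') (hH i) :=
    ⟨IsOpenImmersion.lift (openH i).ι (overAlg φ).1 hrange, by
      rw [hH, IsOpenImmersion.lift_fac_assoc]
      exact (overAlg φ).2⟩
  refine ⟨i, g, ?_⟩
  obtain ⟨φ', h1, -, he⟩ := exists_point i g
  rw [IsOpenImmersion.lift_fac] at h1
  have hφφ : φ = φ' := AlgHom.ext fun x =>
    congrArg (fun χ : CommRingCat.of (Hr i) ⟶ CommRingCat.of k' => χ.hom x) (Spec.map_injective h1)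
  rw [he, ← hφφ, hcls]
  exact add_sub_cancel_right _ _

theorem lift_hH {A : Type u} [CommRing A] [Algebra k A] {k' : Type u} [Field k'] [IsAlgClosed k']
    [Algebra k k'] (hfr : V.FrameHolds) (p : FA.AbTors.Pic (V.X (st (k := k) A))) (χ : A →ₐ[k] k')
    (g' : SchemeHomOver (st (k := k) k') (hH i))
    (h : V.pullP g' (clsH i) = V.pullP (overAlg χ) p) :
    ∃ (U : (Spec (CommRingCat.of A)).Opens), (overAlg χ).1 (IsLocalRing.closedPoint k') ∈ U ∧
      ∃ g : SchemeHomOver (U.ι ≫ st (k := k) A) (hH i),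
        V.pullP g (clsH i) = V.pullP (Crv.incl (st A) U) p := by
  obtain ⟨φ', -, hmem', he'⟩ := exists_point i g'
  have hJ' := oneFrameI_of_mem i (hmem' (IsLocalRing.closedPoint k'))
  have hb' := (Hilb.isBIdeal_univ (k := k) i.2).map φ'
  obtain ⟨cJ, sJ, hpJ⟩ := exists_pres hb'
  obtain ⟨c, hc⟩ := Pic.mk_surjective (p + Crv.cst (st A) i.1.1)
  have hcls : FA.AbTors.Pic.mk cJ = FA.AbTors.Pic.mk (c.pull (baseChangeSnd V.str (overAlg χ))) := by
    rw [← clsI_eq hpJ, ← Pic.pull_mk, hc]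
    show _ = V.pullP (overAlg χ) (p + _)
    rw [map_add, Crv.pullP_cst, ← h, he', sub_add_cancel]
  obtain ⟨e⟩ := Equiv'.nonempty_of_rel (Pic.mk_eq_mk.1 hcls)
  have ht := (hJ'.of_pres hpJ).congr e
  obtain ⟨f, hf, s, -, hsu⟩ := exists_frame_one hfr χ c _ ht
  let l := IsScalarTower.toAlgHom k A (Localization.Away f)
  let χf : Localization.Away f →ₐ[k] k' :=
    IsLocalization.Away.liftAlgHom f (f := χ) (isUnit_iff_ne_zero.2 hf)
  have hχl : χf.comp l = χ :=
    AlgHom.ext fun x => IsLocalization.Away.lift_eq f (isUnit_iff_ne_zero.2 hf) x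
  obtain ⟨e', -⟩ := pullS_comp_eq (V := V) _ _ ((postComp_overAlg l χf).trans (by rw [hχl])) c
  have hassoc : ∀ z, Associated (germAt sJ z (Opens.mem_top z))
      (germAt (pullS (overAlg χf) _ s) z (Opens.mem_top z)) := fun z => by
    refine Associated.trans ?_ ((ht.cast e').assoc (hsu k' χf) z)
    rw [germAt_castSec, e.germAt_toSec]
    exact (associated_unit_mul_left _ _ (e.isUnit_wGm z)).symm
  have hs : Pres Cv ((uI i).map (Hilb.mapId Γ(V.C, Cv.U0) φ')) (pullS (overAlg χf) _ s) :=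
    ⟨hpJ.1.of_assoc hassoc, fun z _ => by
      obtain ⟨v, hv⟩ := hassoc z
      rw [← hv]
      exact (hpJ.2 z (Opens.mem_top z)).mul v.isUnit.isRegular⟩
  obtain ⟨B, _, _, l₂, hl₂, χB, hχB, J, hbJ, hpres, hJmap⟩ := exists_ideal_nhd χf s hb' hs
  obtain ⟨φ, hφ : (uI i).map (Hilb.mapId Γ(V.C, Cv.U0) φ) = J, -⟩ := Hilb.existsUnique_map_eq hbJ
  have hφ' : χB.comp φ = φ' := by
    refine (Hilb.existsUnique_map_eq hb').unique ?_ rfl
    rw [Hilb.mapId_comp, ← hJmap, ← hφ]
    exact (Ideal.map_map (Hilb.mapId Γ(V.C, Cv.U0) φ).toRingHom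
      (Hilb.mapId Γ(V.C, Cv.U0) χB).toRingHom).symm
  haveI : IsOpenImmersion (Spec.map (CommRingCat.ofHom l.toRingHom)) :=
    IsOpenImmersion.of_isLocalization (S := Localization.Away f) f
  haveI := hl₂
  set L := overAlg (k := k) (l₂.comp l)
  haveI hL : IsOpenImmersion L.1 := isOpenImmersion_comp l l₂
  let W' : (Spec (CommRingCat.of B)).Opens := (overAlg φ).1 ⁻¹ᵁ openH i
  let U : (Spec (CommRingCat.of A)).Opens := L.1 ''ᵁ W'
  have hpt : (overAlg χB).1 (IsLocalRing.closedPoint k') ∈ W' := by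
    show (overAlg φ).1 ((overAlg χB).1 _) ∈ openH i
    rw [← Scheme.Hom.comp_apply]
    have e2 := congrArg Subtype.val (postComp_overAlg (k := k) φ χB)
    rw [show (overAlg χB).1 ≫ (overAlg φ).1 = (overAlg (χB.comp φ)).1 from e2, hφ']
    exact hmem' _
  refine ⟨U, ⟨(overAlg χB).1 (IsLocalRing.closedPoint k'), hpt, ?_⟩, ?_⟩
  · show L.1 ((overAlg χB).1 (IsLocalRing.closedPoint k')) = _
    have e2 := congrArg Subtype.val (postComp_overAlg (k := k) (l₂.comp l) χB)
    rw [← Scheme.Hom.comp_apply, show (overAlg χB).1 ≫ L.1 =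
      (overAlg (χB.comp (l₂.comp l))).1 from e2, ← AlgHom.comp_assoc, hχB, hχl]
  have hsub : Set.range U.ι ⊆ Set.range L.1 := by
    rw [Scheme.Opens.range_ι]
    rintro _ ⟨x, -, rfl⟩
    exact ⟨x, rfl⟩
  let σ : SchemeHomOver (U.ι ≫ st (k := k) A) (st (k := k) B) :=
    ⟨IsOpenImmersion.lift L.1 U.ι hsub,
      (congrArg (IsOpenImmersion.lift L.1 U.ι hsub ≫ ·) L.2.symm).trans
        ((Category.assoc _ _ _).symm.trans
          (congrArg (· ≫ st (k := k) A) (IsOpenImmersion.lift_fac _ _ _)))⟩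
  have hσ : postComp L σ = Crv.incl (st (k := k) A) U :=
    Subtype.ext (IsOpenImmersion.lift_fac _ _ _)
  have hrange : Set.range (σ.1 ≫ (overAlg φ).1) ⊆ Set.range (openH i).ι := by
    rw [Scheme.Opens.range_ι]
    rintro _ ⟨x, rfl⟩
    have hx : L.1 (σ.1 x) ∈ U := by
      rw [← Scheme.Hom.comp_apply, IsOpenImmersion.lift_fac]
      exact x.2
    obtain ⟨y, hy, hxy⟩ := hx
    rw [Scheme.Hom.comp_apply, ← L.1.isOpenEmbedding.injective hxy]
    exact hy
  let g : SchemeHomOver (U.ι ≫ st (k := k) A) (hH i) :=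
    ⟨IsOpenImmersion.lift (openH i).ι (σ.1 ≫ (overAlg φ).1) hrange, by
      rw [hH, IsOpenImmersion.lift_fac_assoc, Category.assoc, (overAlg φ).2]
      exact σ.2⟩
  refine ⟨g, ?_⟩
  have hg : postComp (Crv.incl (st (Hr i)) (openH i)) g = postComp (overAlg φ) σ :=
    Subtype.ext (IsOpenImmersion.lift_fac _ _ _)
  refine (V.pullP_pullP (Crv.incl (st (Hr i)) (openH i)) g (cls₀ i)).trans ?_
  rw [hg, ← V.pullP_pullP, pullP_cls₀, hφ, clsI_eq hpres]
  have hq : FA.AbTors.Pic.mk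
      ((c.pull (baseChangeSnd V.str (overAlg l))).pull (baseChangeSnd V.str (overAlg l₂))) =
        V.pullP L p + Crv.cst (st B) i.1.1 := by
    show V.pullP (overAlg l₂) (V.pullP (overAlg l) (FA.AbTors.Pic.mk c)) = _
    rw [hc, V.pullP_pullP, postComp_overAlg, map_add, Crv.pullP_cst]
  rw [hq, add_sub_cancel_right, V.pullP_pullP, hσ]

/-- The charts. -/
def chartDataOf (hfr : V.FrameHolds) (hfi : V.FieldHolds) (Cv : V.Cover) : V.ChartData where
  ι := Idx Cv
  H i := (openH i : Scheme.{u})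
  h i := hH i
  smooth i := smooth_hH i
  cls i := ⟨clsH i, clsH_mem i hfi⟩
  inj i A _ a g g' h := by
    obtain ⟨ρ, rfl⟩ := Spec.map_surjective a
    letI : Algebra k A := ρ.hom.toAlgebra
    exact inj_hH i A g g' (congrArg Subtype.val h)
  cover k' _ _ a p := by
    obtain ⟨ρ, rfl⟩ := Spec.map_surjective a
    letI : Algebra k k' := ρ.hom.toAlgebra
    obtain ⟨i, g, hg⟩ := cover_hH (Cv := Cv) hfr (k' := k') p.1 p.2
    exact ⟨i, g, Subtype.ext hg⟩
  lift i A _ a p k' _ _ a' ψ g' h := by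
    obtain ⟨ρ, rfl⟩ := Spec.map_surjective a
    letI : Algebra k A := ρ.hom.toAlgebra
    obtain ⟨ρ', rfl⟩ := Spec.map_surjective a'
    letI : Algebra k k' := ρ'.hom.toAlgebra
    obtain ⟨χ, hχ⟩ := exists_eq_overAlg (k := k) (A := A) (A' := k') ψ
    obtain ⟨U, hU, g, hg⟩ := lift_hH i hfr p.1 χ g' (by rw [← hχ]; exact congrArg Subtype.val h)
    refine ⟨U, ?_, g, Subtype.ext hg⟩
    rw [hχ]; exact hU

end Chart

/-- The charts exist. -/
theorem chartData {k : Type u} [Field k] [IsAlgClosed k] (V : Crv k) (hfr : V.FrameHolds)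
    (hfi : V.FieldHolds) (Cv : V.Cover) : Nonempty V.ChartData :=
  ⟨Chart.chartDataOf hfr hfi Cv⟩

end FA.Jac

end
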