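import Fermat.Agent.Jac.HilbSmooth
import Mathlib.RingTheory.FinitePresentation
import Mathlib.RingTheory.Finiteness.ModuleFinitePresentation
import Mathlib.Algebra.Module.FinitePresentation
import Mathlib.RingTheory.Localization.Away.Basic
import Mathlib.RingTheory.TensorProduct.Free
import Mathlib.LinearAlgebra.Matrix.NonsingularInverse
import Mathlib.LinearAlgebra.Dual.Lemmas

/-!
# Being a `b`-ideal spreads out from a point

An ideal which is locally principal, with finite quotient, and whose restriction to a point of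
the parameters is a non-zero `b`-ideal, is a `b`-ideal near that point.
-/

set_option autoImplicit false
set_option linter.style.haveILetI false
set_option linter.unusedSectionVars false
set_option synthInstance.maxHeartbeats 200000
set_option maxHeartbeats 800000

noncomputable section

universe u

open scoped TensorProduct

namespace FA.Jac.Hilb

variable {k : Type u} [Field k] {A : Type u} [CommRing A] [Algebra k A]
  {k' : Type u} [Field k'] [Algebra k k'] (χ : A →ₐ[k] k')

/-- A finite module without semilinear functionals at a point vanishes near the point. -/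
theorem exists_kills_of_no_functional {N : Type u} [AddCommGroup N] [Module A N] [Module.Finite A N]
    (h : ∀ Λ : N →+ k', (∀ a x, Λ (a • x) = χ a * Λ x) → Λ = 0) :
    ∃ a, χ a ≠ 0 ∧ ∀ x : N, a • x = 0 := by
  classical
  obtain ⟨r, n, hn⟩ := Module.Finite.exists_fin (R := A) (M := N)
  let σ : (Fin r → A) →ₗ[A] N := Fintype.linearCombination A n
  have hσ : Function.Surjective σ := by
    rw [← LinearMap.range_eq_top, Fintype.range_linearCombination]
    exact hn
  let im : (Fin r → A) → (Fin r → k') := fun v i => χ (v i)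
  set s : Set (Fin r → k') := im '' {v | σ v = 0}
  have hs : Submodule.span k' s = ⊤ := by
    by_contra hne
    obtain ⟨l, hl0, hl⟩ := Submodule.exists_le_ker_of_lt_top _ (lt_top_iff_ne_top.2 hne)
    let L : (Fin r → A) →+ k' :=
      { toFun := fun v => l (im v)
        map_zero' := by
          have : im 0 = 0 := funext fun i => map_zero χ
          rw [this, map_zero]
        map_add' := fun v w => by
          have : im (v + w) = im v + im w := funext fun i => map_add χ _ _
          rw [this, map_add] }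
    choose c hc using hσ
    have hwd : ∀ v, L v = L (c (σ v)) := fun v => by
      rw [← sub_eq_zero, ← map_sub]
      exact hl (Submodule.subset_span ⟨_, by simp [hc], rfl⟩)
    have hLs : ∀ (a : A) v, L (a • v) = χ a * L v := fun a v => by
      have : im (a • v) = χ a • im v := funext fun i => map_mul χ _ _
      show l (im (a • v)) = χ a * l (im v)
      rw [this, map_smul, smul_eq_mul]
    let Λ : N →+ k' := AddMonoidHom.mk' (fun x => L (c x)) fun x y => by
      have := hwd (c x + c y)
      rw [map_add σ, hc, hc, map_add L] at this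
      exact this.symm
    have hΛ : ∀ a x, Λ (a • x) = χ a * Λ x := fun a x => by
      have := hwd (a • c x)
      rw [map_smul σ, hc, hLs] at this
      exact this.symm
    refine hl0 ((Pi.basisFun k' (Fin r)).ext fun i => ?_)
    have h1 : L (Pi.single i 1) = 0 := by
      rw [hwd]
      exact DFunLike.congr_fun (h Λ hΛ) (σ (Pi.single i 1))
    have h2 : im (Pi.single i 1) = (Pi.single i 1 : Fin r → k') := funext fun j => by
      rcases eq_or_ne j i with rfl | hj
      · simp [im]
      · simp [im, hj]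
    rw [Pi.basisFun_apply, LinearMap.zero_apply, ← h2]
    exact h1
  obtain ⟨t, hts, hspan, hli⟩ := exists_linearIndependent k' s
  let bt := Module.Basis.mk hli (by rw [Subtype.range_coe, hspan, hs])
  let e : t ≃ Fin r := bt.indexEquiv (Pi.basisFun k' (Fin r))
  have hV : ∀ j, ∃ v, σ v = 0 ∧ im v = (e.symm j : Fin r → k') := fun j => hts (e.symm j).2
  choose V hV0 hVim using hV
  let V' : Matrix (Fin r) (Fin r) A := Matrix.of V
  refine ⟨V'.det, ?_, fun x => ?_⟩
  · have hu : IsUnit (V'.map χ) := by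
      rw [← Matrix.linearIndependent_rows_iff_isUnit]
      have : (V'.map χ).row = fun j => (e.symm j : Fin r → k') := funext fun j => hVim j
      rw [this]
      exact hli.comp e.symm e.symm.injective
    have hd := (Matrix.isUnit_iff_isUnit_det _).1 hu
    rw [show (V'.map χ).det = χ V'.det from (RingHom.map_det (χ : A →+* k') V').symm] at hd
    exact hd.ne_zero
  · obtain ⟨w, rfl⟩ := hσ x
    have hi : ∀ i, V'.det • n i = 0 := fun i => by
      have h1 : ∑ l, (V'.adjugate * V') i l • n l = V'.det • n i := by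
        rw [Matrix.adjugate_mul]
        rw [Finset.sum_eq_single i (fun l _ hl => by simp [Matrix.one_apply_ne (Ne.symm hl)])
          (by simp)]
        simp
      rw [← h1]
      simp only [Matrix.mul_apply, Finset.sum_smul, mul_smul]
      rw [Finset.sum_comm]
      refine Finset.sum_eq_zero fun j _ => ?_
      rw [← Finset.smul_sum]
      have := hV0 j
      simp only [σ, Fintype.linearCombination_apply] at this
      rw [show ∑ l, V' j l • n l = 0 from this, smul_zero]
    rw [show σ w = ∑ i, w i • n i from Fintype.linearCombination_apply _ _ _, Finset.smul_sum]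
    exact Finset.sum_eq_zero fun i _ => by rw [smul_comm, hi, smul_zero]

variable {R : Type u} [CommRing R] [Algebra k R] {g : ℕ} (b : Fin g → R)

/-- The extension to the point of a semilinear functional. -/
def pointExt (lam : A ⊗[k] R →+ k') (hlam : ∀ a z, lam (a • z) = χ a * lam z) :
    k' ⊗[k] R →ₗ[k'] k' :=
  LinearMap.liftBaseChange k'
    ({ toFun := fun r => lam ((1 : A) ⊗ₜ[k] r)
       map_add' := fun r r' => by rw [TensorProduct.tmul_add, map_add]
       map_smul' := fun c r => by
         rw [TensorProduct.tmul_smul, ← algebraMap_smul A c, hlam, AlgHom.commutes,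
           ← Algebra.smul_def, RingHom.id_apply] } : R →ₗ[k] k')

theorem pointExt_tmul (lam : A ⊗[k] R →+ k') (hlam : ∀ a z, lam (a • z) = χ a * lam z)
    (c : k') (r : R) : pointExt χ lam hlam (c ⊗ₜ r) = c * lam ((1 : A) ⊗ₜ[k] r) :=
  LinearMap.liftBaseChange_tmul _ _ _ _

theorem pointExt_mapId (lam : A ⊗[k] R →+ k') (hlam : ∀ a z, lam (a • z) = χ a * lam z)
    (z : A ⊗[k] R) : pointExt χ lam hlam (mapId R χ z) = lam z := by
  induction z using TensorProduct.induction_on with
  | zero => simp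
  | tmul a r =>
    rw [mapId_tmul, pointExt_tmul, ← hlam, TensorProduct.smul_tmul', smul_eq_mul, mul_one]
  | add y z hy hz => rw [map_add, map_add, map_add, hy, hz]

/-- A semilinear functional only depends on the restriction to the point. -/
theorem eq_zero_of_mapId_eq_zero (lam : A ⊗[k] R →+ k')
    (hlam : ∀ a z, lam (a • z) = χ a * lam z) {z : A ⊗[k] R} (hz : mapId R χ z = 0) :
    lam z = 0 := by
  rw [← pointExt_mapId χ lam hlam z, hz, map_zero]

variable {χ} {b}

/-- A linear map after a change of parameters kills the changed ideal, if it killed the ideal. -/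
theorem eq_zero_of_mem_map {A' : Type u} [CommRing A'] [Algebra k A'] (φ : A →ₐ[k] A')
    {M : Type u} [AddCommGroup M] [Module A' M] (L : A' ⊗[k] R →ₗ[A'] M) {J : Ideal (A ⊗[k] R)}
    (hL : ∀ v ∈ J, L (mapId R φ v) = 0) {z : A' ⊗[k] R} (hz : z ∈ J.map (mapId R φ)) : L z = 0 := by
  have key : ∀ w ∈ J, ∀ y : A' ⊗[k] R, L (y * mapId R φ w) = 0 := by
    intro w hw y
    induction y using TensorProduct.induction_on with
    | zero => simp
    | tmul a r =>
      have he : a ⊗ₜ[k] r * mapId R φ w = a • mapId R φ (((1 : A) ⊗ₜ[k] r) * w) := by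
        rw [map_mul, mapId_tmul, map_one, ← smul_mul_assoc, TensorProduct.smul_tmul', smul_eq_mul,
          mul_one]
      rw [he, map_smul, hL _ (J.mul_mem_left _ hw), smul_zero]
    | add y y' hy hy' => rw [add_mul, map_add, hy, hy', add_zero]
  rw [Ideal.map] at hz
  have h' : ∀ y, L (y * z) = 0 := by
    induction hz using Submodule.span_induction with
    | mem x hx => obtain ⟨w, hw, rfl⟩ := hx; intro y; exact key w hw y
    | zero => intro y; simp
    | add x y _ _ hx hy => intro t; rw [mul_add, map_add, hx, hy, add_zero]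
    | smul c x _ hx => intro t; rw [smul_eq_mul, ← mul_assoc]; exact hx _
  have := h' 1
  rwa [one_mul] at this

/-- Changing the parameters of an ideal twice. -/
theorem map_mapId_mapId {A' A'' : Type u} [CommRing A'] [Algebra k A'] [CommRing A'']
    [Algebra k A''] (φ : A →ₐ[k] A') (φ' : A' →ₐ[k] A'') (J : Ideal (A ⊗[k] R)) :
    (J.map (mapId R φ)).map (mapId R φ') = J.map (mapId R (φ'.comp φ)) := by
  rw [mapId_comp]
  exact Ideal.map_map (mapId R φ).toRingHom (mapId R φ').toRingHom

/-- The chosen functions generate near a point where they do. -/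
theorem exists_surjective_near {J : Ideal (A ⊗[k] R)} (hfin : Module.Finite A ((A ⊗[k] R) ⧸ J))
    (hB : IsBIdeal b (J.map (mapId R χ))) :
    ∃ a, χ a ≠ 0 ∧ ∀ z : A ⊗[k] R, ∃ x, a • z - comb b A x ∈ J := by
  let q : A ⊗[k] R →ₗ[A] (A ⊗[k] R) ⧸ J := (Ideal.Quotient.mkₐ A J).toLinearMap
  let S : Submodule A ((A ⊗[k] R) ⧸ J) := LinearMap.range (q.comp (comb b A))
  obtain ⟨a, ha, hkill⟩ := exists_kills_of_no_functional χ (N := _ ⧸ S) fun Λ hΛ => by
    let lam : A ⊗[k] R →+ k' := Λ.comp (S.mkQ.comp q).toAddMonoidHom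
    have hlam : ∀ a z, lam (a • z) = χ a * lam z := fun a z => by
      show Λ (S.mkQ.comp q (a • z)) = χ a * Λ (S.mkQ.comp q z)
      rw [map_smul, hΛ]
    have hJ : ∀ v ∈ J, pointExt χ lam hlam (mapId R χ v) = 0 := fun v hv => by
      rw [pointExt_mapId]
      show Λ (S.mkQ (Ideal.Quotient.mk J v)) = 0
      rw [Ideal.Quotient.eq_zero_iff_mem.2 hv, map_zero, map_zero]
    have hcomb : ∀ x : Fin g → k', pointExt χ lam hlam (comb b k' x) = 0 := fun x => by
      rw [comb_apply, map_sum]
      refine Finset.sum_eq_zero fun j _ => ?_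
      have : lam ((1 : A) ⊗ₜ[k] b j) = 0 := by
        have h1 : ((1 : A) ⊗ₜ[k] b j) = comb b A (Pi.single j 1) := by
          rw [comb_apply, Finset.sum_eq_single j]
          · rw [Pi.single_eq_same]
          · intro l _ hl; rw [Pi.single_eq_of_ne hl, TensorProduct.zero_tmul]
          · simp
        show Λ (S.mkQ (q ((1 : A) ⊗ₜ[k] b j))) = 0
        have hm : q (comb b A (Pi.single j 1)) ∈ S := ⟨Pi.single j 1, rfl⟩
        rw [h1, Submodule.mkQ_apply, (Submodule.Quotient.mk_eq_zero S).2 hm, map_zero]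
      rw [pointExt_tmul, this, mul_zero]
    refine AddMonoidHom.ext fun w => ?_
    obtain ⟨v, rfl⟩ := S.mkQ_surjective w
    obtain ⟨z, rfl⟩ := Ideal.Quotient.mk_surjective v
    show lam z = 0
    obtain ⟨x, hx⟩ := hB.2 (Ideal.Quotient.mk _ (mapId R χ z))
    rw [← pointExt_mapId χ lam hlam z, ← sub_add_cancel (mapId R χ z) (comb b k' x), map_add,
      hcomb, add_zero]
    exact eq_zero_of_mem_map χ _ hJ (Ideal.Quotient.eq.1 hx.symm)
  refine ⟨a, ha, fun z => ?_⟩
  have h := hkill (S.mkQ (q z))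
  rw [← map_smul, ← map_smul, Submodule.mkQ_apply, Submodule.Quotient.mk_eq_zero] at h
  obtain ⟨x, hx⟩ := h
  exact ⟨x, Ideal.Quotient.eq.1 hx.symm⟩

section near

variable {J : Ideal (A ⊗[k] R)} [Algebra.FiniteType k R]

/-- A linear choice of coordinates. -/
theorem exists_coordChoice (hsurj : ∀ z : A ⊗[k] R, ∃ x, z - comb b A x ∈ J) :
    ∃ U : A ⊗[k] R →ₗ[A] (Fin g → A), ∀ z, z - comb b A (U z) ∈ J := by
  let β := Algebra.TensorProduct.basis A (Module.Free.chooseBasis k R)
  choose u hu using fun i => hsurj (β i)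
  refine ⟨β.constr A u, fun z => ?_⟩
  have h : (Ideal.Quotient.mkₐ A J).toLinearMap =
      ((Ideal.Quotient.mkₐ A J).toLinearMap.comp (comb b A)).comp (β.constr A u) :=
    β.ext fun i => by
      simp only [LinearMap.comp_apply, Module.Basis.constr_basis]
      exact Ideal.Quotient.eq.2 (hu i)
  exact Ideal.Quotient.eq.1 (LinearMap.congr_fun h z)

/-- The relations between the chosen functions. -/
def relMod (b : Fin g → R) (J : Ideal (A ⊗[k] R)) : Submodule A (Fin g → A) :=
  LinearMap.ker ((Ideal.Quotient.mkₐ A J).toLinearMap.comp (comb b A))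

theorem mem_relMod {x : Fin g → A} : x ∈ relMod b J ↔ comb b A x ∈ J :=
  Ideal.Quotient.eq_zero_iff_mem

theorem fg_relMod (hfg : J.FG) (hsurj : ∀ z : A ⊗[k] R, ∃ x, z - comb b A x ∈ J) :
    (relMod b J).FG := by
  let σ := (Ideal.Quotient.mkₐ A J).toLinearMap.comp (comb b A)
  have hσ : Function.Surjective σ := fun w => by
    obtain ⟨z, rfl⟩ := Ideal.Quotient.mk_surjective w
    obtain ⟨x, hx⟩ := hsurj z
    exact ⟨x, (Ideal.Quotient.eq.2 hx).symm⟩
  haveI : Module.Finite A ((A ⊗[k] R) ⧸ J) := Module.Finite.of_surjective σ hσ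
  haveI : Algebra.FinitePresentation k R :=
    Algebra.FinitePresentation.of_finiteType.mp inferInstance
  haveI : Algebra.FinitePresentation A ((A ⊗[k] R) ⧸ J) := Algebra.FinitePresentation.quotient hfg
  haveI : Module.FinitePresentation A ((A ⊗[k] R) ⧸ J) :=
    Module.FinitePresentation.of_finite_of_finitePresentation _ _
  exact Module.FinitePresentation.fg_ker σ hσ

/-- No relations near a point where there are none. -/
theorem exists_kills_relMod [IsDomain (k' ⊗[k] R)] (hfg : J.FG)
    (hsurj : ∀ z : A ⊗[k] R, ∃ x, z - comb b A x ∈ J)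
    (hloc : ∀ P : Ideal (A ⊗[k] R), P.IsPrime → ∃ f, f ∉ P ∧ ∃ z ∈ J, ∀ x ∈ J, f * x ∈ Ideal.span {z})
    (hne : J.map (mapId R χ) ≠ ⊥) (hB : IsBIdeal b (J.map (mapId R χ))) :
    ∃ a, χ a ≠ 0 ∧ ∀ x, comb b A x ∈ J → a • x = 0 := by
  obtain ⟨U, hU⟩ := exists_coordChoice hsurj
  haveI : Module.Finite A (relMod b J) := Module.Finite.of_fg (fg_relMod hfg hsurj)
  obtain ⟨a, ha, hkill⟩ := exists_kills_of_no_functional χ (N := relMod b J) fun Λ hΛ => by
    have hp : ∀ x, x - U (comb b A x) ∈ relMod b J := fun x =>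
      mem_relMod.2 (by rw [map_sub]; exact hU _)
    have hUJ : ∀ v ∈ J, U v ∈ relMod b J := fun v hv => mem_relMod.2 (by
      have := sub_mem hv (hU v)
      rwa [sub_sub_cancel] at this)
    let p : (Fin g → A) →ₗ[A] relMod b J :=
      (LinearMap.id - U.comp (comb b A)).codRestrict _ hp
    let μ : ∀ v ∈ J, A ⊗[k] R →ₗ[A] relMod b J := fun v hv =>
      (U.comp (LinearMap.mulRight A v)).codRestrict _ fun h => hUJ _ (J.mul_mem_left h hv)
    have hμ : ∀ v (hv : v ∈ J), ∀ h, mapId R χ h = 0 → Λ (μ v hv h) = 0 := fun v hv h h0 =>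
      eq_zero_of_mapId_eq_zero χ (Λ.comp (μ v hv).toAddMonoidHom)
        (fun a y => by
          show Λ (μ v hv (a • y)) = χ a * Λ (μ v hv y)
          rw [map_smul, hΛ]) h0
    refine AddMonoidHom.ext fun ⟨x, hx⟩ => ?_
    have hxJ : comb b A x ∈ J := mem_relMod.1 hx
    have hx0 : (fun j => χ (x j)) = (0 : Fin g → k') := hB.1 <| by
      show Ideal.Quotient.mk _ (comb b k' _) = Ideal.Quotient.mk _ (comb b k' 0)
      rw [map_zero (comb b k'), map_zero, Ideal.Quotient.eq_zero_iff_mem, ← mapId_comb]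
      exact Ideal.mem_map_of_mem _ hxJ
    have hz0 : mapId R χ (comb b A x) = 0 := by rw [mapId_comb, hx0, map_zero]
    have h1 : Λ (p x) = 0 := by
      have : x = ∑ j, x j • (Pi.single j 1 : Fin g → A) := pi_eq_sum_univ' x
      rw [this, map_sum, map_sum]
      exact Finset.sum_eq_zero fun j _ => by
        rw [map_smul, hΛ, congrFun hx0 j, Pi.zero_apply, zero_mul]
    have h2 : Λ (μ _ hxJ (1 : A ⊗[k] R)) = 0 := by
      set z := comb (k := k) b A x
      let T : Ideal (A ⊗[k] R) :=
        { carrier := {f | ∀ y, Λ (μ z hxJ (y * f)) = 0}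
          add_mem' := fun {f f'} hf hf' y => by rw [mul_add, map_add, map_add, hf, hf', add_zero]
          zero_mem' := fun y => by rw [mul_zero, map_zero, map_zero]
          smul_mem' := fun c f hf y => by rw [smul_eq_mul, ← mul_assoc]; exact hf _ }
      suffices hT : T = ⊤ by
        have h := (hT ▸ Submodule.mem_top : (1 : A ⊗[k] R) ∈ T) 1
        rwa [one_mul] at h
      by_contra hT
      obtain ⟨P, hP, hle⟩ := Ideal.exists_le_maximal _ hT
      obtain ⟨f, hf, z₀, hz₀, hfz⟩ := hloc P hP.isPrime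
      obtain ⟨w, hw⟩ := Ideal.mem_span_singleton'.1 (hfz z hxJ)
      refine hf (hle fun y => ?_)
      by_cases hz : mapId R χ z₀ = 0
      · have hf0 : mapId R χ f = 0 := by
          by_contra hf0
          refine hne (Ideal.map_le_iff_le_comap.2 (fun v hv => ?_) |> le_bot_iff.1)
          obtain ⟨d, hd⟩ := Ideal.mem_span_singleton'.1 (hfz v hv)
          have := congrArg (mapId R χ) hd
          rw [map_mul, map_mul, hz, mul_zero] at this
          exact (mul_eq_zero.1 this.symm).resolve_left hf0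
        exact hμ z hxJ _ (by rw [map_mul, hf0, mul_zero])
      · have hw0 : mapId R χ w = 0 := by
          have := congrArg (mapId R χ) hw
          rw [map_mul, map_mul, hz0, mul_zero] at this
          exact (mul_eq_zero.1 this).resolve_right hz
        have he : μ z hxJ (y * f) = μ z₀ hz₀ (y * w) := Subtype.ext <| by
          show U (y * f * z) = U (y * w * z₀)
          rw [mul_assoc, ← hw, mul_assoc]
        rw [he]
        exact hμ z₀ hz₀ _ (by rw [map_mul, hw0, mul_zero])
    have he : (⟨x, hx⟩ : relMod b J) = p x + μ _ hxJ (1 : A ⊗[k] R) := Subtype.ext <| by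
      show x = (x - U (comb b A x)) + U (1 * comb b A x)
      rw [one_mul, sub_add_cancel]
    rw [he, map_add, h1, h2, add_zero]
    rfl
  exact ⟨a, ha, fun x hx => congrArg Subtype.val (hkill ⟨x, mem_relMod.2 hx⟩)⟩

/-- If the chosen functions generate and `a` kills their relations, they form a basis where `a`
is invertible. -/
theorem isBIdeal_map_of_isUnit (hsurj : ∀ z : A ⊗[k] R, ∃ x, z - comb b A x ∈ J) {a : A}
    (hkill : ∀ x, comb b A x ∈ J → a • x = 0) {A' : Type u} [CommRing A'] [Algebra k A']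
    (φ : A →ₐ[k] A') (ha : IsUnit (φ a)) : IsBIdeal b (J.map (mapId R φ)) := by
  obtain ⟨U, hU⟩ := exists_coordChoice hsurj
  let U' : A' ⊗[k] R →ₗ[A'] (Fin g → A') := LinearMap.liftBaseChange A'
    ({ toFun := fun r j => φ (U ((1 : A) ⊗ₜ[k] r) j)
       map_add' := fun r r' => funext fun j => by simp [TensorProduct.tmul_add]
       map_smul' := fun c r => funext fun j => by
         rw [TensorProduct.tmul_smul, LinearMap.map_smul_of_tower]
         simp } : R →ₗ[k] (Fin g → A'))
  have hU' : ∀ z, U' (mapId R φ z) = fun j => φ (U z j) := by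
    intro z
    induction z using TensorProduct.induction_on with
    | zero => ext j; simp
    | tmul c r =>
      ext j
      rw [mapId_tmul, LinearMap.liftBaseChange_tmul,
        show c ⊗ₜ[k] r = c • ((1 : A) ⊗ₜ[k] r) by
          rw [TensorProduct.smul_tmul', smul_eq_mul, mul_one], map_smul]
      simp
    | add y z hy hz => ext j; simp [hy, hz]
  have hmem : ∀ w, w - comb b A' (U' w) ∈ J.map (mapId R φ) := by
    intro w
    induction w using TensorProduct.induction_on with
    | zero => simp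
    | tmul c r =>
      have he : c ⊗ₜ[k] r = c • mapId R φ ((1 : A) ⊗ₜ[k] r) := by
        rw [mapId_tmul, map_one, TensorProduct.smul_tmul', smul_eq_mul, mul_one]
      rw [he, map_smul, map_smul, ← smul_sub, hU', ← mapId_comb, ← map_sub, Algebra.smul_def]
      exact Ideal.mul_mem_left _ _ (Ideal.mem_map_of_mem _ (hU _))
    | add y w hy hw => rw [map_add, map_add, add_sub_add_comm]; exact add_mem hy hw
  obtain ⟨v, hv⟩ := ha
  let W : A' ⊗[k] R →ₗ[A'] (Fin g → A') := φ a • U'
  have hWJ : ∀ z ∈ J.map (mapId R φ), W z = 0 := fun z hz =>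
    eq_zero_of_mem_map φ W (fun y hy => funext fun j => by
      show φ a * U' (mapId R φ y) j = 0
      rw [hU', ← map_mul]
      have h := congrFun (hkill (U y) (by
        have := sub_mem hy (hU y)
        rwa [sub_sub_cancel] at this)) j
      rw [show a * U y j = 0 from h, map_zero]) hz
  have hWc : ∀ x, W (comb b A' x) = φ a • x := by
    refine LinearMap.congr_fun (f := W.comp (comb b A')) (g := φ a • LinearMap.id)
      ((Pi.basisFun A' (Fin g)).ext fun i => ?_)
    ext j
    have h1 : Pi.basisFun A' (Fin g) i = fun l => φ ((Pi.single i 1 : Fin g → A) l) :=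
      funext fun l => by
        rw [Pi.basisFun_apply]
        rcases eq_or_ne l i with rfl | hl
        · simp
        · simp [hl]
    show φ a * U' (comb b A' (Pi.basisFun A' (Fin g) i)) j = φ a * Pi.basisFun A' (Fin g) i j
    rw [h1, ← mapId_comb, hU', ← map_mul, ← map_mul]
    refine congrArg φ ?_
    have h := congrFun (hkill ((Pi.single i 1 : Fin g → A) - U (comb b A (Pi.single i 1)))
      (by rw [map_sub]; exact hU _)) j
    simp only [Pi.smul_apply, Pi.sub_apply, smul_eq_mul, Pi.zero_apply, mul_sub, sub_eq_zero] at h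
    exact h.symm
  refine isBIdeal_of_retraction ((↑v⁻¹ : A') • W) (fun x => ?_)
    fun z => ⟨fun hz => by rw [LinearMap.smul_apply, hWJ z hz, smul_zero], fun hz => ?_⟩
  · rw [LinearMap.smul_apply, hWc, smul_smul, ← hv, Units.inv_mul, one_smul]
  · rw [LinearMap.smul_apply] at hz
    have h1 : W z = 0 := by
      have := congrArg ((↑v : A') • ·) hz
      simpa [smul_smul] using this
    have h2 : U' z = 0 := by
      have h3 : φ a • U' z = 0 := h1
      rw [← hv] at h3
      have := congrArg ((↑v⁻¹ : A') • ·) h3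
      simpa [smul_smul] using this
    have := hmem z
    rwa [h2, map_zero, sub_zero] at this

end near

variable [Algebra.FiniteType k R]

/-- **Being a `b`-ideal spreads out from a point.** -/
theorem exists_isBIdeal_of_point (χ : A →ₐ[k] k') (b : Fin g → R) {J : Ideal (A ⊗[k] R)}
    (hfg : J.FG) (hfin : Module.Finite A ((A ⊗[k] R) ⧸ J))
    (hloc : ∀ P : Ideal (A ⊗[k] R), P.IsPrime → ∃ f, f ∉ P ∧ ∃ z ∈ J, ∀ x ∈ J, f * x ∈ Ideal.span {z})
    [IsDomain (k' ⊗[k] R)] (hne : J.map (mapId R χ) ≠ ⊥)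
    (hB : IsBIdeal b (J.map (mapId R χ))) :
    ∃ a, χ a ≠ 0 ∧ ∀ (A' : Type u) [CommRing A'] [Algebra k A'] (φ : A →ₐ[k] A'),
      IsUnit (φ a) → IsBIdeal b (J.map (mapId R φ)) := by
  obtain ⟨a₁, ha₁, hsurj⟩ := exists_surjective_near hfin hB
  let A₁ := Localization.Away a₁
  let ι : A →ₐ[k] A₁ := IsScalarTower.toAlgHom k A A₁
  have hu₁ : IsUnit (ι a₁) := IsLocalization.Away.algebraMap_isUnit a₁
  let χ₁ : A₁ →ₐ[k] k' := IsLocalization.liftAlgHom (M := Submonoid.powers a₁) (f := χ) fun y => by
    obtain ⟨n, hn⟩ := y.2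
    rw [← hn, map_pow]
    exact (isUnit_iff_ne_zero.2 ha₁).pow n
  have hχ₁ : ∀ a, χ₁ (ι a) = χ a := fun a => IsLocalization.lift_eq _ a
  have hcomp : χ₁.comp ι = χ := AlgHom.ext hχ₁
  set J₁ := J.map (mapId R ι)
  have hJ₁ : J₁.map (mapId R χ₁) = J.map (mapId R χ) := by
    rw [← hcomp]
    exact map_mapId_mapId ι χ₁ J
  have hsurj₁ : ∀ z : A₁ ⊗[k] R, ∃ x, z - comb b A₁ x ∈ J₁ := by
    intro z
    induction z using TensorProduct.induction_on with
    | zero => exact ⟨0, by simp⟩
    | tmul c r =>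
      obtain ⟨x, hx⟩ := hsurj ((1 : A) ⊗ₜ[k] r)
      refine ⟨(c * (hu₁.unit⁻¹ : A₁ˣ)) • fun j => ι (x j), ?_⟩
      have h := Ideal.mul_mem_left J₁ (algebraMap A₁ _ (c * (hu₁.unit⁻¹ : A₁ˣ)))
        (Ideal.mem_map_of_mem (mapId R ι) hx)
      rwa [map_sub, mapId_comb, mapId_smul, mul_sub, ← Algebra.smul_def, ← Algebra.smul_def,
        smul_smul, mul_assoc, IsUnit.val_inv_mul, mul_one, mapId_tmul, map_one,
        TensorProduct.smul_tmul', smul_eq_mul, mul_one, ← map_smul] at h
    | add y z hy hz =>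
      obtain ⟨x, hx⟩ := hy
      obtain ⟨x', hx'⟩ := hz
      exact ⟨x + x', by rw [map_add, add_sub_add_comm]; exact add_mem hx hx'⟩
  have hloc₁ : ∀ P : Ideal (A₁ ⊗[k] R), P.IsPrime →
      ∃ f, f ∉ P ∧ ∃ z ∈ J₁, ∀ x ∈ J₁, f * x ∈ Ideal.span {z} := by
    intro P hP
    obtain ⟨f, hf, z, hz, hfz⟩ := hloc (P.comap (mapId R ι)) (Ideal.comap_isPrime _ _)
    refine ⟨mapId R ι f, hf, mapId R ι z, Ideal.mem_map_of_mem _ hz, fun x hx => ?_⟩
    have hle : J₁ ≤ Submodule.comap (LinearMap.mulLeft (A₁ ⊗[k] R) (mapId R ι f))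
        (Ideal.span {mapId R ι z}) := Ideal.map_le_iff_le_comap.2 fun v hv => by
      obtain ⟨d, hd⟩ := Ideal.mem_span_singleton'.1 (hfz v hv)
      exact Ideal.mem_span_singleton'.2 ⟨mapId R ι d, by
        show _ = mapId R ι f * mapId R ι v
        rw [← map_mul, ← map_mul, hd]⟩
    exact hle hx
  have hfg₁ : J₁.FG := Ideal.FG.map hfg (mapId R ι : A ⊗[k] R →+* A₁ ⊗[k] R)
  obtain ⟨a₂, ha₂, hkill⟩ := exists_kills_relMod (χ := χ₁) (J := J₁) hfg₁ hsurj₁ hloc₁
    (hJ₁.symm ▸ hne) (hJ₁.symm ▸ hB)
  obtain ⟨n, c, hc⟩ := IsLocalization.Away.surj a₁ a₂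
  refine ⟨a₁ * c, ?_, fun A' _ _ φ hφ => ?_⟩
  · have h : χ c = χ₁ a₂ * χ a₁ ^ n := by
      rw [← hχ₁ c, ← hχ₁ a₁, ← map_pow, ← map_mul]
      exact congrArg χ₁ hc.symm
    rw [map_mul, h]
    exact mul_ne_zero ha₁ (mul_ne_zero ha₂ (pow_ne_zero n ha₁))
  · rw [map_mul, IsUnit.mul_iff] at hφ
    let φ₁ : A₁ →ₐ[k] A' := IsLocalization.liftAlgHom (M := Submonoid.powers a₁) (f := φ) fun y => by
      obtain ⟨m, hm⟩ := y.2
      rw [← hm, map_pow]
      exact hφ.1.pow m
    have hφ₁ : ∀ a, φ₁ (ι a) = φ a := fun a => IsLocalization.lift_eq _ a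
    have hu : IsUnit (φ₁ a₂) := by
      have h : φ₁ a₂ * φ a₁ ^ n = φ c := by
        rw [← hφ₁ c, ← hφ₁ a₁, ← map_pow, ← map_mul]
        exact congrArg φ₁ hc
      exact (IsUnit.mul_iff.1 (h ▸ hφ.2)).1
    have h := isBIdeal_map_of_isUnit hsurj₁ hkill φ₁ hu
    have he : J₁.map (mapId R φ₁) = J.map (mapId R φ) := by
      rw [← (AlgHom.ext hφ₁ : φ₁.comp ι = φ)]
      exact map_mapId_mapId ι φ₁ J
    rwa [he] at h

/-- The same with the localisation as parameters. -/
theorem exists_isBIdeal_away (χ : A →ₐ[k] k') (b : Fin g → R) {J : Ideal (A ⊗[k] R)}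
    (hfg : J.FG) (hfin : Module.Finite A ((A ⊗[k] R) ⧸ J))
    (hloc : ∀ P : Ideal (A ⊗[k] R), P.IsPrime → ∃ f, f ∉ P ∧ ∃ z ∈ J, ∀ x ∈ J, f * x ∈ Ideal.span {z})
    [IsDomain (k' ⊗[k] R)] (hne : J.map (mapId R χ) ≠ ⊥)
    (hB : IsBIdeal b (J.map (mapId R χ))) :
    ∃ a, χ a ≠ 0 ∧
      IsBIdeal b (J.map (mapId R (IsScalarTower.toAlgHom k A (Localization.Away a)))) := by
  obtain ⟨a, ha, h⟩ := exists_isBIdeal_of_point χ b hfg hfin hloc hne hB
  exact ⟨a, ha, h _ _ (IsLocalization.Away.algebraMap_isUnit a)⟩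

end FA.Jac.Hilb

end
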