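import Fermat.Agent.Jac.Curve
import Fermat.Agent.AbTors.LocalFactorial
import Fermat.Agent.Curve.Value
import Mathlib.RingTheory.Valuation.LocalSubring

/-!
# Centres of places on the curve

Every point other than the generic one is the centre of a place, and a function is regular at a
point iff it is regular at all places centred there.
-/

set_option autoImplicit false
set_option linter.style.haveILetI false
set_option linter.unusedSectionVars false

noncomputable section

universe u

open CategoryTheory AlgebraicGeometry TopologicalSpace NeronModelInfra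
open AlgebraicCurve FA.Curve FA.AbTors IsLocalRing

namespace FA.Jac

variable {k : Type u} [Field k]

namespace Crv

variable (V : Crv k)

/-- The centre of a place. -/
def ctrP (v : Place k V.F) : V.C := placeCtr (RingHom.id k) V.gen V.gen_str v

theorem ext_gen (v : Place k V.F) :
    Spec.map (CommRingCat.ofHom v.toValuationSubring.subtype) ≫
      placeExt (RingHom.id k) V.gen V.gen_str v = genPt V.C :=
  placeExt_gen (RingHom.id k) V.gen V.gen_str v

theorem mem_of_regAt_ctrP {v : Place k V.F} {f : V.F}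
    (h : RegAt (X := V.C) (V.ctrP v) f) : f ∈ v.toValuationSubring :=
  Growth.mem_of_regAt (X := V.C) (W := v.toValuationSubring) (V.ext_gen v) h

theorem atLeast_of_regAt {v : Place k V.F} {f : V.F} (h : RegAt (X := V.C) (V.ctrP v) f) :
    AtLeast v 0 f :=
  atLeast_zero_iff_mem.2 (V.mem_of_regAt_ctrP h)

theorem ord_of_unitAt {v : Place k V.F} {f : V.F} (h : UnitAt (X := V.C) (V.ctrP v) f) :
    v.ord f = 0 := by
  have hf : f ≠ (0 : V.F) := h.ne_zero
  have h1 := (atLeast_iff hf).1 (V.atLeast_of_regAt h.regAt)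
  have h2 := (atLeast_iff (inv_ne_zero hf)).1 (V.atLeast_of_regAt (f := f⁻¹) h.inv.regAt)
  rw [v.ord_inv] at h2
  omega

theorem ctrP_ne_generic (v : Place k V.F) : V.ctrP v ≠ genericPoint V.C := by
  intro h
  refine v.ne_top' (eq_top_iff.2 fun f _ => ?_)
  rcases eq_or_ne f 0 with rfl | hf
  · exact zero_mem _
  · exact V.mem_of_regAt_ctrP (h ▸ (unitAt_generic (X := V.C) hf).regAt)

/-- The functions regular at a point as rational functions. -/
def stF (x : V.C) : V.C.presheaf.stalk x →+* V.F :=
  algebraMap (V.C.presheaf.stalk x) V.C.functionField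

theorem stF_fromSpecStalk (x : V.C) :
    Spec.map (CommRingCat.ofHom (V.stF x)) ≫ V.C.fromSpecStalk x = V.gen :=
  Scheme.SpecMap_stalkSpecializes_fromSpecStalk ((genericPoint_spec V.C).specializes trivial)

theorem regAt_iff_stF {x : V.C} {f : V.F} :
    RegAt (X := V.C) x f ↔ f ∈ Set.range (V.stF x) :=
  regAt_iff_mem_range (X := V.C)

variable [IsAlgClosed k]

/-- A valuation ring dominating the local ring at a point is centred at the point. -/
theorem exists_place_of_dominates {x : V.C} (W : ValuationSubring V.F)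
    (hW : ∀ a, V.stF x a ∈ W)
    (hloc : IsLocalHom (((V.stF x).codRestrict W.toSubring hW : _ →+* W)))
    (hne : W ≠ ⊤) :
    ∃ v : Place k V.F, v.toValuationSubring = W ∧ V.ctrP v = x := by
  have hK : ∀ c : k, algebraMap k V.F c ∈ W := fun c => by
    obtain ⟨a, ha⟩ := V.regAt_iff_stF.1
      (Growth.regAt_kHom V.str (z := x) c : RegAt (X := V.C) x (algebraMap k V.F c))
    exact Eq.subst (motive := (· ∈ W)) ha (hW a)
  let v : Place k V.F := toPlace V.isFunctionField W hK hne
  let ψ : V.C.presheaf.stalk x →+* v.toValuationSubring :=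
    (V.stF x).codRestrict W.toSubring hW
  haveI : IsLocalHom ψ := hloc
  let e : Spec (CommRingCat.of v.toValuationSubring) ⟶ V.C :=
    Spec.map (CommRingCat.ofHom ψ) ≫ V.C.fromSpecStalk x
  have he : Spec.map (CommRingCat.ofHom v.toValuationSubring.subtype) ≫ e = V.gen := by
    show _ ≫ Spec.map (CommRingCat.ofHom ψ) ≫ _ = _
    rw [← Category.assoc, ← Spec.map_comp, ← CommRingCat.ofHom_comp]
    exact V.stF_fromSpecStalk x
  have hs : e ≫ V.str = Spec.map (CommRingCat.ofHom
      ((placeHom v).comp (RingHom.id k))) := by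
    obtain ⟨α, hα⟩ := Spec.map_surjective (e ≫ V.str)
    have h1 : Spec.map (CommRingCat.ofHom v.toValuationSubring.subtype) ≫ e ≫ V.str =
        V.gen ≫ V.str := by
      rw [← Category.assoc, he]
    rw [← hα, ← Spec.map_comp, V.gen_str] at h1
    have h2 := Spec.map_injective h1
    rw [← hα]
    congr 1
    ext r
    exact congrArg (fun ψ : CommRingCat.of k ⟶ CommRingCat.of V.F => ψ.hom r) h2
  refine ⟨v, rfl, ?_⟩
  rw [ctrP, placeCtr, ← placeExt_unique (RingHom.id k) V.gen V.gen_str v e he hs]
  exact (ctr_comp ψ (V.C.fromSpecStalk x)).trans Scheme.fromSpecStalk_closedPoint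

/-- Every point other than the generic point is the centre of a place. -/
theorem exists_place_ctr {x : V.C} (hx : x ≠ genericPoint V.C) :
    ∃ v : Place k V.F, V.ctrP v = x := by
  obtain ⟨W, hW, hloc⟩ := IsLocalRing.exists_factor_valuationRing (V.stF x)
  obtain ⟨v, -, hv⟩ := V.exists_place_of_dominates W hW hloc (by
    rintro rfl
    haveI : IsLocalHom (V.stF x) := ⟨fun a ha => by
      refine hloc.map_nonunit a ?_
      obtain ⟨u, hu⟩ := ha
      exact ⟨⟨⟨u.1, trivial⟩, ⟨u.2, trivial⟩, Subtype.ext u.3, Subtype.ext u.4⟩,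
        Subtype.ext hu⟩⟩
    refine hx ?_
    have h1 := ctr_comp (V.stF x) (V.C.fromSpecStalk x)
    rw [V.stF_fromSpecStalk, show ctr V.gen = genericPoint V.C from ctr_genPt] at h1
    exact (h1.trans Scheme.fromSpecStalk_closedPoint).symm)
  exact ⟨v, hv⟩

/-- A function regular at all places centred at a point is regular there. -/
theorem regAt_of_places {x : V.C} {f : V.F}
    (h : ∀ v : Place k V.F, V.ctrP v = x → AtLeast v 0 f) : RegAt (X := V.C) x f := by
  by_contra hreg
  replace hreg : ¬ f ∈ Set.range (V.stF x) := fun hf => hreg (V.regAt_iff_stF.2 hf)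
  haveI := Loc.isDomain_stalk V.str x
  haveI : UniqueFactorizationMonoid (V.C.presheaf.stalk x) := factorialStalks V.C V.str x
  letI : Algebra (V.C.presheaf.stalk x) V.F := (V.stF x).toAlgebra
  haveI : IsFractionRing (V.C.presheaf.stalk x) V.F :=
    inferInstanceAs (IsFractionRing (V.C.presheaf.stalk x) V.C.functionField)
  let R : LocalSubring V.F := LocalSubring.range (V.stF x)
  haveI : IsIntegrallyClosedIn R.toSubring V.F := by
    refine Subring.isIntegrallyClosedIn_iff.2 fun {y} hy => ?_
    obtain ⟨p, hp, hpy⟩ := hy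
    obtain ⟨q, hq, -, hqm⟩ := Polynomial.lifts_and_degree_eq_and_monic
      ((Polynomial.mem_lifts p).2 (Polynomial.map_surjective
        ((V.stF x).rangeRestrict : _ →+* R.toSubring)
        (V.stF x).rangeRestrict_surjective p)) hp
    have hy' : IsIntegral (V.C.presheaf.stalk x) y := by
      refine ⟨q, hqm, ?_⟩
      rw [← hq] at hpy
      exact (Polynomial.eval₂_map (p := q)
        ((V.stF x).rangeRestrict : _ →+* R.toSubring) (algebraMap R.toSubring V.F) y).symm.trans hpy
    obtain ⟨a, ha⟩ := (IsIntegrallyClosed.isIntegral_iff (R := V.C.presheaf.stalk x) (K := V.F)).1 hy'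
    exact ⟨a, ha⟩
  obtain ⟨W, hW, hfW⟩ := LocalSubring.exists_le_valuationSubring_of_isIntegrallyClosedIn
    (R := R) (x := f) (fun hf => hreg hf)
  obtain ⟨v, hv, hvx⟩ := V.exists_place_of_dominates W (fun a => hW.1 ⟨a, rfl⟩)
    (@RingHom.isLocalHom_comp _ _ _ _ _ _ _ _ hW.2
      (.of_surjective _ (V.stF x).rangeRestrict_surjective))
    (fun e => hfW (e ▸ trivial))
  exact hfW (hv ▸ atLeast_zero_iff_mem.1 (h v hvx))

theorem finite_ctrP_not_mem {U : V.C.Opens} (hU : genericPoint V.C ∈ U) :
    {x : V.C | x ∉ U}.Finite := by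
  have h := finite_not_mem (RingHom.id k) V.isFunctionField V.gen V.gen_str (U := U)
    (by rw [show ctr V.gen = genericPoint V.C from ctr_genPt]; exact hU)
  refine (h.image V.ctrP).subset fun x hx => ?_
  obtain ⟨v, hv⟩ := V.exists_place_ctr (x := x) (fun e => hx (e ▸ hU))
  exact ⟨v, (hv ▸ hx : V.ctrP v ∉ U), hv⟩

/-- The base point as a point. -/
def ptPt : V.C := V.pt.1 (IsLocalRing.closedPoint k)

theorem isClosed_image_closedPoint (p : SchemeHomOver (𝟙 (Spec (CommRingCat.of k))) V.str) :
    IsClosed ({p.1 (IsLocalRing.closedPoint k)} : Set V.C) :=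
  (pointEquivClosedPoint V.str ⟨p.1, p.2⟩).2

theorem point_ne_generic (p : SchemeHomOver (𝟙 (Spec (CommRingCat.of k))) V.str) :
    p.1 (IsLocalRing.closedPoint k) ≠ genericPoint V.C := by
  intro h
  haveI := infinite_places V.isFunctionField
  obtain ⟨v⟩ := (inferInstance : Nonempty (Place k V.F))
  have hmem : V.ctrP v ∈ closure ({genericPoint V.C} : Set V.C) :=
    (genericPoint_spec V.C).specializes trivial |>.mem_closure
  rw [← h, (V.isClosed_image_closedPoint p).closure_eq, h] at hmem
  exact V.ctrP_ne_generic v hmem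

/-- There is a second rational point. -/
theorem exists_second_point :
    ∃ q : SchemeHomOver (𝟙 (Spec (CommRingCat.of k))) V.str,
      q.1 (IsLocalRing.closedPoint k) ≠ V.pt.1 (IsLocalRing.closedPoint k) := by
  haveI := LocallyOfFiniteType.jacobsonSpace V.str
  have hne : ({V.pt.1 (IsLocalRing.closedPoint k)}ᶜ : Set V.C).Nonempty :=
    ⟨genericPoint V.C, (V.point_ne_generic V.pt).symm⟩
  obtain ⟨x, hx, hxc⟩ := nonempty_inter_closedPoints hne
    ((V.isClosed_image_closedPoint V.pt).isOpen_compl.isLocallyClosed)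
  refine ⟨⟨((pointEquivClosedPoint V.str).symm ⟨x, hxc⟩).1,
    ((pointEquivClosedPoint V.str).symm ⟨x, hxc⟩).2⟩, ?_⟩
  rw [show (((pointEquivClosedPoint V.str).symm ⟨x, hxc⟩).1 (IsLocalRing.closedPoint k)) = x from
    congrArg Subtype.val ((pointEquivClosedPoint V.str).apply_symm_apply ⟨x, hxc⟩)]
  exact hx

end Crv

end FA.Jac

end
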