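import Fermat.Agent.Jac.Curve
import Fermat.Agent.AbTors.LocalFactorial
import Fermat.Agent.AbTors.Rat
import Mathlib.RingTheory.Algebraic.Integral

/-!
# Closed points of a curve are places of its function field

The local ring at a point other than the generic point is a discrete valuation ring: it is
factorial and its only non-zero prime is maximal.  So the centre identifies places with these
points.
-/

set_option autoImplicit false
set_option linter.style.haveILetI false
set_option linter.unusedSectionVars false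

noncomputable section

universe u

open CategoryTheory CategoryTheory.Limits AlgebraicGeometry TopologicalSpace Polynomial
open NeronModelInfra AlgebraicCurve FA.Curve FA.AbTors FA.ModField

namespace FA.Jac

open scoped IntermediateField.algebraAdjoinAdjoin in
/-- Every function is algebraic over the polynomials in a transcendental one. -/
theorem isAlgebraic_adjoin {k F : Type u} [Field k] [Field F] [Algebra k F]
    (hF : IsFunctionField k F) {x : F} (hx : Transcendental k x) (f : F) :
    IsAlgebraic (Algebra.adjoin k ({x} : Set F)) f :=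
  haveI := hF.finiteDimensional hx
  (IsFractionRing.isAlgebraic_iff (Algebra.adjoin k ({x} : Set F))
    (IntermediateField.adjoin k ({x} : Set F)) F).2 (Algebra.IsAlgebraic.isAlgebraic f)

/-- The non-zero primes of an order in a function field of one variable are maximal. -/
theorem isMaximal_of_isFunctionField {k A F : Type u} [Field k] [CommRing A] [Field F]
    [Algebra k A] [Algebra A F] [Algebra k F] [IsScalarTower k A F]
    (hinj : Function.Injective (algebraMap A F)) (hF : IsFunctionField k F) (P : Ideal A)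
    [P.IsPrime] (hP : P ≠ ⊥) : P.IsMaximal := by
  have key : ∀ x : A, IsAlgebraic k (Ideal.Quotient.mk P x) := by
    intro x
    by_contra htr
    obtain ⟨a, haP, ha0⟩ := Submodule.exists_mem_ne_zero_of_ne_bot hP
    have hxA : Transcendental k x := fun halg => htr (halg.algHom (Ideal.Quotient.mkₐ k P))
    have hx : Transcendental k (algebraMap A F x) := fun halg =>
      hxA ((isAlgebraic_algebraMap_iff hinj).1 halg)
    letI : Algebra k[X] A := (aeval x).toRingHom.toAlgebra
    letI : Algebra k[X] F := ((algebraMap A F).comp (algebraMap k[X] A)).toAlgebra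
    haveI : IsScalarTower k[X] A F := IsScalarTower.of_algebraMap_eq fun _ => rfl
    set x' := algebraMap A F x
    have halg : IsAlgebraic k[X] (algebraMap A F a) := by
      have h1 := isAlgebraic_adjoin hF hx (algebraMap A F a)
      have hmem : ∀ p : k[X], aeval x' p ∈ Algebra.adjoin k ({x'} : Set F) := fun p =>
        aeval_mem_adjoin_singleton k x'
      refine h1.of_ringHom_of_comp_eq ((aeval x').toRingHom.codRestrict
        (Algebra.adjoin k ({x'} : Set F)) hmem) (RingHom.id F) ?_ Function.injective_id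
        (RingHom.ext fun p => ?_)
      · rintro ⟨z, hz⟩
        rw [Algebra.adjoin_singleton_eq_range_aeval] at hz
        obtain ⟨p, hp⟩ := hz
        exact ⟨p, Subtype.ext hp⟩
      · exact Polynomial.aeval_algebraMap_apply F x p
    have halgA : IsAlgebraic k[X] a := (isAlgebraic_algebraMap_iff hinj).1 halg
    haveI : IsDomain A := hinj.isDomain
    obtain ⟨r, hr0, hdvd⟩ := halgA.exists_nonzero_dvd (mem_nonZeroDivisors_of_ne_zero ha0)
    have hmem : aeval x r ∈ P := P.mem_of_dvd hdvd haP
    refine htr ⟨r, hr0, ?_⟩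
    rw [show Ideal.Quotient.mk P x = Ideal.Quotient.mkₐ k P x from rfl,
      Polynomial.aeval_algHom_apply]
    exact Ideal.Quotient.eq_zero_iff_mem.2 hmem
  haveI : Algebra.IsIntegral k (A ⧸ P) := ⟨fun x => by
    obtain ⟨x, rfl⟩ := Ideal.Quotient.mk_surjective x
    exact (key x).isIntegral⟩
  exact Ideal.Quotient.maximal_of_isField P
    (isField_of_isIntegral_of_isField' (Field.toIsField k))

namespace Crv

variable {k : Type u} [Field k] (V : Crv k)

/-- The centre of a place. -/
def cen (v : Place k V.F) : V.C := placeCtr (RingHom.id k) V.gen V.gen_str v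

theorem ctr_gen : ctr V.gen = genericPoint V.C := ctr_genPt

variable {V}

/-- A function regular at the centre is regular at the place. -/
theorem mem_of_regAt_cen {v : Place k V.F} {f : V.F} (h : RegAt (V.cen v) f) :
    f ∈ v.toValuationSubring :=
  Growth.mem_of_regAt (placeExt_gen (RingHom.id k) V.gen V.gen_str v) h

theorem regAt_generic (f : V.F) : RegAt (genericPoint V.C) f := by
  rcases eq_or_ne f 0 with rfl | hf
  · exact Growth.regAt_zero
  · exact (unitAt_generic hf).regAt

theorem cen_ne (v : Place k V.F) : V.cen v ≠ genericPoint V.C := fun e =>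
  v.ne_top' (eq_top_iff.2 fun f _ => mem_of_regAt_cen (e ▸ regAt_generic f))

theorem ord_eq_zero_of_unitAt {v : Place k V.F} {f : V.F} (h : UnitAt (V.cen v) f) :
    v.ord f = 0 := by
  have h1 := (mem_place_iff v).1 (mem_of_regAt_cen h.regAt)
  have h2 : 0 ≤ v.ord (f⁻¹ : V.F) := (mem_place_iff v).1 (mem_of_regAt_cen h.inv.regAt)
  have h3 : v.ord (f⁻¹ : V.F) = -v.ord f := v.ord_inv f
  omega

variable [IsAlgClosed k]

/-- A parameter at a point other than the generic one. -/
theorem exists_param {z : V.C} (hz : z ≠ genericPoint V.C) :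
    ∃ t : V.F, t ≠ 0 ∧ RegAt z t ∧ ¬RegAt z t⁻¹ ∧
      ∀ f : V.F, f ≠ 0 → ∃ n : ℤ, UnitAt z (f / t ^ n) := by
  classical
  obtain ⟨_, ⟨U, hU, rfl⟩, hzU, -⟩ :=
    V.C.isBasis_affineOpens.exists_subset_of_mem_open (Set.mem_univ z) isOpen_univ
  replace hzU : z ∈ U := hzU
  haveI : Nonempty U := ⟨⟨z, hzU⟩⟩
  letI algU := (Loc.sectionsHom V.str U).toAlgebra
  letI algF : Algebra k V.C.functionField := (Growth.kHom V.str).toAlgebra
  haveI : IsFractionRing Γ(V.C, U) V.C.functionField :=
    functionField_isFractionRing_of_isAffineOpen V.C U hU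
  haveI : IsScalarTower k Γ(V.C, U) V.C.functionField :=
    IsScalarTower.of_algebraMap_eq fun c =>
      (((evF_genPt (genericPoint_mem hzU) _).symm).trans
        (Growth.evF_sectionsHom V.str hzU c)).symm
  have hmax : ∀ Q : Ideal Γ(V.C, U), Q.IsPrime → Q ≠ ⊥ → Q.IsMaximal := fun Q hQ hQ0 =>
    isMaximal_of_isFunctionField (IsFractionRing.injective Γ(V.C, U) V.C.functionField)
      (V.isFunctionField : @IsFunctionField k V.C.functionField _ _ algF) Q hQ0
  set P := hU.primeIdealOf ⟨z, hzU⟩ with hP
  have hP0 : P.asIdeal ≠ ⊥ := fun h0 => hz (by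
    have h1 : P ⤳ hU.primeIdealOf ⟨genericPoint V.C, genericPoint_mem hzU⟩ :=
      (PrimeSpectrum.le_iff_specializes _ _).1
        (show P.asIdeal ≤ _ by rw [h0]; exact bot_le)
    have h2 := h1.map hU.fromSpec.continuous
    rw [hP, hU.fromSpec_primeIdealOf, hU.fromSpec_primeIdealOf] at h2
    exact h2.antisymm ((genericPoint_spec V.C).specializes trivial) |>.eq)
  let R := V.C.presheaf.stalk z
  haveI : UniqueFactorizationMonoid R := factorialStalks V.C V.str z
  letI : Algebra Γ(V.C, U) R := TopCat.Presheaf.algebra_section_stalk V.C.presheaf ⟨z, hzU⟩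
  haveI hloc : IsLocalization.AtPrime R P.asIdeal := hU.isLocalization_stalk ⟨z, hzU⟩
  have hAR : Function.Injective (algebraMap Γ(V.C, U) R) :=
    IsLocalization.injective R P.asIdeal.primeCompl_le_nonZeroDivisors
  have hspan : ∀ q : R, Prime q → Ideal.span {q} = P.asIdeal.map (algebraMap Γ(V.C, U) R) := by
    intro q hq
    haveI hqp : (Ideal.span {q}).IsPrime := (Ideal.span_singleton_prime hq.ne_zero).2 hq
    set Q := (Ideal.span {q}).comap (algebraMap Γ(V.C, U) R) with hQ
    have hmap : Q.map (algebraMap Γ(V.C, U) R) = Ideal.span {q} :=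
      IsLocalization.map_under P.asIdeal.primeCompl R _
    have hQ0 : Q ≠ ⊥ := fun h0 => hq.ne_zero (by
      rw [h0, Ideal.map_bot] at hmap
      exact Ideal.span_singleton_eq_bot.1 hmap.symm)
    obtain ⟨hQp, hdis⟩ :=
      (IsLocalization.isPrime_iff_isPrime_disjoint P.asIdeal.primeCompl R _).1 hqp
    have hle : Q ≤ P.asIdeal := fun y hy => by
      by_contra hyP
      exact Set.disjoint_left.1 hdis (show y ∈ P.asIdeal.primeCompl from hyP) hy
    rw [← (hmax Q hQp hQ0).eq_of_le P.isPrime.ne_top hle, hmap]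
  obtain ⟨a, haP, ha0⟩ := Submodule.exists_mem_ne_zero_of_ne_bot hP0
  have hau : ¬IsUnit (algebraMap Γ(V.C, U) R a) := fun hu =>
    (IsLocalization.AtPrime.isUnit_to_map_iff R P.asIdeal a).1 hu haP
  obtain ⟨ϖ, hϖi, -⟩ :=
    WfDvdMonoid.exists_irreducible_factor hau ((map_ne_zero_iff _ hAR).2 ha0)
  have hϖ : Prime ϖ := UniqueFactorizationMonoid.irreducible_iff_prime.1 hϖi
  have hass : ∀ q : R, Prime q → Associated q ϖ := fun q hq =>
    Ideal.span_singleton_eq_span_singleton.1 ((hspan q hq).trans (hspan ϖ hϖ).symm)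
  have hpow : ∀ r : R, r ≠ 0 → ∃ n : ℕ, Associated r (ϖ ^ n) := by
    intro r
    induction r using UniqueFactorizationMonoid.induction_on_prime with
    | h₁ => exact fun h => absurd rfl h
    | h₂ x hx => exact fun _ => ⟨0, by rw [pow_zero]; exact associated_one_iff_isUnit.2 hx⟩
    | h₃ b q hb hq ih =>
      intro _
      obtain ⟨n, hn⟩ := ih hb
      exact ⟨n + 1, by rw [pow_succ']; exact (hass q hq).mul_mul hn⟩
  let ι : R →+* V.C.functionField := algebraMap R V.C.functionField
  have hι : Function.Injective ι := IsFractionRing.injective R V.C.functionField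
  have hreg : ∀ r : R, RegAt z (ι r) := fun r => regAt_iff_mem_range.2 ⟨r, rfl⟩
  have hu : ∀ w : Rˣ, UnitAt z (ι (w : R)) := fun w =>
    unitAt_of_regAt (hreg _) (by rw [← map_units_inv]; exact hreg _)
      ((map_ne_zero_iff _ hι).2 w.ne_zero)
  refine ⟨ι ϖ, (map_ne_zero_iff _ hι).2 hϖ.ne_zero, hreg ϖ, fun h => ?_, fun f hf => ?_⟩
  · obtain ⟨r, hr⟩ := regAt_iff_mem_range.1 h
    refine hϖ.not_isUnit (isUnit_iff_exists_inv.2 ⟨r, hι ?_⟩)
    rw [map_mul, map_one, show ι r = (ι ϖ)⁻¹ from hr]
    exact mul_inv_cancel₀ ((map_ne_zero_iff _ hι).2 hϖ.ne_zero)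
  · obtain ⟨r, s, hs, hrs⟩ := IsFractionRing.div_surjective (A := R)
      (show V.C.functionField from f)
    have hs0 : s ≠ 0 := nonZeroDivisors.ne_zero hs
    have hr0 : r ≠ 0 := fun h => hf (by rw [← hrs, h, map_zero, zero_div]; rfl)
    obtain ⟨m, w, hw⟩ := (hpow r hr0).imp fun _ h => h.symm
    obtain ⟨n, w', hw'⟩ := (hpow s hs0).imp fun _ h => h.symm
    refine ⟨(m : ℤ) - n, ?_⟩
    have e : (show V.C.functionField from f) / ι ϖ ^ ((m : ℤ) - n) = ι w / ι w' := by
      have h0 : ι ϖ ≠ 0 := (map_ne_zero_iff _ hι).2 hϖ.ne_zero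
      have hw0 : ι (w' : R) ≠ 0 := (hu w').ne_zero
      rw [show (show V.C.functionField from f) = ι r / ι s from hrs.symm, ← hw, ← hw', map_mul,
        map_mul, map_pow, map_pow, zpow_sub₀ h0, zpow_natCast, zpow_natCast]
      field_simp
    exact (congrArg (UnitAt z) e).mpr ((hu w).div (hu w'))

variable (V) in
/-- The order at a place is the exponent of a parameter at the centre. -/
theorem unitAt_cen_iff {v : Place k V.F} {f : V.F} (hf : f ≠ 0) :
    UnitAt (V.cen v) f ↔ v.ord f = 0 := by
  refine ⟨ord_eq_zero_of_unitAt, fun hord => ?_⟩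
  obtain ⟨t, ht0, -, -, hdec⟩ := exists_param (cen_ne v)
  have hformula : ∀ g : V.F, g ≠ 0 → ∃ n : ℤ, v.ord g = n * v.ord t ∧
      UnitAt (V.cen v) (g / t ^ n) := fun g hg => by
    obtain ⟨n, hn⟩ := hdec g hg
    refine ⟨n, ?_, hn⟩
    have h1 := ord_eq_zero_of_unitAt hn
    rw [div_eq_mul_inv, v.ord_mul hg (inv_ne_zero (zpow_ne_zero _ ht0)), v.ord_inv,
      v.ord_zpow] at h1
    omega
  have ht : v.ord t ≠ 0 := fun h0 => by
    obtain ⟨π, hπ⟩ := exists_uniformizer v
    obtain ⟨n, hn, -⟩ := hformula π fun e => by simp [e] at hπ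
    rw [h0, mul_zero, hπ] at hn
    exact one_ne_zero hn
  obtain ⟨n, hn, hu⟩ := hformula f hf
  rw [hord] at hn
  rcases mul_eq_zero.1 hn.symm with h | h
  · rwa [h, zpow_zero, div_one] at hu
  · exact absurd h ht

/-- The local ring at the centre is the ring of the place. -/
theorem regAt_cen_iff {v : Place k V.F} {f : V.F} :
    RegAt (V.cen v) f ↔ AtLeast v 0 f := by
  refine ⟨fun h => atLeast_zero_iff_mem.2 (mem_of_regAt_cen h), fun h => ?_⟩
  rcases eq_or_ne f 0 with rfl | hf
  · exact Growth.regAt_zero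
  have hord : 0 ≤ v.ord f := (atLeast_iff hf).1 h
  obtain ⟨t, ht0, htr, -, hdec⟩ := exists_param (cen_ne v)
  obtain ⟨n, hn⟩ := hdec f hf
  have h1 := ord_eq_zero_of_unitAt hn
  rw [div_eq_mul_inv, v.ord_mul hf (inv_ne_zero (zpow_ne_zero _ ht0)), v.ord_inv,
    v.ord_zpow] at h1
  have ht : 0 < v.ord t := by
    have h2 := (mem_place_iff v).1 (mem_of_regAt_cen htr)
    refine lt_of_le_of_ne h2 fun h0 => ?_
    obtain ⟨π, hπ⟩ := exists_uniformizer v
    have hπ0 : π ≠ 0 := fun e => by simp [e] at hπ
    obtain ⟨j, hj⟩ := hdec π hπ0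
    have h3 := ord_eq_zero_of_unitAt hj
    rw [div_eq_mul_inv, v.ord_mul hπ0 (inv_ne_zero (zpow_ne_zero _ ht0)), v.ord_inv, v.ord_zpow,
      hπ, ← h0] at h3
    simp at h3
  have hn0 : 0 ≤ n := by
    by_contra hneg
    push Not at hneg
    nlinarith
  obtain ⟨n', rfl⟩ := Int.eq_ofNat_of_zero_le hn0
  exact Growth.regAt_of_div hn (by rw [zpow_natCast]; exact Growth.regAt_pow htr n')

theorem cen_injective : Function.Injective V.cen := fun v w e =>
  Place.ext (SetLike.ext fun f => by
    rw [← atLeast_zero_iff_mem, ← atLeast_zero_iff_mem, ← regAt_cen_iff, ← regAt_cen_iff, e])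

theorem exists_cen_eq {z : V.C} (hz : z ≠ genericPoint V.C) : ∃ v : Place k V.F, V.cen v = z := by
  obtain ⟨t, ht0, htr, hti, hdec⟩ := exists_param hz
  let O : ValuationSubring V.F :=
    { (Growth.regSubring z : Subring V.F) with
      mem_or_inv_mem' := fun f => by
        rcases eq_or_ne f 0 with rfl | hf
        · exact Or.inl (zero_mem (Growth.regSubring z))
        obtain ⟨n, hn⟩ := hdec f hf
        rcases le_total 0 n with h | h
        · obtain ⟨n', rfl⟩ := Int.eq_ofNat_of_zero_le h
          exact Or.inl (Growth.mem_regSubring.2 (Growth.regAt_of_div hn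
            (by rw [zpow_natCast]; exact Growth.regAt_pow htr n')))
        · obtain ⟨n', hn'⟩ := Int.eq_ofNat_of_zero_le (neg_nonneg.2 h)
          refine Or.inr (Growth.mem_regSubring.2 (Growth.regAt_of_div (n := t ^ n') ?_
            (Growth.regAt_pow htr n')))
          have e : f⁻¹ / t ^ n' = (f / t ^ n)⁻¹ := by
            rw [show n = -(n' : ℤ) by omega, zpow_neg, zpow_natCast, inv_div, div_eq_mul_inv,
              div_eq_mul_inv, mul_comm]
          exact (congrArg (UnitAt z) e).mpr hn.inv }
  have hO : ∀ f : V.F, f ∈ O ↔ RegAt z f := fun f => Growth.mem_regSubring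
  have hK : ∀ c : k, algebraMap k V.F c ∈ O := fun c => (hO _).2 (Growth.regAt_kHom V.str c)
  have hne : O ≠ ⊤ := fun e => hti ((hO _).1 (e ▸ ValuationSubring.mem_top t⁻¹))
  refine ⟨toPlace V.isFunctionField O hK hne, ?_⟩
  set v := toPlace V.isFunctionField O hK hne
  let ψ : V.C.presheaf.stalk z →+* v.toValuationSubring :=
    (algebraMap (V.C.presheaf.stalk z) V.C.functionField).codRestrict
      v.toValuationSubring.toSubring fun a => (hO _).2 (regAt_iff_mem_range.2 ⟨a, rfl⟩)
  haveI : IsLocalHom ψ := by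
    refine ⟨fun a ha => ?_⟩
    obtain ⟨b, hb⟩ := isUnit_iff_exists_inv.1 ha
    obtain ⟨b', hb'⟩ := regAt_iff_mem_range.1 ((hO _).1 b.2)
    refine isUnit_iff_exists_inv.2 ⟨b', IsFractionRing.injective (V.C.presheaf.stalk z)
      V.C.functionField ?_⟩
    rw [map_mul, map_one]
    have h1 := congrArg Subtype.val hb
    exact (congrArg (algebraMap (V.C.presheaf.stalk z) V.C.functionField a * ·) hb').trans h1
  let e : Spec (CommRingCat.of v.toValuationSubring) ⟶ V.C :=
    Spec.map (CommRingCat.ofHom ψ) ≫ V.C.fromSpecStalk z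
  have he : Spec.map (CommRingCat.ofHom v.toValuationSubring.subtype) ≫ e = V.gen := by
    have h1 : Spec.map (CommRingCat.ofHom v.toValuationSubring.subtype) ≫
        Spec.map (CommRingCat.ofHom ψ) =
          Spec.map (CommRingCat.ofHom (v.toValuationSubring.subtype.comp ψ)) := by
      rw [← Spec.map_comp, ← CommRingCat.ofHom_comp]
    exact (Category.assoc _ _ _).symm.trans ((congrArg (· ≫ V.C.fromSpecStalk z) h1).trans
      (Scheme.SpecMap_stalkSpecializes_fromSpecStalk
        ((genericPoint_spec V.C).specializes trivial)))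
  have hes : e ≫ V.str = Spec.map (CommRingCat.ofHom ((placeHom v).comp (RingHom.id k))) := by
    have hmono : Spec.map (CommRingCat.ofHom v.toValuationSubring.subtype) ≫ e ≫ V.str =
        Spec.map (CommRingCat.ofHom v.toValuationSubring.subtype) ≫
          Spec.map (CommRingCat.ofHom ((placeHom v).comp (RingHom.id k))) := by
      rw [← Category.assoc, he, V.gen_str, ← Spec.map_comp, ← CommRingCat.ofHom_comp]; rfl
    obtain ⟨α, hα⟩ := Spec.map_surjective (e ≫ V.str)
    rw [← hα, ← Spec.map_comp, ← Spec.map_comp] at hmono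
    have h2 := Spec.map_injective hmono
    rw [← hα]
    congr 1
    ext r
    exact congrArg (fun ψ : CommRingCat.of k ⟶ CommRingCat.of V.F => ψ.hom r) h2
  show placeCtr _ _ _ v = z
  rw [placeCtr, ← placeExt_unique _ _ _ v e he hes]
  show V.C.fromSpecStalk z ((Spec.map (CommRingCat.ofHom ψ)) (IsLocalRing.closedPoint _)) = z
  exact (congrArg (V.C.fromSpecStalk z) (IsLocalRing.comap_closedPoint ψ)).trans
    Scheme.fromSpecStalk_closedPoint

/-- The place at a point other than the generic one. -/
def plc {z : V.C} (hz : z ≠ genericPoint V.C) : Place k V.F := (exists_cen_eq hz).choose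

theorem cen_plc {z : V.C} (hz : z ≠ genericPoint V.C) : V.cen (plc hz) = z :=
  (exists_cen_eq hz).choose_spec

theorem eq_generic_or_cen (z : V.C) :
    z = genericPoint V.C ∨ ∃ v : Place k V.F, V.cen v = z :=
  (eq_or_ne z (genericPoint V.C)).imp_right exists_cen_eq

/-- The points of the curve not in a non-empty open are finitely many. -/
theorem finite_cen_notMem {W : V.C.Opens} (hW : genericPoint V.C ∈ W) :
    {v : Place k V.F | V.cen v ∉ W}.Finite :=
  finite_not_mem (RingHom.id k) V.isFunctionField V.gen V.gen_str (V.ctr_gen ▸ hW)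

/-- Points other than the generic one are closed. -/
theorem isClosed_cen (v : Place k V.F) : IsClosed ({V.cen v} : Set V.C) := by
  rw [← closure_eq_iff_isClosed]
  refine Set.Subset.antisymm (fun w hw => ?_) subset_closure
  have hsp : V.cen v ⤳ w := specializes_iff_mem_closure.2 hw
  obtain rfl | ⟨w', rfl⟩ := eq_generic_or_cen w
  · exact absurd (hsp.antisymm ((genericPoint_spec V.C).specializes trivial)).eq (cen_ne v)
  have h : v = w' := by
    by_contra hne
    obtain ⟨f, hf, hoff⟩ := exists_pole_only V.isFunctionField v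
    have h1 : RegAt (V.cen w') f := regAt_cen_iff.2 (Or.inr (hoff w' (Ne.symm hne)))
    have h2 := regAt_cen_iff.1 (Growth.regAt_of_specializes hsp h1)
    rw [atLeast_iff (fun e => by simp [e] at hf)] at h2
    omega
  rw [h]; exact rfl

/-- The complement of the centres of finitely many places. -/
def avoid (S : Finset (Place k V.F)) : V.C.Opens :=
  ⟨(V.cen '' (S : Set (Place k V.F)))ᶜ, by
    rw [← Set.biUnion_of_singleton (V.cen '' _), Set.biUnion_image, isOpen_compl_iff]
    exact S.finite_toSet.isClosed_biUnion fun v _ => isClosed_cen v⟩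

theorem cen_mem_avoid {S : Finset (Place k V.F)} {v : Place k V.F} :
    V.cen v ∈ avoid S ↔ v ∉ S :=
  ⟨fun h hv => h ⟨v, hv, rfl⟩, fun h ⟨_, hw, e⟩ => h (cen_injective e ▸ hw)⟩

theorem generic_mem_avoid (S : Finset (Place k V.F)) : genericPoint V.C ∈ avoid S :=
  fun ⟨v, _, e⟩ => cen_ne v e

end Crv

end FA.Jac

end
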