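import Fermat.Agent.Jac.HilbLocal
import Mathlib.RingTheory.Smooth.Basic
import Mathlib.RingTheory.Idempotents
import Mathlib.Data.Matrix.Mul

/-!
# The parameters of ideals with free quotient form a smooth algebra

A `b`-ideal lifts along a square-zero ideal of the parameters: it is the image of an idempotent
matrix, which lifts.
-/

set_option autoImplicit false
set_option linter.style.haveILetI false
set_option linter.unusedSectionVars false
set_option synthInstance.maxHeartbeats 200000
set_option maxHeartbeats 800000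

noncomputable section

universe u

open scoped TensorProduct
open Matrix

namespace FA.Jac.Hilb

variable {k : Type u} [Field k] {R : Type u} [CommRing R] [Algebra k R] {g : ℕ} {b : Fin g → R}

theorem mapId_comp {A A' A'' : Type u} [CommRing A] [Algebra k A] [CommRing A'] [Algebra k A']
    [CommRing A''] [Algebra k A''] (φ : A →ₐ[k] A') (φ' : A' →ₐ[k] A'') :
    mapId R (φ'.comp φ) = (mapId R φ').comp (mapId R φ) :=
  Algebra.TensorProduct.ext' fun _ _ => rfl

variable [IsAlgClosed k] [Algebra.FiniteType k R] [IsDedekindDomain R]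
  {C D : Type u} [CommRing C] [Algebra k C] [CommRing D] [Algebra k D] (q : C →ₐ[k] D)

/-- **`b`-ideals lift along square-zero ideals.** -/
theorem exists_lift_bIdeal (hR : ¬IsField R) (hq : Function.Surjective q)
    (hq2 : RingHom.ker q ^ 2 = ⊥) {J₁ : Ideal (D ⊗[k] R)} (hJ₁ : IsBIdeal b J₁) :
    ∃ J : Ideal (C ⊗[k] R), IsBIdeal b J ∧ J.map (mapId R q) = J₁ := by
  classical
  set π := mapId R q
  set N := Ideal.map (Algebra.TensorProduct.includeLeft : C →ₐ[k] C ⊗[k] R) (RingHom.ker q) with hN
  obtain ⟨σ, hσ⟩ := LinearMap.exists_rightInverse_of_surjective q.toLinearMap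
    (LinearMap.range_eq_top.2 hq)
  have hσ' : ∀ d, q (σ d) = d := fun d => LinearMap.congr_fun hσ d
  have hNN : ∀ {x y}, x ∈ N → y ∈ N → x * y = 0 := fun {x y} hx hy => by
    have := Ideal.mul_mem_mul hx hy
    rwa [← pow_two, hN, ← Ideal.map_pow, hq2, Ideal.map_bot, Ideal.mem_bot] at this
  have hπsurj : Function.Surjective π := fun y => by
    induction y using TensorProduct.induction_on with
    | zero => exact ⟨0, map_zero π⟩
    | tmul d r => exact ⟨σ d ⊗ₜ r, by rw [mapId_tmul, hσ']⟩
    | add y y' hy hy' =>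
      obtain ⟨x, rfl⟩ := hy
      obtain ⟨x', rfl⟩ := hy'
      exact ⟨x + x', map_add π x x'⟩
  have hker : ∀ y, π y = 0 → y ∈ N := by
    have key : ∀ y, y - (σ.rTensor R) (π y) ∈ N := by
      intro y
      induction y using TensorProduct.induction_on with
      | zero => simp
      | tmul a r =>
        rw [mapId_tmul, LinearMap.rTensor_tmul, ← TensorProduct.sub_tmul,
          show (a - σ (q a)) ⊗ₜ[k] r = (Algebra.TensorProduct.includeLeft : C →ₐ[k] C ⊗[k] R)
            (a - σ (q a)) * (1 : C) ⊗ₜ[k] r by simp]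
        refine Ideal.mul_mem_right _ _ (Ideal.mem_map_of_mem _ ?_)
        rw [RingHom.mem_ker, map_sub, hσ', sub_self]
      | add y y' hy hy' => rw [map_add, map_add, add_sub_add_comm]; exact add_mem hy hy'
    intro y hy
    have := key y
    rwa [hy, map_zero, sub_zero] at this
  -- the idempotent
  obtain ⟨n, z₁, ψ, hz₁, hdual⟩ := exists_dual_basis hJ₁ hR
  let M₁ : Matrix (Fin n) (Fin n) (D ⊗[k] R) := Matrix.of fun a c => ψ c ⟨z₁ a, hz₁ a⟩
  have hψsum : ∀ (c : Fin n) (v : Fin n → D ⊗[k] R),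
      ∑ a, v a * M₁ a c = ψ c ⟨∑ a, v a * z₁ a,
        sum_mem fun a _ => J₁.mul_mem_left _ (hz₁ a)⟩ := fun c v => by
    rw [show (⟨∑ a, v a * z₁ a, sum_mem fun a _ => J₁.mul_mem_left _ (hz₁ a)⟩ : J₁) =
      ∑ a, v a • (⟨z₁ a, hz₁ a⟩ : J₁) from Subtype.ext (by simp), map_sum]
    exact Finset.sum_congr rfl fun a _ => by rw [map_smul, smul_eq_mul]; rfl
  have hM₁ : IsIdempotentElem M₁ := by
    ext a c
    rw [Matrix.mul_apply, hψsum]
    show ψ c _ = ψ c _
    congr 1
    exact Subtype.ext (hdual ⟨z₁ a, hz₁ a⟩)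
  obtain ⟨M, hM, hMπ⟩ : ∃ M : Matrix (Fin n) (Fin n) (C ⊗[k] R),
      IsIdempotentElem M ∧ π.toRingHom.mapMatrix M = M₁ := by
    refine exists_isIdempotentElem_eq_of_ker_isNilpotent _ (fun X hX => ⟨2, ?_⟩) M₁ ?_ hM₁
    · ext a c
      rw [pow_two, Matrix.mul_apply]
      refine Finset.sum_eq_zero fun d _ => hNN (hker _ ?_) (hker _ ?_)
      · exact Matrix.ext_iff.2 (RingHom.mem_ker.1 hX) a d
      · exact Matrix.ext_iff.2 (RingHom.mem_ker.1 hX) d c
    · choose Y hY using fun a c => hπsurj (M₁ a c)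
      exact ⟨Matrix.of Y, Matrix.ext fun a c => hY a c⟩
  have hMπ' : ∀ a c, π (M a c) = M₁ a c := fun a c => congrFun (congrFun hMπ a) c
  choose z hz using fun a => hπsurj (z₁ a)
  let z' : Fin n → C ⊗[k] R := M *ᵥ z
  have hz' : ∀ a, π (z' a) = z₁ a := fun a => by
    show π (∑ c, M a c * z c) = _
    rw [map_sum]
    simp only [map_mul, hMπ', hz]
    exact hdual ⟨z₁ a, hz₁ a⟩
  let J : Ideal (C ⊗[k] R) := Ideal.span (Set.range z')
  have hJπ : J.map π = J₁ := by
    refine le_antisymm ?_ fun x hx => ?_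
    · rw [Ideal.map_span, Ideal.span_le]
      rintro _ ⟨_, ⟨a, rfl⟩, rfl⟩
      rw [hz']; exact hz₁ a
    · rw [show x = ∑ a, ψ a ⟨x, hx⟩ * z₁ a from (hdual ⟨x, hx⟩).symm]
      refine sum_mem fun a _ => Ideal.mul_mem_left _ _ ?_
      rw [← hz' a]
      exact Ideal.mem_map_of_mem _ (Ideal.subset_span ⟨a, rfl⟩)
  refine ⟨J, ⟨fun x y hxy => ?_, fun w => ?_⟩, hJπ⟩
  · -- independence
    have hsub : comb b C (x - y) ∈ J := by rw [map_sub]; exact Ideal.Quotient.eq.1 hxy
    suffices h : x - y = 0 from sub_eq_zero.1 h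
    generalize x - y = u at hsub ⊢
    obtain ⟨v, hv⟩ := (Ideal.mem_span_range_iff_exists_fun).1 hsub
    have hu : ∀ j, q (u j) = 0 := by
      have h1 : comb b D (fun j => q (u j)) ∈ J₁ := by
        rw [← hJπ, ← mapId_comb]; exact Ideal.mem_map_of_mem _ hsub
      rw [← coord_eq_zero_iff hJ₁, coord_comb] at h1
      exact congrFun h1
    have hπ0 : ∑ a, π (v a) * z₁ a = 0 := by
      have h1 := congrArg π hv
      rw [map_sum, mapId_comb, show (fun j => q (u j)) = 0 from funext hu, map_zero] at h1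
      simpa [hz'] using h1
    have hv' : ∀ c, (v ᵥ* M) c ∈ N := fun c => hker _ (by
      show π (∑ a, v a * M a c) = 0
      rw [map_sum]
      simp only [map_mul, hMπ']
      rw [hψsum]
      exact (congrArg (ψ c) (Subtype.ext hπ0)).trans (map_zero _))
    have hv2 : comb b C u = ∑ c, (v ᵥ* M) c * z' c := by
      have hMz : M *ᵥ z' = z' := by
        show M *ᵥ (M *ᵥ z) = M *ᵥ z
        rw [Matrix.mulVec_mulVec, hM.eq]
      rw [← hv]
      show v ⬝ᵥ z' = (v ᵥ* M) ⬝ᵥ z'
      rw [← Matrix.dotProduct_mulVec, hMz]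
    let κ : C ⊗[k] R →ₗ[C] (Fin g → C) := LinearMap.liftBaseChange C
      ({ toFun := fun r j => σ (coord hJ₁ ((1 : D) ⊗ₜ[k] r) j)
         map_add' := fun r r' => funext fun j => by simp [TensorProduct.tmul_add]
         map_smul' := fun c r => funext fun j => by
           rw [TensorProduct.tmul_smul, LinearMap.map_smul_of_tower]
           simp } : R →ₗ[k] (Fin g → C))
    have hκ : ∀ w j, q (κ w j) = coord hJ₁ (π w) j := by
      intro w j
      induction w using TensorProduct.induction_on with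
      | zero => simp
      | tmul a r =>
        rw [mapId_tmul, LinearMap.liftBaseChange_tmul,
          show q a ⊗ₜ[k] r = q a • ((1 : D) ⊗ₜ[k] r) by
            rw [TensorProduct.smul_tmul', smul_eq_mul, mul_one], map_smul]
        show q (a * σ _) = q a * _
        rw [map_mul, hσ']
      | add w w' hw hw' => simp [hw, hw']
    have hkill : ∀ x ∈ N, ∀ w ∈ J, κ (x * w) = 0 := by
      intro x hx
      rw [hN, Ideal.map] at hx
      induction hx using Submodule.span_induction with
      | mem x hx =>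
        obtain ⟨h, hh, rfl⟩ := hx
        intro w hw
        rw [← smul_eq_incl_mul, map_smul]
        ext j
        have h2 : κ w j ∈ RingHom.ker q := by
          rw [RingHom.mem_ker, hκ, (coord_eq_zero_iff hJ₁).2 (hJπ ▸ Ideal.mem_map_of_mem π hw)]
          rfl
        have := Ideal.mul_mem_mul hh h2
        rw [← pow_two, hq2, Ideal.mem_bot] at this
        exact this
      | zero => intro w _; simp
      | add x x' _ _ hx hx' => intro w hw; rw [add_mul, map_add, hx w hw, hx' w hw, add_zero]
      | smul c x _ hx =>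
        intro w hw
        rw [smul_eq_mul, mul_comm c, mul_assoc]
        exact hx _ (J.mul_mem_left _ hw)
    have h1 : κ (comb b C u) = 0 := by
      rw [hv2, map_sum]
      exact Finset.sum_eq_zero fun c _ => hkill _ (hv' c) _ (Ideal.subset_span ⟨c, rfl⟩)
    funext i
    have h2 : (1 : C) * u i = 0 := by
      have h3 := congrFun h1 i
      rw [comb_apply, map_sum, Finset.sum_apply] at h3
      have h4 : ∀ j, κ (u j ⊗ₜ[k] b j) i = (Pi.single j 1 : Fin g → C) i * u j := by
        intro j
        have h5 : κ ((1 : C) ⊗ₜ[k] b j) i - (Pi.single j 1 : Fin g → C) i ∈ RingHom.ker q := by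
          have hcb : coord hJ₁ ((1 : D) ⊗ₜ[k] b j) = Pi.single j 1 := by
            rw [← coord_comb hJ₁ (Pi.single j (1 : D)), comb_apply, Finset.sum_eq_single j]
            · rw [Pi.single_eq_same]
            · intro l _ hl; rw [Pi.single_eq_of_ne hl, TensorProduct.zero_tmul]
            · simp
          rw [RingHom.mem_ker, map_sub, hκ, mapId_tmul, map_one, hcb]
          rcases eq_or_ne i j with rfl | hij
          · simp
          · simp [Pi.single_eq_of_ne hij]
        have h6 := Ideal.mul_mem_mul h5 (RingHom.mem_ker.2 (hu j) : u j ∈ RingHom.ker q)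
        rw [← pow_two, hq2, Ideal.mem_bot, sub_mul, sub_eq_zero] at h6
        rw [← h6, show u j ⊗ₜ[k] b j = u j • ((1 : C) ⊗ₜ[k] b j) by
          rw [TensorProduct.smul_tmul', smul_eq_mul, mul_one], map_smul]
        exact mul_comm _ _
      simp only [h4] at h3
      rw [Finset.sum_eq_single i (fun j _ hj => by rw [Pi.single_eq_of_ne (Ne.symm hj), zero_mul])
        (by simp), Pi.single_eq_same] at h3
      exact h3
    rwa [one_mul] at h2
  · -- generation
    obtain ⟨y, rfl⟩ := Ideal.Quotient.mk_surjective w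
    suffices h : ∃ x, y - comb b C x ∈ J by
      obtain ⟨x, hx⟩ := h
      exact ⟨x, (Ideal.Quotient.eq.2 hx).symm⟩
    have hmod : ∀ y, ∃ x, ∃ d ∈ N, y - comb b C x - d ∈ J := fun y => by
      obtain ⟨x, hx⟩ : ∃ x : Fin g → C, (fun j => q (x j)) = coord hJ₁ (π y) :=
        ⟨fun j => σ (coord hJ₁ (π y) j), funext fun j => hσ' _⟩
      have h1 : π (y - comb b C x) ∈ J.map π := by
        rw [hJπ, map_sub, mapId_comb, hx]; exact sub_comb_coord_mem hJ₁ _
      obtain ⟨j, hj, hjπ⟩ := (Ideal.mem_map_iff_of_surjective _ hπsurj).1 h1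
      exact ⟨x, y - comb b C x - j, hker _ (by rw [map_sub, hjπ, sub_self]), by simpa using hj⟩
    obtain ⟨x, d, hd, hxd⟩ := hmod y
    have hd' : ∀ w, ∃ x', w * d - comb b C x' ∈ J := by
      rw [hN, Ideal.map] at hd
      clear hxd
      induction hd using Submodule.span_induction with
      | mem e he =>
        obtain ⟨h, hh, rfl⟩ := he
        intro w
        obtain ⟨x', d', hd', hw⟩ := hmod w
        refine ⟨h • x', ?_⟩
        have h0 : (Algebra.TensorProduct.includeLeft : C →ₐ[k] C ⊗[k] R) h * d' = 0 :=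
          hNN (Ideal.mem_map_of_mem _ hh) hd'
        have h1 := J.mul_mem_left ((Algebra.TensorProduct.includeLeft : C →ₐ[k] C ⊗[k] R) h) hw
        rwa [mul_sub, mul_sub, h0, sub_zero, ← smul_eq_incl_mul h (comb b C x'), ← map_smul,
          mul_comm _ w] at h1
      | zero => intro w; exact ⟨0, by simp⟩
      | add e e' _ _ he he' =>
        intro w
        obtain ⟨x₁, h₁⟩ := he w
        obtain ⟨x₂, h₂⟩ := he' w
        exact ⟨x₁ + x₂, by rw [mul_add, map_add, add_sub_add_comm]; exact add_mem h₁ h₂⟩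
      | smul c e _ he => intro w; rw [smul_eq_mul, ← mul_assoc]; exact he _
    obtain ⟨x', hx'⟩ := hd' 1
    refine ⟨x + x', ?_⟩
    have := add_mem hxd hx'
    rw [one_mul] at this
    rwa [map_add, ← sub_sub, show y - comb b C x - comb b C x' =
      y - comb b C x - d + (d - comb b C x') by abel]

variable (b) in
/-- **The parameter algebra is smooth.** -/
theorem smooth_hRing (hR : ¬IsField R) : Algebra.Smooth k (HRing (k := k) b) := by
  haveI := finiteType_hRing (k := k) b
  haveI : Algebra.FormallySmooth k (HRing (k := k) b) := by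
    refine Algebra.FormallySmooth.of_comp_surjective fun C _ _ 𝔫 h𝔫 f => ?_
    have hsurj : Function.Surjective (Ideal.Quotient.mkₐ k 𝔫) := Ideal.Quotient.mkₐ_surjective k 𝔫
    have hker : RingHom.ker (Ideal.Quotient.mkₐ k 𝔫) ^ 2 = ⊥ := by
      rw [show RingHom.ker (Ideal.Quotient.mkₐ k 𝔫) = 𝔫 from Ideal.Quotient.mkₐ_ker k 𝔫, h𝔫]
    have hJ₁ := (isBIdeal_univ (k := k) b).map f
    obtain ⟨J, hJ, hJπ⟩ := exists_lift_bIdeal (Ideal.Quotient.mkₐ k 𝔫) hR hsurj hker hJ₁
    refine ⟨classify hJ, ?_⟩
    refine (classify_unique hJ₁ ?_).trans (classify_unique hJ₁ rfl).symm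
    rw [mapId_comp]
    show Ideal.map ((mapId R (Ideal.Quotient.mkₐ k 𝔫)).toRingHom.comp
      (mapId R (classify hJ)).toRingHom) (univIdeal b) = _
    rw [← Ideal.map_map]
    show Ideal.map (mapId R (Ideal.Quotient.mkₐ k 𝔫))
      (Ideal.map (mapId R (classify hJ)) (univIdeal b)) = _
    rw [map_classify hJ, hJπ]
  exact { finitePresentation := Algebra.FinitePresentation.of_finiteType.1 inferInstance }

end FA.Jac.Hilb

end
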