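import Fermat.Agent.Jac.ChartIdeal
import Fermat.Agent.Jac.Basic
import Fermat.Agent.Jac.DictPlace
import Fermat.Agent.Jac.CoverPts
import Fermat.Agent.Jac.HilbSmooth
import Mathlib.AlgebraicGeometry.PullbackCarrier
import Mathlib.RingTheory.LocalProperties.IntegrallyClosed

/-!
# The charts: the affine open away from the base point, over affine bases

Its ring is a Dedekind domain of finite type; over an affine base its functions are the tensor
product; its complement is the image of the rigidifying section.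
-/

set_option autoImplicit false
set_option linter.style.haveILetI false
set_option linter.unusedSectionVars false

noncomputable section

universe u

open CategoryTheory CategoryTheory.Limits AlgebraicGeometry TopologicalSpace
open NeronModelInfra AlgebraicGeometry.RelPicard AlgebraicCurve FA.Curve FA.AbTors
open scoped TensorProduct

namespace FA.Jac

namespace Chart

variable {k : Type u} [Field k]

/-- The structure map of the spectrum of an algebra. -/
abbrev st (A : Type u) [CommRing A] [Algebra k A] :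
    Spec (CommRingCat.of A) ⟶ Spec (CommRingCat.of k) :=
  Spec.map (CommRingCat.ofHom (algebraMap k A))

variable {A A' A'' : Type u} [CommRing A] [Algebra k A] [CommRing A'] [Algebra k A'] [CommRing A'']
  [Algebra k A'']

/-- A map of algebras as a map of parameters. -/
def overAlg (φ : A →ₐ[k] A') : SchemeHomOver (st (k := k) A') (st A) :=
  ⟨Spec.map (CommRingCat.ofHom φ.toRingHom), by
    rw [← Spec.map_comp, ← CommRingCat.ofHom_comp]
    congr 2
    exact φ.comp_algebraMap⟩

theorem postComp_overAlg (φ : A →ₐ[k] A') (ψ : A' →ₐ[k] A'') :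
    postComp (overAlg φ) (overAlg ψ) = overAlg (ψ.comp φ) :=
  Subtype.ext (Spec.map_comp (CommRingCat.ofHom φ.toRingHom) (CommRingCat.ofHom ψ.toRingHom)).symm

theorem exists_eq_overAlg (ψ : SchemeHomOver (st (k := k) A') (st A)) :
    ∃ φ : A →ₐ[k] A', ψ = overAlg φ := by
  obtain ⟨ψ, hψ⟩ := ψ
  obtain ⟨φ, rfl⟩ := Spec.map_surjective ψ
  rw [← Spec.map_comp] at hψ
  refine ⟨{ φ.hom with commutes' := fun c => ?_ }, rfl⟩
  exact congrArg (fun χ : CommRingCat.of k ⟶ CommRingCat.of A' => χ.hom c) (Spec.map_injective hψ)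

end Chart

open Chart

namespace Crv

variable {k : Type u} [Field k] [IsAlgClosed k] {V : Crv k}

instance algR0 (Cv : V.Cover) : Algebra k Γ(V.C, Cv.U0) :=
  (Loc.sectionsHom V.str Cv.U0).toAlgebra

variable (Cv : V.Cover)

theorem Cover.finiteType_R0 : Algebra.FiniteType k Γ(V.C, Cv.U0) := by
  show (Loc.sectionsHom V.str Cv.U0).FiniteType
  exact (V.str.finiteType_appLE (isAffineOpen_top _) Cv.affine0 (le_top : Cv.U0 ≤ _)).comp
    (RingHom.FiniteType.of_surjective _
      (ConcreteCategory.bijective_of_isIso (Scheme.ΓSpecIso (CommRingCat.of k)).inv).2)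

theorem Cover.generic_mem : genericPoint V.C ∈ Cv.U0 := by
  rw [← SetLike.mem_coe, Cv.coe_U0]
  exact (V.point_ne_generic V.pt).symm

theorem Cover.q_mem : Cv.q.1 (IsLocalRing.closedPoint k) ∈ Cv.U0 := by
  rw [← SetLike.mem_coe, Cv.coe_U0]
  exact Cv.ne

theorem Cover.isDedekindDomain_R0 : IsDedekindDomain Γ(V.C, Cv.U0) := by
  haveI : Nonempty Cv.U0 := ⟨⟨_, Cv.generic_mem⟩⟩
  letI : Algebra k V.C.functionField := (Growth.kHom V.str).toAlgebra
  haveI : IsFractionRing Γ(V.C, Cv.U0) V.C.functionField :=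
    functionField_isFractionRing_of_isAffineOpen V.C Cv.U0 Cv.affine0
  haveI : IsScalarTower k Γ(V.C, Cv.U0) V.C.functionField :=
    IsScalarTower.of_algebraMap_eq fun c =>
      (((evF_genPt Cv.generic_mem _).symm).trans
        (Growth.evF_sectionsHom V.str Cv.generic_mem c)).symm
  haveI := Cv.finiteType_R0
  haveI : IsNoetherianRing Γ(V.C, Cv.U0) := Algebra.FiniteType.isNoetherianRing k _
  haveI : Ring.DimensionLEOne Γ(V.C, Cv.U0) := ⟨fun {p} hp hp' =>
    haveI := hp'
    isMaximal_of_isFunctionField (IsFractionRing.injective Γ(V.C, Cv.U0) V.C.functionField)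
      V.isFunctionField p hp⟩
  haveI : IsIntegrallyClosed Γ(V.C, Cv.U0) := by
    refine IsIntegrallyClosed.of_localization_maximal fun p _ _ => ?_
    set y : PrimeSpectrum Γ(V.C, Cv.U0) := ⟨p, inferInstance⟩
    obtain ⟨hy, e⟩ := primeIdealOf_fromSpec Cv.affine0 y
    letI : Algebra Γ(V.C, Cv.U0) (V.C.presheaf.stalk (Cv.affine0.fromSpec y)) :=
      TopCat.Presheaf.algebra_section_stalk V.C.presheaf ⟨_, hy⟩
    haveI : IsLocalization.AtPrime (V.C.presheaf.stalk (Cv.affine0.fromSpec y)) p :=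
      Cv.affine0.isLocalization_stalk' y hy
    haveI : UniqueFactorizationMonoid (V.C.presheaf.stalk (Cv.affine0.fromSpec y)) :=
      factorialStalks V.C V.str _
    haveI : IsIntegrallyClosed (V.C.presheaf.stalk (Cv.affine0.fromSpec y)) := inferInstance
    exact IsIntegrallyClosed.of_equiv (IsLocalization.algEquiv p.primeCompl
      (V.C.presheaf.stalk (Cv.affine0.fromSpec y)) (Localization.AtPrime p)).toRingEquiv
  haveI : IsDedekindRing Γ(V.C, Cv.U0) :=
    { (inferInstance : IsNoetherian _ _), (inferInstance : Ring.DimensionLEOne _),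
      (inferInstance : IsIntegrallyClosed _) with }
  infer_instance

theorem Cover.not_isField_R0 : ¬IsField Γ(V.C, Cv.U0) := fun h => by
  haveI : Subsingleton (PrimeSpectrum Γ(V.C, Cv.U0)) := by
    letI := h.toField
    exact inferInstanceAs (Subsingleton (PrimeSpectrum Γ(V.C, Cv.U0)))
  have e := congrArg Cv.affine0.fromSpec (Subsingleton.elim
    (Cv.affine0.primeIdealOf ⟨_, Cv.q_mem⟩) (Cv.affine0.primeIdealOf ⟨_, Cv.generic_mem⟩))
  rw [Cv.affine0.fromSpec_primeIdealOf, Cv.affine0.fromSpec_primeIdealOf] at e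
  exact V.point_ne_generic Cv.q e

/-! ### The open over a base -/

section Base

variable {T T' : Scheme.{u}} {t : T ⟶ Spec (CommRingCat.of k)} {t' : T' ⟶ Spec (CommRingCat.of k)}

theorem Cover.pre_W0 (ψ : SchemeHomOver t' t) :
    baseChangeSnd V.str ψ ⁻¹ᵁ Cv.W0 t = Cv.W0 t' := by
  show baseChangeSnd V.str ψ ⁻¹ᵁ (pullback.fst V.str t ⁻¹ᵁ Cv.U0) = _
  rw [← Scheme.Hom.comp_preimage]
  have e : baseChangeSnd V.str ψ ≫ pullback.fst V.str t = pullback.fst V.str t' :=
    (pullback.lift_fst _ _ _).trans (Category.comp_id _)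
  rw [e]
  rfl

theorem Cover.W0_le (ψ : SchemeHomOver t' t) : Cv.W0 t' ≤ baseChangeSnd V.str ψ ⁻¹ᵁ Cv.W0 t :=
  (Cv.pre_W0 ψ).ge

theorem Cover.rig_notMem (y : T) : rigSection V.str t V.pt y ∉ Cv.W0 t := fun h => by
  have h' : pullback.fst V.str t (rigSection V.str t V.pt y) ∈ Cv.U0 := h
  rw [← Scheme.Hom.comp_apply, rigSection, pullback.lift_fst, Scheme.Hom.comp_apply,
    Subsingleton.elim (t y) (IsLocalRing.closedPoint k), ← SetLike.mem_coe, Cv.coe_U0] at h'
  exact h' rfl

theorem Cover.exists_rig {z : V.X t} (hz : z ∉ Cv.W0 t) :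
    ∃ y, rigSection V.str t V.pt y = z := by
  have hmem : z ∈ Set.range (pullback.fst (pullback.fst V.str t) V.pt.1) := by
    rw [Scheme.Pullback.range_fst]
    refine ⟨IsLocalRing.closedPoint k, ?_⟩
    by_contra hne
    refine hz ?_
    show pullback.fst V.str t z ∈ Cv.U0
    rw [← SetLike.mem_coe, Cv.coe_U0]
    exact fun e => hne e.symm
  obtain ⟨p, rfl⟩ := hmem
  refine ⟨(pullback.fst (pullback.fst V.str t) V.pt.1 ≫ pullback.snd V.str t) p, ?_⟩
  rw [← Scheme.Hom.comp_apply]
  refine congrArg (fun f : pullback (pullback.fst V.str t) V.pt.1 ⟶ V.X t => f p) ?_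
  refine pullback.hom_ext ?_ ?_
  · rw [Category.assoc, rigSection, pullback.lift_fst, pullback.condition, Category.assoc,
      ← reassoc_of% (pullback.condition (f := V.str) (g := t)), reassoc_of% pullback.condition,
      reassoc_of% V.pt.2]
  · rw [Category.assoc, rigSection, pullback.lift_snd, Category.comp_id]

end Base

section Affine

variable {A A' : Type u} [CommRing A] [Algebra k A] [CommRing A'] [Algebra k A']

/-- The functions on the open over a base. -/
def Cover.eW (A : Type u) [CommRing A] [Algebra k A] :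
    A ⊗[k] Γ(V.C, Cv.U0) ≃+* Γ(V.X (st (k := k) A), Cv.W0 (st A)) :=
  (V.exists_tensorEquiv (st A) rfl Cv.affine0).choose

theorem Cover.eW_tmul (x : A) (r : Γ(V.C, Cv.U0)) :
    Cv.eW A (x ⊗ₜ r) = V.scalarW (st A) Cv.U0 x * V.fnW (st A) Cv.U0 r :=
  (V.exists_tensorEquiv (st A) rfl Cv.affine0).choose_spec x r

theorem Cover.affine_W0 {B : Type u} [CommRing B]
    (a : Spec (CommRingCat.of B) ⟶ Spec (CommRingCat.of k)) : IsAffineOpen (Cv.W0 a) :=
  V.isAffineOpen_W a Cv.affine0

theorem Cover.fromSpec_snd {B : Type u} [CommRing B]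
    (a : Spec (CommRingCat.of B) ⟶ Spec (CommRingCat.of k)) :
    (Cv.affine_W0 a).fromSpec ≫ pullback.snd V.str a =
      Spec.map (CommRingCat.ofHom (V.scalarW a Cv.U0)) := by
  rw [← IsAffineOpen.SpecMap_appLE_fromSpec (pullback.snd V.str a)
    (isAffineOpen_top _) (Cv.affine_W0 a) le_top, IsAffineOpen.fromSpec_top,
    Scheme.isoSpec_Spec_inv, ← Spec.map_comp]
  congr 1
  ext x
  exact (rsF_apF (pullback.snd V.str a) (U := ⊤) (V := ⊤) le_top le_top _).symm

theorem Cover.apF_scalarW {B B' : Type u} [CommRing B] [CommRing B']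
    {a : Spec (CommRingCat.of B) ⟶ Spec (CommRingCat.of k)}
    {a' : Spec (CommRingCat.of B') ⟶ Spec (CommRingCat.of k)} (ψ : SchemeHomOver a' a)
    (φ : B →+* B') (h : ψ.1 = Spec.map (CommRingCat.ofHom φ)) (x : B) (r : Γ(V.C, Cv.U0)) :
    apF (baseChangeSnd V.str ψ) (Cv.W0_le ψ) (V.scalarW a Cv.U0 x * V.fnW a Cv.U0 r) =
      V.scalarW a' Cv.U0 (φ x) * V.fnW a' Cv.U0 r := by
  obtain ⟨ψ, hψ⟩ := ψ
  simp only at h
  subst h; subst hψ
  refine (map_mul _ _ _).trans ?_
  refine congrArg₂ (· * ·) ?_ ?_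
  · exact (apF_rsF (baseChangeSnd V.str (ringOver a φ)) le_top
        (Cv.W0_le (ringOver a φ)) (V.scalar a x)).trans
      ((rsF_apF _ (U := ⊤) (V := ⊤) le_top le_top (V.scalar a x)).symm.trans
        (congrArg (rsF le_top) (V.apF_scalar a φ x)))
  · exact (V.apF_fnW a φ r _ le_rfl).trans (rsF_self _ _)

theorem Cover.apF_eW (φ : A →ₐ[k] A') (z : A ⊗[k] Γ(V.C, Cv.U0)) :
    apF (baseChangeSnd V.str (overAlg φ)) (Cv.W0_le (overAlg φ)) (Cv.eW A z) =
      Cv.eW A' (Hilb.mapId Γ(V.C, Cv.U0) φ z) := by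
  induction z using TensorProduct.induction_on with
  | zero => simp
  | tmul x r =>
    rw [Hilb.mapId_tmul, Cv.eW_tmul, Cv.eW_tmul]
    exact Cv.apF_scalarW (overAlg φ) φ.toRingHom rfl x r
  | add y z hy hz => simp only [map_add, hy, hz]

/-- An ideal of the tensor product as an ideal of functions. -/
def Cover.idealW (J : Ideal (A ⊗[k] Γ(V.C, Cv.U0))) : Ideal Γ(V.X (st (k := k) A), Cv.W0 (st A)) :=
  J.map (Cv.eW A).toRingHom

theorem Cover.idealW_injective : Function.Injective (Cv.idealW (A := A)) := fun J J' h => by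
  have e := congrArg (Ideal.comap (Cv.eW A).toRingHom) h
  exact (Ideal.comap_map_of_bijective (Cv.eW A).toRingHom (Cv.eW A).bijective).symm.trans
    (e.trans (Ideal.comap_map_of_bijective (Cv.eW A).toRingHom (Cv.eW A).bijective))

theorem Cover.idealW_surjective : Function.Surjective (Cv.idealW (A := A)) := fun I =>
  ⟨I.comap (Cv.eW A).toRingHom, Ideal.map_comap_of_surjective _ (Cv.eW A).surjective I⟩

theorem Cover.idealW_map (φ : A →ₐ[k] A') (J : Ideal (A ⊗[k] Γ(V.C, Cv.U0))) :
    (Cv.idealW J).map (apF (baseChangeSnd V.str (overAlg φ)) (Cv.W0_le (overAlg φ))) =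
      Cv.idealW (J.map (Hilb.mapId Γ(V.C, Cv.U0) φ)) := by
  show (J.map (Cv.eW A).toRingHom).map _ =
    (J.map (Hilb.mapId Γ(V.C, Cv.U0) φ).toRingHom).map (Cv.eW A').toRingHom
  rw [Ideal.map_map, Ideal.map_map]
  exact congrArg (Ideal.map · J) (RingHom.ext (Cv.apF_eW φ))

end Affine

/-! ### Classes of the curve over a base -/

/-- A class of the curve as a constant class. -/
def cst {T : Scheme.{u}} (t : T ⟶ Spec (CommRingCat.of k)) :
    FA.AbTors.Pic V.C →+ FA.AbTors.Pic (V.X t) :=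
  Pic.pull (pullback.fst V.str t)

theorem pullP_cst {T T' : Scheme.{u}} {t : T ⟶ Spec (CommRingCat.of k)}
    {t' : T' ⟶ Spec (CommRingCat.of k)} (ψ : SchemeHomOver t' t) (p : FA.AbTors.Pic V.C) :
    V.pullP ψ (cst t p) = cst t' p :=
  (Pic.pull_pull _ _ p).trans
    (Pic.pull_congr ((pullback.lift_fst _ _ _).trans (Category.comp_id _)) p)

theorem pic_spec_eq_zero (p : FA.AbTors.Pic (Spec (CommRingCat.of k))) : p = 0 := by
  obtain ⟨c, rfl⟩ := Pic.mk_surjective p
  refine Pic.mk_eq_mk.2 (Coc.rel_of_eq fun x y W hcx hcy hdx hdy => ?_)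
  obtain rfl : x = y := Subsingleton.elim _ _
  rw [Coc.one_at, c.at_self]

theorem rig_cst {T : Scheme.{u}} (t : T ⟶ Spec (CommRingCat.of k)) (p : FA.AbTors.Pic V.C) :
    V.rig t (cst t p) = 0 := by
  show Pic.pull _ (Pic.pull _ p) = 0
  rw [Pic.pull_pull, Pic.pull_congr
    (show rigSection V.str t V.pt ≫ pullback.fst V.str t = t ≫ V.pt.1 from pullback.lift_fst _ _ _) p,
    ← Pic.pull_pull,
    pic_spec_eq_zero (Pic.pull V.pt.1 p), map_zero]

end Crv

namespace Chart

variable {k : Type u} [Field k] {V : Crv k}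
variable {T T' T'' : Scheme.{u}} {t : T ⟶ Spec (CommRingCat.of k)}
  {t' : T' ⟶ Spec (CommRingCat.of k)} {t'' : T'' ⟶ Spec (CommRingCat.of k)}

/-- The pullback of a global section along a map of parameters. -/
def pullS (ψ : SchemeHomOver t' t) (c : Coc (V.X t)) :
    Sec c ⊤ →+ Sec (c.pull (baseChangeSnd V.str ψ)) ⊤ :=
  Sec.pull (baseChangeSnd V.str ψ) (pre_top _)

theorem secPull_pull {X Y Z : Scheme.{u}} (f : X ⟶ Y) (g : Y ⟶ Z) {h : X ⟶ Z} (e : f ≫ g = h)
    (c : Coc Z) : ∃ ec : c.pull h = (c.pull g).pull f, ∀ s : Sec c ⊤,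
      Sec.pull f (pre_top f) (Sec.pull g (pre_top g) s) = castSec ec ⊤ (Sec.pull h (pre_top h) s) := by
  subst e
  refine ⟨(pull_pull f g c).symm, fun s => ext_germ fun z hz => ?_⟩
  refine Eq.trans ?_ (germAt_castSec _ _ _ _).symm
  refine (germAt_pull f _ _ z hz).trans (Eq.trans ?_ (germAt_pull (f ≫ g) _ s z hz).symm)
  exact (congrArg (f.stalkMap z).hom (germAt_pull g (pre_top g) s (f z) (Opens.mem_top _))).trans
    (congrArg (fun φ : Z.presheaf.stalk (g (f z)) ⟶ X.presheaf.stalk z =>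
      φ.hom (germAt s (g (f z)) (Opens.mem_top _))) (Scheme.Hom.stalkMap_comp f g z)).symm

theorem pullS_pullS (φ : SchemeHomOver t' t) (ψ : SchemeHomOver t'' t') (c : Coc (V.X t)) :
    ∃ ec : c.pull (baseChangeSnd V.str (postComp φ ψ)) =
        (c.pull (baseChangeSnd V.str φ)).pull (baseChangeSnd V.str ψ),
      ∀ s, pullS ψ _ (pullS φ c s) = castSec ec ⊤ (pullS (postComp φ ψ) c s) :=
  secPull_pull _ _ (baseChangeSnd_comp V.str φ ψ) c

end Chart

end FA.Jac

end
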