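import Fermat.Agent.Jac.ChartFrame
import Fermat.Agent.Jac.DictField
import Mathlib.LinearAlgebra.Dimension.StrongRankCondition

/-!
# Covering by charts: colengths and bases

On a curve the functions regular away from a point, modulo those vanishing on an effective divisor
away from it, form a space of the degree of the divisor; a spanning set contains a basis.
-/

set_option autoImplicit false
set_option linter.style.haveILetI false
set_option linter.unusedSectionVars false

noncomputable section

universe u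

open CategoryTheory CategoryTheory.Limits AlgebraicGeometry TopologicalSpace
open NeronModelInfra AlgebraicCurve FA.Curve FA.AbTors FA.ModField
open scoped TensorProduct

namespace FA.Jac

namespace Chart

/-- The functions regular away from `P` modulo those vanishing on `Z` have dimension `deg Z`. -/
theorem finrank_quot_eq_degree {K F : Type u} [Field K] [IsAlgClosed K] [Field F] [Algebra K F]
    (hF : IsFunctionField K F) {M : Type u} [AddCommGroup M] [Module K M] (ev : M →ₗ[K] F)
    (hinj : Function.Injective ev) (P : Place K F) (Z : Divisor K F) (hZ : 0 ≤ Z) (hZP : Z P = 0)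
    (hrange : ∀ φ : F, φ ∈ LinearMap.range ev ↔ ∀ v, v ≠ P → AtLeast v 0 φ)
    (J : Submodule K M) (hJ : ∀ z, z ∈ J ↔ ∀ v, v ≠ P → AtLeast v (Z v) (ev z)) :
    Module.Finite K (M ⧸ J) ∧ (Module.finrank K (M ⧸ J) : ℤ) = Divisor.degree Z := by
  classical
  obtain ⟨c, hc⟩ := exists_threshold hF
  set d := Divisor.degree Z
  have hd : 0 ≤ d := degree_nonneg hF hZ
  set m : ℕ := (c + d).toNat
  have hZv : ∀ v, 0 ≤ Z v := fun v => Finsupp.le_def.1 hZ v
  have hdegS : ∀ n : ℕ, Divisor.degree (Finsupp.single P (n : ℤ)) = n := fun n => by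
    rw [Divisor.degree_single, hF.deg_eq_one]; simp
  -- the spaces of functions of bounded pole order
  let L : ℕ → Submodule K F := fun n => riemannRochSpace (Finsupp.single P (n : ℤ))
  let LZ : ℕ → Submodule K F := fun n => riemannRochSpace (Finsupp.single P (n : ℤ) - Z)
  have hLmem : ∀ (n : ℕ) φ, φ ∈ L n ↔
      AtLeast P (-(n : ℤ)) φ ∧ ∀ v, v ≠ P → AtLeast v 0 φ := fun n φ => by
    rw [mem_riemannRochSpace]
    refine ⟨fun h => ⟨by simpa using h P, fun v hv => by
      simpa [Finsupp.single_eq_of_ne hv] using h v⟩, fun h v => ?_⟩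
    rcases eq_or_ne v P with rfl | hv
    · simpa using h.1
    · simpa [Finsupp.single_eq_of_ne hv] using h.2 v hv
  have hLZmem : ∀ (n : ℕ) φ, φ ∈ LZ n ↔
      AtLeast P (-(n : ℤ)) φ ∧ ∀ v, v ≠ P → AtLeast v (Z v) φ := fun n φ => by
    rw [mem_riemannRochSpace]
    refine ⟨fun h => ⟨by simpa [hZP] using h P, fun v hv => by
      simpa [Finsupp.single_eq_of_ne hv] using h v⟩, fun h v => ?_⟩
    rcases eq_or_ne v P with rfl | hv
    · simpa [hZP] using h.1
    · simpa [Finsupp.single_eq_of_ne hv] using h.2 v hv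
  have hLZle : ∀ n, LZ n ≤ L n := fun n φ h => by
    rw [hLZmem] at h
    exact (hLmem n φ).2 ⟨h.1, fun v hv => (h.2 v hv).mono (hZv v)⟩
  have hLrange : ∀ n, L n ≤ LinearMap.range ev := fun n φ h =>
    (hrange φ).2 ((hLmem n φ).1 h).2
  have hfinL : ∀ n, Module.Finite K (L n) := fun n => finite_riemannRochSpace hF _
  have hdimL : ∀ n, m ≤ n → (Module.finrank K (L n) : ℤ) = n + 1 - FA.Curve.genus K F := fun n hn => by
    have h := hc (Finsupp.single P (n : ℤ)) (by rw [hdegS]; omega)
    rw [hdegS] at h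
    exact h
  have hdimLZ : ∀ n, m ≤ n →
      (Module.finrank K (LZ n) : ℤ) = n - d + 1 - FA.Curve.genus K F := fun n hn => by
    have h := hc (Finsupp.single P (n : ℤ) - Z) (by rw [map_sub, hdegS]; omega)
    rw [map_sub, hdegS] at h
    exact h
  -- the bounded part surjects on the quotient
  let B : Submodule K M := (L m).comap ev
  let π : B →ₗ[K] M ⧸ J := J.mkQ.comp B.subtype
  have hπ : Function.Surjective π := by
    intro q
    obtain ⟨y, rfl⟩ := J.mkQ_surjective q
    set n : ℕ := max m (-P.ord (ev y)).toNat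
    have hy : ev y ∈ L n := (hLmem n _).2 ⟨Or.inr (by omega), (hrange _).1 ⟨y, rfl⟩⟩
    have hLn : L m ⊔ LZ n = L n := by
      haveI := hfinL n
      haveI : Module.Finite K (L m) := hfinL m
      haveI : Module.Finite K (LZ n) := finite_riemannRochSpace hF _
      have hle : L m ⊔ LZ n ≤ L n := sup_le (fun φ h => (hLmem n φ).2
        ⟨((hLmem m φ).1 h).1.mono (by omega), ((hLmem m φ).1 h).2⟩) (hLZle n)
      have hinf : L m ⊓ LZ n = LZ m := by
        ext φ
        rw [Submodule.mem_inf, hLmem, hLZmem, hLZmem]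
        exact ⟨fun h => ⟨h.1.1, h.2.2⟩, fun h => ⟨⟨h.1, fun v hv => (h.2 v hv).mono (hZv v)⟩,
          h.1.mono (by omega), h.2⟩⟩
      refine Submodule.eq_of_le_of_finrank_eq hle ?_
      have e := Submodule.finrank_sup_add_finrank_inf_eq (L m) (LZ n)
      rw [hinf] at e
      have := hdimL m le_rfl
      have := hdimL n (le_max_left _ _)
      have := hdimLZ m le_rfl
      have := hdimLZ n (le_max_left _ _)
      omega
    rw [← hLn, Submodule.mem_sup] at hy
    obtain ⟨a, ha, b, hb, hab⟩ := hy
    obtain ⟨a', rfl⟩ := hLrange m ha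
    obtain ⟨b', rfl⟩ := hLrange n (hLZle n hb)
    refine ⟨⟨a', ha⟩, ?_⟩
    show J.mkQ a' = J.mkQ y
    rw [Submodule.mkQ_apply, Submodule.mkQ_apply, Submodule.Quotient.eq]
    have hy' : y = a' + b' := hinj (by rw [map_add]; exact hab.symm)
    rw [hy', sub_add_cancel_left]
    exact J.neg_mem ((hJ b').2 ((hLZmem n _).1 hb).2)
  have hmapB : B.map ev = L m := Submodule.map_comap_eq_self (hLrange m)
  have hmapK : (B ⊓ J).map ev = LZ m := by
    ext φ
    simp only [Submodule.mem_map, Submodule.mem_inf, hLZmem, B, Submodule.mem_comap, hLmem]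
    constructor
    · rintro ⟨y, ⟨hy, hyJ⟩, rfl⟩
      exact ⟨hy.1, (hJ y).1 hyJ⟩
    · intro h
      obtain ⟨y, rfl⟩ := hLrange m (hLZle m ((hLZmem m φ).2 h))
      exact ⟨y, ⟨⟨h.1, fun v hv => (h.2 v hv).mono (hZv v)⟩, (hJ y).2 h.2⟩, rfl⟩
  have eB : B ≃ₗ[K] L m :=
    (Submodule.equivMapOfInjective ev hinj B).trans (LinearEquiv.ofEq _ _ hmapB)
  haveI : Module.Finite K B := haveI := hfinL m; Module.Finite.equiv eB.symm
  have hker : Module.finrank K (LinearMap.ker π) = Module.finrank K (LZ m) := by
    have e1 : LinearMap.ker π = J.comap B.subtype := by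
      rw [LinearMap.ker_comp, Submodule.ker_mkQ]
    have e2 : (J.comap B.subtype).map B.subtype = B ⊓ J := by
      rw [Submodule.map_comap_eq, Submodule.range_subtype]
    rw [e1, LinearEquiv.finrank_eq ((Submodule.equivMapOfInjective B.subtype B.injective_subtype
      (J.comap B.subtype)).trans (LinearEquiv.ofEq _ _ e2))]
    exact LinearEquiv.finrank_eq ((Submodule.equivMapOfInjective ev hinj (B ⊓ J)).trans
      (LinearEquiv.ofEq _ _ hmapK))
  haveI : Module.Finite K (M ⧸ J) := Module.Finite.of_surjective π hπ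
  refine ⟨inferInstance, ?_⟩
  have e := LinearMap.finrank_range_add_finrank_ker π
  rw [LinearMap.range_eq_top.2 hπ, finrank_top, hker, LinearEquiv.finrank_eq eB] at e
  have := hdimL m le_rfl
  have := hdimLZ m le_rfl
  omega

/-- A quotient of dimension `g` has a basis among the functions. -/
theorem exists_isBIdeal {k : Type u} [Field k] {R : Type u} [CommRing R] [Algebra k R]
    {K : Type u} [Field K] [Algebra k K] (J : Ideal (K ⊗[k] R)) {g : ℕ}
    [Module.Finite K ((K ⊗[k] R) ⧸ J)] (hg : Module.finrank K ((K ⊗[k] R) ⧸ J) = g) :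
    ∃ b : Fin g → R, Hilb.IsBIdeal b J := by
  classical
  let ι : R → (K ⊗[k] R) ⧸ J := fun r => Ideal.Quotient.mk J ((1 : K) ⊗ₜ r)
  have hspan : Submodule.span K (Set.range ι) = ⊤ := by
    rw [eq_top_iff]
    intro q _
    obtain ⟨z, rfl⟩ := Ideal.Quotient.mk_surjective q
    clear * -
    induction z using TensorProduct.induction_on with
    | zero => exact zero_mem _
    | tmul x r =>
      have e : Ideal.Quotient.mk J (x ⊗ₜ r) = x • ι r := by
        show _ = x • Ideal.Quotient.mkₐ K J ((1 : K) ⊗ₜ r)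
        rw [← map_smul, TensorProduct.smul_tmul', smul_eq_mul, mul_one]
        rfl
      rw [e]
      exact Submodule.smul_mem _ _ (Submodule.subset_span ⟨r, rfl⟩)
    | add y z hy hz => rw [map_add]; exact add_mem hy hz
  obtain ⟨f, hf, hfspan, hli⟩ := Submodule.exists_fun_fin_finrank_span_eq K (Set.range ι)
  have hn : Module.finrank K (Submodule.span K (Set.range ι)) = g := by
    rw [hspan, finrank_top, hg]
  choose b hb using hf
  let f' : Fin g → (K ⊗[k] R) ⧸ J := f ∘ Fin.cast hn.symm
  have hli' : LinearIndependent K f' := hli.comp _ (Fin.cast_injective _)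
  have hspan' : ⊤ ≤ Submodule.span K (Set.range f') := by
    rw [Set.range_comp, (show Function.Surjective (Fin.cast hn.symm) from
      (finCongr hn.symm).surjective).range_eq, Set.image_univ, hfspan, hspan]
  let B := Module.Basis.mk hli' hspan'
  refine ⟨b ∘ Fin.cast hn.symm, ?_⟩
  have e : (fun x : Fin g → K => Ideal.Quotient.mk J (Hilb.comb (b ∘ Fin.cast hn.symm) K x)) =
      B.equivFun.symm := by
    funext x
    rw [Module.Basis.equivFun_symm_apply, Hilb.comb_apply, map_sum]
    refine Finset.sum_congr rfl fun j _ => ?_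
    rw [Module.Basis.mk_apply, show f' j = ι (b (Fin.cast hn.symm j)) from (hb _).symm]
    show _ = x j • Ideal.Quotient.mkₐ K J ((1 : K) ⊗ₜ b (Fin.cast hn.symm j))
    rw [← map_smul, TensorProduct.smul_tmul', smul_eq_mul, mul_one]
    rfl
  unfold Hilb.IsBIdeal
  rw [e]
  exact B.equivFun.symm.bijective

end Chart

end FA.Jac

end
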