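import Fermat.Agent.Jac.HilbDefs
import Fermat.Agent.AbTors.LocalStalk
import Mathlib.RingTheory.DedekindDomain.Ideal.Lemmas
import Mathlib.RingTheory.Filtration
import Mathlib.RingTheory.Nakayama
import Mathlib.Algebra.Module.Projective

/-!
# Ideals with free quotient on a smooth affine curve are invertible

Near every prime such an ideal is generated by one element which is no zero divisor there.
-/

set_option autoImplicit false
set_option linter.style.haveILetI false
set_option linter.unusedSectionVars false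
set_option synthInstance.maxHeartbeats 200000
set_option maxHeartbeats 800000

noncomputable section

universe u

open scoped TensorProduct

namespace FA.Jac.Hilb

variable {k : Type u} [Field k] {R : Type u} [CommRing R] [Algebra k R] {g : ℕ} {b : Fin g → R}
  {A : Type u} [CommRing A] [Algebra k A]

theorem smul_eq_incl_mul (h : A) (y : A ⊗[k] R) :
    h • y = (Algebra.TensorProduct.includeLeft : A →ₐ[k] A ⊗[k] R) h * y :=
  Algebra.smul_def h y

/-- A linear map over the parameters respects the ideals coming from the parameters. -/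
theorem linear_mem_map (L : A ⊗[k] R →ₗ[A] A ⊗[k] R) {N : Ideal (A ⊗[k] R)} (hL : ∀ y, L y ∈ N)
    (𝔞 : Ideal A) {y : A ⊗[k] R}
    (hy : y ∈ 𝔞.map (Algebra.TensorProduct.includeLeft : A →ₐ[k] A ⊗[k] R)) :
    L y ∈ 𝔞.map (Algebra.TensorProduct.includeLeft : A →ₐ[k] A ⊗[k] R) * N := by
  suffices h : ∀ w, L (w * y) ∈ 𝔞.map (Algebra.TensorProduct.includeLeft : A →ₐ[k] A ⊗[k] R) * N by
    simpa using h 1
  rw [Ideal.map] at hy
  induction hy using Submodule.span_induction with
  | mem x hx =>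
    obtain ⟨h, hh, rfl⟩ := hx
    intro w
    rw [mul_comm w, ← smul_eq_incl_mul, map_smul, smul_eq_incl_mul]
    exact Ideal.mul_mem_mul (Ideal.mem_map_of_mem _ hh) (hL w)
  | zero => intro w; simp
  | add x x' _ _ hx hx' => intro w; rw [mul_add, map_add]; exact add_mem (hx w) (hx' w)
  | smul c x _ hx => intro w; rw [smul_eq_mul, ← mul_assoc]; exact hx _

variable {J : Ideal (A ⊗[k] R)} (hJ : IsBIdeal b J)

/-- The projection to the ideal. -/
def proj : A ⊗[k] R →ₗ[A] A ⊗[k] R := LinearMap.id - (comb b A).comp (coord hJ)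

theorem proj_mem (y : A ⊗[k] R) : proj hJ y ∈ J := sub_comb_coord_mem hJ y

theorem proj_eq {y : A ⊗[k] R} (hy : y ∈ J) : proj hJ y = y := by
  show y - comb b A (coord hJ y) = y
  rw [(coord_eq_zero_iff hJ).2 hy, map_zero, sub_zero]

/-! ### The fibre over a point of the parameters -/

/-- The restriction to the fibre over a point. -/
def fibre (R : Type u) [CommRing R] [Algebra k R] (χ : A →ₐ[k] k) : A ⊗[k] R →ₐ[k] R :=
  Algebra.TensorProduct.productMap ((Algebra.ofId k R).comp χ) (AlgHom.id k R)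

theorem fibre_tmul (χ : A →ₐ[k] k) (a : A) (r : R) : fibre R χ (a ⊗ₜ r) = χ a • r := by
  rw [fibre, Algebra.TensorProduct.productMap_apply_tmul, Algebra.smul_def]
  rfl

variable (χ : A →ₐ[k] k)

local notation "𝔐" => Ideal.map (Algebra.TensorProduct.includeLeft : A →ₐ[k] A ⊗[k] R)
  (RingHom.ker χ)

theorem sub_fibre_mem (y : A ⊗[k] R) : y - (1 : A) ⊗ₜ[k] fibre R χ y ∈ 𝔐 := by
  induction y using TensorProduct.induction_on with
  | zero => simp
  | tmul a r =>
    have he : a ⊗ₜ[k] r - (1 : A) ⊗ₜ[k] fibre R χ (a ⊗ₜ r) =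
        (Algebra.TensorProduct.includeLeft : A →ₐ[k] A ⊗[k] R) (a - algebraMap k A (χ a)) *
          (1 : A) ⊗ₜ[k] r := by
      rw [fibre_tmul, Algebra.TensorProduct.includeLeft_apply, Algebra.TensorProduct.tmul_mul_tmul,
        mul_one, one_mul, TensorProduct.sub_tmul, Algebra.algebraMap_eq_smul_one,
        TensorProduct.smul_tmul]
    rw [he]
    refine Ideal.mul_mem_right _ _ (Ideal.mem_map_of_mem _ ?_)
    rw [RingHom.mem_ker, map_sub, AlgHom.commutes]
    exact sub_self _
  | add y y' hy hy' =>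
    rw [map_add, TensorProduct.tmul_add, add_sub_add_comm]
    exact add_mem hy hy'

include hJ in
theorem mem_mul_of_fibre_eq_zero {y : A ⊗[k] R} (hy : y ∈ J) (h0 : fibre R χ y = 0) :
    y ∈ 𝔐 * J := by
  have h := sub_fibre_mem (R := R) χ y
  rw [h0, TensorProduct.tmul_zero, sub_zero] at h
  have := linear_mem_map (proj hJ) (proj_mem hJ) _ h
  rwa [proj_eq hJ hy] at this

/-- An element not zero in the fibre kills only what vanishes to infinite order. -/
theorem mem_pow_of_mul_eq_zero [IsDomain R] {z w : A ⊗[k] R} (hz : fibre R χ z ≠ 0) (h : z * w = 0) :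
    ∀ n, w ∈ 𝔐 ^ n := by
  intro n
  induction n with
  | zero => simp
  | succ n ih =>
    have h1 : (1 : A) ⊗ₜ[k] fibre R χ z * w ∈ 𝔐 ^ (n + 1) := by
      have h2 : (z - (1 : A) ⊗ₜ[k] fibre R χ z) * w ∈ 𝔐 ^ (n + 1) := by
        rw [pow_succ']
        exact Ideal.mul_mem_mul (sub_fibre_mem χ z) ih
      rw [sub_mul, h, zero_sub] at h2
      exact neg_mem_iff.1 h2
    obtain ⟨ψ, hψ⟩ := LinearMap.exists_leftInverse_of_injective (LinearMap.mulLeft k (fibre R χ z))
      (LinearMap.ker_eq_bot.2 fun x y hxy => mul_left_cancel₀ hz hxy)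
    have hid : ∀ v : A ⊗[k] R, ψ.baseChange A ((1 : A) ⊗ₜ[k] fibre R χ z * v) = v := by
      intro v
      induction v using TensorProduct.induction_on with
      | zero => simp
      | tmul a r =>
        rw [Algebra.TensorProduct.tmul_mul_tmul, one_mul, LinearMap.baseChange_tmul]
        exact congrArg (a ⊗ₜ[k] ·) (LinearMap.congr_fun hψ r)
      | add v v' hv hv' => rw [mul_add, map_add, hv, hv']
    rw [← Ideal.map_pow] at h1 ⊢
    have := linear_mem_map (ψ.baseChange A) (N := ⊤) (fun _ => trivial) _ h1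
    rwa [hid, Ideal.mul_top] at this

/-- `z` generates `J` near the primes avoiding `f`, and is no zero divisor there. -/
def IsLocGen (J : Ideal (A ⊗[k] R)) (f z : A ⊗[k] R) : Prop :=
  z ∈ J ∧ (∀ x ∈ J, f * x ∈ Ideal.span {z}) ∧ ∀ w, z * w = 0 → f * w = 0

theorem IsLocGen.mul_right {f z : A ⊗[k] R} (h : IsLocGen J f z) (c : A ⊗[k] R) :
    IsLocGen J (f * c) z :=
  ⟨h.1, fun x hx => by rw [mul_right_comm]; exact Ideal.mul_mem_right _ _ (h.2.1 x hx),
    fun w hw => by rw [mul_right_comm, h.2.2 w hw, zero_mul]⟩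

variable [IsAlgClosed k] [Algebra.FiniteType k R] [IsDedekindDomain R]

include hJ in
theorem exists_locGen_of_finiteType [Algebra.FiniteType k A] (hR : ¬IsField R)
    (P : Ideal (A ⊗[k] R)) [P.IsPrime] : ∃ f z, f ∉ P ∧ IsLocGen J f z := by
  classical
  haveI : Algebra.FiniteType A (A ⊗[k] R) := inferInstance
  haveI : Algebra.FiniteType k (A ⊗[k] R) := Algebra.FiniteType.trans (S := A) inferInstance inferInstance
  haveI : IsNoetherianRing (A ⊗[k] R) := Algebra.FiniteType.isNoetherianRing k _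
  obtain ⟨ev, hev⟩ := FA.AbTors.Loc.exists_ev_of_prime (K := k) P
  suffices h : ∃ f z, f ∉ RingHom.ker ev ∧ IsLocGen J f z by
    obtain ⟨f, z, hf, h⟩ := h
    exact ⟨f, z, fun hfP => hf (hev hfP), h⟩
  set Q : Ideal (A ⊗[k] R) := RingHom.ker ev with hQ
  by_cases hJP : J ≤ Q
  swap
  · obtain ⟨f, hfJ, hf⟩ := SetLike.not_le_iff_exists.1 hJP
    exact ⟨f, f, hf, hfJ, fun x _ => Ideal.mem_span_singleton.2 (dvd_mul_right f x), fun _ hw => hw⟩
  let χ : A →ₐ[k] k := ev.comp Algebra.TensorProduct.includeLeft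
  let ρ : R →ₐ[k] k := ev.comp Algebra.TensorProduct.includeRight
  have hfac : ∀ y, ev y = ρ (fibre R χ y) := by
    intro y
    induction y using TensorProduct.induction_on with
    | zero => simp
    | tmul a r =>
      rw [fibre_tmul, map_smul, smul_eq_mul, show a ⊗ₜ[k] r =
        (a ⊗ₜ[k] (1 : R)) * ((1 : A) ⊗ₜ[k] r) by simp, map_mul]
      rfl
    | add y y' hy hy' => simp only [map_add, hy, hy']
  have hMQ : Ideal.map (Algebra.TensorProduct.includeLeft : A →ₐ[k] A ⊗[k] R) (RingHom.ker χ) ≤ Q :=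
    Ideal.map_le_iff_le_comap.2 fun a ha => ha
  let J₀ := J.map (fibre R χ)
  have hsurj : Function.Surjective (fibre R χ) := fun r =>
    ⟨(1 : A) ⊗ₜ r, by rw [fibre_tmul, map_one, one_smul]⟩
  have hmem : ∀ x, x ∈ J₀ ↔ ∃ y ∈ J, fibre R χ y = x := fun x =>
    Ideal.mem_map_iff_of_surjective _ hsurj
  have hJ₀ : J₀ ≠ ⊥ := by
    intro h0
    apply hR
    have hspan : Submodule.span k (Set.range b) = ⊤ := by
      rw [eq_top_iff]
      intro r _
      have h1 : fibre R χ ((1 : A) ⊗ₜ[k] r - comb b A (coord hJ ((1 : A) ⊗ₜ[k] r))) ∈ J₀ :=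
        Ideal.mem_map_of_mem _ (sub_comb_coord_mem hJ _)
      rw [h0, Ideal.mem_bot, map_sub, sub_eq_zero, fibre_tmul, map_one, one_smul, comb_apply,
        map_sum] at h1
      rw [h1]
      exact Submodule.sum_mem _ fun j _ => by
        rw [fibre_tmul]; exact Submodule.smul_mem _ _ (Submodule.subset_span ⟨j, rfl⟩)
    haveI : Module.Finite k R := ⟨Submodule.fg_def.2 ⟨_, Set.finite_range b, hspan⟩⟩
    exact isField_of_isIntegral_of_isField' (Field.toIsField k)
  set m : Ideal R := RingHom.ker ρ with hm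
  obtain ⟨z₀, hz₀, hz₀'⟩ : ∃ z₀ ∈ J₀, z₀ ∉ J₀ * m := by
    by_contra hc
    push Not at hc
    have he : J₀ * m = J₀ * ⊤ := by
      rw [Ideal.mul_top]
      exact le_antisymm Ideal.mul_le_left hc
    exact (RingHom.ker_ne_top (ρ : R →+* k)) (mul_left_cancel₀ hJ₀ he)
  obtain ⟨C, hC⟩ := Ideal.dvd_iff_le.2 ((Ideal.span_singleton_le_iff_mem J₀).2 hz₀)
  obtain ⟨s, hsC, hs⟩ : ∃ s ∈ C, s ∉ m := by
    by_contra hc
    push Not at hc
    exact hz₀' (Ideal.mul_mono_right hc (hC ▸ Ideal.mem_span_singleton_self z₀))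
  obtain ⟨z, hzJ, hzz⟩ := (hmem z₀).1 hz₀
  have hz0 : fibre R χ z ≠ 0 := by
    rw [hzz]; intro h0; exact hz₀' (h0 ▸ zero_mem _)
  have hfg : J.FG := IsNoetherian.noetherian J
  have hle : J ≤ Ideal.span {z} ⊔ Q • J := by
    intro x hx
    set sx := (1 : A) ⊗ₜ[k] s
    have hsQ : sx ∉ Q := hs
    have hmax : Q.IsMaximal :=
      RingHom.ker_isMaximal_of_surjective _ fun c => ⟨algebraMap k _ c, ev.commutes c⟩
    obtain ⟨t, i, hi, hti⟩ := hmax.exists_inv hsQ
    have h1 : fibre R χ (sx * x) ∈ Ideal.span {z₀} := by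
      rw [map_mul, fibre_tmul, map_one, one_smul, hC, mul_comm J₀]
      exact Ideal.mul_mem_mul hsC (Ideal.mem_map_of_mem _ hx)
    obtain ⟨c, hc⟩ := Ideal.mem_span_singleton'.1 h1
    have h2 : sx * x - (1 : A) ⊗ₜ[k] c * z ∈
        Ideal.map (Algebra.TensorProduct.includeLeft : A →ₐ[k] A ⊗[k] R) (RingHom.ker χ) * J := by
      refine mem_mul_of_fibre_eq_zero hJ χ
        (sub_mem (J.mul_mem_left _ hx) (J.mul_mem_left _ hzJ)) ?_
      rw [map_sub, map_mul (fibre R χ) ((1 : A) ⊗ₜ[k] c), hzz, fibre_tmul, map_one, one_smul, hc,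
        sub_self]
    have h3 : x = t * ((1 : A) ⊗ₜ[k] c * z) + (t * (sx * x - (1 : A) ⊗ₜ[k] c * z) + i * x) := by
      linear_combination -x * hti
    rw [h3]
    refine Submodule.add_mem_sup (Ideal.mem_span_singleton'.2 ⟨t * (1 : A) ⊗ₜ[k] c, mul_assoc _ _ _⟩)
      (add_mem ?_ (Submodule.smul_mem_smul hi hx))
    exact Ideal.mul_mem_left _ _ (Ideal.mul_mono_left hMQ h2)
  obtain ⟨r, hr1, hr⟩ :=
    Submodule.exists_sub_one_mem_and_smul_le_of_fg_of_le_sup (I := Q) hfg le_rfl hle
  have hann : ∀ w, z * w = 0 → ∃ u, u ∉ Q ∧ u * w = 0 := by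
    intro w hw
    set M := Ideal.map (Algebra.TensorProduct.includeLeft : A →ₐ[k] A ⊗[k] R) (RingHom.ker χ)
    have hinf : w ∈ (⨅ i : ℕ, M ^ i • ⊤ : Submodule (A ⊗[k] R) (A ⊗[k] R)) := by
      simp only [Submodule.mem_iInf, smul_eq_mul, Ideal.mul_top]
      exact mem_pow_of_mul_eq_zero χ hz0 hw
    obtain ⟨⟨c, hc⟩, hcw⟩ := (M.mem_iInf_smul_pow_eq_bot_iff w).1 hinf
    refine ⟨1 - c, fun h => ?_, by rw [sub_mul, one_mul, sub_eq_zero]; exact hcw.symm⟩
    exact (RingHom.ker_ne_top (ev : A ⊗[k] R →+* k))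
      ((Ideal.eq_top_iff_one _).2 (by
        have h' := add_mem h (hMQ hc)
        rw [sub_add_cancel] at h'
        exact h'))
  let Ann : Ideal (A ⊗[k] R) := LinearMap.ker (LinearMap.mulLeft (A ⊗[k] R) z)
  obtain ⟨G, hG⟩ := IsNoetherian.noetherian Ann
  have hann' : ∀ v ∈ G, ∃ u, u ∉ Q ∧ u * v = 0 := fun v hv => hann v (by
    have : v ∈ Ann := hG ▸ Submodule.subset_span hv
    exact this)
  choose! u huQ hu using hann'
  refine ⟨r * ∏ v ∈ G, u v, z, fun hmem' => ?_, hzJ, fun x hx => ?_, fun w hw => ?_⟩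
  · have hprime : Q.IsPrime := RingHom.ker_isPrime _
    rcases hprime.mem_or_mem hmem' with h | h
    · exact hprime.ne_top ((Ideal.eq_top_iff_one _).2 (by simpa using sub_mem h hr1))
    · obtain ⟨v, hv, hvQ⟩ := (hprime.prod_mem_iff).1 h
      exact huQ v hv hvQ
  · rw [mul_right_comm]
    exact Ideal.mul_mem_right _ _ (hr (Submodule.smul_mem_pointwise_smul x r J hx))
  · have hwA : w ∈ Ann := hw
    rw [← hG] at hwA
    rw [mul_assoc]
    suffices h : (∏ v ∈ G, u v) * w = 0 by rw [h, mul_zero]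
    clear hw
    induction hwA using Submodule.span_induction with
    | mem v hv =>
      rw [← Finset.prod_erase_mul _ _ hv, mul_assoc, hu v hv, mul_zero]
    | zero => rw [mul_zero]
    | add v v' _ _ hv hv' => rw [mul_add, hv, hv', add_zero]
    | smul c v _ hv => rw [smul_eq_mul, mul_left_comm, hv, mul_zero]

include hJ in
/-- **A `b`-ideal is locally principal**, generated by elements which are no zero divisors. -/
theorem exists_local_generator (hR : ¬IsField R) (P : Ideal (A ⊗[k] R)) [P.IsPrime] :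
    ∃ f z, f ∉ P ∧ IsLocGen J f z := by
  haveI := finiteType_hRing (k := k) b
  set φ := classify hJ
  have hU := isBIdeal_univ (k := k) b
  obtain ⟨f, z, hf, hz, hfJ, hfz⟩ :=
    exists_locGen_of_finiteType hU hR (P.comap (mapId R φ))
  -- the quotient by `z` as a linear map on the universal ring
  have hc : ∀ y, ∃ c, f * proj hU y = c * z := fun y => by
    obtain ⟨c, hc⟩ := Ideal.mem_span_singleton'.1 (hfJ _ (proj_mem hU y))
    exact ⟨c, hc.symm⟩
  choose c hc using hc
  have huniq : ∀ {s t}, s * z = t * z → f * s = f * t := fun {s t} h => by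
    rw [← sub_eq_zero, ← mul_sub, hfz]
    rw [mul_comm, sub_mul, h, sub_self]
  let L : HRing (k := k) b ⊗[k] R →ₗ[HRing (k := k) b] HRing (k := k) b ⊗[k] R :=
    { toFun := fun y => f * c y
      map_add' := fun y y' => by
        rw [← mul_add]
        exact huniq (by rw [add_mul, ← hc, ← hc, ← hc, map_add, mul_add])
      map_smul' := fun a y => by
        rw [RingHom.id_apply, ← mul_smul_comm]
        exact huniq (by rw [smul_mul_assoc, ← hc, ← hc, map_smul, mul_smul_comm]) }
  have hLz : ∀ v, L (z * v) = f * f * v := fun v => by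
    show f * c (z * v) = _
    rw [mul_assoc]
    exact huniq (by rw [← hc, proj_eq hU (Ideal.mul_mem_right _ _ hz)]; ring)
  let L' : A ⊗[k] R →ₗ[A] A ⊗[k] R := LinearMap.liftBaseChange A
    ({ toFun := fun r => mapId R φ (L ((1 : HRing (k := k) b) ⊗ₜ[k] r))
       map_add' := fun r r' => by rw [TensorProduct.tmul_add, map_add, map_add]
       map_smul' := fun a r => by
         rw [TensorProduct.tmul_smul, LinearMap.map_smul_of_tower, map_smul]; rfl } :
      R →ₗ[k] A ⊗[k] R)
  have hL' : ∀ y, L' (mapId R φ y) = mapId R φ (L y) := by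
    intro y
    induction y using TensorProduct.induction_on with
    | zero => simp
    | tmul a r =>
      rw [mapId_tmul, LinearMap.liftBaseChange_tmul]
      show φ a • mapId R φ (L (1 ⊗ₜ r)) = _
      rw [← mapId_smul, ← map_smul, TensorProduct.smul_tmul', smul_eq_mul, mul_one]
    | add y y' hy hy' => simp only [map_add, hy, hy']
  refine ⟨mapId R φ (f * f), mapId R φ z,
    fun h => hf ((Ideal.IsPrime.mem_or_mem inferInstance
      (show f * f ∈ P.comap (mapId R φ) from h)).elim id id), ?_, fun x hx => ?_, fun w hw => ?_⟩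
  · have h := Ideal.mem_map_of_mem (mapId R φ) hz
    rwa [map_classify hJ] at h
  · rw [← map_classify hJ] at hx
    let T : Ideal (A ⊗[k] R) :=
      Submodule.comap (LinearMap.mulLeft (A ⊗[k] R) (mapId R φ (f * f))) (Ideal.span {mapId R φ z})
    have h1 : (univIdeal (k := k) b).map (mapId R φ) ≤ T := by
      rw [Ideal.map_le_iff_le_comap]
      intro y hy
      show mapId R φ (f * f) * mapId R φ y ∈ Ideal.span {mapId R φ z}
      rw [← map_mul, mul_assoc]
      obtain ⟨d, hd⟩ := Ideal.mem_span_singleton'.1 (hfJ y hy)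
      exact Ideal.mem_span_singleton'.2 ⟨mapId R φ (f * d), by rw [← map_mul, mul_assoc, hd]⟩
    exact h1 hx
  · have key : ∀ v, L' (mapId R φ z * v) = mapId R φ (f * f) * v := by
      intro v
      induction v using TensorProduct.induction_on with
      | zero => simp
      | tmul a r =>
        rw [show a ⊗ₜ[k] r = a • mapId R φ ((1 : HRing (k := k) b) ⊗ₜ[k] r) by
          rw [mapId_tmul, map_one, TensorProduct.smul_tmul', smul_eq_mul, mul_one],
          mul_smul_comm, mul_smul_comm, map_smul, ← map_mul, hL', hLz, map_mul]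
      | add v v' hv hv' => rw [mul_add, map_add, hv, hv', mul_add]
    rw [← key, hw, map_zero]

include hJ in
/-- **A dual basis of a `b`-ideal.** -/
theorem exists_dual_basis (hR : ¬IsField R) :
    ∃ (n : ℕ) (z : Fin n → A ⊗[k] R) (ψ : Fin n → J →ₗ[A ⊗[k] R] A ⊗[k] R),
      (∀ a, z a ∈ J) ∧ ∀ x : J, ∑ a, ψ a x * z a = x := by
  classical
  let S : Set (A ⊗[k] R) := {F | ∃ f z, IsLocGen J f z ∧ F = f * f}
  have hS : Ideal.span S = ⊤ := by
    by_contra hne
    obtain ⟨M, hM, hle⟩ := Ideal.exists_le_maximal _ hne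
    haveI := hM.isPrime
    obtain ⟨f, z, hf, h⟩ := exists_local_generator hJ hR M
    exact hf ((Ideal.IsPrime.mem_or_mem inferInstance
      (hle (Ideal.subset_span ⟨f, z, h, rfl⟩))).elim id id)
  have h1 : (1 : A ⊗[k] R) ∈ Submodule.span (A ⊗[k] R) S :=
    hS.ge (Submodule.mem_top : (1 : A ⊗[k] R) ∈ (⊤ : Ideal (A ⊗[k] R)))
  obtain ⟨n, cf, F, hsum⟩ := Submodule.mem_span_set'.1 h1
  choose f z hgen hF using fun a => (F a).2
  have hψ : ∀ a, ∃ ψ : J →ₗ[A ⊗[k] R] A ⊗[k] R, ∀ x, ψ x * z a = f a * f a * x := by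
    intro a
    have hc : ∀ x : J, ∃ d, d * z a = f a * x := fun x =>
      Ideal.mem_span_singleton'.1 ((hgen a).2.1 x x.2)
    choose d hd using hc
    have huniq : ∀ {s t}, s * z a = t * z a → f a * s = f a * t := fun {s t} h => by
      rw [← sub_eq_zero, ← mul_sub, (hgen a).2.2]
      rw [mul_comm, sub_mul, h, sub_self]
    exact ⟨{ toFun := fun x => f a * d x
             map_add' := fun x y => by
               rw [← mul_add]; exact huniq (by rw [add_mul, hd, hd, hd, Submodule.coe_add, mul_add])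
             map_smul' := fun e x => by
               rw [RingHom.id_apply, smul_eq_mul, mul_left_comm]
               exact huniq (by rw [mul_assoc, hd, hd, Submodule.coe_smul, smul_eq_mul]; ring) },
      fun x => by show f a * d x * z a = _; rw [mul_assoc, hd, ← mul_assoc]⟩
  choose ψ hψ using hψ
  refine ⟨n, z, fun a => cf a • ψ a, fun a => (hgen a).1, fun x => ?_⟩
  conv_rhs => rw [← one_mul (x : A ⊗[k] R), ← hsum, Finset.sum_mul]
  refine Finset.sum_congr rfl fun a _ => ?_
  rw [LinearMap.smul_apply, smul_eq_mul, smul_eq_mul, mul_assoc (cf a) (ψ a x), hψ, hF]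
  ring

include hJ in
/-- A `b`-ideal is projective. -/
theorem projective_bIdeal (hR : ¬IsField R) : Module.Projective (A ⊗[k] R) J := by
  obtain ⟨n, z, ψ, hz, hx⟩ := exists_dual_basis hJ hR
  refine Module.Projective.of_split (LinearMap.pi ψ)
    ((∑ a, (LinearMap.proj a).smulRight (⟨z a, hz a⟩ : J)) : (Fin n → A ⊗[k] R) →ₗ[A ⊗[k] R] J)
    (LinearMap.ext fun x => Subtype.ext ?_)
  simpa using hx x

end FA.Jac.Hilb

end
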