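import Fermat.Agent.Jac.ChartBase
import Fermat.Agent.Jac.HilbLocal

/-!
# The class of a `b`-ideal and frames of rank one

A `b`-ideal gives a regular section of a cocycle; its class is determined by the ideal, and where
the section is a frame of rank one the class determines the ideal.
-/

set_option autoImplicit false
set_option linter.style.haveILetI false
set_option linter.unusedSectionVars false

noncomputable section

universe u

open CategoryTheory CategoryTheory.Limits AlgebraicGeometry TopologicalSpace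
open NeronModelInfra AlgebraicGeometry.RelPicard AlgebraicCurve FA.Curve FA.AbTors
open scoped TensorProduct

namespace FA.Jac

namespace Chart

theorem smulF_add {X : Scheme.{u}} {c : Coc X} {W : X.Opens} (a b : Γ(X, W)) (s : Sec c W) :
    Sec.smulF (a + b) s = Sec.smulF a s + Sec.smulF b s :=
  ext_germ fun z hz => by rw [germAt_add, germAt_smulF, germAt_smulF, germAt_smulF, map_add, add_mul]

theorem smulF_mul {X : Scheme.{u}} {c : Coc X} {W : X.Opens} (a b : Γ(X, W)) (s : Sec c W) :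
    Sec.smulF (a * b) s = Sec.smulF a (Sec.smulF b s) :=
  ext_germ fun z hz => by rw [germAt_smulF, germAt_smulF, germAt_smulF, map_mul, mul_assoc]

theorem smulF_one {X : Scheme.{u}} {c : Coc X} {W : X.Opens} (s : Sec c W) :
    Sec.smulF (1 : Γ(X, W)) s = s :=
  ext_germ fun z hz => by rw [germAt_smulF, map_one, one_mul]

variable {k : Type u} [Field k] [IsAlgClosed k] {V : Crv k} (Cv : V.Cover)

/-- One section is a basis of the global sections and the first cohomology vanishes. -/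
def OneFrame {A : Type u} [CommRing A] (a : Spec (CommRingCat.of A) ⟶ Spec (CommRingCat.of k))
    (c : Coc (V.X a)) (s : Sec c ⊤) : Prop :=
  Cv.Nonspecial a c ∧ Function.Bijective fun x : A => Sec.smulF (V.scalar a x) s

variable {Cv}

section Frame

variable {A : Type u} [CommRing A] {a : Spec (CommRingCat.of A) ⟶ Spec (CommRingCat.of k)}
  {c d : Coc (V.X a)} {s t : Sec c ⊤}

theorem OneFrame.congr (h : OneFrame Cv a c s) (e : Equiv' c d) :
    OneFrame Cv a d (e.toSec ⊤ s) := by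
  refine ⟨(Crv.Cover.nonspecial_congr V Cv e.rel).1 h.1, ?_⟩
  have hfun : (fun x : A => Sec.smulF (V.scalar a x) (e.toSec ⊤ s)) =
      e.toSec ⊤ ∘ fun x : A => Sec.smulF (V.scalar a x) s :=
    funext fun x => (e.toSec_smulF _ _).symm
  rw [hfun]
  exact (e.toSec_bijective ⊤).comp h.2

theorem OneFrame.cast (h : OneFrame Cv a c s) (e : c = d) : OneFrame Cv a d (castSec e ⊤ s) := by
  subst e; exact h

theorem OneFrame.exists_unit (h : OneFrame Cv a c s) (h' : OneFrame Cv a c t) :
    ∃ x : A, IsUnit x ∧ t = Sec.smulF (V.scalar a x) s := by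
  obtain ⟨x, hx⟩ := h.2.2 t
  obtain ⟨y, hy⟩ := h'.2.2 s
  replace hx : Sec.smulF (V.scalar a x) s = t := hx
  replace hy : Sec.smulF (V.scalar a y) t = s := hy
  refine ⟨x, IsUnit.of_mul_eq_one y (h.2.1 ?_), hx.symm⟩
  show Sec.smulF (V.scalar a (x * y)) s = Sec.smulF (V.scalar a 1) s
  rw [mul_comm, map_mul, smulF_mul, hx, hy, map_one, smulF_one]

theorem OneFrame.assoc (h : OneFrame Cv a c s) (h' : OneFrame Cv a c t) (z : V.X a) :
    Associated (germAt s z (Opens.mem_top z)) (germAt t z (Opens.mem_top z)) := by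
  obtain ⟨x, hx, rfl⟩ := h.exists_unit h'
  rw [germAt_smulF]
  exact (associated_unit_mul_left _ _ ((hx.map _).map _)).symm

end Frame

/-! ### The class of an ideal -/

section Ideal

variable {g : ℕ} {b : Fin g → Γ(V.C, Cv.U0)}
variable {A A' : Type u} [CommRing A] [Algebra k A] [CommRing A'] [Algebra k A']

variable (Cv) in
/-- The section presents the ideal. -/
def Pres (J : Ideal (A ⊗[k] Γ(V.C, Cv.U0))) {c : Coc (V.X (st (k := k) A))} (s : Sec c ⊤) :
    Prop :=
  Presents (Cv.idealW J) s ∧ Regular s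

variable {J J' : Ideal (A ⊗[k] Γ(V.C, Cv.U0))} {c d : Coc (V.X (st (k := k) A))} {s : Sec c ⊤}
  {t : Sec d ⊤}

theorem locGen_idealW (hb : Hilb.IsBIdeal b J) : LocGen (Cv.idealW J) := by
  haveI := Cv.finiteType_R0
  haveI := Cv.isDedekindDomain_R0
  refine locGen_of_primes (Cv.affine_W0 _) fun P hP => ?_
  obtain ⟨f, z, hf, hz, hspan, hreg⟩ := Hilb.exists_local_generator hb Cv.not_isField_R0
    (P.comap (Cv.eW A).toRingHom)
  refine ⟨Cv.eW A f, hf, Cv.eW A z, Ideal.mem_map_of_mem _ hz, fun x hx => ?_, fun w hw => ?_⟩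
  · obtain ⟨x, hxJ, rfl⟩ :=
      (Ideal.mem_map_iff_of_surjective (Cv.eW A).toRingHom (Cv.eW A).surjective).1 hx
    have h := Ideal.mem_map_of_mem (Cv.eW A).toRingHom (hspan x hxJ)
    rw [Ideal.map_span, Set.image_singleton, map_mul] at h
    exact h
  · obtain ⟨w, rfl⟩ := (Cv.eW A).surjective w
    rw [← map_mul] at hw ⊢
    rw [hreg w ((Cv.eW A).injective (hw.trans (map_zero _).symm)), map_zero]

theorem finite_idealW (hb : Hilb.IsBIdeal b J) :
    ((Ideal.Quotient.mk (Cv.idealW J)).comp (V.scalarW (st A) Cv.U0)).Finite := by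
  letI := ((Ideal.Quotient.mk (Cv.idealW J)).comp (V.scalarW (st A) Cv.U0)).toAlgebra
  show Module.Finite A _
  let L : (Fin g → A) →ₗ[A] Γ(V.X (st A), Cv.W0 (st A)) ⧸ Cv.idealW J :=
    { toFun := fun x => Ideal.Quotient.mk _ (Cv.eW A (Hilb.comb b A x))
      map_add' := fun x y => by simp only [map_add]
      map_smul' := fun r x => by
        rw [map_smul, RingHom.id_apply, Algebra.smul_def, Algebra.smul_def, map_mul, map_mul,
          Algebra.TensorProduct.algebraMap_apply, Cv.eW_tmul, map_one, mul_one]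
        rfl }
  refine Module.Finite.of_surjective L fun y => ?_
  obtain ⟨y, rfl⟩ := Ideal.Quotient.mk_surjective y
  obtain ⟨z, rfl⟩ := (Cv.eW A).surjective y
  obtain ⟨x, hx⟩ := hb.2 (Ideal.Quotient.mk J z)
  refine ⟨x, Ideal.Quotient.eq.2 ?_⟩
  rw [← map_sub]
  exact Ideal.mem_map_of_mem (Cv.eW A).toRingHom (Ideal.Quotient.eq.1 hx)

theorem isClosed_idealW (hb : Hilb.IsBIdeal b J) : IsClosed (zeroSet (Cv.idealW J)) :=
  isClosed_zeroSet (Cv.affine_W0 _) (f := pullback.snd V.str (st A)) (Cv.fromSpec_snd _)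
    (finite_idealW hb)

theorem exists_pres (hb : Hilb.IsBIdeal b J) :
    ∃ (c : Coc (V.X (st (k := k) A))) (s : Sec c ⊤), Pres Cv J s := by
  obtain ⟨c, s, h, hs⟩ := exists_presents (locGen_idealW hb) (isClosed_idealW hb)
  exact ⟨c, s, h, hs⟩

theorem Pres.assoc (h : Pres Cv J s) (h' : Pres Cv J t) (z : V.X (st (k := k) A)) :
    Associated (germAt s z (Opens.mem_top z)) (germAt t z (Opens.mem_top z)) :=
  h.1.assoc h'.1 h.2 z

theorem Pres.pull (h : Pres Cv J s) (hb : Hilb.IsBIdeal b J) (φ : A →ₐ[k] A') :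
    Pres Cv (J.map (Hilb.mapId Γ(V.C, Cv.U0) φ)) (pullS (overAlg φ) c s) := by
  have h' : Presents (Cv.idealW (J.map (Hilb.mapId Γ(V.C, Cv.U0) φ))) (pullS (overAlg φ) c s) := by
    rw [← Cv.idealW_map φ J]
    exact h.1.pull _ (Cv.W0_le _) (Cv.pre_W0 _).le
  exact ⟨h', h'.regular (locGen_idealW (hb.map φ))⟩

variable (Cv) in
/-- The class of an ideal. -/
def clsI (J : Ideal (A ⊗[k] Γ(V.C, Cv.U0))) : FA.AbTors.Pic (V.X (st (k := k) A)) :=
  haveI := Classical.propDecidable
  if h : ∃ (c : Coc (V.X (st (k := k) A))) (s : Sec c ⊤), Pres Cv J s then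
    FA.AbTors.Pic.mk h.choose
  else 0

theorem clsI_eq (h : Pres Cv J s) : clsI Cv J = FA.AbTors.Pic.mk c := by
  have h0 : ∃ (c : Coc (V.X (st (k := k) A))) (s : Sec c ⊤), Pres Cv J s := ⟨c, s, h⟩
  rw [clsI, dif_pos h0]
  obtain ⟨s', hs'⟩ := h0.choose_spec
  obtain ⟨e, -⟩ := exists_equiv s' s hs'.2 (hs'.assoc h)
  exact Pic.mk_eq_mk.2 e.rel

theorem pullP_clsI (hb : Hilb.IsBIdeal b J) (φ : A →ₐ[k] A') :
    V.pullP (overAlg φ) (clsI Cv J) = clsI Cv (J.map (Hilb.mapId Γ(V.C, Cv.U0) φ)) := by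
  obtain ⟨c, s, h⟩ := exists_pres hb
  rw [clsI_eq h, clsI_eq (h.pull hb φ)]
  rfl

theorem mk_eq_zero_of_units {X : Scheme.{u}} {c : Coc X} (s : Sec c ⊤)
    (h : ∀ z, IsUnit (germAt s z (Opens.mem_top z))) : FA.AbTors.Pic.mk c = 0 := by
  let s1 : Sec (1 : Coc X) ⊤ := ⟨fun _ => 1, fun x y O hW hx hy => by
    rw [Coc.one_at, Units.val_one, map_one, mul_one]⟩
  have h1 : ∀ z, germAt s1 z (Opens.mem_top z) = 1 := fun z => map_one _
  obtain ⟨e, -⟩ := exists_equiv s1 s (fun z _ => by rw [h1 z]; exact isUnit_one.isRegular)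
    fun z => by rw [h1 z]; exact (associated_one_iff_isUnit.2 (h z)).symm
  exact (Pic.mk_eq_mk.2 e.rel).symm

theorem rig_clsI (hb : Hilb.IsBIdeal b J) : V.rig (st A) (clsI Cv J) = 0 := by
  obtain ⟨c, s, h⟩ := exists_pres hb
  rw [clsI_eq h]
  refine mk_eq_zero_of_units (Sec.pull (rigSection V.str (st A) V.pt) (pre_top _) s) fun y => ?_
  rw [germAt_pull]
  exact (h.1.unit _ (Cv.rig_notMem y)).map _

variable (Cv) in
/-- Some presenting section is a frame of rank one. -/
def OneFrameI (J : Ideal (A ⊗[k] Γ(V.C, Cv.U0))) : Prop :=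
  ∃ (c : Coc (V.X (st (k := k) A))) (s : Sec c ⊤), Pres Cv J s ∧ OneFrame Cv (st A) c s

theorem OneFrameI.of_pres (h : OneFrameI Cv J) (hs : Pres Cv J s) : OneFrame Cv (st A) c s := by
  obtain ⟨c', s', hp, hf⟩ := h
  obtain ⟨e, he⟩ := exists_equiv s' s hp.2 (hp.assoc hs)
  exact he ▸ hf.congr e

/-- Where the sections are frames of rank one, the class determines the ideal. -/
theorem eq_of_clsI_eq (h : OneFrameI Cv J) (h' : OneFrameI Cv J')
    (hc : clsI Cv J = clsI Cv J') : J = J' := by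
  obtain ⟨c, s, hp, hf⟩ := h
  obtain ⟨c', s', hp', hf'⟩ := h'
  rw [clsI_eq hp, clsI_eq hp', Pic.mk_eq_mk] at hc
  obtain ⟨e⟩ := Equiv'.nonempty_of_rel hc
  have h1 := hf.congr e
  refine Cv.idealW_injective ((hp.1.of_assoc fun z => ?_).unique (Cv.affine_W0 _) hp'.1)
  refine Associated.trans ?_ (h1.assoc hf' z)
  rw [e.germAt_toSec]
  exact (associated_unit_mul_left _ _ (e.isUnit_wGm z)).symm

end Ideal

/-! ### Over a field -/

section Field

variable {k' : Type u} [Field k'] [IsAlgClosed k']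
  {a : Spec (CommRingCat.of k') ⟶ Spec (CommRingCat.of k)}

theorem secVal_smul {c : Coc (V.bc a).C} (x : k') (s : Sec c ⊤) :
    (V.bc a).secVal c (Sec.smulF (V.scalar a x) s) =
      algebraMap k' (V.bc a).F x * (V.bc a).secVal c s := by
  refine (map_mul _ _ _).trans (congrArg (· * (V.bc a).secVal c s) ?_)
  have hq : genericPoint (V.bc a).C ∈ (⊤ : (V.bc a).C.Opens) ⊓ c.U (ctr (V.bc a).gen) :=
    ⟨trivial, genericPoint_mem (c.mem _)⟩
  refine Eq.trans (congrArg (evF (genPt (V.bc a).C) _ (gen_le hq)) ?_)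
    (Growth.evF_sectionsHom (V.bc a).str hq x)
  exact rsF_apF (pullback.snd V.str a) (U := ⊤) (V := ⊤) le_top _ _

/-- A rank one frame has a divisor of degree the genus. -/
theorem deg_of_oneFrame (hfi : V.FieldHolds) {c : Coc (V.bc a).C} {s : Sec c ⊤}
    (h : OneFrame Cv a c s) :
    (V.bc a).deg (FA.AbTors.Pic.mk c) = FA.Curve.genus k V.F := by
  obtain ⟨hns, hinj, hrange⟩ := hfi Cv k' a c
  set D := pullDiv (RingHom.id k') (V.bc a).isFunctionField (V.bc a).gen (V.bc a).gen_str c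
  set f := (V.bc a).secVal c s
  have hL : riemannRochSpace D = Submodule.span k' ({f} : Set (V.bc a).F) := by
    refine SetLike.coe_injective ?_
    rw [← hrange]
    ext y
    rw [SetLike.mem_coe, Submodule.mem_span_singleton]
    constructor
    · rintro ⟨t, rfl⟩
      obtain ⟨x, rfl⟩ := h.2.2 t
      exact ⟨x, by rw [Algebra.smul_def]; exact (secVal_smul x s).symm⟩
    · rintro ⟨x, rfl⟩
      exact ⟨Sec.smulF (V.scalar a x) s, by rw [Algebra.smul_def]; exact secVal_smul x s⟩
  have hf : f ≠ 0 := fun e => zero_ne_one (h.2.1 (hinj (by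
    show (V.bc a).secVal c (Sec.smulF (V.scalar a (0 : k')) s) =
      (V.bc a).secVal c (Sec.smulF (V.scalar a (1 : k')) s)
    rw [secVal_smul, secVal_smul, map_zero, map_one, zero_mul, one_mul]
    exact e.symm)))
  have hell : ell D = 1 := by
    rw [ell, hL, finrank_span_singleton hf, Nat.cast_one]
  have := hns.1 h.1
  show Divisor.degree D = _
  omega

end Field

end Chart

end FA.Jac

end
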