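import Fermat.Agent.Jac.SecDefs

/-!
# Germs of sections of cocycles

A section of a cocycle has a germ at every point, read at the index of that point.  Two regular
sections with associated germs come from equivalent cocycles, the equivalence sending one to the
other; an equivalence of cocycles transports sections.
-/

set_option autoImplicit false

noncomputable section

universe u

open CategoryTheory AlgebraicGeometry TopologicalSpace Opposite FA.AbTors

namespace FA.Jac.Chart

variable {X Y Z : Scheme.{u}}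

/-- The germ of a function. -/
abbrev gm (U : X.Opens) (z : X) (hz : z ∈ U) : Γ(X, U) →+* X.presheaf.stalk z :=
  (X.presheaf.germ U z hz).hom

theorem rsF_eq {U V : X.Opens} (h : V ≤ U) (a : Γ(X, U)) :
    rsF h a = (X.presheaf.map (homOfLE h).op).hom a := by
  show ((𝟙 X : X ⟶ X).appLE U V h).hom a = _
  simp [Scheme.Hom.appLE]
  rfl

theorem gm_rsF {U V : X.Opens} (h : V ≤ U) {z : X} (hz : z ∈ V) (a : Γ(X, U)) :
    gm V z hz (rsF h a) = gm U z (h hz) a := by
  rw [rsF_eq]
  exact congrArg (fun φ : Γ(X, U) ⟶ X.presheaf.stalk z => φ.hom a)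
    (X.presheaf.germ_res (homOfLE h) z hz)

theorem gm_ext {U : X.Opens} {a b : Γ(X, U)} (h : ∀ z (hz : z ∈ U), gm U z hz a = gm U z hz b) :
    a = b :=
  TopCat.Presheaf.section_ext X.sheaf U a b h

theorem gm_apF (f : X ⟶ Y) {U : Y.Opens} {V : X.Opens} (e : V ≤ f ⁻¹ᵁ U) {z : X} (hz : z ∈ V)
    (a : Γ(Y, U)) : gm V z hz (apF f e a) = (f.stalkMap z).hom (gm U (f z) (e hz) a) := by
  have h1 : f.appLE U V e ≫ X.presheaf.germ V z hz =
      Y.presheaf.germ U (f z) (e hz) ≫ f.stalkMap z := by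
    refine Eq.trans ?_ (f.germ_stalkMap U z (e hz)).symm
    rw [Scheme.Hom.appLE, Category.assoc]
    exact congrArg (f.app U ≫ ·) (X.presheaf.germ_res _ _ _)
  exact congrArg (fun φ : Γ(Y, U) ⟶ X.presheaf.stalk z => φ.hom a) h1

theorem mi {U V : X.Opens} {z : X} (h : z ∈ U) (h' : z ∈ V) : z ∈ U ⊓ V := ⟨h, h'⟩

/-- The germ of a transition function. -/
def atGm (c : Coc X) (x y z : X) (hx : z ∈ c.U x) (hy : z ∈ c.U y) : X.presheaf.stalk z :=
  gm (c.U x ⊓ c.U y) z (mi hx hy) (c.g x y)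

theorem gm_at (c : Coc X) (x y : X) {W : X.Opens} (hx : W ≤ c.U x) (hy : W ≤ c.U y) {z : X}
    (hz : z ∈ W) : gm W z hz (c.at x y W hx hy) = atGm c x y z (hx hz) (hy hz) :=
  gm_rsF (le_inf hx hy) hz _

theorem isUnit_atGm (c : Coc X) (x y z : X) (hx : z ∈ c.U x) (hy : z ∈ c.U y) :
    IsUnit (atGm c x y z hx hy) :=
  (c.g x y).isUnit.map _

section Germ

variable {c d : Coc X} {O O' : X.Opens}

/-- The germ of a section at a point. -/
def germAt (s : Sec c O) (z : X) (hz : z ∈ O) : X.presheaf.stalk z :=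
  gm (O ⊓ c.U z) z (mi hz (c.mem z)) (s.1 z)

theorem gm_sec (s : Sec c O) (x z : X) (hz : z ∈ O) (hx : z ∈ c.U x) :
    gm (O ⊓ c.U x) z (mi hz hx) (s.1 x) = atGm c x z z hx (c.mem z) * germAt s z hz := by
  have h := congrArg (gm (O ⊓ (c.U x ⊓ c.U z)) z (mi hz (mi hx (c.mem z))))
    (s.2 x z (O ⊓ (c.U x ⊓ c.U z)) inf_le_left (inf_le_right.trans inf_le_left)
      (inf_le_right.trans inf_le_right))
  rw [map_mul, gm_rsF, gm_rsF, gm_at] at h
  exact h

theorem ext_germ {s t : Sec c O} (h : ∀ z hz, germAt s z hz = germAt t z hz) : s = t :=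
  Subtype.ext (funext fun x => gm_ext fun z hz => by
    rw [gm_sec s x z hz.1 hz.2, gm_sec t x z hz.1 hz.2, h z hz.1])

theorem germAt_add (s t : Sec c O) (z : X) (hz : z ∈ O) :
    germAt (s + t) z hz = germAt s z hz + germAt t z hz :=
  map_add _ _ _

theorem germAt_smulF (a : Γ(X, O)) (s : Sec c O) (z : X) (hz : z ∈ O) :
    germAt (Sec.smulF a s) z hz = gm O z hz a * germAt s z hz := by
  show gm _ z _ (rsF inf_le_left a * s.1 z) = _
  rw [map_mul, gm_rsF]
  rfl

theorem germAt_res (h : O' ≤ O) (s : Sec c O) (z : X) (hz : z ∈ O') :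
    germAt (Sec.res h s) z hz = germAt s z (h hz) :=
  gm_rsF (inf_le_inf_right _ h) _ _

theorem germAt_pull (f : Y ⟶ X) {O'' : Y.Opens} (h : O'' ≤ f ⁻¹ᵁ O) (s : Sec c O) (z : Y)
    (hz : z ∈ O'') : germAt (Sec.pull f h s) z hz = (f.stalkMap z).hom (germAt s (f z) (h hz)) :=
  gm_apF f (U := O ⊓ c.U (f z)) _ _ _

/-- A section none of whose germs is a zero divisor. -/
def Regular (s : Sec c O) : Prop := ∀ z hz, IsRegular (germAt s z hz)

theorem regular_gm (s : Sec c O) (hs : Regular s) (x z : X) (hz : z ∈ O) (hx : z ∈ c.U x) :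
    IsRegular (gm (O ⊓ c.U x) z (mi hz hx) (s.1 x)) := by
  rw [gm_sec s x z hz hx]
  exact (isUnit_atGm c x z z hx (c.mem z)).isRegular.mul (hs z hz)

end Germ

/-! ### Units -/

theorem exists_unit_of_gm {U : X.Opens} (f g : Γ(X, U))
    (hg : ∀ z hz, IsRegular (gm U z hz g))
    (h : ∀ z hz, Associated (gm U z hz g) (gm U z hz f)) :
    ∃ w : Γ(X, U)ˣ, f = (w : Γ(X, U)) * g := by
  classical
  have hloc : ∀ z : U, ∃ (N : X.Opens) (_ : (z : X) ∈ N) (hN : N ≤ U) (a : Γ(X, N)),
      rsF hN f = a * rsF hN g := by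
    intro z
    obtain ⟨v, hv⟩ := h z z.2
    obtain ⟨N, hzN, a, ha⟩ := X.presheaf.exists_germ_eq (v : X.presheaf.stalk (z : X))
    have e : gm (N ⊓ U) z (mi hzN z.2) (rsF inf_le_right f) =
        gm (N ⊓ U) z (mi hzN z.2) (rsF inf_le_left a * rsF inf_le_right g) := by
      rw [map_mul, gm_rsF, gm_rsF, gm_rsF, ← hv, mul_comm]
      exact congrArg (· * _) ha.symm
    obtain ⟨N', hz', i₁, i₂, e'⟩ := X.presheaf.germ_eq (z : X) _ _ _ _ e
    refine ⟨N', hz', i₁.le.trans inf_le_right, rsF (i₁.le.trans inf_le_left) a, ?_⟩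
    have e'' : rsF i₁.le (rsF inf_le_right f : Γ(X, N ⊓ U)) =
        rsF i₁.le (rsF inf_le_left a * rsF inf_le_right g : Γ(X, N ⊓ U)) := by
      rw [rsF_eq i₁.le, rsF_eq i₁.le]
      exact e'
    rw [map_mul, rsF_rsF, rsF_rsF, rsF_rsF] at e''
    exact e''
  choose N hzN hNU a ha using hloc
  have huniq : ∀ {W : X.Opens} (hW : W ≤ U) (p q : Γ(X, W)),
      p * rsF hW g = q * rsF hW g → p = q := fun hW p q e => gm_ext fun z hz => by
    have e' := congrArg (gm _ z hz) e
    rw [map_mul, map_mul, gm_rsF] at e'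
    exact (hg z (hW hz)).right e'
  obtain ⟨(w : Γ(X, U)), hw, -⟩ := X.sheaf.existsUnique_gluing' N U (fun i => homOfLE (hNU i))
    (fun x hx => Opens.mem_iSup.mpr ⟨⟨x, hx⟩, hzN ⟨x, hx⟩⟩) a fun i j => by
      show (X.presheaf.map (Opens.infLELeft (N i) (N j)).op).hom (a i) =
        (X.presheaf.map (Opens.infLERight (N i) (N j)).op).hom (a j)
      refine Eq.trans (rsF_eq inf_le_left _).symm (Eq.trans ?_ (rsF_eq inf_le_right _))
      refine huniq (inf_le_left.trans (hNU i)) _ _ ?_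
      have e₁ := congrArg (rsF (inf_le_left : N i ⊓ N j ≤ N i)) (ha i)
      have e₂ := congrArg (rsF (inf_le_right : N i ⊓ N j ≤ N j)) (ha j)
      rw [map_mul, rsF_rsF, rsF_rsF] at e₁ e₂
      exact e₁.symm.trans e₂
  have hw' : ∀ i, rsF (hNU i) w = a i := fun i => (rsF_eq _ _).trans (hw i)
  have hf : f = w * g := gm_ext fun z hz => by
    have e := congrArg (gm (N ⟨z, hz⟩) z (hzN ⟨z, hz⟩)) (ha ⟨z, hz⟩)
    rw [← hw' ⟨z, hz⟩, map_mul, gm_rsF, gm_rsF, gm_rsF] at e
    rw [map_mul]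
    exact e
  obtain ⟨v, hv⟩ : IsUnit w := by
    refine RingedSpace.isUnit_of_isUnit_germ X.toLocallyRingedSpace.toRingedSpace U w fun z hz => ?_
    obtain ⟨v, hv⟩ := h z hz
    have : gm U z hz w = v := (hg z hz).right (by
      show gm U z hz w * gm U z hz g = (v : X.presheaf.stalk z) * gm U z hz g
      rw [← map_mul, ← hf, ← hv, mul_comm])
    show IsUnit (gm U z hz w)
    rw [this]
    exact v.isUnit
  exact ⟨v, by rw [hv]; exact hf⟩

/-! ### Equivalences of cocycles -/

/-- An equivalence of cocycles with its units. -/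
structure Equiv' (c d : Coc X) where
  /-- The opens of the units. -/
  V : X → X.Opens
  mem : ∀ x, x ∈ V x
  le₁ : ∀ x, V x ≤ c.U x
  le₂ : ∀ x, V x ≤ d.U x
  /-- The units. -/
  w : ∀ x, Γ(X, V x)ˣ
  eq : ∀ (x y : X) (W : X.Opens) (hx : W ≤ V x) (hy : W ≤ V y),
    d.at x y W (hx.trans (le₂ x)) (hy.trans (le₂ y)) =
      c.at x y W (hx.trans (le₁ x)) (hy.trans (le₁ y)) * (uRes _ W hx (w x) / uRes _ W hy (w y))

namespace Equiv'

variable {c d : Coc X} (e : Equiv' c d)

include e in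
theorem rel : c.Rel d := ⟨e.V, e.mem, e.le₁, e.le₂, e.w, e.eq⟩

theorem nonempty_of_rel {c d : Coc X} (h : c.Rel d) : Nonempty (Equiv' c d) := by
  obtain ⟨V, hV, hc, hd, w, hw⟩ := h
  exact ⟨⟨V, hV, hc, hd, w, hw⟩⟩

/-- The inverse equivalence. -/
def symm : Equiv' d c where
  V := e.V
  mem := e.mem
  le₁ := e.le₂
  le₂ := e.le₁
  w x := (e.w x)⁻¹
  eq x y W hx hy := by
    rw [e.eq x y W hx hy, map_inv, map_inv, mul_assoc, inv_div_inv, div_mul_div_cancel, div_self',
      mul_one]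

/-- The unit at a point. -/
def wGm (z : X) : X.presheaf.stalk z := gm (e.V z) z (e.mem z) (e.w z)

theorem isUnit_wGm (z : X) : IsUnit (e.wGm z) := (e.w z).isUnit.map _

theorem wGm_symm_mul (z : X) : e.symm.wGm z * e.wGm z = 1 := by
  show gm (e.V z) z (e.mem z) ↑(e.w z)⁻¹ * gm (e.V z) z (e.mem z) ↑(e.w z) = 1
  rw [← map_mul, Units.inv_mul, map_one]

theorem gm_eq (x z : X) (hx : z ∈ e.V x) :
    atGm d x z z (e.le₂ x hx) (d.mem z) * e.wGm z =
      atGm c x z z (e.le₁ x hx) (c.mem z) * gm (e.V x) z hx (e.w x) := by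
  set W := e.V x ⊓ e.V z
  have h := e.eq x z W inf_le_left inf_le_right
  rw [div_eq_mul_inv, ← mul_assoc, eq_mul_inv_iff_mul_eq] at h
  have h' := congrArg (fun u : Γ(X, W)ˣ => gm W z (mi hx (e.mem z)) (u : Γ(X, W))) h
  simp only [Units.val_mul, map_mul, gm_at] at h'
  erw [gm_rsF, gm_rsF] at h'
  exact h'

theorem transport_germs {O : X.Opens} (s : Sec c O) :
    ∃ t : Sec d O, ∀ z hz, germAt t z hz = e.wGm z * germAt s z hz := by
  classical
  have key : ∀ x, ∃ t : Γ(X, O ⊓ d.U x), ∀ (z : X) (hz : z ∈ O ⊓ d.U x),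
      gm _ z hz t = atGm d x z z hz.2 (d.mem z) * (e.wGm z * germAt s z hz.1) := by
    intro x
    let N : X → X.Opens := fun y => O ⊓ d.U x ⊓ e.V y
    let a : ∀ y, Γ(X, N y) := fun y =>
      (d.at x y (N y) (inf_le_left.trans inf_le_right) (inf_le_right.trans (e.le₂ y)) :
          Γ(X, N y)) *
        (rsF inf_le_right (e.w y : Γ(X, e.V y)) *
          rsF (le_inf (inf_le_left.trans inf_le_left) (inf_le_right.trans (e.le₁ y))) (s.1 y))
    have ha : ∀ (y z : X) (hz : z ∈ N y), gm (N y) z hz (a y) =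
        atGm d x z z hz.1.2 (d.mem z) * (e.wGm z * germAt s z hz.1.1) := by
      intro y z hz
      simp only [a]
      rw [map_mul, map_mul, gm_at, gm_rsF, gm_rsF, gm_sec s y z hz.1.1 (e.le₁ y hz.2),
        ← mul_assoc (gm (e.V y) z _ _), mul_comm (gm (e.V y) z _ _) (atGm c y z z _ _),
        ← e.gm_eq y z hz.2, ← mul_assoc, ← mul_assoc]
      have hd := congrArg (fun u : Γ(X, d.U x ⊓ d.U y ⊓ d.U z)ˣ =>
        gm _ z (mi (mi hz.1.2 (e.le₂ y hz.2)) (d.mem z)) (u : Γ(X, d.U x ⊓ d.U y ⊓ d.U z)))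
        (d.at_mul x y z (inf_le_left.trans inf_le_left) (inf_le_left.trans inf_le_right)
          inf_le_right)
      simp only [Units.val_mul, map_mul, gm_at] at hd
      rw [← hd, mul_assoc]
    obtain ⟨(t : Γ(X, O ⊓ d.U x)), ht, -⟩ := X.sheaf.existsUnique_gluing' N (O ⊓ d.U x) (fun _ => homOfLE inf_le_left)
      (fun z hz => Opens.mem_iSup.mpr ⟨z, hz, e.mem z⟩) a fun y y' => by
        show (X.presheaf.map (Opens.infLELeft (N y) (N y')).op).hom (a y) =
          (X.presheaf.map (Opens.infLERight (N y) (N y')).op).hom (a y')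
        refine Eq.trans (rsF_eq inf_le_left _).symm (Eq.trans ?_ (rsF_eq inf_le_right _))
        refine gm_ext fun z hz => ?_
        rw [gm_rsF, gm_rsF, ha y z hz.1, ha y' z hz.2]
    refine ⟨t, fun z hz => ?_⟩
    have e' := (rsF_eq (inf_le_left : N z ≤ O ⊓ d.U x) t).trans (ht z)
    have e'' := congrArg (gm (N z) z (mi hz (e.mem z))) e'
    rw [gm_rsF, ha z z (mi hz (e.mem z))] at e''
    exact e''
  choose t ht using key
  refine ⟨⟨t, fun x y W hW hx hy => gm_ext fun z hz => ?_⟩, fun z hz => ?_⟩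
  · rw [map_mul, gm_rsF, gm_rsF, gm_at, ht x z (mi (hW hz) (hx hz)), ht y z (mi (hW hz) (hy hz))]
    have hd := congrArg (fun u : Γ(X, d.U x ⊓ d.U y ⊓ d.U z)ˣ =>
        gm _ z (mi (mi (hx hz) (hy hz)) (d.mem z)) (u : Γ(X, d.U x ⊓ d.U y ⊓ d.U z)))
      (d.at_mul x y z (inf_le_left.trans inf_le_left) (inf_le_left.trans inf_le_right)
        inf_le_right)
    simp only [Units.val_mul, map_mul, gm_at] at hd
    rw [hd, mul_assoc]
  · show gm _ z _ (t z) = _
    rw [ht z z (mi hz (d.mem z)), ← gm_at d z z le_rfl le_rfl (d.mem z), d.at_self, Units.val_one,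
      map_one, one_mul]

/-- The transport of sections. -/
def toSec (O : X.Opens) : Sec c O →+ Sec d O :=
  AddMonoidHom.mk' (fun s => (e.transport_germs s).choose) fun s s' => ext_germ fun z hz => by
    rw [germAt_add, (e.transport_germs _).choose_spec z hz, (e.transport_germs _).choose_spec z hz,
      (e.transport_germs _).choose_spec z hz, germAt_add, mul_add]

theorem germAt_toSec {O : X.Opens} (s : Sec c O) (z : X) (hz : z ∈ O) :
    germAt (e.toSec O s) z hz = e.wGm z * germAt s z hz :=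
  (e.transport_germs s).choose_spec z hz

theorem toSec_smulF {O : X.Opens} (a : Γ(X, O)) (s : Sec c O) :
    e.toSec O (Sec.smulF a s) = Sec.smulF a (e.toSec O s) :=
  ext_germ fun z hz => by rw [germAt_toSec, germAt_smulF, germAt_smulF, germAt_toSec, mul_left_comm]

theorem toSec_res {O O' : X.Opens} (h : O' ≤ O) (s : Sec c O) :
    e.toSec O' (Sec.res h s) = Sec.res h (e.toSec O s) :=
  ext_germ fun z hz => by rw [germAt_toSec, germAt_res, germAt_res, germAt_toSec]

theorem symm_toSec {O : X.Opens} (s : Sec c O) : e.symm.toSec O (e.toSec O s) = s :=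
  ext_germ fun z hz => by
    rw [germAt_toSec, germAt_toSec, ← mul_assoc, wGm_symm_mul, one_mul]

theorem toSec_bijective (O : X.Opens) : Function.Bijective (e.toSec O) :=
  ⟨fun s s' h => by simpa only [e.symm_toSec] using congrArg (e.symm.toSec O) h,
    fun t => ⟨e.symm.toSec O t, e.symm.symm_toSec t⟩⟩

end Equiv'

/-- Regular sections with associated germs come from equivalent cocycles. -/
theorem exists_equiv {c d : Coc X} (s : Sec c ⊤) (t : Sec d ⊤) (hs : Regular s)
    (h : ∀ z, Associated (germAt s z trivial) (germAt t z trivial)) :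
    ∃ e : Equiv' c d, e.toSec ⊤ s = t := by
  classical
  have key : ∀ x, ∃ w : Γ(X, c.U x ⊓ d.U x)ˣ,
      rsF (le_inf le_top inf_le_right) (t.1 x) =
        (w : Γ(X, c.U x ⊓ d.U x)) * rsF (le_inf le_top inf_le_left) (s.1 x) := by
    intro x
    refine exists_unit_of_gm _ _ (fun z hz => ?_) fun z hz => ?_
    · rw [gm_rsF]; exact regular_gm s hs x z trivial hz.1
    · rw [gm_rsF, gm_rsF, gm_sec s x z trivial hz.1, gm_sec t x z trivial hz.2]
      exact (associated_unit_mul_left _ _ (isUnit_atGm c x z z _ _)).trans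
        ((h z).trans (associated_unit_mul_left _ _ (isUnit_atGm d x z z _ _)).symm)
  choose w hw using key
  let e : Equiv' c d :=
    { V := fun x => c.U x ⊓ d.U x
      mem := fun x => ⟨c.mem x, d.mem x⟩
      le₁ := fun _ => inf_le_left
      le₂ := fun _ => inf_le_right
      w := w
      eq := fun x y W hx hy => by
        rw [div_eq_mul_inv, ← mul_assoc, eq_mul_inv_iff_mul_eq]
        refine Units.ext (gm_ext fun z hz => ?_)
        have e₁ := congrArg (gm _ z (hx hz)) (hw x)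
        have e₂ := congrArg (gm _ z (hy hz)) (hw y)
        have e₃ := congrArg (gm W z hz) (s.2 x y W le_top (hx.trans inf_le_left) (hy.trans inf_le_left))
        have e₄ := congrArg (gm W z hz) (t.2 x y W le_top (hx.trans inf_le_right) (hy.trans inf_le_right))
        simp only [map_mul, gm_rsF, gm_at] at e₁ e₂ e₃ e₄
        simp only [Units.val_mul, map_mul, gm_at]
        erw [gm_rsF, gm_rsF]
        refine (regular_gm s hs y z trivial (hy hz).1).right ?_
        show _ * _ = _ * _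
        rw [mul_assoc, ← e₂, ← e₄, e₁, e₃]
        ring }
  refine ⟨e, ext_germ fun z hz => ?_⟩
  rw [e.germAt_toSec]
  have e₁ := congrArg (gm _ z (e.mem z)) (hw z)
  rw [map_mul, gm_rsF, gm_rsF] at e₁
  exact e₁.symm

/-- The composite of two pullbacks of a cocycle. -/
theorem pull_pull (f : X ⟶ Y) (g : Y ⟶ Z) (c : Coc Z) : (c.pull g).pull f = c.pull (f ≫ g) := by
  show Coc.mk _ _ _ _ = Coc.mk _ _ _ _
  congr 1
  funext x y
  exact uApp_uApp f g _ _ _

/-- Sections of equal cocycles. -/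
def castSec {c d : Coc X} (h : c = d) (O : X.Opens) : Sec c O →+ Sec d O := by
  subst h; exact AddMonoidHom.id _

theorem germAt_castSec {c d : Coc X} (h : c = d) {O : X.Opens} (s : Sec c O) (z : X) (hz : z ∈ O) :
    germAt (castSec h O s) z hz = germAt s z hz := by
  subst h; rfl

theorem castSec_bijective {c d : Coc X} (h : c = d) (O : X.Opens) :
    Function.Bijective (castSec h O) := by
  subst h; exact Function.bijective_id

theorem castSec_smulF {c d : Coc X} (h : c = d) {O : X.Opens} (a : Γ(X, O)) (s : Sec c O) :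
    castSec h O (Sec.smulF a s) = Sec.smulF a (castSec h O s) := by
  subst h; rfl

end FA.Jac.Chart

end
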