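import Fermat.Agent.Jac.ChartGerm
import Mathlib.AlgebraicGeometry.Morphisms.Finite
import Mathlib.AlgebraicGeometry.Morphisms.Proper

/-!
# Ideals on an affine open and sections of cocycles

An ideal of the functions on an affine open `W` which is locally generated by one non-zero-divisor
and whose zero set is closed is presented by a section of a cocycle that is a unit outside `W`, and
conversely a section defines an ideal on every affine open.
-/

set_option autoImplicit false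
set_option linter.style.haveILetI false

noncomputable section

universe u

open CategoryTheory AlgebraicGeometry TopologicalSpace Opposite FA.AbTors

namespace FA.Jac.Chart

variable {X Y : Scheme.{u}} {W : X.Opens}

theorem pre_top (f : Y ⟶ X) : (⊤ : Y.Opens) ≤ f ⁻¹ᵁ (⊤ : X.Opens) := fun _ _ => trivial

/-- The section cuts out the ideal on `W` and is a unit outside. -/
structure Presents (J : Ideal Γ(X, W)) {c : Coc X} (s : Sec c ⊤) : Prop where
  span : ∀ z (hz : z ∈ W), J.map (gm W z hz) = Ideal.span {germAt s z (Opens.mem_top _)}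
  unit : ∀ z, z ∉ W → IsUnit (germAt s z (Opens.mem_top _))

/-- Locally generated by one element which is not a zero divisor. -/
def LocGen (J : Ideal Γ(X, W)) : Prop :=
  ∀ z ∈ W, ∃ (N : X.Opens) (_ : z ∈ N) (hN : N ≤ W) (f : Γ(X, N)),
    ∀ y (hy : y ∈ N), J.map (gm W y (hN hy)) = Ideal.span {gm N y hy f} ∧ IsRegular (gm N y hy f)

/-- The zero set of the ideal. -/
def zeroSet (J : Ideal Γ(X, W)) : Set X := {z | ∃ hz : z ∈ W, J.map (gm W z hz) ≠ ⊤}

theorem regular_of_span_eq {R : Type*} [CommRing R] {a b : R} (ha : IsRegular a)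
    (h : Ideal.span {a} = Ideal.span {b}) : Associated a b ∧ IsRegular b := by
  obtain ⟨r, hr⟩ := Ideal.mem_span_singleton'.1 (h ▸ Ideal.mem_span_singleton_self b :
    b ∈ Ideal.span {a})
  obtain ⟨r', hr'⟩ := Ideal.mem_span_singleton'.1 (h.symm ▸ Ideal.mem_span_singleton_self a :
    a ∈ Ideal.span {b})
  have e : r' * r = 1 := ha.right (show r' * r * a = 1 * a by rw [mul_assoc, hr, hr', one_mul])
  have hu : IsUnit r := IsUnit.of_mul_eq_one r' ((mul_comm r r').trans e)
  refine ⟨⟨hu.unit, by rw [IsUnit.unit_spec, mul_comm]; exact hr⟩, ?_⟩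
  rw [← hr]
  exact hu.isRegular.mul ha

namespace Presents

variable {J J' : Ideal Γ(X, W)} {c d : Coc X} {s : Sec c ⊤} {t : Sec d ⊤}

theorem regular (h : Presents J s) (hJ : LocGen J) : Regular s := fun z _ => by
  by_cases hz : z ∈ W
  · obtain ⟨N, hzN, hN, f, hf⟩ := hJ z hz
    exact (regular_of_span_eq (hf z hzN).2 ((hf z hzN).1.symm.trans (h.span z hz))).2
  · exact (h.unit z hz).isRegular

theorem of_assoc (h : Presents J s)
    (e : ∀ z, Associated (germAt s z (Opens.mem_top _)) (germAt t z (Opens.mem_top _))) : Presents J t where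
  span z hz := by
    obtain ⟨v, hv⟩ := e z
    rw [h.span z hz, ← hv, Ideal.span_singleton_mul_right_unit v.isUnit]
  unit z hz := (e z).isUnit (h.unit z hz)

theorem assoc (h : Presents J s) (h' : Presents J t) (hs : Regular s) (z : X) :
    Associated (germAt s z (Opens.mem_top _)) (germAt t z (Opens.mem_top _)) := by
  by_cases hz : z ∈ W
  · exact (regular_of_span_eq (hs z trivial) ((h.span z hz).symm.trans (h'.span z hz))).1
  · exact (associated_one_iff_isUnit.2 (h.unit z hz)).trans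
      (associated_one_iff_isUnit.2 (h'.unit z hz)).symm

theorem unique (hW : IsAffineOpen W) (h : Presents J s) (h' : Presents J' s) : J = J' :=
  hW.ideal_ext_iff.2 fun z hz => (h.span z hz).trans (h'.span z hz).symm

theorem pull (h : Presents J s) (f : Y ⟶ X) {W' : Y.Opens} (hW : W' ≤ f ⁻¹ᵁ W)
    (hW' : f ⁻¹ᵁ W ≤ W') :
    Presents (J.map (apF f hW)) (Sec.pull f (pre_top f) s) where
  span z hz := by
    rw [germAt_pull, Ideal.map_map,
      show (gm W' z hz).comp (apF f hW) = (f.stalkMap z).hom.comp (gm W (f z) (hW hz)) from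
        RingHom.ext fun a => gm_apF f hW hz a,
      ← Ideal.map_map, h.span _ (hW hz), Ideal.map_span, Set.image_singleton]
  unit z hz := by
    rw [germAt_pull]
    exact (h.unit (f z) fun h' => hz (hW' h')).map _

end Presents

/-- An ideal with closed zero set, locally generated by one regular element, is presented. -/
theorem exists_presents {J : Ideal Γ(X, W)} (hJ : LocGen J) (hcl : IsClosed (zeroSet J)) :
    ∃ (c : Coc X) (s : Sec c ⊤), Presents J s ∧ Regular s := by
  classical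
  have key : ∀ x : X, ∃ (N : X.Opens) (_ : x ∈ N) (f : Γ(X, N)), ∀ y (hy : y ∈ N),
      IsRegular (gm N y hy f) ∧
      (∀ hy' : y ∈ W, J.map (gm W y hy') = Ideal.span {gm N y hy f}) ∧
      (y ∉ W → IsUnit (gm N y hy f)) := by
    intro x
    by_cases hx : x ∈ zeroSet J
    · obtain ⟨hxW, -⟩ := hx
      obtain ⟨N, hxN, hN, f, hf⟩ := hJ x hxW
      exact ⟨N, hxN, f, fun y hy => ⟨(hf y hy).2, fun _ => (hf y hy).1, fun h => absurd (hN hy) h⟩⟩
    · refine ⟨⟨(zeroSet J)ᶜ, hcl.isOpen_compl⟩, hx, 1, fun y hy => ?_⟩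
      rw [map_one]
      refine ⟨isUnit_one.isRegular, fun hy' => ?_, fun _ => isUnit_one⟩
      rw [Ideal.span_singleton_one]
      by_contra h
      exact hy ⟨hy', h⟩
  choose N hN f hf using key
  have hassoc : ∀ x y z (hx : z ∈ N x) (hy : z ∈ N y),
      Associated (gm _ z hx (f x)) (gm _ z hy (f y)) := fun x y z hx hy => by
    by_cases hz : z ∈ W
    · exact (regular_of_span_eq (hf x z hx).1
        (((hf x z hx).2.1 hz).symm.trans ((hf y z hy).2.1 hz))).1
    · exact (associated_one_iff_isUnit.2 ((hf x z hx).2.2 hz)).trans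
        (associated_one_iff_isUnit.2 ((hf y z hy).2.2 hz)).symm
  have hg : ∀ x y, ∃ w : Γ(X, N x ⊓ N y)ˣ, rsF inf_le_left (f x) =
      (w : Γ(X, N x ⊓ N y)) * rsF inf_le_right (f y) := fun x y =>
    exists_unit_of_gm _ _ (fun z hz => by rw [gm_rsF]; exact (hf y z hz.2).1) fun z hz => by
      rw [gm_rsF, gm_rsF]; exact (hassoc x y z hz.1 hz.2).symm
  choose w hw using hg
  have hw' : ∀ x y z (hx : z ∈ N x) (hy : z ∈ N y),
      gm (N x) z hx (f x) = gm _ z (mi hx hy) (w x y : Γ(X, N x ⊓ N y)) * gm (N y) z hy (f y) :=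
    fun x y z hx hy => by
      have e := congrArg (gm _ z (mi hx hy)) (hw x y)
      rw [map_mul, gm_rsF, gm_rsF] at e
      exact e
  let c : Coc X :=
    { U := N
      mem := hN
      g := w
      cocycle := fun x y z O hx hy hz => by
        refine Units.ext (gm_ext fun p hp => ?_)
        rw [Units.val_mul, map_mul]
        erw [gm_rsF, gm_rsF, gm_rsF]
        refine (hf z p (hz hp)).1.right ?_
        show _ * gm (N z) p (hz hp) (f z) = _ * gm (N z) p (hz hp) (f z)
        rw [mul_assoc, ← hw' y z p (hy hp) (hz hp), ← hw' x y p (hx hp) (hy hp),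
          ← hw' x z p (hx hp) (hz hp)] }
  let s : Sec c ⊤ := ⟨fun x => rsF inf_le_right (f x), fun x y O _ hx hy => gm_ext fun p hp => by
    rw [map_mul, gm_rsF, gm_rsF, gm_rsF, gm_rsF, gm_at]
    exact hw' x y p (hx hp) (hy hp)⟩
  have hs : ∀ z, germAt s z (Opens.mem_top _) = gm (N z) z (hN z) (f z) := fun z => gm_rsF _ _ _
  exact ⟨c, s, ⟨fun z hz => by rw [hs]; exact (hf z z (hN z)).2.1 hz,
    fun z hz => by rw [hs]; exact (hf z z (hN z)).2.2 hz⟩,
    fun z _ => by rw [hs]; exact (hf z z (hN z)).1⟩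

section Affine

variable (hW : IsAffineOpen W)
include hW

theorem primeIdealOf_fromSpec (p : PrimeSpectrum Γ(X, W)) :
    ∃ hz : hW.fromSpec p ∈ W, hW.primeIdealOf ⟨hW.fromSpec p, hz⟩ = p := by
  have hz : hW.fromSpec p ∈ W := by
    rw [← SetLike.mem_coe, ← hW.range_fromSpec]; exact ⟨p, rfl⟩
  exact ⟨hz, hW.fromSpec.isOpenEmbedding.injective (hW.fromSpec_primeIdealOf ⟨_, hz⟩)⟩

theorem map_ne_top_iff (J : Ideal Γ(X, W)) (z : X) (hz : z ∈ W) :
    J.map (gm W z hz) ≠ ⊤ ↔ J ≤ (hW.primeIdealOf ⟨z, hz⟩).asIdeal := by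
  let := X.presheaf.algebra_section_stalk ⟨z, hz⟩
  haveI := hW.isLocalization_stalk ⟨z, hz⟩
  refine (IsLocalization.map_algebraMap_ne_top_iff_disjoint
    (hW.primeIdealOf ⟨z, hz⟩).asIdeal.primeCompl (X.presheaf.stalk z) J).trans ?_
  rw [Set.disjoint_left]
  exact ⟨fun h a ha => not_not.1 fun hn => h hn ha, fun h a ha hJ => ha (h hJ)⟩

theorem isUnit_gm_iff (a : Γ(X, W)) (z : X) (hz : z ∈ W) :
    IsUnit (gm W z hz a) ↔ a ∉ (hW.primeIdealOf ⟨z, hz⟩).asIdeal := by
  let := X.presheaf.algebra_section_stalk ⟨z, hz⟩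
  haveI := hW.isLocalization_stalk ⟨z, hz⟩
  exact IsLocalization.AtPrime.isUnit_to_map_iff (X.presheaf.stalk z)
    (hW.primeIdealOf ⟨z, hz⟩).asIdeal a

theorem locGen_of_primes {J : Ideal Γ(X, W)}
    (h : ∀ P : Ideal Γ(X, W), P.IsPrime → ∃ a ∉ P, ∃ f ∈ J, (∀ x ∈ J, a * x ∈ Ideal.span {f}) ∧
      ∀ w, f * w = 0 → a * w = 0) : LocGen J := by
  intro z hz
  obtain ⟨a, ha, f, hfJ, hspan, hreg⟩ := h (hW.primeIdealOf ⟨z, hz⟩).asIdeal inferInstance
  refine ⟨X.basicOpen a, (X.mem_basicOpen a z hz).2 ((isUnit_gm_iff hW a z hz).2 ha),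
    X.basicOpen_le a, rsF (X.basicOpen_le a) f, fun y hy => ?_⟩
  have hy' : y ∈ W := X.basicOpen_le a hy
  have hu : IsUnit (gm W y hy' a) := (X.mem_basicOpen a y hy').1 hy
  rw [gm_rsF]
  refine ⟨le_antisymm (Ideal.map_le_iff_le_comap.2 fun x hx => ?_)
    ((Ideal.span_singleton_le_iff_mem _).2 (Ideal.mem_map_of_mem _ hfJ)), ?_⟩
  · have h1 := Ideal.mem_map_of_mem (gm W y hy') (hspan x hx)
    rw [Ideal.map_span, Set.image_singleton, map_mul] at h1
    exact (Ideal.unit_mul_mem_iff_mem _ hu).1 h1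
  · let := X.presheaf.algebra_section_stalk ⟨y, hy'⟩
    haveI := hW.isLocalization_stalk ⟨y, hy'⟩
    refine (Commute.isRegular_iff (Commute.all _)).2 (isLeftRegular_iff_right_eq_zero_of_mul.2 fun q hq => ?_)
    obtain ⟨⟨w, m⟩, hq'⟩ := IsLocalization.surj
      (hW.primeIdealOf ⟨y, hy'⟩).asIdeal.primeCompl q
    have h0 : gm W y hy' (f * w) = 0 := by
      rw [map_mul, show gm W y hy' w = q * gm W y hy' m from hq'.symm, ← mul_assoc]
      erw [hq]
      rw [zero_mul]
    obtain ⟨n, hn⟩ := (IsLocalization.map_eq_zero_iff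
      (hW.primeIdealOf ⟨y, hy'⟩).asIdeal.primeCompl (X.presheaf.stalk y) (f * w)).1 h0
    have h2 : gm W y hy' a * gm W y hy' w * gm W y hy' n = 0 := by
      rw [← map_mul, ← map_mul, show a * w * (n : Γ(X, W)) = a * (n * w) by ring,
        hreg _ (by linear_combination hn), map_zero]
    have hn' : IsUnit (gm W y hy' n) := IsLocalization.map_units (X.presheaf.stalk y) n
    have hm' : IsUnit (gm W y hy' m) := IsLocalization.map_units (X.presheaf.stalk y) m
    rw [hn'.mul_left_eq_zero, hu.mul_right_eq_zero,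
      show gm W y hy' w = q * gm W y hy' m from hq'.symm, hm'.mul_left_eq_zero] at h2
    exact h2

theorem range_quot (J : Ideal Γ(X, W)) :
    Set.range ⇑(Spec.map (CommRingCat.ofHom (Ideal.Quotient.mk J)) ≫ hW.fromSpec) = zeroSet J := by
  ext z
  constructor
  · rintro ⟨q, rfl⟩
    obtain ⟨hz, e⟩ := primeIdealOf_fromSpec hW (Spec.map (CommRingCat.ofHom (Ideal.Quotient.mk J)) q)
    refine ⟨hz, (map_ne_top_iff hW J _ hz).2 ?_⟩
    rw [e]
    intro a ha
    show Ideal.Quotient.mk J a ∈ q.asIdeal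
    rw [Ideal.Quotient.eq_zero_iff_mem.2 ha]
    exact zero_mem _
  · rintro ⟨hz, h⟩
    rw [map_ne_top_iff hW] at h
    have : hW.primeIdealOf ⟨z, hz⟩ ∈ Set.range (PrimeSpectrum.comap (Ideal.Quotient.mk J)) := by
      rw [range_comap_of_surjective _ _ Ideal.Quotient.mk_surjective,
        Ideal.mk_ker]
      exact (PrimeSpectrum.mem_zeroLocus _ _).2 h
    obtain ⟨q, hq⟩ := this
    refine ⟨q, ?_⟩
    show hW.fromSpec (PrimeSpectrum.comap (Ideal.Quotient.mk J) q) = z
    rw [hq]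
    exact hW.fromSpec_primeIdealOf ⟨z, hz⟩

variable {A : Type u} [CommRing A] {f : X ⟶ Spec (CommRingCat.of A)} {φ : A →+* Γ(X, W)}

theorem isClosed_zeroSet [IsSeparated f] (hφ : hW.fromSpec ≫ f = Spec.map (CommRingCat.ofHom φ))
    {J : Ideal Γ(X, W)} (h : ((Ideal.Quotient.mk J).comp φ).Finite) : IsClosed (zeroSet J) := by
  rw [← range_quot hW J]
  set i := Spec.map (CommRingCat.ofHom (Ideal.Quotient.mk J)) ≫ hW.fromSpec
  haveI : IsFinite (i ≫ f) := by
    rw [Category.assoc, hφ, ← Spec.map_comp, IsFinite.SpecMap_iff]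
    exact h
  haveI : IsProper i := IsProper.of_comp i f
  exact i.isClosedMap.isClosed_range

theorem finite_quot [IsProper f] (hφ : hW.fromSpec ≫ f = Spec.map (CommRingCat.ofHom φ))
    {J : Ideal Γ(X, W)} (h : IsClosed (zeroSet J)) : ((Ideal.Quotient.mk J).comp φ).Finite := by
  rw [← range_quot hW J] at h
  set i := Spec.map (CommRingCat.ofHom (Ideal.Quotient.mk J)) ≫ hW.fromSpec
  haveI : IsClosedImmersion (Spec.map (CommRingCat.ofHom (Ideal.Quotient.mk J))) :=
    IsClosedImmersion.spec_of_surjective _ Ideal.Quotient.mk_surjective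
  haveI : IsClosedImmersion i := IsClosedImmersion.of_isPreimmersion _ h
  have hi : i ≫ f = Spec.map (CommRingCat.ofHom ((Ideal.Quotient.mk J).comp φ)) := by
    rw [Category.assoc, hφ, ← Spec.map_comp]; rfl
  have hfin : IsFinite (i ≫ f) := by
    refine IsFinite.iff_isProper_and_isAffineHom.2 ⟨inferInstance, ?_⟩
    rw [hi]; infer_instance
  rw [hi, IsFinite.SpecMap_iff] at hfin
  exact hfin

/-- A section defines an ideal on an affine open. -/
theorem exists_ideal {c : Coc X} (s : Sec c ⊤) :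
    ∃ J : Ideal Γ(X, W), ∀ z (hz : z ∈ W), J.map (gm W z hz) = Ideal.span {germAt s z (Opens.mem_top _)} := by
  classical
  let J : Ideal Γ(X, W) := ⨅ z, ⨅ hz : z ∈ W, (Ideal.span {germAt s z (Opens.mem_top _)}).comap (gm W z hz)
  have hJ : ∀ a, a ∈ J ↔ ∀ z (hz : z ∈ W), gm W z hz a ∈ Ideal.span {germAt s z (Opens.mem_top _)} := fun a => by
    simp only [J, Submodule.mem_iInf, Ideal.mem_comap]
  refine ⟨J, fun z hz => le_antisymm (Ideal.map_le_iff_le_comap.2 fun a ha => (hJ a).1 ha z hz)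
    ((Ideal.span_singleton_le_iff_mem _).2 ?_)⟩
  obtain ⟨h, hh, hzh⟩ := hW.exists_basicOpen_le (V := W ⊓ c.U z) ⟨z, hz, c.mem z⟩ hz
  have hhz : X.basicOpen h ≤ c.U z := hh.trans inf_le_right
  haveI := hW.isLocalization_basicOpen h
  obtain ⟨⟨a, m⟩, ha⟩ := IsLocalization.surj (Submonoid.powers h)
    (rsF (le_inf le_top hhz) (s.1 z) : Γ(X, X.basicOpen h))
  obtain ⟨_, m, rfl⟩ := m
  replace ha : rsF (X.basicOpen_le h) a =
      rsF (le_inf le_top hhz) (s.1 z) * rsF (X.basicOpen_le h) (h ^ m) := by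
    rw [rsF_eq (X.basicOpen_le h), rsF_eq (X.basicOpen_le h)]
    exact ha.symm
  have step : ∀ y : W, ∃ (N : X.Opens) (_ : (y : X) ∈ N) (n : ℕ), ∀ p (_ : p ∈ N) (hpW : p ∈ W),
      gm W p hpW (h ^ n * a) ∈ Ideal.span {germAt s p (Opens.mem_top _)} := by
    rintro ⟨y, hy⟩
    obtain ⟨h', hh', hyh'⟩ := hW.exists_basicOpen_le (V := W ⊓ c.U y) ⟨y, hy, c.mem y⟩ hy
    have hU : X.basicOpen h' ≤ c.U y := hh'.trans inf_le_right
    set h'' := rsF (X.basicOpen_le h') h
    have hbo : X.basicOpen h'' = X.basicOpen h' ⊓ X.basicOpen h := by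
      rw [show h'' = (X.presheaf.map (homOfLE (X.basicOpen_le h')).op).hom h from rsF_eq _ _,
        Scheme.basicOpen_res]
    set O := X.basicOpen h''
    have hO₁ : O ≤ X.basicOpen h' := X.basicOpen_le _
    have hO₂ : O ≤ X.basicOpen h := hbo.le.trans inf_le_right
    haveI := (hW.basicOpen h').isLocalization_basicOpen h''
    let g : Γ(X, O) := (c.at z y O (hO₂.trans hhz) (hO₁.trans hU) : Γ(X, O)) *
      rsF (hO₂.trans (X.basicOpen_le h)) (h ^ m)
    have e1 : rsF (hO₂.trans (X.basicOpen_le h)) a =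
        g * rsF (le_inf le_top (hO₁.trans hU)) (s.1 y) := by
      have e := congrArg (rsF hO₂) ha
      rw [map_mul, rsF_rsF, rsF_rsF, rsF_rsF, s.2 z y O le_top (hO₂.trans hhz) (hO₁.trans hU)] at e
      rw [e]; ring
    obtain ⟨⟨g', l⟩, hg⟩ := IsLocalization.surj (Submonoid.powers h'') g
    obtain ⟨_, l, rfl⟩ := l
    replace hg : g * rsF hO₁ (h'' ^ l) = rsF hO₁ g' := by
      rw [rsF_eq hO₁, rsF_eq hO₁]
      exact hg
    have e2 : rsF hO₁ (h'' ^ l * rsF (X.basicOpen_le h') a) =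
        rsF hO₁ (g' * rsF (le_inf le_top hU) (s.1 y)) := by
      rw [map_mul, map_mul, ← hg, rsF_rsF, rsF_rsF, e1]; ring
    rw [rsF_eq hO₁, rsF_eq hO₁] at e2
    obtain ⟨⟨_, q, rfl⟩, hq⟩ := IsLocalization.exists_of_eq (M := Submonoid.powers h'') e2
    refine ⟨X.basicOpen h', hyh', q + l, fun p hp hpW => ?_⟩
    have e3 := congrArg (gm _ p hp) hq
    simp only [map_mul, map_pow, h'', gm_rsF] at e3
    rw [gm_sec s y p (Opens.mem_top _) (hU hp)] at e3
    rw [map_mul, map_pow, pow_add, mul_assoc]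
    refine Ideal.mem_span_singleton'.2 ⟨gm W p hpW h ^ q * gm _ p hp g' * atGm c y p p (hU hp) (c.mem p), ?_⟩
    rw [e3]; ring
  choose N hN n hn using step
  obtain ⟨t, ht⟩ := hW.isCompact.elim_finite_subcover (fun y => (N y : Set X)) (fun y => (N y).2)
    (fun p hp => Set.mem_iUnion.2 ⟨⟨p, hp⟩, hN ⟨p, hp⟩⟩)
  have hmem : h ^ (t.sup n) * a ∈ J := (hJ _).2 fun p hp => by
    obtain ⟨y, hyt, hpy⟩ := Set.mem_iUnion₂.1 (ht hp)
    rw [← Nat.sub_add_cancel (Finset.le_sup hyt : n y ≤ t.sup n), pow_add, mul_assoc, map_mul]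
    exact Ideal.mul_mem_left _ _ (hn y p hpy hp)
  have e4 := Ideal.mem_map_of_mem (gm W z hz) hmem
  have e5 := congrArg (gm _ z hzh) ha
  rw [map_mul, gm_rsF, gm_rsF, gm_rsF, gm_sec s z z (Opens.mem_top _) (c.mem z)] at e5
  have hu : IsUnit (gm W z hz h) := (X.mem_basicOpen h z hz).1 hzh
  rw [map_mul, e5, map_pow, map_pow] at e4
  rw [show gm W z hz h ^ t.sup n * (atGm c z z z (c.mem z) (c.mem z) * germAt s z (Opens.mem_top _) *
    gm W z hz h ^ m) = (gm W z hz h ^ t.sup n * gm W z hz h ^ m * atGm c z z z (c.mem z) (c.mem z)) *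
      germAt s z (Opens.mem_top _) by ring] at e4
  exact (Ideal.unit_mul_mem_iff_mem _
    (((hu.pow _).mul (hu.pow _)).mul (isUnit_atGm c z z z _ _))).1 e4

end Affine

end FA.Jac.Chart

end
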