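import Fermat.Agent.Jac.ChartFrame
import Fermat.Agent.Jac.ChartAlg

/-!
# The charts near a point

A rank one frame at a point spreads out; so does the ideal of a section presenting a `b`-ideal.
-/

set_option autoImplicit false
set_option linter.style.haveILetI false
set_option linter.unusedSectionVars false

noncomputable section

universe u

open CategoryTheory CategoryTheory.Limits AlgebraicGeometry TopologicalSpace
open NeronModelInfra AlgebraicGeometry.RelPicard AlgebraicCurve FA.Curve FA.AbTors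
open scoped TensorProduct

namespace FA.Jac

namespace Chart

theorem pull_smulF {X Y : Scheme.{u}} (f : X ⟶ Y) {c : Coc Y} (a : Γ(Y, ⊤)) (s : Sec c ⊤) :
    Sec.pull f (pre_top f) (Sec.smulF a s) =
      Sec.smulF (apF f (pre_top f) a) (Sec.pull f (pre_top f) s) :=
  ext_germ fun z hz => by
    rw [germAt_pull, germAt_smulF, germAt_smulF, germAt_pull, map_mul, gm_apF]

theorem castSec_symm {X : Scheme.{u}} {c d : Coc X} (e : c = d) (s : Sec c ⊤) :
    castSec e.symm ⊤ (castSec e ⊤ s) = s := by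
  subst e; rfl

theorem pull_castSec {X Y : Scheme.{u}} (f : X ⟶ Y) {c d : Coc Y} (e : c = d) :
    ∃ e' : c.pull f = d.pull f, ∀ s : Sec c ⊤,
      Sec.pull f (pre_top f) (castSec e ⊤ s) = castSec e' ⊤ (Sec.pull f (pre_top f) s) := by
  subst e; exact ⟨rfl, fun _ => rfl⟩

variable {k : Type u} [Field k] {V : Crv k}
variable {T T' T'' : Scheme.{u}} {t : T ⟶ Spec (CommRingCat.of k)}
  {t' : T' ⟶ Spec (CommRingCat.of k)} {t'' : T'' ⟶ Spec (CommRingCat.of k)}

theorem pullS_comp_eq (φ : SchemeHomOver t' t) (ψ : SchemeHomOver t'' t')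
    {χ : SchemeHomOver t'' t} (h : postComp φ ψ = χ) (c : Coc (V.X t)) :
    ∃ ec : c.pull (baseChangeSnd V.str χ) =
        (c.pull (baseChangeSnd V.str φ)).pull (baseChangeSnd V.str ψ),
      ∀ s, pullS ψ _ (pullS φ c s) = castSec ec ⊤ (pullS χ c s) := by
  subst h; exact pullS_pullS φ ψ c

variable [IsAlgClosed k] {Cv : V.Cover}

theorem pullS_smul {B B' : Type u} [CommRing B] [CommRing B']
    {a : Spec (CommRingCat.of B) ⟶ Spec (CommRingCat.of k)}
    {a' : Spec (CommRingCat.of B') ⟶ Spec (CommRingCat.of k)} (ψ : SchemeHomOver a' a)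
    (φ : B →+* B') (h : ψ.1 = Spec.map (CommRingCat.ofHom φ)) {c : Coc (V.X a)} (x : B)
    (s : Sec c ⊤) :
    pullS ψ c (Sec.smulF (V.scalar a x) s) = Sec.smulF (V.scalar a' (φ x)) (pullS ψ c s) := by
  obtain ⟨ψ, hψ⟩ := ψ
  simp only at h
  subst h; subst hψ
  refine (pull_smulF _ _ _).trans (congrArg (fun y => Sec.smulF y _) ?_)
  exact V.apF_scalar a φ x

theorem OneFrame.smul {A : Type u} [CommRing A]
    {a : Spec (CommRingCat.of A) ⟶ Spec (CommRingCat.of k)} {c : Coc (V.X a)} {s : Sec c ⊤}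
    (h : OneFrame Cv a c s) {x : A} (hx : IsUnit x) :
    OneFrame Cv a c (Sec.smulF (V.scalar a x) s) := by
  refine ⟨h.1, ?_⟩
  have hfun : (fun y : A => Sec.smulF (V.scalar a y) (Sec.smulF (V.scalar a x) s)) =
      (fun y : A => Sec.smulF (V.scalar a y) s) ∘ fun y => y * x :=
    funext fun y => by rw [Function.comp_apply, map_mul, smulF_mul]
  rw [hfun]
  exact h.2.comp hx.unit.mulRight.bijective

theorem isFrame_at {A A' : Type u} [CommRing A] [CommRing A']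
    {a : Spec (CommRingCat.of A) ⟶ Spec (CommRingCat.of k)}
    {a' : Spec (CommRingCat.of A') ⟶ Spec (CommRingCat.of k)} (ψ : SchemeHomOver a' a)
    {c : Coc (V.X a)} {r : ℕ} {s : Fin r → Sec c ⊤} (hs : V.IsFrame a Cv c s) :
    Cv.Nonspecial a' (c.pull (baseChangeSnd V.str ψ)) ∧
      Function.Bijective (V.comb fun j => pullS ψ c (s j)) := by
  obtain ⟨ψ, hψ⟩ := ψ
  obtain ⟨φ, rfl⟩ := Spec.map_surjective ψ
  subst hψ
  exact hs A' φ.hom

theorem comb_fin_one {A : Type u} [CommRing A]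
    {a : Spec (CommRingCat.of A) ⟶ Spec (CommRingCat.of k)} {c : Coc (V.X a)}
    (s : Fin 1 → Sec c ⊤) (x : Fin 1 → A) :
    V.comb s x = Sec.smulF (V.scalar a (x 0)) (s 0) :=
  Fin.sum_univ_one _

theorem oneFrame_of_comb {A : Type u} [CommRing A]
    {a : Spec (CommRingCat.of A) ⟶ Spec (CommRingCat.of k)} {c : Coc (V.X a)}
    {s : Fin 1 → Sec c ⊤} (hns : Cv.Nonspecial a c) (h : Function.Bijective (V.comb s)) :
    OneFrame Cv a c (s 0) := by
  refine ⟨hns, ?_⟩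
  have hfun : (fun y : A => Sec.smulF (V.scalar a y) (s 0)) = V.comb s ∘ fun y _ => y :=
    funext fun y => (comb_fin_one s fun _ => y).symm
  rw [hfun]
  exact h.comp ⟨fun y y' e => congrFun e 0, fun x => ⟨x 0, funext fun i => by
    rw [Subsingleton.elim i 0]⟩⟩

theorem rank_eq_one {k' : Type u} [Field k'] {a : Spec (CommRingCat.of k') ⟶ Spec (CommRingCat.of k)}
    {c : Coc (V.X a)} {t : Sec c ⊤} (ht : OneFrame Cv a c t) {r : ℕ} {s : Fin r → Sec c ⊤}
    (h : Function.Bijective (V.comb s)) : r = 1 := by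
  choose l hl using fun j => ht.2.2 (s j)
  let P : k' →+ Sec c ⊤ :=
    AddMonoidHom.mk' (fun x => Sec.smulF (V.scalar a x) t) fun x y => by rw [map_add, smulF_add]
  let Tl : (Fin r → k') →ₗ[k'] k' := ∑ j, (LinearMap.proj j).smulRight (l j)
  have hT : ∀ x, V.comb s x = P (Tl x) := fun x => by
    simp only [Tl, LinearMap.coe_sum, Finset.sum_apply, LinearMap.smulRight_apply,
      LinearMap.proj_apply, smul_eq_mul, map_sum]
    refine Finset.sum_congr rfl fun j _ => ?_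
    show Sec.smulF (V.scalar a (x j)) (s j) = Sec.smulF (V.scalar a (x j * l j)) t
    rw [map_mul, smulF_mul]
    exact congrArg _ (hl j).symm
  have hb : Function.Bijective Tl := by
    refine ⟨fun x y e => h.1 (by rw [hT, hT, e]), fun y => ?_⟩
    obtain ⟨x, hx⟩ := h.2 (P y)
    exact ⟨x, ht.2.1 ((hT x).symm.trans hx)⟩
  have := (LinearEquiv.ofBijective Tl hb).finrank_eq
  rwa [Module.finrank_fin_fun, Module.finrank_self] at this

variable {g : ℕ} {b : Fin g → Γ(V.C, Cv.U0)}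
variable {A : Type u} [CommRing A] [Algebra k A]
variable {k' : Type u} [Field k'] [IsAlgClosed k'] [Algebra k k']

theorem point_mem_iff (χ : A →ₐ[k] k') (f : A) :
    (overAlg χ).1 (IsLocalRing.closedPoint k') ∈ PrimeSpectrum.basicOpen f ↔ χ f ≠ 0 := by
  show χ f ∉ IsLocalRing.maximalIdeal k' ↔ _
  rw [IsLocalRing.mem_maximalIdeal, mem_nonunits_iff, not_not, isUnit_iff_ne_zero]

theorem frame_transport {B : Type u} [CommRing B] [Algebra k B] {B₀ : Type u} [CommRing B₀]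
    {a : Spec (CommRingCat.of B₀) ⟶ Spec (CommRingCat.of k)}
    (ψ' : SchemeHomOver (st (k := k) B) a) {cf : Coc (V.X a)} {s : Fin 1 → Sec cf ⊤}
    (hs : V.IsFrame a Cv cf s) {c' : Coc (V.X (st (k := k) B))}
    (e : cf.pull (baseChangeSnd V.str ψ') = c') :
    ∃ s' : Sec c' ⊤, OneFrame Cv (st B) c' s' ∧
      ∀ (B' : Type u) [CommRing B'] [Algebra k B'] (φ : B →ₐ[k] B'),
        OneFrame Cv (st B') _ (pullS (overAlg φ) c' s') := by
  subst e
  refine ⟨pullS ψ' cf (s 0), oneFrame_of_comb (isFrame_at ψ' hs).1 (isFrame_at ψ' hs).2,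
    fun B' _ _ φ => ?_⟩
  obtain ⟨e₄, he₄⟩ := pullS_pullS ψ' (overAlg φ) cf
  rw [he₄]
  exact (oneFrame_of_comb (s := fun j => pullS (postComp ψ' (overAlg φ)) cf (s j))
    (isFrame_at (postComp ψ' (overAlg φ)) hs).1 (isFrame_at (postComp ψ' (overAlg φ)) hs).2).cast e₄

/-- A frame of rank one at a point spreads out. -/
theorem exists_frame_one (hfr : V.FrameHolds) (χ : A →ₐ[k] k') (c : Coc (V.X (st (k := k) A)))
    (t : Sec (c.pull (baseChangeSnd V.str (overAlg χ))) ⊤) (ht : OneFrame Cv _ _ t) :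
    ∃ f : A, χ f ≠ 0 ∧
      ∃ s : Sec (c.pull (baseChangeSnd V.str
          (overAlg (IsScalarTower.toAlgHom k A (Localization.Away f))))) ⊤,
        OneFrame Cv (st (Localization.Away f)) _ s ∧
        ∀ (A' : Type u) [CommRing A'] [Algebra k A'] (φ : Localization.Away f →ₐ[k] A'),
          OneFrame Cv (st A') _ (pullS (overAlg φ) _ s) := by
  obtain ⟨f, hf, r, s, hs⟩ := hfr Cv A (st A) c k' (st k') (overAlg χ) ht.1
  have hχf : χ f ≠ 0 := (point_mem_iff χ f).1 hf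
  let l := IsScalarTower.toAlgHom k A (Localization.Away f)
  let ψ' : SchemeHomOver (st (k := k) (Localization.Away f))
      (Spec.map (CommRingCat.ofHom (algebraMap A (Localization.Away f))) ≫ st A) :=
    ⟨𝟙 _, (Category.id_comp _).trans (overAlg l).2⟩
  let χf : Localization.Away f →ₐ[k] k' :=
    IsLocalization.Away.liftAlgHom f (f := χ) (isUnit_iff_ne_zero.2 hχf)
  have hχl : χf.comp l = χ :=
    AlgHom.ext fun x => IsLocalization.Away.lift_eq f (isUnit_iff_ne_zero.2 hχf) x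
  have hl : postComp (Crv.ringOver (st (k := k) A) (algebraMap A (Localization.Away f))) ψ' =
      overAlg l := Subtype.ext (Category.id_comp _)
  have hk : postComp (Crv.ringOver (st (k := k) A) (algebraMap A (Localization.Away f)))
      (postComp ψ' (overAlg χf)) = overAlg χ := by
    rw [← hχl, ← postComp_overAlg, ← hl]
    exact Subtype.ext (Category.assoc _ _ _)
  obtain ⟨e₁, -⟩ := pullS_comp_eq _ _ hk c
  have hr : r = 1 := rank_eq_one (ht.cast e₁) (isFrame_at _ hs).2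
  subst hr
  obtain ⟨e₂, -⟩ := pullS_comp_eq _ _ hl c
  exact ⟨f, hχf, frame_transport ψ' hs e₂.symm⟩

theorem oneFrameI_nhd_aux {Af : Type u} [CommRing Af] [Algebra k Af] (l : A →ₐ[k] Af)
    (χ : A →ₐ[k] k') (χf : Af →ₐ[k] k') (hχl : χf.comp l = χ) {f : A} (hf : χ f ≠ 0)
    (hsurj : ∀ x : Af, ∃ (n : ℕ) (y : A), x * l f ^ n = l y)
    (hlift : ∀ (A' : Type u) [CommRing A'] [Algebra k A'] (φ : A →ₐ[k] A'), IsUnit (φ f) →
      ∃ φf : Af →ₐ[k] A', φf.comp l = φ)
    {J : Ideal (A ⊗[k] Γ(V.C, Cv.U0))} (hb : Hilb.IsBIdeal b J) {c : Coc (V.X (st (k := k) A))}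
    {sJ : Sec c ⊤} (hp : Pres Cv J sJ)
    (ht : OneFrame Cv (st k') _ (pullS (overAlg χ) c sJ))
    {s : Sec (c.pull (baseChangeSnd V.str (overAlg l))) ⊤} (hs : OneFrame Cv (st Af) _ s)
    (hsu : ∀ (A' : Type u) [CommRing A'] [Algebra k A'] (φ : Af →ₐ[k] A'),
      OneFrame Cv (st A') _ (pullS (overAlg φ) _ s)) :
    ∃ f : A, χ f ≠ 0 ∧ ∀ (A' : Type u) [CommRing A'] [Algebra k A'] (φ : A →ₐ[k] A'),
      IsUnit (φ f) → OneFrameI Cv (J.map (Hilb.mapId Γ(V.C, Cv.U0) φ)) := by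
  subst hχl
  obtain ⟨x, hx⟩ := hs.2.2 (pullS (overAlg l) c sJ)
  replace hx : Sec.smulF (V.scalar _ x) s = pullS (overAlg l) c sJ := hx
  have hcomp : ∀ {A' : Type u} [CommRing A'] [Algebra k A'] (φ : Af →ₐ[k] A'),
      ∃ e, castSec e ⊤ (pullS (overAlg (φ.comp l)) c sJ) =
        Sec.smulF (V.scalar (st A') (φ x)) (pullS (overAlg φ) _ s) := fun φ => by
    obtain ⟨e, he⟩ := pullS_comp_eq _ _ (postComp_overAlg l φ) c
    exact ⟨e, by rw [← he, ← hx]; exact pullS_smul (overAlg φ) φ.toRingHom rfl x s⟩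
  have hx0 : χf x ≠ 0 := fun e0 => by
    obtain ⟨e, he⟩ := hcomp χf
    rw [e0] at he
    have h0 := ht.cast e
    rw [he] at h0
    refine zero_ne_one (h0.2.1 ?_ : (0 : k') = 1)
    show Sec.smulF _ _ = Sec.smulF _ _
    rw [← smulF_mul, ← smulF_mul, ← map_mul, ← map_mul, mul_zero, mul_zero]
  obtain ⟨n, y, hy⟩ := hsurj x
  have hy' : (χf.comp l) y = χf x * (χf.comp l) f ^ n := by
    have e := congrArg χf hy
    rw [map_mul, map_pow] at e
    exact e.symm
  refine ⟨f * y, ?_, fun A' _ _ φ hu => ?_⟩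
  · rw [map_mul, hy']
    exact mul_ne_zero hf (mul_ne_zero hx0 (pow_ne_zero _ hf))
  rw [map_mul] at hu
  obtain ⟨φf, rfl⟩ := hlift A' φ (isUnit_of_mul_isUnit_left hu)
  have hxu : IsUnit (φf x) := by
    have e := congrArg φf hy
    rw [map_mul, map_pow] at e
    refine isUnit_of_mul_isUnit_left (y := φf (l f) ^ n) ?_
    rw [e]
    exact isUnit_of_mul_isUnit_right hu
  obtain ⟨e, he⟩ := hcomp φf
  have h1 := (hsu A' φf).smul hxu
  rw [← he] at h1
  refine ⟨_, _, hp.pull hb (φf.comp l), ?_⟩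
  have h2 := h1.cast e.symm
  rw [castSec_symm e] at h2
  exact h2

/-- The ideals with a frame of rank one form an open condition. -/
theorem exists_oneFrame_nhd (hfr : V.FrameHolds) (χ : A →ₐ[k] k')
    {J : Ideal (A ⊗[k] Γ(V.C, Cv.U0))} (hb : Hilb.IsBIdeal b J)
    (h : OneFrameI Cv (J.map (Hilb.mapId Γ(V.C, Cv.U0) χ))) :
    ∃ f : A, χ f ≠ 0 ∧ ∀ (A' : Type u) [CommRing A'] [Algebra k A'] (φ : A →ₐ[k] A'),
      IsUnit (φ f) → OneFrameI Cv (J.map (Hilb.mapId Γ(V.C, Cv.U0) φ)) := by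
  obtain ⟨c, sJ, hp⟩ := exists_pres hb
  have ht := h.of_pres (hp.pull hb χ)
  obtain ⟨f, hf, s, hs, hsu⟩ := exists_frame_one hfr χ c _ ht
  exact oneFrameI_nhd_aux (IsScalarTower.toAlgHom k A (Localization.Away f)) χ
    (IsLocalization.Away.liftAlgHom f (f := χ) (isUnit_iff_ne_zero.2 hf))
    (AlgHom.ext fun x => IsLocalization.Away.lift_eq f (isUnit_iff_ne_zero.2 hf) x) hf
    (fun x => IsLocalization.Away.surj f x)
    (fun A' _ _ φ hu => ⟨IsLocalization.Away.liftAlgHom f (f := φ) hu,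
      AlgHom.ext fun z => IsLocalization.Away.lift_eq f hu z⟩) hb hp ht hs hsu

/-! ### The ideal of a section near a point -/

theorem isOpen_unit_germ {X : Scheme.{u}} {c : Coc X} (s : Sec c ⊤) :
    IsOpen {z : X | IsUnit (germAt s z (Opens.mem_top z))} := by
  refine isOpen_iff_forall_mem_open.2 fun z hz =>
    ⟨X.basicOpen (rsF (le_inf le_top le_rfl) (s.1 z) : Γ(X, c.U z)), fun y hy => ?_,
      (X.basicOpen _).2, ?_⟩
  · have hy' : y ∈ c.U z := X.basicOpen_le _ hy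
    have h := (X.mem_basicOpen _ y hy').1 hy
    erw [gm_rsF, gm_sec s z y (Opens.mem_top y) hy'] at h
    exact isUnit_of_mul_isUnit_right h
  · refine (X.mem_basicOpen _ z (c.mem z)).2 ?_
    erw [gm_rsF]
    exact hz

theorem exists_mem_assoc {X : Scheme.{u}} {W : X.Opens} (hW : IsAffineOpen W) {J : Ideal Γ(X, W)}
    {c : Coc X} {s : Sec c ⊤} (h : Presents J s) (z : X) (hz : z ∈ W) :
    ∃ a ∈ J, ∃ N : X.Opens, z ∈ N ∧ ∀ y (_ : y ∈ N) (hy : y ∈ W),
      Associated (gm W y hy a) (germAt s y (Opens.mem_top y)) := by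
  let := X.presheaf.algebra_section_stalk ⟨z, hz⟩
  haveI := hW.isLocalization_stalk ⟨z, hz⟩
  obtain ⟨⟨⟨a, ha⟩, m⟩, he⟩ := (IsLocalization.mem_map_algebraMap_iff
    (hW.primeIdealOf ⟨z, hz⟩).asIdeal.primeCompl (X.presheaf.stalk z)).1
    ((h.span z hz).symm ▸ Ideal.mem_span_singleton_self (germAt s z (Opens.mem_top z)) :
      germAt s z (Opens.mem_top z) ∈ J.map (gm W z hz))
  replace he : germAt s z (Opens.mem_top z) * gm W z hz m = gm W z hz a := he
  have hm : IsUnit (gm W z hz m) := IsLocalization.map_units (X.presheaf.stalk z) m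
  set O := W ⊓ c.U z
  have hO : z ∈ O := mi hz (c.mem z)
  have e : gm O z hO (rsF inf_le_left a) =
      gm O z hO (rsF inf_le_left (m : Γ(X, W)) * rsF (le_inf le_top inf_le_right) (s.1 z)) := by
    rw [map_mul, gm_rsF, gm_rsF, gm_rsF, ← he, mul_comm]
    rfl
  obtain ⟨N', hzN', i₁, i₂, e'⟩ := X.presheaf.germ_eq z hO hO _ _ e
  refine ⟨a, ha, N' ⊓ X.basicOpen (m : Γ(X, W)), mi hzN' ((X.mem_basicOpen _ z hz).2 hm),
    fun y hy hyW => ?_⟩
  have hyc : y ∈ c.U z := (i₁.le hy.1).2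
  have e'' : rsF i₁.le (rsF inf_le_left a : Γ(X, O)) =
      rsF i₁.le (rsF inf_le_left (m : Γ(X, W)) * rsF (le_inf le_top inf_le_right) (s.1 z) :
        Γ(X, O)) := by
    rw [rsF_eq i₁.le, rsF_eq i₁.le]
    exact e'
  have e₃ := congrArg (gm N' y hy.1) e''
  simp only [map_mul, gm_rsF] at e₃
  rw [gm_sec s z y (Opens.mem_top y) hyc] at e₃
  rw [e₃, ← mul_assoc]
  exact associated_unit_mul_left _ _
    (((X.mem_basicOpen _ y hyW).1 hy.2).mul (isUnit_atGm c z y y hyc (c.mem y)))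

theorem fg_of_presents {X : Scheme.{u}} {W : X.Opens} (hW : IsAffineOpen W) {J : Ideal Γ(X, W)}
    {c : Coc X} {s : Sec c ⊤} (h : Presents J s) : J.FG := by
  classical
  choose a ha N hN hassoc using fun z : W => exists_mem_assoc hW h z z.2
  obtain ⟨t, ht⟩ := hW.isCompact.elim_finite_subcover (fun z => (N z : Set X)) (fun z => (N z).2)
    (fun p hp => Set.mem_iUnion.2 ⟨⟨p, hp⟩, hN ⟨p, hp⟩⟩)
  refine ⟨t.image a, (hW.ideal_ext_iff.2 fun y hy => ?_)⟩
  obtain ⟨z, hzt, hyz⟩ := Set.mem_iUnion₂.1 (ht hy)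
  refine le_antisymm (Ideal.map_mono (Ideal.span_le.2 fun x hx => ?_)) ?_
  · obtain ⟨z', -, rfl⟩ := Finset.mem_image.1 hx
    exact ha z'
  · rw [h.span y hy, Ideal.span_singleton_le_iff_mem]
    obtain ⟨v, hv⟩ := hassoc z y hyz hy
    rw [← hv]
    exact Ideal.mul_mem_right _ _ (Ideal.mem_map_of_mem _
      (Ideal.subset_span (Finset.mem_coe.2 (Finset.mem_image_of_mem a hzt))))

theorem locPrincipal_of_presents {X : Scheme.{u}} {W : X.Opens} (hW : IsAffineOpen W)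
    {J : Ideal Γ(X, W)} {c : Coc X} {s : Sec c ⊤} (h : Presents J s) (P : Ideal Γ(X, W))
    [hP : P.IsPrime] : ∃ f ∉ P, ∃ a ∈ J, ∀ x ∈ J, f * x ∈ Ideal.span {a} := by
  classical
  obtain ⟨hz, ep⟩ := primeIdealOf_fromSpec hW ⟨P, hP⟩
  set z := hW.fromSpec ⟨P, hP⟩
  obtain ⟨a, ha, N, hzN, hassoc⟩ := exists_mem_assoc hW h z hz
  obtain ⟨G, hG⟩ := fg_of_presents hW h
  have key : ∀ x ∈ J, ∃ m ∉ P, m * x ∈ Ideal.span {a} := by
    intro x hx
    let := X.presheaf.algebra_section_stalk ⟨z, hz⟩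
    haveI := hW.isLocalization_stalk ⟨z, hz⟩
    obtain ⟨v, hv⟩ := hassoc z hzN hz
    have hmem : gm W z hz x ∈ (Ideal.span {a}).map (gm W z hz) := by
      have h1 := Ideal.mem_map_of_mem (gm W z hz) hx
      rw [h.span z hz, ← hv, Ideal.span_singleton_mul_right_unit v.isUnit] at h1
      rw [Ideal.map_span, Set.image_singleton]
      exact h1
    obtain ⟨m, hm, hmx⟩ := (IsLocalization.algebraMap_mem_map_algebraMap_iff
      (hW.primeIdealOf ⟨z, hz⟩).asIdeal.primeCompl (X.presheaf.stalk z) _ x).1 hmem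
    exact ⟨m, fun hmP => hm (by rw [ep]; exact hmP), hmx⟩
  choose! m hm hmx using key
  refine ⟨∏ x ∈ G, m x, fun hmem => ?_, a, ha, fun x hx => ?_⟩
  · obtain ⟨x, hxG, hxP⟩ := (Ideal.IsPrime.prod_mem_iff).1 hmem
    exact hm x (hG ▸ Ideal.subset_span hxG) hxP
  · have hle : J ≤ Submodule.comap (LinearMap.mulLeft Γ(X, W) (∏ y ∈ G, m y)) (Ideal.span {a}) := by
      rw [← hG]
      refine Submodule.span_le.2 fun y hy => ?_
      show (∏ y ∈ G, m y) * y ∈ Ideal.span {a}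
      rw [← Finset.prod_erase_mul G m hy, mul_assoc]
      exact Ideal.mul_mem_left _ _ (hmx y (hG ▸ Ideal.subset_span hy))
    exact hle hx

theorem isDomain_fibre : IsDomain (k' ⊗[k] Γ(V.C, Cv.U0)) := by
  haveI : IsIntegral (V.X (st (k := k) k')) := V.isIntegral_bc _
  haveI : Nonempty (Cv.W0 (st (k := k) k')) := by
    refine ⟨⟨rigSection V.str (st k') Cv.q (IsLocalRing.closedPoint k'), ?_⟩⟩
    show pullback.fst V.str (st k') _ ∈ Cv.U0
    rw [← Scheme.Hom.comp_apply, rigSection, pullback.lift_fst, Scheme.Hom.comp_apply,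
      Subsingleton.elim ((st (k := k) k') _) (IsLocalRing.closedPoint k)]
    exact Cv.q_mem
  exact (Cv.eW k').toMulEquiv.isDomain

theorem ne_bot_of_pres {J : Ideal (k' ⊗[k] Γ(V.C, Cv.U0))}
    {c : Coc (V.X (st (k := k) k'))} {s : Sec c ⊤} (h : Pres Cv J s) : J ≠ ⊥ := by
  rintro rfl
  have hq : rigSection V.str (st (k := k) k') Cv.q (IsLocalRing.closedPoint k') ∈
      Cv.W0 (st (k := k) k') := by
    show pullback.fst V.str (st k') _ ∈ Cv.U0
    rw [← Scheme.Hom.comp_apply, rigSection, pullback.lift_fst, Scheme.Hom.comp_apply,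
      Subsingleton.elim ((st (k := k) k') _) (IsLocalRing.closedPoint k)]
    exact Cv.q_mem
  have e := h.1.span _ hq
  rw [Crv.Cover.idealW, Ideal.map_bot, Ideal.map_bot, eq_comm, Ideal.span_singleton_eq_bot] at e
  exact IsRegular.ne_zero (h.2 _ _) e

/-- A section with no zero outside the affine open defines an ideal, a `b`-ideal near the point. -/
theorem exists_ideal_of_unit (χ : A →ₐ[k] k') {c : Coc (V.X (st (k := k) A))} (s : Sec c ⊤)
    (hu : ∀ z, z ∉ Cv.W0 (st (k := k) A) → IsUnit (germAt s z (Opens.mem_top z)))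
    {J' : Ideal (k' ⊗[k] Γ(V.C, Cv.U0))} (hb' : Hilb.IsBIdeal b J')
    (hs : Pres Cv J' (pullS (overAlg χ) c s)) :
    ∃ J : Ideal (A ⊗[k] Γ(V.C, Cv.U0)), Presents (Cv.idealW J) s ∧
      J.map (Hilb.mapId Γ(V.C, Cv.U0) χ) = J' ∧ ∃ a, χ a ≠ 0 ∧
        ∀ (A' : Type u) [CommRing A'] [Algebra k A'] (φ : A →ₐ[k] A'),
          IsUnit (φ a) → Hilb.IsBIdeal b (J.map (Hilb.mapId Γ(V.C, Cv.U0) φ)) := by
  haveI := Cv.finiteType_R0
  obtain ⟨I, hI⟩ := exists_ideal (Cv.affine_W0 (st (k := k) A)) s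
  obtain ⟨J, rfl⟩ := Cv.idealW_surjective I
  have hP : Presents (Cv.idealW J) s := ⟨hI, hu⟩
  have hP' : Presents (Cv.idealW (J.map (Hilb.mapId Γ(V.C, Cv.U0) χ))) (pullS (overAlg χ) c s) := by
    rw [← Cv.idealW_map χ J]
    exact hP.pull _ (Cv.W0_le _) (Cv.pre_W0 _).le
  have hJ' : J.map (Hilb.mapId Γ(V.C, Cv.U0) χ) = J' :=
    Cv.idealW_injective (hP'.unique (Cv.affine_W0 _) hs.1)
  refine ⟨J, hP, hJ', ?_⟩
  have hcl : IsClosed (zeroSet (Cv.idealW J)) := by
    have e : zeroSet (Cv.idealW J) = {z | IsUnit (germAt s z (Opens.mem_top z))}ᶜ := by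
      ext z
      refine ⟨fun ⟨hz, h⟩ hu' => h ?_, fun h => ?_⟩
      · rw [hI z hz, Ideal.span_singleton_eq_top]
        exact hu'
      · by_cases hz : z ∈ Cv.W0 (st (k := k) A)
        · exact ⟨hz, by rw [hI z hz, Ne, Ideal.span_singleton_eq_top]; exact h⟩
        · exact absurd (hu z hz) h
    rw [e]
    exact (isOpen_unit_germ s).isClosed_compl
  have hfin : Module.Finite A ((A ⊗[k] Γ(V.C, Cv.U0)) ⧸ J) := by
    have h0 := finite_quot (Cv.affine_W0 (st (k := k) A)) (f := pullback.snd V.str (st A))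
      (Cv.fromSpec_snd _) hcl
    letI := ((Ideal.Quotient.mk (Cv.idealW J)).comp (V.scalarW (st A) Cv.U0)).toAlgebra
    haveI : Module.Finite A (Γ(V.X (st (k := k) A), Cv.W0 (st A)) ⧸ Cv.idealW J) := h0
    let Q : (A ⊗[k] Γ(V.C, Cv.U0)) ⧸ J ≃+* Γ(V.X (st (k := k) A), Cv.W0 (st A)) ⧸ Cv.idealW J :=
      Ideal.quotientEquiv J (Cv.idealW J) (Cv.eW A) rfl
    have hQ : ∀ x : A, Q (algebraMap A _ x) = algebraMap A _ x := fun x => by
      show Ideal.Quotient.mk _ (Cv.eW A (x ⊗ₜ[k] (1 : Γ(V.C, Cv.U0)))) = _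
      rw [Cv.eW_tmul, map_one, mul_one]
      rfl
    exact Module.Finite.equiv (AlgEquiv.ofRingEquiv (f := Q) hQ).symm.toLinearEquiv
  haveI := isDomain_fibre (k' := k') (Cv := Cv)
  refine Hilb.exists_isBIdeal_of_point χ b ?_ hfin (fun P hP => ?_) ?_ (by rw [hJ']; exact hb')
  · have := (fg_of_presents (Cv.affine_W0 (st (k := k) A)) hP).map (Cv.eW A).symm.toRingHom
    rwa [Crv.Cover.idealW, Ideal.map_map, RingEquiv.toRingHom_eq_coe, RingEquiv.toRingHom_eq_coe,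
      RingEquiv.symm_comp, Ideal.map_id] at this
  · haveI := hP
    obtain ⟨f, hf, a, ha, hfa⟩ := locPrincipal_of_presents (Cv.affine_W0 (st (k := k) A))
      ‹Presents (Cv.idealW J) s› (P.comap (Cv.eW A).symm.toRingHom)
    obtain ⟨a, haJ, rfl⟩ :=
      (Ideal.mem_map_iff_of_surjective (Cv.eW A).toRingHom (Cv.eW A).surjective).1 ha
    refine ⟨(Cv.eW A).symm f, hf, a, haJ, fun x hx => ?_⟩
    have h := Ideal.mem_map_of_mem (Cv.eW A).symm.toRingHom
      (hfa (Cv.eW A x) (Ideal.mem_map_of_mem (Cv.eW A).toRingHom hx))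
    rw [Ideal.map_span, Set.image_singleton, map_mul] at h
    simpa using h
  · rw [hJ']
    exact ne_bot_of_pres hs

theorem exists_unit_outside (χ : A →ₐ[k] k') {c : Coc (V.X (st (k := k) A))} (s : Sec c ⊤)
    {J' : Ideal (k' ⊗[k] Γ(V.C, Cv.U0))} (hs : Pres Cv J' (pullS (overAlg χ) c s)) :
    ∃ (B : Type u) (_ : CommRing B) (_ : Algebra k B) (l : A →ₐ[k] B),
      IsOpenImmersion (Spec.map (CommRingCat.ofHom l.toRingHom)) ∧
      ∃ χB : B →ₐ[k] k', χB.comp l = χ ∧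
        ∀ z, z ∉ Cv.W0 (st (k := k) B) →
          IsUnit (germAt (pullS (overAlg l) c s) z (Opens.mem_top z)) := by
  set U : (V.X (st (k := k) A)).Opens := ⟨_, isOpen_unit_germ s⟩
  have hmem : (overAlg χ).1 (IsLocalRing.closedPoint k') ∈
      rigSection V.str (st A) V.pt ⁻¹ᵁ U := by
    show IsUnit (germAt s (rigSection V.str (st A) V.pt ((overAlg χ).1 _)) (Opens.mem_top _))
    have h := hs.1.unit _ (Cv.rig_notMem (IsLocalRing.closedPoint k'))
    erw [germAt_pull] at h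
    have e : baseChangeSnd V.str (overAlg χ)
        (rigSection V.str (st k') V.pt (IsLocalRing.closedPoint k')) =
        rigSection V.str (st A) V.pt ((overAlg χ).1 (IsLocalRing.closedPoint k')) := by
      rw [← Scheme.Hom.comp_apply, rigSection_baseChangeSnd]
      rfl
    have h' := IsUnit.of_map _ _ h
    exact Eq.subst (motive := fun z => IsUnit (germAt s z (Opens.mem_top z))) e h'
  obtain ⟨_, ⟨a₁, rfl⟩, ha₁, hle₁⟩ :=
    PrimeSpectrum.isTopologicalBasis_basic_opens.exists_subset_of_mem_open hmem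
      (rigSection V.str (st A) V.pt ⁻¹ᵁ U).2
  have hχ₁ : χ a₁ ≠ 0 := (point_mem_iff χ a₁).1 ha₁
  refine ⟨Localization.Away a₁, inferInstance, inferInstance,
    IsScalarTower.toAlgHom k A (Localization.Away a₁),
    IsOpenImmersion.of_isLocalization (S := Localization.Away a₁) a₁,
    IsLocalization.Away.liftAlgHom a₁ (f := χ) (isUnit_iff_ne_zero.2 hχ₁),
    AlgHom.ext fun x => IsLocalization.Away.lift_eq a₁ (isUnit_iff_ne_zero.2 hχ₁) x, fun z hz => ?_⟩
  obtain ⟨y, rfl⟩ := Cv.exists_rig hz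
  erw [germAt_pull]
  refine IsUnit.map _ ?_
  have e : baseChangeSnd V.str (overAlg (IsScalarTower.toAlgHom k A (Localization.Away a₁)))
      (rigSection V.str (st _) V.pt y) = rigSection V.str (st A) V.pt
        ((overAlg (IsScalarTower.toAlgHom k A (Localization.Away a₁))).1 y) := by
    rw [← Scheme.Hom.comp_apply, rigSection_baseChangeSnd]
    rfl
  refine Eq.subst (motive := fun z => IsUnit (germAt s z (Opens.mem_top z))) e.symm (hle₁ ?_)
  intro hmem'
  exact y.isPrime.ne_top (Ideal.eq_top_of_isUnit_mem _ hmem'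
    (IsLocalization.Away.algebraMap_isUnit a₁))

theorem pres_shrink {B₁ B₂ : Type u} [CommRing B₁] [Algebra k B₁] [CommRing B₂] [Algebra k B₂]
    (l₁ : A →ₐ[k] B₁) (l₂ : B₁ →ₐ[k] B₂) {c : Coc (V.X (st (k := k) A))} {s : Sec c ⊤}
    {J : Ideal (B₁ ⊗[k] Γ(V.C, Cv.U0))} (hP : Presents (Cv.idealW J) (pullS (overAlg l₁) c s))
    (hb₂ : Hilb.IsBIdeal b (J.map (Hilb.mapId Γ(V.C, Cv.U0) l₂))) :
    Pres Cv (J.map (Hilb.mapId Γ(V.C, Cv.U0) l₂)) (pullS (overAlg (l₂.comp l₁)) c s) := by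
  have hP₂ : Presents (Cv.idealW (J.map (Hilb.mapId Γ(V.C, Cv.U0) l₂)))
      (pullS (overAlg l₂) _ (pullS (overAlg l₁) c s)) := by
    rw [← Cv.idealW_map l₂ J]
    exact hP.pull _ (Cv.W0_le _) (Cv.pre_W0 _).le
  obtain ⟨e₂, he₂⟩ := pullS_comp_eq _ _ (postComp_overAlg l₁ l₂) c
  rw [he₂] at hP₂
  have hP₃ : Presents (Cv.idealW (J.map (Hilb.mapId Γ(V.C, Cv.U0) l₂)))
      (pullS (overAlg (l₂.comp l₁)) c s) := hP₂.of_assoc fun z => by rw [germAt_castSec]
  exact ⟨hP₃, hP₃.regular (locGen_idealW hb₂)⟩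

theorem pres_cast {B : Type u} [CommRing B] [Algebra k B] (l : A →ₐ[k] B) (χB : B →ₐ[k] k')
    {c : Coc (V.X (st (k := k) A))} {s : Sec c ⊤} {J' : Ideal (k' ⊗[k] Γ(V.C, Cv.U0))}
    (hs : Pres Cv J' (pullS (overAlg (χB.comp l)) c s)) :
    Pres Cv J' (pullS (overAlg χB) _ (pullS (overAlg l) c s)) := by
  obtain ⟨e, he⟩ := pullS_comp_eq _ _ (postComp_overAlg l χB) c
  rw [he]
  exact ⟨hs.1.of_assoc fun z => by rw [germAt_castSec],
    fun z hz => by rw [germAt_castSec]; exact hs.2 z hz⟩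

theorem isOpenImmersion_comp {B₁ B₂ : Type u} [CommRing B₁] [Algebra k B₁] [CommRing B₂]
    [Algebra k B₂] (l₁ : A →ₐ[k] B₁) (l₂ : B₁ →ₐ[k] B₂)
    [IsOpenImmersion (Spec.map (CommRingCat.ofHom l₁.toRingHom))]
    [IsOpenImmersion (Spec.map (CommRingCat.ofHom l₂.toRingHom))] :
    IsOpenImmersion (Spec.map (CommRingCat.ofHom (l₂.comp l₁).toRingHom)) := by
  rw [show CommRingCat.ofHom (l₂.comp l₁).toRingHom =
    CommRingCat.ofHom l₁.toRingHom ≫ CommRingCat.ofHom l₂.toRingHom from rfl, Spec.map_comp]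
  infer_instance

/-- Near a point, a section presenting a `b`-ideal there presents a `b`-ideal. -/
theorem exists_ideal_nhd (χ : A →ₐ[k] k') {c : Coc (V.X (st (k := k) A))} (s : Sec c ⊤)
    {J' : Ideal (k' ⊗[k] Γ(V.C, Cv.U0))} (hb' : Hilb.IsBIdeal b J')
    (hs : Pres Cv J' (pullS (overAlg χ) c s)) :
    ∃ (B : Type u) (_ : CommRing B) (_ : Algebra k B) (l : A →ₐ[k] B),
      IsOpenImmersion (Spec.map (CommRingCat.ofHom l.toRingHom)) ∧
      ∃ χB : B →ₐ[k] k', χB.comp l = χ ∧ ∃ J : Ideal (B ⊗[k] Γ(V.C, Cv.U0)),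
        Hilb.IsBIdeal b J ∧ Pres Cv J (pullS (overAlg l) c s) ∧
        J.map (Hilb.mapId Γ(V.C, Cv.U0) χB) = J' := by
  obtain ⟨B₁, _, _, l₁, hl₁, χ₁, rfl, hu₁⟩ := exists_unit_outside χ s hs
  obtain ⟨J, hP, rfl, a₂, ha₂, hb⟩ := exists_ideal_of_unit χ₁ _ hu₁ hb' (pres_cast l₁ χ₁ hs)
  have hb₂ := hb _ (IsScalarTower.toAlgHom k B₁ (Localization.Away a₂))
    (IsLocalization.Away.algebraMap_isUnit a₂)
  have hl₂ : IsOpenImmersion (Spec.map (CommRingCat.ofHom
      (IsScalarTower.toAlgHom k B₁ (Localization.Away a₂)).toRingHom)) :=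
    IsOpenImmersion.of_isLocalization (S := Localization.Away a₂) a₂
  have hχl₂ : (IsLocalization.Away.liftAlgHom a₂ (f := χ₁) (isUnit_iff_ne_zero.2 ha₂) :
      Localization.Away a₂ →ₐ[k] k').comp (IsScalarTower.toAlgHom k B₁ (Localization.Away a₂)) = χ₁ :=
    AlgHom.ext fun x => IsLocalization.Away.lift_eq a₂ (isUnit_iff_ne_zero.2 ha₂) x
  refine ⟨Localization.Away a₂, inferInstance, inferInstance, _, isOpenImmersion_comp l₁
    (IsScalarTower.toAlgHom k B₁ (Localization.Away a₂)), _,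
    (AlgHom.comp_assoc _ _ _).symm.trans (congrArg (fun f : B₁ →ₐ[k] k' => f.comp l₁) hχl₂),
    _, hb₂, pres_shrink l₁ _ hP hb₂, ?_⟩
  conv_rhs => rw [← hχl₂, Hilb.mapId_comp]
  exact Ideal.map_map (Hilb.mapId Γ(V.C, Cv.U0) _).toRingHom (Hilb.mapId Γ(V.C, Cv.U0) _).toRingHom

end Chart

end FA.Jac

end
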