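import Fermat.Agent.AbTors.Pic

/-!
# Sections of a cocycle

A section over an open is a family of functions on the opens of the cocycle whose quotients are the
transition functions.
-/

set_option autoImplicit false

noncomputable section

universe u

open CategoryTheory AlgebraicGeometry TopologicalSpace FA.AbTors

namespace FA.Jac

variable {X Y : Scheme.{u}}

/-- Restriction of functions. -/
def rsF {U V : X.Opens} (h : V ≤ U) : Γ(X, U) →+* Γ(X, V) := ((𝟙 X : X ⟶ X).appLE U V h).hom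

/-- Pullback of functions. -/
def apF (f : X ⟶ Y) {U : Y.Opens} {V : X.Opens} (h : V ≤ f ⁻¹ᵁ U) : Γ(Y, U) →+* Γ(X, V) :=
  (f.appLE U V h).hom

theorem apF_apF {Z : Scheme.{u}} (f : X ⟶ Y) (g : Y ⟶ Z) {U : Z.Opens} {V : Y.Opens} {W : X.Opens}
    (e₁ : V ≤ g ⁻¹ᵁ U) (e₂ : W ≤ f ⁻¹ᵁ V) (a : Γ(Z, U)) :
    apF f e₂ (apF g e₁ a) = apF (f ≫ g) (fun _ hx => e₁ (e₂ hx) : W ≤ (f ≫ g) ⁻¹ᵁ U) a :=
  congrArg (fun φ : Γ(Z, U) ⟶ Γ(X, W) => φ.hom a) (Scheme.Hom.appLE_comp_appLE f g U V W e₁ e₂)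

theorem apF_congr {f f' : X ⟶ Y} (h : f = f') {U : Y.Opens} {V : X.Opens} (e : V ≤ f ⁻¹ᵁ U)
    (a : Γ(Y, U)) : apF f e a = apF f' (h ▸ e) a := by
  subst h; rfl

theorem rsF_rsF {U V W : X.Opens} (h₁ : V ≤ U) (h₂ : W ≤ V) (a : Γ(X, U)) :
    rsF h₂ (rsF h₁ a) = rsF (h₂.trans h₁) a :=
  (apF_apF (𝟙 X) (𝟙 X) h₁ h₂ a).trans (apF_congr (Category.comp_id _) _ _)

theorem rsF_apF (f : X ⟶ Y) {U : Y.Opens} {V W : X.Opens} (e : V ≤ f ⁻¹ᵁ U) (h : W ≤ V)
    (a : Γ(Y, U)) : rsF h (apF f e a) = apF f (h.trans e) a :=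
  (apF_apF (𝟙 X) f e h a).trans (apF_congr (Category.id_comp _) _ _)

theorem apF_rsF (f : X ⟶ Y) {U U' : Y.Opens} {W : X.Opens} (h : U' ≤ U) (e : W ≤ f ⁻¹ᵁ U')
    (a : Γ(Y, U)) : apF f e (rsF h a) = apF f (fun _ hx => h (e hx) : W ≤ f ⁻¹ᵁ U) a :=
  (apF_apF f (𝟙 Y) h e a).trans (apF_congr (Category.comp_id _) _ _)

/-- The sections of a cocycle over an open. -/
def Sec (c : Coc X) (W : X.Opens) : AddSubgroup (∀ x, Γ(X, W ⊓ c.U x)) where
  carrier := {s | ∀ (x y : X) (O : X.Opens) (hW : O ≤ W) (hx : O ≤ c.U x) (hy : O ≤ c.U y),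
    rsF (le_inf hW hx) (s x) = (c.at x y O hx hy : Γ(X, O)) * rsF (le_inf hW hy) (s y)}
  zero_mem' := fun x y O hW hx hy => by simp
  add_mem' := fun {s t} hs ht x y O hW hx hy => by
    simp only [Pi.add_apply, map_add, hs x y O hW hx hy, ht x y O hW hx hy, mul_add]
  neg_mem' := fun {s} hs x y O hW hx hy => by
    simp only [Pi.neg_apply, map_neg, hs x y O hW hx hy, mul_neg]

/-- Multiplication of a section by a function. -/
def Sec.smulF {c : Coc X} {W : X.Opens} (a : Γ(X, W)) (s : Sec c W) : Sec c W :=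
  ⟨fun x => rsF inf_le_left a * s.1 x, fun x y O hW hx hy => by
    simp only [map_mul, rsF_rsF, s.2 x y O hW hx hy]
    ring⟩

/-- Restriction of a section. -/
def Sec.res {c : Coc X} {W W' : X.Opens} (h : W' ≤ W) : Sec c W →+ Sec c W' :=
  AddMonoidHom.mk'
    (fun s => ⟨fun x => rsF (inf_le_inf_right _ h) (s.1 x), fun x y O hW hx hy => by
      simp only [rsF_rsF]
      exact s.2 x y O (hW.trans h) hx hy⟩)
    fun s t => Subtype.ext (funext fun x => map_add _ _ _)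

/-- Pullback of a section. -/
def Sec.pull (f : X ⟶ Y) {c : Coc Y} {W : Y.Opens} {W' : X.Opens} (h : W' ≤ f ⁻¹ᵁ W) :
    Sec c W →+ Sec (c.pull f) W' :=
  AddMonoidHom.mk'
    (fun s => ⟨fun x => apF f (U := W ⊓ c.U (f x))
      (le_inf (inf_le_left.trans h) inf_le_right : W' ⊓ (c.pull f).U x ≤ f ⁻¹ᵁ (W ⊓ c.U (f x)))
      (s.1 (f x)), fun x y O hW hx hy => by
      have hO : O ≤ f ⁻¹ᵁ (W ⊓ (c.U (f x) ⊓ c.U (f y))) := le_inf (hW.trans h) (le_inf hx hy)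
      have e := congrArg (apF f hO) (s.2 (f x) (f y) (W ⊓ (c.U (f x) ⊓ c.U (f y))) inf_le_left
        (inf_le_right.trans inf_le_left) (inf_le_right.trans inf_le_right))
      rw [map_mul] at e
      rw [Coc.pull_at f c x y hx hy (inf_le_right.trans inf_le_left)
        (inf_le_right.trans inf_le_right) hO]
      exact ((rsF_apF f _ _ _).trans (apF_rsF f _ hO _).symm).trans
        (e.trans (congrArg₂ (· * ·) rfl ((apF_rsF f _ hO _).trans (rsF_apF f _ _ _).symm)))⟩)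
    fun s t => Subtype.ext (funext fun x => map_add _ _ _)

end FA.Jac

end
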