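import Fermat.Agent.Jac.Curve
import Fermat.Agent.Jac.SecDefs
import Fermat.Agent.AbTors.Rat
import Fermat.Agent.Curve.Genus
import Fermat.Prelude.Def_AlgebraicGeometry_RelPicardAlgEquivZeroCut
import Mathlib.RingTheory.Localization.Away.Basic

/-!
# The Jacobian: definitions and contracts

* `P0`: rigidified classes of degree zero on all geometric fibres;
* `DivHolds`, `BcHolds`: classes are divisor classes, compatibly with extensions of constants;
* `GlueHolds`: gluing of rigidified classes;
* `FrameHolds`, `FieldHolds`: the complex of two affines, in families and over a field;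
* `DegConst`: degrees are locally constant;
* `ChartData`: the charts;
* `RepData`: the representing scheme;
* `AbelData`: the map from the curve, generating all classes.
-/

set_option autoImplicit false
set_option linter.unusedVariables false

noncomputable section

universe u

open CategoryTheory CategoryTheory.Limits AlgebraicGeometry TopologicalSpace
open NeronModelInfra AlgebraicGeometry.RelPicard AlgebraicCurve FA.Curve FA.AbTors

namespace FA.Jac

variable {k : Type u} [Field k]

namespace Crv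

variable (V : Crv k)

/-- The curve over `t`. -/
abbrev X {T : Scheme.{u}} (t : T ⟶ Spec (CommRingCat.of k)) : Scheme.{u} := pullback V.str t

variable {T T' T'' : Scheme.{u}} {t : T ⟶ Spec (CommRingCat.of k)}
  {t' : T' ⟶ Spec (CommRingCat.of k)} {t'' : T'' ⟶ Spec (CommRingCat.of k)}

/-- The pullback of classes along a map of parameters. -/
def pullP (ψ : SchemeHomOver t' t) : FA.AbTors.Pic (V.X t) →+ FA.AbTors.Pic (V.X t') :=
  FA.AbTors.Pic.pull (baseChangeSnd V.str ψ)

theorem pullP_pullP (φ : SchemeHomOver t' t) (ψ : SchemeHomOver t'' t')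
    (p : FA.AbTors.Pic (V.X t)) : V.pullP ψ (V.pullP φ p) = V.pullP (postComp φ ψ) p :=
  (Pic.pull_pull _ _ p).trans (Pic.pull_congr (baseChangeSnd_comp V.str φ ψ) p)

theorem pullP_id (p : FA.AbTors.Pic (V.X t)) :
    V.pullP (⟨𝟙 T, Category.id_comp t⟩ : SchemeHomOver t t) p = p :=
  (Pic.pull_congr (baseChangeSnd_id V.str t) p).trans (Pic.pull_id p)

/-- The restriction to the section. -/
def rig (t : T ⟶ Spec (CommRingCat.of k)) : FA.AbTors.Pic (V.X t) →+ FA.AbTors.Pic T :=
  FA.AbTors.Pic.pull (rigSection V.str t V.pt)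

theorem rig_pullP (ψ : SchemeHomOver t' t) (p : FA.AbTors.Pic (V.X t)) :
    V.rig t' (V.pullP ψ p) = Pic.pull ψ.1 (V.rig t p) :=
  ((Pic.pull_pull _ _ p).trans (Pic.pull_congr (rigSection_baseChangeSnd V.str V.pt ψ) p)).trans
    (Pic.pull_pull _ _ p).symm

variable [IsAlgClosed k]

/-- The degree on a geometric fibre. -/
def fibDeg {k' : Type u} [Field k'] [IsAlgClosed k']
    {a : Spec (CommRingCat.of k') ⟶ Spec (CommRingCat.of k)} (ψ : SchemeHomOver a t) :
    FA.AbTors.Pic (V.X t) →+ ℤ :=
  (V.bc a).deg.comp (V.pullP ψ)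

theorem fibDeg_pullP {k' : Type u} [Field k'] [IsAlgClosed k']
    {a : Spec (CommRingCat.of k') ⟶ Spec (CommRingCat.of k)} (φ : SchemeHomOver t' t)
    (ψ : SchemeHomOver a t') (p : FA.AbTors.Pic (V.X t)) :
    V.fibDeg ψ (V.pullP φ p) = V.fibDeg (postComp φ ψ) p :=
  congrArg (V.bc a).deg (V.pullP_pullP φ ψ p)

/-- Rigidified classes of degree zero on every geometric fibre. -/
def P0 (t : T ⟶ Spec (CommRingCat.of k)) : AddSubgroup (FA.AbTors.Pic (V.X t)) where
  carrier := {p | V.rig t p = 0 ∧ ∀ (k' : Type u) [Field k'] [IsAlgClosed k']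
    (a : Spec (CommRingCat.of k') ⟶ Spec (CommRingCat.of k)) (ψ : SchemeHomOver a t),
    V.fibDeg ψ p = 0}
  zero_mem' := ⟨map_zero _, fun _ _ _ _ ψ => map_zero _⟩
  add_mem' := fun {p q} hp hq =>
    ⟨by rw [map_add, hp.1, hq.1, add_zero], fun k' _ _ a ψ => by
      rw [map_add, hp.2 k' a ψ, hq.2 k' a ψ, add_zero]⟩
  neg_mem' := fun {p} hp =>
    ⟨by rw [map_neg, hp.1, neg_zero], fun k' _ _ a ψ => by rw [map_neg, hp.2 k' a ψ, neg_zero]⟩

theorem pullP_mem (φ : SchemeHomOver t' t) {p : FA.AbTors.Pic (V.X t)} (hp : p ∈ V.P0 t) :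
    V.pullP φ p ∈ V.P0 t' :=
  ⟨by rw [V.rig_pullP, hp.1, map_zero],
    fun k' _ _ a ψ => (V.fibDeg_pullP φ ψ p).trans (hp.2 k' a (postComp φ ψ))⟩

/-- The functor of rigidified classes of degree zero. -/
def map0 (φ : SchemeHomOver t' t) : V.P0 t →+ V.P0 t' :=
  ((V.pullP φ).comp (V.P0 t).subtype).codRestrict _ fun p => V.pullP_mem φ p.2

/-- The restriction to an open of the parameters. -/
def incl (t : T ⟶ Spec (CommRingCat.of k)) (U : T.Opens) : SchemeHomOver (U.ι ≫ t) t := ⟨U.ι, rfl⟩

/-- A map of parameter rings. -/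
def ringOver {A A' : Type u} [CommRing A] [CommRing A']
    (a : Spec (CommRingCat.of A) ⟶ Spec (CommRingCat.of k)) (φ : A →+* A') :
    SchemeHomOver (Spec.map (CommRingCat.ofHom φ) ≫ a) a :=
  ⟨Spec.map (CommRingCat.ofHom φ), rfl⟩

/-! ### Contracts: divisors, gluing, degrees -/

/-- Classes of cocycles are classes of divisors. -/
def DivHolds : Prop := Function.Bijective V.divCls

/-- Gluing of rigidified classes of degree zero. -/
def GlueHolds : Prop :=
  ∀ (T : Scheme.{u}) (t : T ⟶ Spec (CommRingCat.of k)) (ι : Type u) (U : ι → T.Opens),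
    (⨆ i, U i) = ⊤ → ∀ p : ∀ i, V.P0 ((U i).ι ≫ t),
      (∀ (i j : ι) (T' : Scheme.{u}) (t' : T' ⟶ Spec (CommRingCat.of k))
        (ψi : SchemeHomOver t' ((U i).ι ≫ t)) (ψj : SchemeHomOver t' ((U j).ι ≫ t)),
        ψi.1 ≫ (U i).ι = ψj.1 ≫ (U j).ι → V.map0 ψi (p i) = V.map0 ψj (p j)) →
      ∃! q : V.P0 t, ∀ i, V.map0 (incl t (U i)) q = p i

/-- Degrees are constant on connected bases. -/
def DegConst : Prop :=
  ∀ (T : Scheme.{u}) (t : T ⟶ Spec (CommRingCat.of k)) [ConnectedSpace T]
    (p : FA.AbTors.Pic (V.X t))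
    (k₁ k₂ : Type u) [Field k₁] [IsAlgClosed k₁] [Field k₂] [IsAlgClosed k₂]
    (a₁ : Spec (CommRingCat.of k₁) ⟶ Spec (CommRingCat.of k))
    (a₂ : Spec (CommRingCat.of k₂) ⟶ Spec (CommRingCat.of k))
    (ψ₁ : SchemeHomOver a₁ t) (ψ₂ : SchemeHomOver a₂ t), V.fibDeg ψ₁ p = V.fibDeg ψ₂ p

/-- The function field of a base change is the extension of constants, compatibly with divisors. -/
def BcHolds : Prop :=
  ∀ (k' : Type u) [Field k'] [IsAlgClosed k']
    (a : Spec (CommRingCat.of k') ⟶ Spec (CommRingCat.of k)),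
    ∃ (φ : V.F →+* (V.bc a).F) (h : FA.PicTors.IsExt (Spec.preimage a).hom φ),
      Spec.map (CommRingCat.ofHom φ) ≫ V.gen = (V.bc a).gen ≫ pullback.fst V.str a ∧
      ∀ c : Coc V.C,
        pullDiv (RingHom.id k') (V.bc a).isFunctionField (V.bc a).gen (V.bc a).gen_str
          (c.pull (pullback.fst V.str a)) =
        h.pull (pullDiv (RingHom.id k) V.isFunctionField V.gen V.gen_str c)

/-! ### The complex of two affines -/

/-- Two affines covering the curve: the complements of the base point and of another point. -/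
structure Cover where
  /-- The second point. -/
  q : SchemeHomOver (𝟙 (Spec (CommRingCat.of k))) V.str
  /-- The complement of the base point. -/
  U0 : V.C.Opens
  /-- The complement of the second point. -/
  U1 : V.C.Opens
  ne : q.1 (IsLocalRing.closedPoint k) ≠ V.pt.1 (IsLocalRing.closedPoint k)
  coe_U0 : (U0 : Set V.C) = {V.pt.1 (IsLocalRing.closedPoint k)}ᶜ
  coe_U1 : (U1 : Set V.C) = {q.1 (IsLocalRing.closedPoint k)}ᶜ
  affine0 : IsAffineOpen U0
  affine1 : IsAffineOpen U1

variable {V} (Cv : V.Cover)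

/-- The first affine over `t`. -/
def Cover.W0 (t : T ⟶ Spec (CommRingCat.of k)) : (V.X t).Opens := pullback.fst V.str t ⁻¹ᵁ Cv.U0

/-- The second affine over `t`. -/
def Cover.W1 (t : T ⟶ Spec (CommRingCat.of k)) : (V.X t).Opens := pullback.fst V.str t ⁻¹ᵁ Cv.U1

/-- The differential of the complex. -/
def Cover.diff (t : T ⟶ Spec (CommRingCat.of k)) (c : Coc (V.X t)) :
    Sec c (Cv.W0 t) × Sec c (Cv.W1 t) →+ Sec c (Cv.W0 t ⊓ Cv.W1 t) :=
  ((Sec.res inf_le_left).comp (AddMonoidHom.fst _ _)) -
    ((Sec.res inf_le_right).comp (AddMonoidHom.snd _ _))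

/-- The first cohomology vanishes. -/
def Cover.Nonspecial (t : T ⟶ Spec (CommRingCat.of k)) (c : Coc (V.X t)) : Prop :=
  Function.Surjective (Cv.diff t c)

variable (V)

/-- A function of the base as a function on the curve. -/
def scalar {A : Type u} [CommRing A] (a : Spec (CommRingCat.of A) ⟶ Spec (CommRingCat.of k)) :
    A →+* Γ(V.X a, ⊤) :=
  (apF (pullback.snd V.str a) (U := ⊤) (V := ⊤) le_top).comp
    (Scheme.ΓSpecIso (CommRingCat.of A)).inv.hom

/-- A combination of global sections. -/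
def comb {A : Type u} [CommRing A] {a : Spec (CommRingCat.of A) ⟶ Spec (CommRingCat.of k)}
    {c : Coc (V.X a)} {r : ℕ} (s : Fin r → Sec c ⊤) (x : Fin r → A) : Sec c ⊤ :=
  ∑ j, Sec.smulF (V.scalar a (x j)) (s j)

/-- The pullback of a global section along a map of rings. -/
def secMap {A A' : Type u} [CommRing A] [CommRing A']
    (a : Spec (CommRingCat.of A) ⟶ Spec (CommRingCat.of k)) (φ : A →+* A') (c : Coc (V.X a)) :
    Sec c ⊤ →+ Sec (c.pull (baseChangeSnd V.str (ringOver a φ))) ⊤ :=
  Sec.pull (baseChangeSnd V.str (ringOver a φ)) (fun _ _ => trivial)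

/-- `s` is a basis of the global sections after every base change, and the first cohomology
vanishes after every base change. -/
def IsFrame {A : Type u} [CommRing A] (a : Spec (CommRingCat.of A) ⟶ Spec (CommRingCat.of k))
    (Cv : V.Cover) (c : Coc (V.X a)) {r : ℕ} (s : Fin r → Sec c ⊤) : Prop :=
  ∀ (A' : Type u) [CommRing A'] (φ : A →+* A'),
    Cv.Nonspecial _ (c.pull (baseChangeSnd V.str (ringOver a φ))) ∧
      Function.Bijective (V.comb fun j => V.secMap a φ c (s j))

/-- Where the first cohomology vanishes the global sections are locally free and commute with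
base change. -/
def FrameHolds : Prop :=
  ∀ (Cv : V.Cover) (A : Type u) [CommRing A]
    (a : Spec (CommRingCat.of A) ⟶ Spec (CommRingCat.of k)) (c : Coc (V.X a))
    (k' : Type u) [Field k'] [IsAlgClosed k']
    (a' : Spec (CommRingCat.of k') ⟶ Spec (CommRingCat.of k)) (ψ : SchemeHomOver a' a),
    Cv.Nonspecial a' (c.pull (baseChangeSnd V.str ψ)) →
    ∃ f : A, ψ.1 (IsLocalRing.closedPoint k') ∈ PrimeSpectrum.basicOpen f ∧
      ∃ (r : ℕ) (s : Fin r →
          Sec (c.pull (baseChangeSnd V.str (ringOver a (algebraMap A (Localization.Away f))))) ⊤),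
        V.IsFrame _ Cv _ s

/-- The value at the generic point of a section. -/
def secVal (c : Coc V.C) (s : Sec c ⊤) : V.F :=
  evF V.gen (⊤ ⊓ c.U (ctr V.gen))
    (le_preimage_of_mem (show ctr V.gen ∈ ⊤ ⊓ c.U (ctr V.gen) from ⟨trivial, c.mem _⟩))
    (s.1 (ctr V.gen))

/-- The complex over a field computes `L(D)`. -/
def FieldHolds : Prop :=
  ∀ (Cv : V.Cover) (k' : Type u) [Field k'] [IsAlgClosed k']
    (a : Spec (CommRingCat.of k') ⟶ Spec (CommRingCat.of k)) (c : Coc (V.bc a).C),
    (Cv.Nonspecial a c ↔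
      ell (pullDiv (RingHom.id k') (V.bc a).isFunctionField (V.bc a).gen (V.bc a).gen_str c) =
        Divisor.degree
            (pullDiv (RingHom.id k') (V.bc a).isFunctionField (V.bc a).gen (V.bc a).gen_str c) +
          1 - FA.Curve.genus k V.F) ∧
    Function.Injective ((V.bc a).secVal c) ∧
    Set.range ((V.bc a).secVal c) = (riemannRochSpace
      (pullDiv (RingHom.id k') (V.bc a).isFunctionField (V.bc a).gen (V.bc a).gen_str c) :
        Set (V.bc a).F)

/-! ### Charts, representability, the map from the curve -/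

/-- Charts of the functor of rigidified classes of degree zero. -/
structure ChartData : Type (u + 1) where
  /-- The index set. -/
  ι : Type u
  /-- The charts. -/
  H : ι → Scheme.{u}
  /-- Their structure maps. -/
  h : ∀ i, H i ⟶ Spec (CommRingCat.of k)
  smooth : ∀ i, Smooth (h i)
  /-- Their classes. -/
  cls : ∀ i, V.P0 (h i)
  inj : ∀ (i : ι) (A : Type u) [CommRing A]
    (a : Spec (CommRingCat.of A) ⟶ Spec (CommRingCat.of k)) (g g' : SchemeHomOver a (h i)),
    V.map0 g (cls i) = V.map0 g' (cls i) → g = g'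
  cover : ∀ (k' : Type u) [Field k'] [IsAlgClosed k']
    (a : Spec (CommRingCat.of k') ⟶ Spec (CommRingCat.of k)) (p : V.P0 a),
    ∃ (i : ι) (g : SchemeHomOver a (h i)), V.map0 g (cls i) = p
  lift : ∀ (i : ι) (A : Type u) [CommRing A]
    (a : Spec (CommRingCat.of A) ⟶ Spec (CommRingCat.of k)) (p : V.P0 a)
    (k' : Type u) [Field k'] [IsAlgClosed k']
    (a' : Spec (CommRingCat.of k') ⟶ Spec (CommRingCat.of k)) (ψ : SchemeHomOver a' a)
    (g' : SchemeHomOver a' (h i)), V.map0 g' (cls i) = V.map0 ψ p →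
    ∃ (U : (Spec (CommRingCat.of A)).Opens), ψ.1 (IsLocalRing.closedPoint k') ∈ U ∧
      ∃ g : SchemeHomOver (U.ι ≫ a) (h i), V.map0 g (cls i) = V.map0 (incl a U) p

/-- A scheme representing rigidified classes of degree zero. -/
structure RepData : Type (u + 1) where
  /-- The scheme. -/
  J : Scheme.{u}
  /-- The structure map. -/
  j : J ⟶ Spec (CommRingCat.of k)
  smooth : Smooth j
  /-- The universal class. -/
  cls : V.P0 j
  univ : ∀ (T : Scheme.{u}) (t : T ⟶ Spec (CommRingCat.of k)) (p : V.P0 t),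
    ∃! g : SchemeHomOver t j, V.map0 g cls = p

/-- Points of the curve as classes of degree zero, generating all of them. -/
structure AbelData : Type (u + 1) where
  /-- The number of points needed. -/
  n : ℕ
  /-- The index set of the cover. -/
  ι : Type u
  /-- The cover of the curve. -/
  W : ι → V.C.Opens
  covers : (⨆ i, W i) = ⊤
  /-- The classes over the cover. -/
  cls : ∀ i, V.P0 ((W i).ι ≫ V.str)
  /-- The classes of the rational points. -/
  ptCls : SchemeHomOver (𝟙 (Spec (CommRingCat.of k))) V.str → V.P0 (𝟙 (Spec (CommRingCat.of k)))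
  compat : ∀ (i : ι) (x : SchemeHomOver (𝟙 (Spec (CommRingCat.of k))) ((W i).ι ≫ V.str)),
    V.map0 x (cls i) = ptCls (postComp (incl V.str (W i)) x)
  generate : ∀ q : V.P0 (𝟙 (Spec (CommRingCat.of k))),
    ∃ x : Fin n → SchemeHomOver (𝟙 (Spec (CommRingCat.of k))) V.str, q = ∑ j, ptCls (x j)

end Crv

end FA.Jac

end
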