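import Fermat.Agent.Jac.CoverPts
import Fermat.Agent.Jac.Defs
import Mathlib.AlgebraicGeometry.Morphisms.Affine

/-!
# The complement of a rational point is affine
-/

set_option autoImplicit false
set_option linter.style.haveILetI false
set_option linter.unusedSectionVars false

noncomputable section

universe u

open CategoryTheory AlgebraicGeometry TopologicalSpace NeronModelInfra
open AlgebraicCurve FA.Curve FA.AbTors IsLocalRing

namespace FA.Jac

variable {k : Type u} [Field k] [IsAlgClosed k] (V : Crv k)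

namespace Crv

/-- A function with prescribed values at finitely many places and one pole. -/
theorem exists_prescribed (P : Place k V.F) (S : Finset (Place k V.F)) (hP : P ∉ S)
    (a : Place k V.F → k) :
    ∃ g : V.F, (∀ w : Place k V.F, w ≠ P → AtLeast w 0 g) ∧
      ∀ v ∈ S, HasValue v g (a v) := by
  classical
  have hF := V.isFunctionField
  obtain ⟨c, hc⟩ := exists_threshold hF
  set m : ℤ := max c 0 + S.card with hm
  have key : ∀ v ∈ S, ∃ g : V.F, (∀ w : Place k V.F, w ≠ P → AtLeast w 0 g) ∧
      ∀ w ∈ S, HasValue w g (if w = v then 1 else 0) := by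
    intro v hv
    set E : Finset (Place k V.F) := S.erase v
    set D₁ : Divisor k V.F := Finsupp.single P m - ∑ w ∈ E, Finsupp.single w (1 : ℤ) with hD₁
    set D₂ : Divisor k V.F := D₁ - Finsupp.single v 1 with hD₂
    have hcard : (E.card : ℤ) + 1 = S.card := by
      exact_mod_cast Finset.card_erase_add_one hv
    have hd1 : Divisor.degree D₁ = m - E.card := by
      simp [hD₁, map_sub, map_sum, hF.deg_eq_one]
    have hd2 : Divisor.degree D₂ = m - E.card - 1 := by
      rw [hD₂, map_sub, hd1]; simp [hF.deg_eq_one]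
    have hlt : ell D₂ < ell D₁ := by
      rw [hc D₁ (by omega), hc D₂ (by omega)]; omega
    haveI := finite_riemannRochSpace hF D₂
    obtain ⟨g, hg, hg'⟩ : ∃ g, g ∈ riemannRochSpace D₁ ∧ g ∉ riemannRochSpace D₂ := by
      by_contra hno
      push Not at hno
      have h := Submodule.finrank_mono (show riemannRochSpace D₁ ≤ riemannRochSpace D₂ from hno)
      rw [ell, ell] at hlt
      omega
    have happ : ∀ w, w ≠ P → D₁ w = -(if w ∈ E then 1 else 0) := fun w hw => by
      simp [hD₁, Finsupp.single_apply, Ne.symm hw]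
    rw [mem_riemannRochSpace] at hg
    have hreg : ∀ w, w ≠ P → AtLeast w (if w ∈ E then 1 else 0) g := fun w hw => by
      have h := hg w
      rwa [happ w hw, neg_neg] at h
    have hvP : v ≠ P := fun e => hP (e ▸ hv)
    have hv1 : ¬ AtLeast v 1 g := fun h1 => hg' (by
      rw [mem_riemannRochSpace]
      intro w
      rcases eq_or_ne w v with rfl | hw
      · rw [hD₂, Finsupp.sub_apply, happ w hvP, Finsupp.single_eq_same,
          if_neg (Finset.notMem_erase w S)]
        simpa using h1
      · rw [hD₂, Finsupp.sub_apply, Finsupp.single_eq_of_ne hw, sub_zero]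
        exact hg w)
    have h0 : AtLeast v 0 g := by
      have h := hreg v hvP
      rwa [if_neg (Finset.notMem_erase v S)] at h
    obtain ⟨b, hb⟩ := exists_hasValue hF h0
    have hb0 : b ≠ 0 := by
      rintro rfl
      exact hv1 (hasValue_zero_iff.1 hb)
    refine ⟨algebraMap k V.F b⁻¹ * g, fun w hw => AtLeast.smul ((hreg w hw).mono
      (by split_ifs <;> omega)) _, fun w hw => ?_⟩
    rcases eq_or_ne w v with rfl | hwv
    · rw [if_pos rfl, ← inv_mul_cancel₀ hb0]
      exact hb.smul _
    · rw [if_neg hwv]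
      have h := hreg w (fun e => hP (e ▸ hw))
      rw [if_pos (Finset.mem_erase.2 ⟨hwv, hw⟩)] at h
      exact hasValue_zero_iff.2 (AtLeast.smul h _)
  choose! g hg hgv using key
  refine ⟨∑ v ∈ S, algebraMap k V.F (a v) * g v,
    fun w hw => atLeast_sum fun v hv => AtLeast.smul (hg v hv w hw) _, fun w hw => ?_⟩
  have hsum : ∀ T : Finset (Place k V.F), T ⊆ S →
      HasValue w (∑ v ∈ T, algebraMap k V.F (a v) * g v)
        (∑ v ∈ T, a v * if w = v then 1 else 0) := by
    intro T hT
    induction T using Finset.induction_on with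
    | empty => simpa using hasValue_algebraMap w (0 : k)
    | insert v T hv ih =>
      rw [Finset.sum_insert hv, Finset.sum_insert hv]
      exact HasValue.add ((hgv v (hT (Finset.mem_insert_self _ _)) w hw).smul _)
        (ih fun x hx => hT (Finset.mem_insert_of_mem hx))
  simpa [hw] using hsum S le_rfl

/-- The complement of a rational point is affine. -/
theorem exists_affine_compl (p : SchemeHomOver (𝟙 (Spec (CommRingCat.of k))) V.str) :
    ∃ U : V.C.Opens, (U : Set V.C) = {p.1 (IsLocalRing.closedPoint k)}ᶜ ∧ IsAffineOpen U := by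
  classical
  set x₀ : V.C := p.1 (IsLocalRing.closedPoint k)
  let U : V.C.Opens := ⟨{x₀}ᶜ, (V.isClosed_image_closedPoint p).isOpen_compl⟩
  refine ⟨U, rfl, ?_⟩
  have hη : genericPoint V.C ∈ U := (V.point_ne_generic p).symm
  obtain ⟨P, hP⟩ := V.exists_place_ctr (V.point_ne_generic p)
  -- affine opens inside `U`
  have hcov : ∀ x ∈ U, ∃ W : V.C.Opens, IsAffineOpen W ∧ x ∈ W ∧ W ≤ U := by
    intro x hx
    obtain ⟨_, ⟨W, hW, rfl⟩, hxW, hWU⟩ :=
      V.C.isBasis_affineOpens.exists_subset_of_mem_open (show x ∈ (U : Set V.C) from hx) U.2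
    exact ⟨W, hW, hxW, hWU⟩
  choose! W hW hxW hWU using hcov
  set W₀ := W (genericPoint V.C)
  let B : Set V.C := {x | x ∈ U ∧ x ∉ W₀}
  have hB : B.Finite := (V.finite_ctrP_not_mem (hxW _ hη)).subset fun x hx => hx.2
  -- the indices
  set J : Finset V.C := insert (genericPoint V.C) hB.toFinset
  have hJU : ∀ j ∈ J, j ∈ U := fun j hj => by
    rcases Finset.mem_insert.1 hj with rfl | hj
    · exact hη
    · exact (hB.mem_toFinset.1 hj).1
  have hJη : genericPoint V.C ∈ J := Finset.mem_insert_self _ _
  -- the points to control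
  have hbad : ∀ j ∈ J, {x : V.C | x ∈ U ∧ x ∉ W j}.Finite := fun j hj =>
    (V.finite_ctrP_not_mem (((genericPoint_spec V.C).specializes trivial).mem_open (W j).2
      (hxW j (hJU j hj)))).subset fun x hx => hx.2
  set T : Finset V.C := J.attach.biUnion fun j => (hbad j.1 j.2).toFinset
  have hT : ∀ x ∈ T, x ∈ U ∧ x ≠ genericPoint V.C := by
    intro x hx
    obtain ⟨j, -, hxj⟩ := Finset.mem_biUnion.1 hx
    obtain ⟨hxU, hxW'⟩ := (hbad j.1 j.2).mem_toFinset.1 hxj
    refine ⟨hxU, fun e => hxW' (e ▸ ?_)⟩
    exact ((genericPoint_spec V.C).specializes trivial).mem_open (W j.1).2 (hxW j.1 (hJU j.1 j.2))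
  haveI : Nonempty (Place k V.F) := ⟨P⟩
  choose! v hv using fun x (hx : x ∈ T) => V.exists_place_ctr (hT x hx).2
  have hidx : ∀ x ∈ T, ∃ j ∈ J, x ∈ W j := fun x hx => by
    by_cases hx0 : x ∈ W₀
    · exact ⟨_, hJη, hx0⟩
    · have hxJ : x ∈ J := Finset.mem_insert_of_mem (hB.mem_toFinset.2 ⟨(hT x hx).1, hx0⟩)
      exact ⟨x, hxJ, hxW x (hJU x hxJ)⟩
  choose! idx hidxJ hidxW using hidx
  have hPS : P ∉ T.image v := fun h => by
    obtain ⟨x, hx, he⟩ := Finset.mem_image.1 h
    have := hv x hx
    rw [he, hP] at this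
    exact (hT x hx).1 this.symm
  choose f hf hfv using fun j : V.C => V.exists_prescribed P (T.image v) hPS
    (fun w => if idx (V.ctrP w) = j then 1 else 0)
  -- the partition of unity
  set J' := J.erase (genericPoint V.C)
  let g : V.C → V.F := fun j =>
    if j = genericPoint V.C then 1 - ∑ i ∈ J', f i else f j
  have hgreg : ∀ j, ∀ z ∈ U, RegAt (X := V.C) z (g j) := by
    intro j z hz
    refine V.regAt_of_places fun w hw => ?_
    have hwP : w ≠ P := fun e => hz (by rw [← hw, e, hP]; exact Set.mem_singleton _)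
    simp only [g]
    split_ifs
    · exact AtLeast.sub (by simpa using atLeast_algebraMap (v := w) (1 : k))
        (atLeast_sum fun i _ => hf i w hwP)
    · exact hf j w hwP
  have hgv : ∀ j ∈ J, ∀ x ∈ T, idx x ≠ j → AtLeast (v x) 1 (g j) := by
    intro j hj x hx hne
    have hval : ∀ i, HasValue (v x) (f i) (if idx x = i then 1 else 0) := fun i => by
      have h := hfv i (v x) (Finset.mem_image_of_mem v hx)
      rwa [hv x hx] at h
    simp only [g]
    split_ifs with hjη
    · have hmem : idx x ∈ J' := Finset.mem_erase.2 ⟨fun e => hne (e.trans hjη.symm), hidxJ x hx⟩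
      refine hasValue_zero_iff.1 ?_
      have hsums : ∀ J₃ : Finset V.C,
          HasValue (v x) (∑ l ∈ J₃, f l) (∑ l ∈ J₃, if idx x = l then (1 : k) else 0) := by
        intro J₃
        induction J₃ using Finset.induction_on with
        | empty => simpa using hasValue_algebraMap (v x) (0 : k)
        | insert l J₄ hl ih =>
          rw [Finset.sum_insert hl, Finset.sum_insert hl]
          exact HasValue.add (hval l) ih
      have hsum := hsums J'
      rw [Finset.sum_ite_eq, if_pos hmem] at hsum
      have h1 := (hasValue_algebraMap (v x) (1 : k)).sub hsum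
      rwa [map_one, sub_self] at h1
    · have h := hval j
      rw [if_neg hne] at h
      exact hasValue_zero_iff.1 h
  -- the sections
  choose a ha using fun j => exists_sec (X := V.C) hη (hgreg j)
  refine isAffineOpen_of_isAffineOpen_basicOpen U (a '' (J : Set V.C)) ?_ ?_
  · rw [Ideal.eq_top_iff_one]
    have h1 : ∑ j ∈ J, a j = 1 := evF_genPt_injective (X := V.C) hη (by
      rw [map_sum, map_one]
      simp only [ha]
      show (∑ j ∈ J, g j : V.F) = 1
      rw [← Finset.add_sum_erase J g hJη]
      simp only [g, if_pos rfl]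
      rw [show ∑ i ∈ J.erase (genericPoint V.C),
          (if i = genericPoint V.C then 1 - ∑ l ∈ J', f l else f i) = ∑ i ∈ J', f i from
        Finset.sum_congr rfl fun i hi => by rw [if_neg (Finset.ne_of_mem_erase hi)]]
      exact sub_add_cancel _ _)
    rw [← h1]
    exact Ideal.sum_mem _ fun j hj => Ideal.subset_span ⟨j, hj, rfl⟩
  · rintro _ ⟨j, hj, rfl⟩
    have hle : V.C.basicOpen (a j) ≤ W j := by
      intro z hz
      have hzU : z ∈ U := V.C.basicOpen_le _ hz
      by_contra hzW
      have hzT : z ∈ T := Finset.mem_biUnion.2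
        ⟨⟨j, hj⟩, Finset.mem_attach _ _, (hbad j hj).mem_toFinset.2 ⟨hzU, hzW⟩⟩
      have hne : idx z ≠ j := fun e => hzW (e ▸ hidxW z hzT)
      have hu : UnitAt (X := V.C) z (g j) := by
        have hu' := (Scheme.mem_basicOpen'' V.C (a j) z).1 hz
        obtain ⟨W', hzW', hle', w, hw⟩ : ∃ (W' : V.C.Opens) (_ : z ∈ W') (hle' : W' ≤ U)
            (w : Γ(V.C, W')ˣ), (w : Γ(V.C, W')) =
              (V.C.presheaf.map (homOfLE hle').op).hom (a j) :=
          ⟨V.C.basicOpen (a j), hz, V.C.basicOpen_le _,
            (RingedSpace.isUnit_res_basicOpen _ (a j)).unit, IsUnit.unit_spec _⟩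
        refine ⟨W', hzW', w, ?_⟩
        rw [coe_evU, hw, evF_res]
        exact ha j
      have h1 := hgv j hj z hzT hne
      have h2 : g j ≠ (0 : V.F) := hu.ne_zero
      rw [atLeast_iff h2] at h1
      have h3 := V.ord_of_unitAt (v := v z) ((hv z hzT).symm ▸ hu)
      omega
    have hjU : W j ≤ U := hWU j (hJU j hj)
    rw [show V.C.basicOpen (a j) =
      V.C.basicOpen ((V.C.presheaf.map (homOfLE hjU).op).hom (a j)) by
        rw [Scheme.basicOpen_res]; exact (inf_eq_right.2 hle).symm]
    exact (hW j (hJU j hj)).basicOpen _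

/-- The curve has a cover by two affines. -/
theorem nonempty_cover : Nonempty V.Cover := by
  obtain ⟨q, hq⟩ := V.exists_second_point
  obtain ⟨U0, h0, ha0⟩ := V.exists_affine_compl V.pt
  obtain ⟨U1, h1, ha1⟩ := V.exists_affine_compl q
  exact ⟨⟨q, U0, U1, hq, h0, h1, ha0, ha1⟩⟩

end Crv

end FA.Jac

end
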