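import Fermat.Agent.AbTors.DivPull
import Fermat.Agent.AbTors.GrowthPull
import Fermat.Agent.AbTors.GrowthChart
import Fermat.Agent.AbTors.LocalStalk
import Fermat.Agent.AbTors.ExtModel
import Fermat.Prelude.Def_AlgebraicGeometry_RelativePicardFunctor
import Mathlib.AlgebraicGeometry.Morphisms.Flat
import Mathlib.LinearAlgebra.TensorProduct.Basis

/-!
# A pointed curve over an algebraically closed field and its base changes

The function field is a function field of one variable; the base change to an algebraically closed
field is again an integral curve.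
-/

set_option autoImplicit false
set_option linter.style.haveILetI false
set_option linter.unusedSectionVars false

noncomputable section

universe u

open CategoryTheory CategoryTheory.Limits AlgebraicGeometry TopologicalSpace
open NeronModelInfra AlgebraicGeometry.RelPicard AlgebraicCurve FA.Curve FA.AbTors
open scoped TensorProduct

namespace FA.Jac

variable {k : Type u} [Field k]

/-- A pointed proper smooth integral curve. -/
structure Crv (k : Type u) [Field k] where
  /-- The curve. -/
  C : Scheme.{u}
  /-- The structure map. -/
  str : C ⟶ Spec (CommRingCat.of k)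
  /-- The rational point. -/
  pt : SchemeHomOver (𝟙 (Spec (CommRingCat.of k))) str
  isProper : IsProper str
  smooth : SmoothOfRelativeDimension 1 str
  isIntegral : IsIntegral C

namespace Crv

variable (V : Crv k)

instance : IsIntegral V.C := V.isIntegral
instance : IsProper V.str := V.isProper
instance : SmoothOfRelativeDimension 1 V.str := V.smooth
instance : Smooth V.str := SmoothOfRelativeDimension.smooth 1 V.str

/-- The function field. -/
def F : Type u := V.C.functionField

instance : Field V.F := inferInstanceAs (Field V.C.functionField)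
instance : Algebra k V.F := (Growth.kHom V.str : k →+* V.C.functionField).toAlgebra

/-- The generic point. -/
def gen : Spec (CommRingCat.of V.F) ⟶ V.C := genPt V.C

theorem gen_str : V.gen ≫ V.str =
    Spec.map (CommRingCat.ofHom ((algebraMap k V.F).comp (RingHom.id k))) :=
  Growth.genPt_comp V.str

/-- The function field is a function field of one variable. -/
theorem isFunctionField : IsFunctionField k V.F := by
  classical
  show @IsFunctionField k V.C.functionField _ _ (Growth.kHom V.str).toAlgebra
  letI algF : Algebra k V.C.functionField := (Growth.kHom V.str).toAlgebra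
  obtain ⟨U, hU, hx, hs⟩ := Growth.exists_chart_dim V.str 1 (genericPoint V.C)
  letI algU := (Loc.sectionsHom V.str U).toAlgebra
  haveI : Nonempty U := ⟨⟨_, hx⟩⟩
  haveI : IsFractionRing Γ(V.C, U) V.C.functionField :=
    functionField_isFractionRing_of_isAffineOpen V.C U hU
  haveI : IsScalarTower k Γ(V.C, U) V.C.functionField :=
    IsScalarTower.of_algebraMap_eq fun c =>
      (((evF_genPt hx _).symm).trans (Growth.evF_sectionsHom V.str hx c)).symm
  obtain ⟨ψ, hψ⟩ :=
    Algebra.IsStandardSmoothOfRelativeDimension.exists_etale_mvPolynomial (n := 1) k Γ(V.C, U)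
  let P := MvPolynomial (Fin 1) k
  letI algPU : Algebra P Γ(V.C, U) := ψ.toRingHom.toAlgebra
  haveI hEt : Algebra.Etale P Γ(V.C, U) := hψ
  have hinjU : Function.Injective (algebraMap P Γ(V.C, U)) := FaithfulSMul.algebraMap_injective _ _
  letI algPF : Algebra P V.C.functionField :=
    ((algebraMap Γ(V.C, U) V.C.functionField).comp (algebraMap P Γ(V.C, U))).toAlgebra
  haveI : IsScalarTower P Γ(V.C, U) V.C.functionField := IsScalarTower.of_algebraMap_eq fun _ => rfl
  have hconst : ∀ c : k, algebraMap P V.C.functionField (MvPolynomial.C c) =
      algebraMap k V.C.functionField c := fun c => by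
    rw [IsScalarTower.algebraMap_apply k Γ(V.C, U) V.C.functionField]
    exact congrArg (algebraMap Γ(V.C, U) V.C.functionField) (ψ.commutes c)
  have hinj : Function.Injective (algebraMap P V.C.functionField) := fun a b hab =>
    hinjU (IsFractionRing.injective Γ(V.C, U) V.C.functionField hab)
  haveI : FaithfulSMul P V.C.functionField := (faithfulSMul_iff_algebraMap_injective _ _).2 hinj
  letI : Algebra (FractionRing P) V.C.functionField := FractionRing.liftAlgebra P V.C.functionField
  haveI : Algebra.FormallyUnramified P V.C.functionField :=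
    haveI := Algebra.FormallyUnramified.of_isLocalization (R := Γ(V.C, U))
      (Rₘ := V.C.functionField) (nonZeroDivisors Γ(V.C, U))
    .comp P Γ(V.C, U) V.C.functionField
  haveI : Algebra.EssFiniteType P V.C.functionField :=
    haveI := Algebra.EssFiniteType.of_isLocalization V.C.functionField (nonZeroDivisors Γ(V.C, U))
    .comp P Γ(V.C, U) V.C.functionField
  haveI : Algebra.FormallyUnramified (FractionRing P) V.C.functionField :=
    .of_restrictScalars P _ _
  haveI : Algebra.EssFiniteType (FractionRing P) V.C.functionField := .of_comp P _ _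
  haveI : FiniteDimensional (FractionRing P) V.C.functionField :=
    Algebra.FormallyUnramified.finite_of_free _ _
  set x : V.C.functionField := algebraMap P V.C.functionField (MvPolynomial.X 0)
  have hx0 : Transcendental k x := by
    rw [transcendental_iff_injective]
    have h1 : (Polynomial.aeval x : Polynomial k →ₐ[k] V.C.functionField).toRingHom =
        (algebraMap P V.C.functionField).comp
          (MvPolynomial.uniqueAlgEquiv k (Fin 1)).symm.toRingEquiv.toRingHom :=
      Polynomial.ringHom_ext (fun a => by simp [hconst]) (by simp [x])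
    exact fun p q hpq => (MvPolynomial.uniqueAlgEquiv k (Fin 1)).symm.injective
      (hinj ((DFunLike.congr_fun h1 p).symm.trans (hpq.trans (DFunLike.congr_fun h1 q))))
  refine ⟨x, hx0, ?_⟩
  set E := IntermediateField.adjoin k ({x} : Set V.C.functionField)
  have hP : ∀ p : P, algebraMap P V.C.functionField p ∈ E := fun p => by
    induction p using MvPolynomial.induction_on with
    | C a => rw [hconst]; exact E.algebraMap_mem a
    | add p q hp hq => rw [map_add]; exact add_mem hp hq
    | mul_X p i hp =>
      rw [map_mul, Subsingleton.elim i 0]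
      exact mul_mem hp (IntermediateField.mem_adjoin_simple_self k x)
  have hFr : ∀ a : FractionRing P, algebraMap (FractionRing P) V.C.functionField a ∈ E :=
    fun a => by
    obtain ⟨p, q, -, rfl⟩ := IsFractionRing.div_surjective (A := P) a
    rw [map_div₀, ← IsScalarTower.algebraMap_apply, ← IsScalarTower.algebraMap_apply]
    exact div_mem (hP p) (hP q)
  let b := Module.finBasis (FractionRing P) V.C.functionField
  refine ⟨⟨Finset.univ.image b, eq_top_iff.2 fun y _ => ?_⟩⟩
  rw [← b.sum_repr y]
  refine Submodule.sum_mem _ fun j _ => ?_
  rw [Algebra.smul_def, show algebraMap (FractionRing P) V.C.functionField (b.repr y j) * b j =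
    (⟨_, hFr (b.repr y j)⟩ : E) • b j from rfl]
  exact Submodule.smul_mem _ _ (Submodule.subset_span (by simp))

variable [IsAlgClosed k]

theorem injective_tensor {k' F' : Type u} [Field k'] [IsAlgClosed k'] [Algebra k k'] [Field F']
    [Algebra k' F'] {φ : V.F →+* F'} (h : FA.PicTors.IsExt (algebraMap k k') φ) :
    ∃ Φ : V.F ⊗[k] k' →+* F', Function.Injective Φ := by
  classical
  letI : Algebra k F' := ((algebraMap k' F').comp (algebraMap k k')).toAlgebra
  haveI : IsScalarTower k k' F' := IsScalarTower.of_algebraMap_eq fun _ => rfl
  let φa : V.F →ₐ[k] F' := { φ with commutes' := h.comm }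
  let Φ : V.F ⊗[k] k' →ₐ[k] F' :=
    Algebra.TensorProduct.productMap φa (IsScalarTower.toAlgHom k k' F')
  refine ⟨Φ.toRingHom, (injective_iff_map_eq_zero _).2 fun z hz => ?_⟩
  let b := Module.Free.chooseBasis k V.F
  obtain ⟨e, rfl⟩ := (TensorProduct.equivFinsuppOfBasisLeft b (N := k')).symm.surjective z
  rw [TensorProduct.equivFinsuppOfBasisLeft_symm_apply, Finsupp.sum] at hz
  have hli : LinearIndependent k' fun j : e.support => φ (b j) :=
    h.linearIndependent (b.linearIndependent.comp _ Subtype.val_injective)
  have h0 : ∀ j : e.support, e j = 0 := Fintype.linearIndependent_iff.1 hli (fun j => e j) (by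
    rw [map_sum, ← Finset.sum_coe_sort] at hz
    refine Eq.trans (Finset.sum_congr rfl fun j _ => ?_) hz
    rw [Algebra.smul_def, mul_comm]
    exact (Algebra.TensorProduct.productMap_apply_tmul φa (IsScalarTower.toAlgHom k k' F') (b j) (e j)).symm)
  have he : e = 0 := Finsupp.support_eq_empty.1 (Finset.eq_empty_of_forall_notMem fun j hj =>
    Finsupp.mem_support_iff.1 hj (h0 ⟨j, hj⟩))
  rw [he, map_zero]

/-- The base change to an algebraically closed field is integral. -/
theorem isIntegral_bc {k' : Type u} [Field k'] [IsAlgClosed k']
    (a : Spec (CommRingCat.of k') ⟶ Spec (CommRingCat.of k)) :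
    IsIntegral (pullback V.str a) := by
  letI : Algebra k k' := (Spec.preimage a).hom.toAlgebra
  have ha : a = Spec.map (CommRingCat.ofHom (algebraMap k k')) := (Spec.map_preimage a).symm
  haveI hfl : Flat a := by
    rw [ha, HasRingHomProperty.Spec_iff (P := @Flat)]
    exact RingHom.flat_algebraMap_iff.2 inferInstance
  haveI : Smooth (pullback.snd V.str a) := inferInstance
  haveI := Loc.isReduced_of_smooth (pullback.snd V.str a)
  obtain ⟨F', _, _, φ, h⟩ := FA.AbTors.extExists k k' V.F (algebraMap k k') V.isFunctionField
  obtain ⟨Φ, hΦ⟩ := V.injective_tensor h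
  haveI : IsDomain (V.F ⊗[k] k') := hΦ.isDomain
  -- the generic fibre
  let e := pullbackSpecIso k V.F k'
  let m : pullback (Spec.map (CommRingCat.ofHom (algebraMap k V.F))) a ⟶ pullback V.str a :=
    pullback.map _ _ _ _ V.gen (𝟙 _) (𝟙 _)
      (by rw [Category.comp_id, V.gen_str, RingHom.comp_id]) (by rw [Category.comp_id, Category.id_comp])
  have hirrG : IrreducibleSpace
      (pullback (Spec.map (CommRingCat.ofHom (algebraMap k V.F))) a : Scheme.{u}) := by
    have e' := (pullback.congrHom rfl ha ≪≫ e)
    haveI : IrreducibleSpace (Spec (CommRingCat.of (V.F ⊗[k] k'))) :=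
      inferInstanceAs (IrreducibleSpace (PrimeSpectrum _))
    exact ((Scheme.homeoOfIso e').symm.surjective.irreducibleSpace
      (Scheme.homeoOfIso e').symm.continuous)
  have hgen : ∀ z, pullback.fst V.str a z = genericPoint V.C → z ∈ Set.range m := fun z hz => by
    rw [show Set.range m = _ from Scheme.Pullback.range_map
      (Spec.map (CommRingCat.ofHom (algebraMap k V.F))) a V.str a V.gen (𝟙 _) (𝟙 _) _ _]
    exact ⟨⟨IsLocalRing.closedPoint V.F, ctr_genPt.trans hz.symm⟩, ⟨_, rfl⟩⟩
  haveI : Flat (pullback.fst V.str a) := inferInstance
  have hdense : closure (Set.range m) = Set.univ := Set.eq_univ_of_forall fun z => by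
    obtain ⟨y, hy, hy'⟩ := Flat.generalizingMap (f := pullback.fst V.str a)
      ((genericPoint_spec V.C).specializes trivial : genericPoint V.C ⤳ pullback.fst V.str a z)
    exact hy.mem_closed isClosed_closure (subset_closure (hgen y hy'))
  have hirr : _root_.IsIrreducible (Set.range m) := by
    rw [← Set.image_univ]
    exact (IrreducibleSpace.isIrreducible_univ _).image _ m.continuous.continuousOn
  haveI : IrreducibleSpace (pullback V.str a : Scheme.{u}) :=
    by rw [irreducibleSpace_def, Set.top_eq_univ, ← hdense]; exact hirr.closure
  exact isIntegral_of_irreducibleSpace_of_isReduced _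

/-- The base change to an algebraically closed field. -/
def bc {k' : Type u} [Field k'] [IsAlgClosed k']
    (a : Spec (CommRingCat.of k') ⟶ Spec (CommRingCat.of k)) : Crv k' where
  C := pullback V.str a
  str := pullback.snd V.str a
  pt := ⟨rigSection V.str a V.pt, pullback.lift_snd _ _ _⟩
  isProper := inferInstance
  smooth := (smoothOfRelativeDimension_isStableUnderBaseChange 1).of_isPullback
    (IsPullback.of_hasPullback V.str a) inferInstance
  isIntegral := V.isIntegral_bc a

/-! ### Degrees -/

/-- The degree of a divisor class. -/
def degCls : AlgebraicCurve.Pic k V.F →+ ℤ :=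
  QuotientAddGroup.lift _ (Divisor.degree (K := k) (F := V.F)) fun D hD => by
    obtain ⟨f, -, hv⟩ := Divisor.mem_principal.1 hD
    have e : D = divOf V.isFunctionField f := Finsupp.ext fun v => by rw [divOf_apply]; exact hv v
    rw [AddMonoidHom.mem_ker, e, degree_divOf]

/-- The divisor class of a class of cocycles. -/
def divCls : FA.AbTors.Pic V.C →+ AlgebraicCurve.Pic k V.F :=
  pullCl (RingHom.id k) V.isFunctionField V.gen V.gen_str

/-- The degree of a class of cocycles. -/
def deg : FA.AbTors.Pic V.C →+ ℤ := V.degCls.comp V.divCls

end Crv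

end FA.Jac

end
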