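import Fermat.Agent.Jac.Props
import Fermat.Agent.Jac.BridgeDefs

/-!
# Assembly

On every geometric fibre, algebraic equivalence to zero is degree zero; hence the representing
scheme of rigidified classes of degree zero represents the cut.
-/

set_option autoImplicit false
set_option linter.style.haveILetI false
set_option linter.unusedSectionVars false
set_option linter.unusedVariables false

noncomputable section

universe u

open CategoryTheory CategoryTheory.Limits AlgebraicGeometry TopologicalSpace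
open NeronModelInfra GoodReductionJacobian AlgebraicGeometry.RelPicard AlgebraicCurve FA.Curve
  FA.AbTors

namespace FA.Jac.Crv

variable {k : Type u} [Field k] [IsAlgClosed k] {V : Crv k} (mp : ModulePic.{u})
variable {T : Scheme.{u}} {t : T ⟶ Spec (CommRingCat.of k)}

theorem rig_cls (M : RigidifiedLineBundle V.str V.pt t) : V.rig t (mp.cls M.L) = 0 := by
  rw [rig, ← mp.cls_pullback _ M.isInvertible, ← mp.cls_unit T]
  exact (mp.iso_iff (M.isInvertible.pullback _) (Scheme.Modules.isInvertible_unit _)).2 M.rigidified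

theorem exists_bundle (p : FA.AbTors.Pic (V.X t)) (hp : V.rig t p = 0) :
    ∃ M : RigidifiedLineBundle V.str V.pt t, mp.cls M.L = p := by
  obtain ⟨L, hL, rfl⟩ := mp.exists_module p
  refine ⟨⟨L, hL, (mp.iso_iff (hL.pullback _) (Scheme.Modules.isInvertible_unit _)).1 ?_⟩, rfl⟩
  rw [mp.cls_pullback _ hL, mp.cls_unit]
  exact hp

section Fibre

variable {k' : Type u} [Field k'] [IsAlgClosed k'] (s : Spec (CommRingCat.of k') ⟶ T)

/-- The two descriptions of a fibre. -/
def fibreIso (t : T ⟶ Spec (CommRingCat.of k)) :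
    pullback (pullback.snd V.str t) s ≅ V.X (s ≫ t) :=
  pullbackLeftPullbackSndIso V.str t s

theorem fibreIso_hom_snd : (fibreIso (V := V) s t).hom ≫ pullback.snd V.str (s ≫ t) =
    fibreAt V.str t s :=
  pullbackLeftPullbackSndIso_hom_snd _ _ _

theorem fibreIso_hom_bcs :
    (fibreIso (V := V) s t).hom ≫ baseChangeSnd V.str (⟨s, rfl⟩ : SchemeHomOver (s ≫ t) t) =
      pullback.fst (pullback.snd V.str t) s := by
  apply pullback.hom_ext
  · simp only [baseChangeSnd, Category.assoc, pullback.lift_fst, Category.comp_id]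
    exact pullbackLeftPullbackSndIso_hom_fst V.str t s
  · simp only [baseChangeSnd, Category.assoc, pullback.lift_snd]
    rw [← Category.assoc, fibreIso_hom_snd]
    exact pullback.condition.symm

theorem fibDeg_eq_zero_of_algEquiv (hdc : V.DegConst) {L : (V.X t).Modules}
    (hL : Scheme.Modules.IsInvertible L)
    (h : IsAlgEquivZero (fibreAt V.str t s)
      ((Scheme.Modules.pullback (pullback.fst (pullback.snd V.str t) s)).obj L)) :
    V.fibDeg (⟨s, rfl⟩ : SchemeHomOver (s ≫ t) t) (mp.cls L) = 0 := by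
  obtain ⟨T', h', hft, hgi, M, hM, t₀, t₁, ⟨e₀⟩, ⟨e₁⟩⟩ := h
  haveI := hgi
  haveI : IsIntegral T' := GeometricallyIntegral.isIntegral_of_subsingleton h'
  let t' : T' ⟶ Spec (CommRingCat.of k) := h' ≫ s ≫ t
  let e := fibreIso (V := V) s t
  let down : V.X t' ⟶ V.X (s ≫ t) := baseChangeSnd V.str (⟨h', rfl⟩ : SchemeHomOver t' (s ≫ t))
  have hdown : down ≫ e.inv ≫ fibreAt V.str t s = pullback.snd V.str t' ≫ h' := by
    rw [← fibreIso_hom_snd, Iso.inv_hom_id_assoc]
    exact pullback.lift_snd _ _ _
  let ε : V.X t' ⟶ pullback (fibreAt V.str t s) h' :=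
    pullback.lift (down ≫ e.inv) (pullback.snd V.str t') (by rw [Category.assoc, hdown])
  let σ : V.X (s ≫ t) ⟶ pullback (fibreAt V.str t s) (𝟙 (Spec (CommRingCat.of k'))) :=
    pullback.lift e.inv (pullback.snd V.str (s ≫ t)) (by
      rw [← fibreIso_hom_snd, Iso.inv_hom_id_assoc, Category.comp_id])
  let pnt : SchemeHomOver (𝟙 (Spec (CommRingCat.of k'))) h' → SchemeHomOver (s ≫ t) t' :=
    fun tt => ⟨tt.1, by rw [← Category.assoc, tt.2, Category.id_comp]⟩
  have hpnt : ∀ tt, baseChangeSnd V.str (pnt tt) ≫ ε =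
      σ ≫ baseChangeSnd (fibreAt V.str t s) tt := fun tt => by
    apply pullback.hom_ext
    · simp only [ε, σ, baseChangeSnd, Category.assoc, pullback.lift_fst, Category.comp_id]
      rw [← Category.assoc, show pullback.map _ _ _ _ _ _ _ _ _ ≫ down =
        𝟙 (V.X (s ≫ t)) from ?_, Category.id_comp]
      show baseChangeSnd V.str (pnt tt) ≫ down = _
      rw [baseChangeSnd_comp, ← baseChangeSnd_id V.str (s ≫ t)]
      exact congrArg (baseChangeSnd V.str) (Subtype.ext tt.2)
    · simp only [ε, σ, baseChangeSnd, Category.assoc, pullback.lift_snd, pullback.lift_snd_assoc]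
      rfl
  let q := Pic.pull ε (mp.cls M)
  have hq : ∀ tt, V.pullP (pnt tt) q =
      Pic.pull σ (mp.cls ((Scheme.Modules.pullback (baseChangeSnd (fibreAt V.str t s) tt)).obj M)) :=
    fun tt => by
    rw [pullP, mp.cls_pullback _ hM, Pic.pull_pull, Pic.pull_pull]
    exact Pic.pull_congr (hpnt tt) _
  have hL' := hL.pullback (pullback.fst (pullback.snd V.str t) s)
  have h0 : V.fibDeg (pnt t₀) q = 0 := by
    show (V.bc (s ≫ t)).deg (V.pullP (pnt t₀) q) = 0
    rw [hq, (mp.iso_iff (hM.pullback _) (Scheme.Modules.isInvertible_unit _)).2 ⟨e₀⟩, mp.cls_unit,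
      map_zero]
    exact map_zero _
  have h1 : V.fibDeg (pnt t₁) q = V.fibDeg (⟨s, rfl⟩ : SchemeHomOver (s ≫ t) t) (mp.cls L) := by
    show (V.bc (s ≫ t)).deg (V.pullP (pnt t₁) q) = (V.bc (s ≫ t)).deg (V.pullP _ (mp.cls L))
    rw [hq, (mp.iso_iff (hM.pullback _) (hL'.pullback _)).2 ⟨e₁⟩, mp.cls_pullback _ hL',
      mp.cls_pullback _ hL, Pic.pull_pull, Pic.pull_pull]
    refine congrArg (V.bc (s ≫ t)).deg (Pic.pull_congr ?_ _)
    rw [pullback.lift_fst, ← fibreIso_hom_bcs, Iso.inv_hom_id_assoc]
  rw [← h1, ← h0]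
  exact hdc T' t' q k' k' _ _ (pnt t₁) (pnt t₀)

theorem algEquiv_of_fibDeg (R : V.RepData) (A : V.AbelData) {L : (V.X t).Modules}
    (hL : Scheme.Modules.IsInvertible L) (hp : mp.cls L ∈ V.P0 t) :
    IsAlgEquivZero (fibreAt V.str t s)
      ((Scheme.Modules.pullback (pullback.fst (pullback.snd V.str t) s)).obj L) := by
  haveI := R.smooth
  haveI := R.geometricallyIntegral A
  let h' := pullback.snd R.j (s ≫ t)
  let t' : pullback R.j (s ≫ t) ⟶ Spec (CommRingCat.of k) := h' ≫ s ≫ t
  let g : SchemeHomOver t' R.j := ⟨pullback.fst _ _, pullback.condition⟩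
  let e := fibreIso (V := V) s t
  let δ : pullback (fibreAt V.str t s) h' ⟶ V.X t' :=
    pullback.lift (pullback.fst (fibreAt V.str t s) h' ≫ e.hom ≫ pullback.fst V.str (s ≫ t))
      (pullback.snd (fibreAt V.str t s) h') (by
        simp only [t', Category.assoc, pullback.condition (f := V.str) (g := s ≫ t)]
        rw [← Category.assoc e.hom, fibreIso_hom_snd]
        exact pullback.condition_assoc (f := fibreAt V.str t s) (g := h') (s ≫ t))
  obtain ⟨M, hM, hMcls⟩ := mp.exists_module (Pic.pull δ (V.map0 g R.cls : V.P0 t').1)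
  let τ : pullback (fibreAt V.str t s) (𝟙 (Spec (CommRingCat.of k'))) ⟶ V.X (s ≫ t) :=
    pullback.fst _ _ ≫ e.hom
  let pnt : ∀ p : V.P0 (s ≫ t), SchemeHomOver (𝟙 (Spec (CommRingCat.of k'))) h' := fun p =>
    ⟨pullback.lift (R.point p).1 (𝟙 _) ((R.point p).2.trans (Category.id_comp _).symm),
      pullback.lift_snd _ _ _⟩
  have hpnt : ∀ p : V.P0 (s ≫ t),
      mp.cls ((Scheme.Modules.pullback (baseChangeSnd (fibreAt V.str t s) (pnt p))).obj M) =
        Pic.pull τ p.1 := fun p => by
    let ψ : SchemeHomOver (s ≫ t) t' :=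
      ⟨(pnt p).1, by rw [← Category.assoc, (pnt p).2, Category.id_comp]⟩
    have hψ : baseChangeSnd (fibreAt V.str t s) (pnt p) ≫ δ = τ ≫ baseChangeSnd V.str ψ := by
      apply pullback.hom_ext
      · simp only [δ, τ, baseChangeSnd, Category.assoc, pullback.lift_fst, pullback.lift_fst_assoc,
          Category.id_comp, Category.comp_id]
      · simp only [δ, τ, baseChangeSnd, Category.assoc, pullback.lift_snd, pullback.lift_snd_assoc]
        rw [← Category.assoc e.hom, fibreIso_hom_snd, ← Category.assoc]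
        exact ((pullback.condition (f := fibreAt V.str t s) (g := 𝟙 _)).trans
          (Category.comp_id _)).symm =≫ (pnt p).1
    have hp' : V.map0 ψ (V.map0 g R.cls) = p := by
      rw [map0_map0]
      refine (V.map0_congr (φ' := R.point p) ?_ _).trans (R.point_spec p)
      exact pullback.lift_fst _ _ _
    rw [mp.cls_pullback _ hM, hMcls, Pic.pull_pull, Pic.pull_congr hψ, ← Pic.pull_pull]
    exact congrArg (Pic.pull τ) (congrArg Subtype.val hp')
  refine ⟨pullback R.j (s ≫ t), h', inferInstance, inferInstance, M, hM, pnt 0,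
    pnt (V.map0 ⟨s, rfl⟩ ⟨_, hp⟩),
    (mp.iso_iff (hM.pullback _) (Scheme.Modules.isInvertible_unit _)).1 ?_,
    (mp.iso_iff (hM.pullback _) ((hL.pullback _).pullback _)).1 ?_⟩
  · rw [hpnt, mp.cls_unit]
    exact map_zero _
  · rw [hpnt, mp.cls_pullback _ (hL.pullback _), mp.cls_pullback _ hL, Pic.pull_pull]
    refine (Pic.pull_pull _ _ _).trans (Pic.pull_congr ?_ _)
    show (pullback.fst _ _ ≫ e.hom) ≫ _ = _
    rw [Category.assoc, fibreIso_hom_bcs]

end Fibre

/-- The cut is degree zero on geometric fibres. -/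
theorem fibrewise_iff (hdc : V.DegConst) (R : V.RepData) (A : V.AbelData)
    (M : RigidifiedLineBundle V.str V.pt t) :
    (algEquivZeroCut V.str V.pt).P t M ↔ mp.cls M.L ∈ V.P0 t := by
  constructor
  · intro h
    refine ⟨rig_cls mp M, fun k' _ _ a ψ => ?_⟩
    obtain ⟨s, rfl⟩ := ψ
    exact fibDeg_eq_zero_of_algEquiv mp s hdc M.isInvertible (h k' s)
  · intro h k' _ _ s
    exact algEquiv_of_fibDeg mp s R A M.isInvertible h

include mp in
/-- The representing scheme represents the cut, and is smooth, proper, geometrically connected. -/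
theorem exists_pic0 (hdc : V.DegConst) (R : V.RepData) (A : V.AbelData) :
    ∃ D : RelativePic0Designation k V.str,
      Nonempty (RepresentsRelSubPic V.str V.pt (algEquivZeroCut V.str V.pt) D) ∧
        Smooth D.toBase ∧ IsProper D.toBase ∧ GeometricallyConnected D.toBase := by
  obtain ⟨P, hP⟩ := exists_bundle mp R.cls.1 R.cls.2.1
  let D : RelativePic0Designation k V.str := ⟨R.J, R.j, (R.point 0).1, (R.point 0).2⟩
  have hg : ∀ {T : Scheme.{u}} {t : T ⟶ Spec (CommRingCat.of k)} (g : SchemeHomOver t D.toBase),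
      mp.cls (P.pullbackAlong g).L = (V.map0 g R.cls).1 := fun g => by
    show mp.cls ((Scheme.Modules.pullback _).obj P.L) = _
    rw [mp.cls_pullback _ P.isInvertible, hP]
    rfl
  refine ⟨D, ⟨{ poincare := P
                poincare_mem := (fibrewise_iff mp hdc R A P).2 (by rw [hP]; exact R.cls.2)
                univ := fun {T} t M hM => ?_
                zero := ?_ }⟩, R.smooth, R.isProper A, R.geometricallyConnected A⟩
  · let p : V.P0 t := ⟨_, (fibrewise_iff mp hdc R A M).1 hM⟩
    refine ⟨R.point p, (mp.iso_iff (P.pullbackAlong _).isInvertible M.isInvertible).1 ?_,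
      fun g h => R.point_ext ?_⟩
    · rw [hg, R.point_spec]
    · have h' := (mp.iso_iff (P.pullbackAlong g).isInvertible M.isInvertible).2 h
      rw [hg] at h'
      rw [R.point_spec]
      exact Subtype.ext h'
  · refine (mp.iso_iff (P.pullbackAlong _).isInvertible
      (RigidifiedLineBundle.unit _).isInvertible).1 ?_
    rw [hg]
    refine Eq.trans ?_ (mp.cls_unit _).symm
    show (V.map0 (R.point 0) R.cls).1 = 0
    rw [R.point_spec]
    rfl

end FA.Jac.Crv

end
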