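import Fermat.Agent.Jac.DictDiv
import Fermat.Agent.AbTors.Ext
import Fermat.Agent.PicTors.ConstExt
import Mathlib.AlgebraicGeometry.PullbackCarrier
import Mathlib.FieldTheory.IsAlgClosed.Basic

/-!
# Divisors and the function field of a base change
-/

set_option autoImplicit false
set_option linter.style.haveILetI false
set_option linter.unusedSectionVars false

noncomputable section

universe u

open CategoryTheory CategoryTheory.Limits AlgebraicGeometry TopologicalSpace
open NeronModelInfra AlgebraicGeometry.RelPicard AlgebraicCurve FA.Curve FA.AbTors FA.ModField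
open FA.PicTors

namespace FA.Jac.Crv

variable {k : Type u} [Field k] [IsAlgClosed k] (V : Crv k)
variable {k' : Type u} [Field k'] [IsAlgClosed k']
variable (a : Spec (CommRingCat.of k') ⟶ Spec (CommRingCat.of k))

/-- The projection of a base change. -/
def bcFst : (V.bc a).C ⟶ V.C := pullback.fst V.str a

theorem bcFst_surjective : Function.Surjective (V.bcFst a) := fun x => by
  obtain ⟨z, hz, -⟩ := Scheme.Pullback.exists_preimage_pullback (f := V.str) (g := a) x
    (IsLocalRing.closedPoint k') (Subsingleton.elim (α := PrimeSpectrum k) _ _)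
  exact ⟨z, hz⟩

theorem bcFst_generic : V.bcFst a (genericPoint (V.bc a).C) = genericPoint V.C := by
  obtain ⟨z, hz⟩ := V.bcFst_surjective a (genericPoint V.C)
  have h1 := (((genericPoint_spec (V.bc a).C).specializes (trivial : z ∈ _))).map
    (V.bcFst a).continuous
  rw [hz] at h1
  exact (h1.antisymm ((genericPoint_spec V.C).specializes trivial)).eq

theorem specMap_comp_a {R : Type u} [CommRing R] (g : k' →+* R) :
    Spec.map (CommRingCat.ofHom g) ≫ a =
      Spec.map (CommRingCat.ofHom (g.comp (Spec.preimage a).hom)) :=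
  (congrArg (Spec.map (CommRingCat.ofHom g) ≫ ·) (Spec.map_preimage a).symm).trans
    (Spec.map_comp _ _).symm

/-- The map of function fields. -/
def bcFF : V.F →+* (V.bc a).F := ffMap (V.bcFst a) (V.bcFst_generic a)

theorem genPt_bcFF :
    Spec.map (CommRingCat.ofHom (V.bcFF a)) ≫ V.gen = (V.bc a).gen ≫ V.bcFst a :=
  (Growth.genPt_ffMap (V.bcFst_generic a)).symm

theorem bcFF_comm (c : k) :
    V.bcFF a (algebraMap k V.F c) =
      algebraMap k' (V.bc a).F ((Spec.preimage a).hom c) := by
  have h : Spec.map (CommRingCat.ofHom ((V.bcFF a).comp (algebraMap k V.F))) =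
      Spec.map (CommRingCat.ofHom
        ((algebraMap k' (V.bc a).F).comp (Spec.preimage a).hom)) := by
    calc Spec.map (CommRingCat.ofHom ((V.bcFF a).comp (algebraMap k V.F)))
        = Spec.map (CommRingCat.ofHom (V.bcFF a)) ≫ V.gen ≫ V.str := by
          rw [V.gen_str, RingHom.comp_id, CommRingCat.ofHom_comp, Spec.map_comp]
      _ = (V.bc a).gen ≫ (V.bc a).str ≫ a := by
          rw [← Category.assoc, genPt_bcFF, Category.assoc]
          exact congrArg ((V.bc a).gen ≫ ·) pullback.condition
      _ = _ := by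
          rw [← Category.assoc, (V.bc a).gen_str, RingHom.comp_id]
          exact specMap_comp_a a _
  exact RingHom.congr_fun (congrArg CommRingCat.Hom.hom (Spec.map_injective h)) c

theorem bcFF_adjoin :
    IntermediateField.adjoin k' (Set.range (V.bcFF a)) = (⊤ : IntermediateField k' (V.bc a).F) := by
  set E := IntermediateField.adjoin k' (Set.range (V.bcFF a))
  let φE : V.F →+* E :=
    (V.bcFF a).codRestrict E fun f => IntermediateField.subset_adjoin k' _ ⟨f, rfl⟩
  have hc : φE.comp (algebraMap k V.F) = (algebraMap k' E).comp (Spec.preimage a).hom :=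
    RingHom.ext fun c => Subtype.ext (V.bcFF_comm a c)
  have hw : (Spec.map (CommRingCat.ofHom φE) ≫ V.gen) ≫ V.str =
      Spec.map (CommRingCat.ofHom (algebraMap k' E)) ≫ a := by
    rw [Category.assoc, V.gen_str, RingHom.comp_id, ← Spec.map_comp, ← CommRingCat.ofHom_comp, hc]
    exact (specMap_comp_a a _).symm
  let y : Spec (CommRingCat.of E) ⟶ (V.bc a).C :=
    pullback.lift (Spec.map (CommRingCat.ofHom φE) ≫ V.gen)
      (Spec.map (CommRingCat.ofHom (algebraMap k' E))) hw
  let incl : E →+* (V.bc a).F := E.val.toRingHom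
  have hy : Spec.map (CommRingCat.ofHom incl) ≫ y = (V.bc a).gen := by
    refine pullback.hom_ext ?_ ?_
    · refine (Category.assoc _ _ _).trans ((congrArg (Spec.map (CommRingCat.ofHom incl) ≫ ·)
        (pullback.lift_fst _ _ _)).trans ?_)
      rw [← Category.assoc, ← Spec.map_comp, ← CommRingCat.ofHom_comp]
      exact V.genPt_bcFF a
    · refine (Category.assoc _ _ _).trans ((congrArg (Spec.map (CommRingCat.ofHom incl) ≫ ·)
        (pullback.lift_snd _ _ _)).trans ?_)
      rw [← Spec.map_comp, ← CommRingCat.ofHom_comp]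
      exact ((V.bc a).gen_str.trans (by rw [RingHom.comp_id]; rfl)).symm
  have hctr : y (IsLocalRing.closedPoint E) = genericPoint (V.bc a).C := by
    refine ((ctr_comp incl y).symm.trans ?_)
    rw [hy]
    exact ctr_genPt
  have hψ : incl.comp (ptFF y hctr) = RingHom.id (V.bc a).F := by
    refine hom_eq_of_specMap_genPt (X := (V.bc a).C) ?_
    have h1 : Spec.map (CommRingCat.ofHom (incl.comp (ptFF y hctr))) =
        Spec.map (CommRingCat.ofHom incl) ≫ Spec.map (CommRingCat.ofHom (ptFF y hctr)) := by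
      rw [CommRingCat.ofHom_comp, Spec.map_comp]
    have h2 : Spec.map (CommRingCat.ofHom (RingHom.id (V.bc a).F)) = 𝟙 _ := by
      rw [CommRingCat.ofHom_id, Spec.map_id]
    refine ((congrArg (· ≫ genPt (V.bc a).C) h1).trans ((Category.assoc _ _ _).trans
      ((congrArg (Spec.map (CommRingCat.ofHom incl) ≫ ·) (specMap_ptFF y hctr)).trans ?_)))
    exact hy.trans ((Category.id_comp _).symm.trans
      (congrArg (· ≫ genPt (V.bc a).C) h2.symm))
  refine eq_top_iff.2 fun z _ => ?_
  have h1 : ((ptFF y hctr z : E) : (V.bc a).F) = z := RingHom.congr_fun hψ z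
  exact h1 ▸ (ptFF y hctr z).2

theorem bcFF_trans :
    ∃ x : V.F, Transcendental k x ∧ Transcendental k' (V.bcFF a x) := by
  obtain ⟨x, hx, -⟩ := id V.isFunctionField
  refine ⟨x, hx, fun halg => ?_⟩
  haveI := V.isFunctionField.finiteDimensional hx
  set B := (algebraMap k' (V.bc a).F).fieldRange
  obtain ⟨c, hc⟩ : V.bcFF a x ∈ (algebraMap k' (V.bc a).F).range :=
    minpoly.mem_range_of_degree_eq_one k' _ (IsAlgClosed.degree_eq_one_of_irreducible k'
      (minpoly.irreducible halg.isIntegral))
  have hmem : ∀ z ∈ IntermediateField.adjoin k ({x} : Set V.F), V.bcFF a z ∈ B := fun z hz => by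
    induction hz using IntermediateField.adjoin_induction with
    | mem y hy => rw [Set.mem_singleton_iff.1 hy]; exact ⟨c, hc⟩
    | algebraMap b => exact ⟨_, (V.bcFF_comm a b).symm⟩
    | add y z _ _ hy hz => rw [map_add]; exact add_mem hy hz
    | inv y _ hy => rw [map_inv₀]; exact inv_mem hy
    | mul y z _ _ hy hz => rw [map_mul]; exact mul_mem hy hz
  let ψ : IntermediateField.adjoin k ({x} : Set V.F) →+* B :=
    ((V.bcFF a).comp (IntermediateField.adjoin k ({x} : Set V.F)).val.toRingHom).codRestrict B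
      fun z => hmem z z.2
  let e : B ≃+* k' := (algebraMap k' (V.bc a).F).rangeRestrictFieldEquiv.symm
  have halgF : ∀ f : V.F, IsIntegral k' (V.bcFF a f) := fun f => by
    refine IsIntegral.map_of_comp_eq (e.toRingHom.comp ψ) (V.bcFF a)
      (RingHom.ext fun z => ?_) (Algebra.IsIntegral.isIntegral (R := IntermediateField.adjoin k
        ({x} : Set V.F)) f)
    show algebraMap k' (V.bc a).F (e (ψ z)) = V.bcFF a (z : V.F)
    exact congrArg Subtype.val
      ((algebraMap k' (V.bc a).F).rangeRestrictFieldEquiv.apply_symm_apply (ψ z))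
  obtain ⟨t, ht, -⟩ := id (V.bc a).isFunctionField
  refine ht ?_
  have hbot : t ∈ (⊥ : IntermediateField k' (V.bc a).F) := by
    have h1 : IntermediateField.adjoin k' (Set.range (V.bcFF a)) ≤ ⊥ := by
      rw [IntermediateField.adjoin_le_iff]
      rintro _ ⟨f, rfl⟩
      exact IntermediateField.mem_bot.2 (minpoly.mem_range_of_degree_eq_one k' _
        (IsAlgClosed.degree_eq_one_of_irreducible k' (minpoly.irreducible (halgF f))))
    exact h1 ((V.bcFF_adjoin a).symm ▸ IntermediateField.mem_top)
  obtain ⟨b, rfl⟩ := IntermediateField.mem_bot.1 hbot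
  exact isAlgebraic_algebraMap b

/-- The function field of a base change is the extension of constants. -/
theorem isExt_bcFF : IsExt (Spec.preimage a).hom (V.bcFF a) :=
  ⟨V.bcFF_comm a, V.bcFF_adjoin a, V.isFunctionField, V.bcFF_trans a⟩

theorem bcFst_cen_up (R : Place k V.F) :
    V.bcFst a ((V.bc a).cen ((V.isExt_bcFF a).up R)) = V.cen R := by
  have hreg : ∀ f : V.F, RegAt (V.bcFst a ((V.bc a).cen ((V.isExt_bcFF a).up R))) f →
      AtLeast R 0 f := fun f hf => by
    have h1 : AtLeast ((V.isExt_bcFF a).up R) 0 (V.bcFF a f) :=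
      regAt_cen_iff.1 (Growth.regAt_ffMap (V.bcFst_generic a) hf)
    rcases h1 with h1 | h1
    · exact Or.inl ((map_eq_zero (V.bcFF a)).1 h1)
    · exact Or.inr (by rwa [(V.isExt_bcFF a).ord_up] at h1)
  obtain ⟨f, hf, hoff⟩ := exists_pole_only V.isFunctionField R
  have hnot : ¬AtLeast R 0 f := fun h => by
    rw [atLeast_iff (fun e => by simp [e] at hf)] at h; omega
  obtain he | ⟨Q, hQ⟩ := eq_generic_or_cen (V.bcFst a ((V.bc a).cen ((V.isExt_bcFF a).up R)))
  · exact absurd (hreg f (he ▸ regAt_generic f)) hnot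
  · have hQR : Q = R := by
      by_contra hne
      exact hnot (hreg f (hQ ▸ regAt_cen_iff.2 (Or.inr (hoff Q hne))))
    rw [← hQ, hQR]

theorem dv_pull_fst (c : Coc V.C) :
    (V.bc a).dv (c.pull (V.bcFst a)) = (V.isExt_bcFF a).pull (V.dv c) := by
  refine Finsupp.ext fun P => ?_
  have e : (V.bc a).dv (c.pull (V.bcFst a)) P =
      P.ord (V.bcFF a (c.rat (V.bcFst a ((V.bc a).cen P)) (ctr V.gen))) := by
    rw [dv_apply, (V.bc a).ctr_gen, Growth.rat_pull_eq (V.bcFst_generic a), V.ctr_gen]
    rfl
  rw [e]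
  by_cases hP : ∃ R, P = (V.isExt_bcFF a).up R
  · obtain ⟨R, rfl⟩ := hP
    rw [(V.isExt_bcFF a).pull_up, dv_apply, bcFst_cen_up]
    exact (V.isExt_bcFF a).ord_up R _
  · push Not at hP
    rw [(V.isExt_bcFF a).pull_of_notMem _ hP]
    exact (V.isExt_bcFF a).ord_eq_zero hP _

/-- The function field of a base change and its divisors. -/
theorem bcHolds : V.BcHolds := fun _ _ _ a =>
  ⟨V.bcFF a, V.isExt_bcFF a, V.genPt_bcFF a, fun c => V.dv_pull_fst a c⟩

theorem genus_bc : FA.Curve.genus k' (V.bc a).F = FA.Curve.genus k V.F :=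
  genus_map (V.isExt_bcFF a)

theorem deg_pull_fst (p : FA.AbTors.Pic V.C) :
    (V.bc a).deg (FA.AbTors.Pic.pull (V.bcFst a) p) = V.deg p := by
  obtain ⟨c, rfl⟩ := FA.AbTors.Pic.mk_surjective p
  rw [FA.AbTors.Pic.pull_mk, deg_mk, deg_mk, dv_pull_fst, IsExt.degree_pull]

end FA.Jac.Crv

end
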