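import Fermat.Agent.Jac.Defs
import Mathlib.AlgebraicGeometry.Sites.Representability
import Mathlib.CategoryTheory.Limits.Types.Pullbacks
import Mathlib.FieldTheory.IsAlgClosed.AlgebraicClosure

/-!
# Representability from charts

The functor of rigidified classes of degree zero is a Zariski sheaf covered by open subfunctors
given by the charts.
-/

set_option autoImplicit false
set_option linter.style.haveILetI false
set_option linter.unusedSectionVars false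
set_option linter.unusedVariables false

noncomputable section

universe u

open CategoryTheory CategoryTheory.Limits AlgebraicGeometry TopologicalSpace Opposite
open NeronModelInfra AlgebraicGeometry.RelPicard AlgebraicCurve FA.Curve FA.AbTors

namespace FA.Jac

/-- A geometric point over a point. -/
theorem exists_geometric_point {T : Scheme.{u}} (x : T) :
    ∃ (k' : Type u) (_ : Field k') (_ : IsAlgClosed k') (ψ : Spec (CommRingCat.of k') ⟶ T),
      ψ (IsLocalRing.closedPoint k') = x :=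
  ⟨AlgebraicClosure (T.residueField x), inferInstance, inferInstance,
    Spec.map (CommRingCat.ofHom (algebraMap (T.residueField x)
      (AlgebraicClosure (T.residueField x)))) ≫ T.fromSpecResidueField x, by
      rw [Scheme.Hom.comp_apply]
      exact T.fromSpecResidueField_apply x _⟩

/-- A morphism to an open factors through a smaller scheme. -/
theorem lift_range_opens {T Y : Scheme.{u}} (f : Y ⟶ T) [IsOpenImmersion f] {W : T.Opens}
    (h : W ≤ f.opensRange) : ∃ m : (W : Scheme.{u}) ⟶ Y, m ≫ f = W.ι :=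
  ⟨IsOpenImmersion.lift f W.ι (by rw [Scheme.Opens.range_ι]; exact h),
    IsOpenImmersion.lift_fac _ _ _⟩

namespace Crv

variable {k : Type u} [Field k] [IsAlgClosed k] (V : Crv k)

variable {T T' T'' : Scheme.{u}} {t : T ⟶ Spec (CommRingCat.of k)}
  {t' : T' ⟶ Spec (CommRingCat.of k)} {t'' : T'' ⟶ Spec (CommRingCat.of k)}

theorem map0_map0 (φ : SchemeHomOver t' t) (ψ : SchemeHomOver t'' t') (p : V.P0 t) :
    V.map0 ψ (V.map0 φ p) = V.map0 (postComp φ ψ) p :=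
  Subtype.ext (V.pullP_pullP φ ψ p)

theorem map0_congr {φ φ' : SchemeHomOver t' t} (h : φ.1 = φ'.1) (p : V.P0 t) :
    V.map0 φ p = V.map0 φ' p := by
  rw [Subtype.ext h]

theorem map0_id (h : 𝟙 T ≫ t = t) (p : V.P0 t) : V.map0 ⟨𝟙 T, h⟩ p = p :=
  Subtype.ext (V.pullP_id p.1)

/-- Classes agreeing on a cover agree. -/
theorem sep0 (hglue : V.GlueHolds) {ι : Type u} (U : ι → T.Opens) (hU : (⨆ i, U i) = ⊤)
    {p q : V.P0 t} (h : ∀ i, V.map0 (incl t (U i)) p = V.map0 (incl t (U i)) q) : p = q :=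
  (hglue T t ι U hU (fun i => V.map0 (incl t (U i)) p) fun i j T' t' ψi ψj e => by
    rw [map0_map0, map0_map0]; exact V.map0_congr e p).unique (fun _ => rfl) fun i => (h i).symm

/-- A class with its parameters. -/
def El (T : Scheme.{u}) : Type u := Σ t : T ⟶ Spec (CommRingCat.of k), V.P0 t

/-- Restriction. -/
def res0 (φ : T' ⟶ T) (e : V.El T) : V.El T' := ⟨φ ≫ e.1, V.map0 ⟨φ, rfl⟩ e.2⟩

theorem res0_eq_iff {φ : T' ⟶ T} {e : V.El T} {q : V.P0 t'} :
    V.res0 φ e = (⟨t', q⟩ : V.El T') ↔ ∃ h : φ ≫ e.1 = t', V.map0 ⟨φ, h⟩ e.2 = q := by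
  constructor
  · intro h
    obtain ⟨h1, h2⟩ := Sigma.mk.inj_iff.1 h
    subst h1
    exact ⟨rfl, eq_of_heq h2⟩
  · rintro ⟨rfl, rfl⟩
    rfl

theorem res0_res0 (φ : T' ⟶ T) (φ' : T'' ⟶ T') (e : V.El T) :
    V.res0 φ' (V.res0 φ e) = V.res0 (φ' ≫ φ) e := by
  refine V.res0_eq_iff.2 ⟨(Category.assoc _ _ _).symm, ?_⟩
  show V.map0 _ (V.map0 _ e.2) = _
  rw [map0_map0]
  exact V.map0_congr rfl _

theorem res0_id (e : V.El T) : V.res0 (𝟙 T) e = e :=
  V.res0_eq_iff.2 ⟨Category.id_comp _, V.map0_id _ _⟩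

/-- The functor of rigidified classes of degree zero. -/
def fun0 : Scheme.{u}ᵒᵖ ⥤ Type u where
  obj T := V.El T.unop
  map φ := TypeCat.ofHom (V.res0 φ.unop)
  map_id T := TypeCat.homEquiv.injective (funext fun e => V.res0_id e)
  map_comp φ χ := TypeCat.homEquiv.injective (funext fun e => (V.res0_res0 _ _ e).symm)

theorem fun0_isSheaf (hglue : V.GlueHolds) :
    Presheaf.IsSheaf Scheme.zariskiTopology V.fun0 := by
  rw [isSheaf_iff_isSheaf_of_type, Precoverage.isSheaf_toGrothendieck_iff_of_isStableUnderBaseChange]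
  rintro T S hS x hx
  obtain ⟨(𝓤 : Scheme.OpenCover T), rfl⟩ := Scheme.exists_cover_of_mem_pretopology hS
  let e : ∀ i, V.El (𝓤.X i) := fun i => x (𝓤.f i) (.mk i)
  have hc : ∀ (i j : 𝓤.I₀) (Z : Scheme.{u}) (gi : Z ⟶ 𝓤.X i) (gj : Z ⟶ 𝓤.X j),
      gi ≫ 𝓤.f i = gj ≫ 𝓤.f j → V.res0 gi (e i) = V.res0 gj (e j) :=
    fun i j Z gi gj h => hx gi gj (.mk i) (.mk j) h
  let t : T ⟶ Spec (CommRingCat.of k) := 𝓤.glueMorphisms (fun i => (e i).1) fun i j =>
    congrArg Sigma.fst (hc i j _ _ _ pullback.condition)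
  have ht : ∀ i, 𝓤.f i ≫ t = (e i).1 := fun i => 𝓤.ι_glueMorphisms _ _ i
  let jx : T → 𝓤.I₀ := fun z => (𝓤.exists_eq z).choose
  let U : T → T.Opens := fun z => (𝓤.f (jx z)).opensRange
  have hU : (⨆ z, U z) = ⊤ := eq_top_iff.2 fun z _ => Opens.mem_iSup.2
    ⟨z, (𝓤.exists_eq z).choose_spec⟩
  choose m hm using fun z => lift_range_opens (𝓤.f (jx z)) (le_refl (U z))
  let q : ∀ z, V.P0 ((U z).ι ≫ t) := fun z =>
    V.map0 ⟨m z, by rw [← ht, ← Category.assoc, hm]⟩ (e (jx z)).2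
  obtain ⟨p, hp, -⟩ := hglue T t T U hU q fun z z' Z s ψ ψ' h => by
    obtain ⟨h0, h1⟩ := V.res0_eq_iff.1 (hc (jx z) (jx z') Z (ψ.1 ≫ m z) (ψ'.1 ≫ m z')
      (by rw [Category.assoc, Category.assoc, hm, hm, h]))
    simp only [q, map0_map0]
    have h2 := congrArg (V.map0 (t := (ψ'.1 ≫ m z') ≫ (e (jx z')).1) (t' := s)
      ⟨𝟙 Z, by rw [Category.id_comp, Category.assoc, ← ht, ← Category.assoc (m z'), hm, ψ'.2]⟩) h1
    rw [map0_map0, map0_map0] at h2
    refine ((V.map0_congr ?_ _).trans h2).trans (V.map0_congr ?_ _)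
    · simp [postComp]
    · simp [postComp]
  refine ⟨⟨t, p⟩, ?_, ?_⟩
  · rintro Z _ ⟨i⟩
    refine V.res0_eq_iff.2 ⟨ht i, ?_⟩
    refine V.sep0 hglue (fun z => 𝓤.f i ⁻¹ᵁ U z) (eq_top_iff.2 fun y _ => Opens.mem_iSup.2
      ⟨𝓤.f i y, (𝓤.exists_eq _).choose_spec⟩) fun z => ?_
    let r : ((𝓤.f i ⁻¹ᵁ U z : (𝓤.X i).Opens) : Scheme.{u}) ⟶ U z := 𝓤.f i ∣_ U z
    have hr : r ≫ (U z).ι = (𝓤.f i ⁻¹ᵁ U z).ι ≫ 𝓤.f i := morphismRestrict_ι _ _
    obtain ⟨h0, h1⟩ := V.res0_eq_iff.1 (hc (jx z) i _ (r ≫ m z) ((𝓤.f i ⁻¹ᵁ U z).ι)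
      (by rw [Category.assoc, hm, hr]))
    show V.map0 _ (V.map0 _ p) = V.map0 (incl (e i).1 _) (e i).2
    rw [map0_map0]
    refine (V.map0_congr (φ' := postComp (incl t (U z)) ⟨r, by
      rw [← Category.assoc, hr, Category.assoc, ht]⟩) hr.symm p).trans ?_
    rw [← map0_map0, hp z]
    simp only [q, map0_map0]
    exact (V.map0_congr rfl _).trans h1
  · rintro ⟨t₁, p₁⟩ hp₁
    have h1 : ∀ i, V.res0 (𝓤.f i) ⟨t₁, p₁⟩ = e i := fun i => hp₁ (𝓤.f i) (.mk i)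
    have htt : t₁ = t := 𝓤.hom_ext _ _ fun i => (congrArg Sigma.fst (h1 i)).trans (ht i).symm
    subst htt
    refine congrArg (Sigma.mk t) (V.sep0 hglue U hU fun z => ?_)
    obtain ⟨h0, h2⟩ := V.res0_eq_iff.1 (h1 (jx z))
    rw [hp z]
    simp only [q]
    rw [← h2, map0_map0]
    exact V.map0_congr (hm z).symm _

/-! ### Charts -/

variable {V} (D : V.ChartData)

theorem ChartData.inj' (i : D.ι) (g g' : SchemeHomOver t (D.h i))
    (h : V.map0 g (D.cls i) = V.map0 g' (D.cls i)) : g = g' := by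
  refine Subtype.ext (Scheme.hom_ext_of_forall _ _ fun x => ?_)
  obtain ⟨_, ⟨W, hW, rfl⟩, hxW, -⟩ :=
    T.isBasis_affineOpens.exists_subset_of_mem_open (Set.mem_univ x) isOpen_univ
  refine ⟨W, hxW, ?_⟩
  let ψ : SchemeHomOver (hW.fromSpec ≫ t) t := ⟨hW.fromSpec, rfl⟩
  have h1 := D.inj i _ (hW.fromSpec ≫ t) (postComp g ψ) (postComp g' ψ)
    (by rw [← map0_map0, ← map0_map0, h])
  rw [← cancel_epi hW.isoSpec.inv, ← Category.assoc, ← Category.assoc, hW.isoSpec_inv_ι]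
  exact congrArg Subtype.val h1

/-- An open on which the class lies in the chart. -/
def ChartData.Good (i : D.ι) (p : V.P0 t) (W : T.Opens) : Prop :=
  ∃ g : SchemeHomOver (W.ι ≫ t) (D.h i), V.map0 g (D.cls i) = V.map0 (incl t W) p

theorem ChartData.exists_good (p : V.P0 t) {k' : Type u} [Field k'] [IsAlgClosed k']
    (ψ : Spec (CommRingCat.of k') ⟶ T) (i : D.ι) (g' : SchemeHomOver (ψ ≫ t) (D.h i))
    (h : V.map0 g' (D.cls i) = V.map0 ⟨ψ, rfl⟩ p) :
    ∃ W : T.Opens, ψ (IsLocalRing.closedPoint k') ∈ W ∧ D.Good i p W := by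
  obtain ⟨_, ⟨W, hW, rfl⟩, hxW, -⟩ := T.isBasis_affineOpens.exists_subset_of_mem_open
    (Set.mem_univ (ψ (IsLocalRing.closedPoint k'))) isOpen_univ
  have hr : Set.range ψ ⊆ Set.range hW.fromSpec := by
    rintro _ ⟨y, rfl⟩
    rw [hW.range_fromSpec, Subsingleton.elim y (IsLocalRing.closedPoint k')]
    exact hxW
  let ψ' := IsOpenImmersion.lift hW.fromSpec ψ hr
  have hψ' : ψ' ≫ hW.fromSpec = ψ := IsOpenImmersion.lift_fac _ _ _
  let ψA : SchemeHomOver (ψ ≫ t) (hW.fromSpec ≫ t) := ⟨ψ', by rw [← Category.assoc, hψ']⟩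
  obtain ⟨U, hU, g, hg⟩ := D.lift i _ (hW.fromSpec ≫ t) (V.map0 ⟨hW.fromSpec, rfl⟩ p) k'
    (ψ ≫ t) ψA g' (h.trans (((V.map0_map0 _ _ p).trans (V.map0_congr hψ' p)).symm))
  refine ⟨hW.fromSpec ''ᵁ U, ⟨_, hU, ?_⟩, ?_⟩
  · exact (Scheme.Hom.comp_apply ψ' hW.fromSpec _).symm.trans
      (congrArg (fun f : Spec (CommRingCat.of k') ⟶ T => f (IsLocalRing.closedPoint k')) hψ')
  · obtain ⟨m, hm⟩ := lift_range_opens (U.ι ≫ hW.fromSpec) (W := hW.fromSpec ''ᵁ U) (by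
      rintro _ ⟨y, hy, rfl⟩
      exact ⟨⟨y, hy⟩, rfl⟩)
    let mo : SchemeHomOver ((hW.fromSpec ''ᵁ U).ι ≫ t) (U.ι ≫ hW.fromSpec ≫ t) :=
      ⟨m, by rw [← hm, Category.assoc, Category.assoc]⟩
    refine ⟨postComp g mo, ?_⟩
    rw [← map0_map0, hg, map0_map0, map0_map0]
    exact V.map0_congr ((Category.assoc _ _ _).symm.trans (by simpa [postComp, incl, mo] using hm)) p

theorem ChartData.exists_good_cover (p : V.P0 t) (x : T) :
    ∃ (i : D.ι) (W : T.Opens), x ∈ W ∧ D.Good i p W := by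
  obtain ⟨k', _, _, ψ, rfl⟩ := exists_geometric_point x
  obtain ⟨i, g, hg⟩ := D.cover k' (ψ ≫ t) (V.map0 ⟨ψ, rfl⟩ p)
  exact ⟨i, D.exists_good p ψ i g hg⟩

/-- The largest open on which the class lies in the chart. -/
theorem ChartData.exists_max_good (hglue : V.GlueHolds) (i : D.ι) (p : V.P0 t) :
    ∃ U : T.Opens, D.Good i p U ∧ ∀ W, D.Good i p W → W ≤ U := by
  let S := {W : T.Opens | D.Good i p W}
  let U : T.Opens := sSup S
  refine ⟨U, ?_, fun W hW => le_sSup hW⟩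
  have hx : ∀ x : U.toScheme, ∃ W : T.Opens, x.1 ∈ W ∧ D.Good i p W := fun x => by
    obtain ⟨W, hW, hxW⟩ := Opens.mem_sSup.1 x.2
    exact ⟨W, hxW, hW⟩
  choose W hxW g hg using hx
  have hle : ∀ x, W x ≤ U := fun x => le_sSup ⟨g x, hg x⟩
  let O : U.toScheme → U.toScheme.Opens := fun x => U.ι ⁻¹ᵁ W x
  have hO : (⨆ x, O x) = ⊤ := eq_top_iff.2 fun x _ => Opens.mem_iSup.2 ⟨x, hxW x⟩
  let r : ∀ x, SchemeHomOver ((O x).ι ≫ U.ι ≫ t) ((W x).ι ≫ t) := fun x =>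
    ⟨U.ι ∣_ W x, by rw [← Category.assoc, morphismRestrict_ι, Category.assoc]⟩
  let 𝓤 := U.toScheme.openCoverOfIsOpenCover O hO
  have hov : ∀ x y, pullback.fst (𝓤.f x) (𝓤.f y) ≫ (postComp (g x) (r x)).1 =
      pullback.snd (𝓤.f x) (𝓤.f y) ≫ (postComp (g y) (r y)).1 := fun x y => by
    let a : SchemeHomOver (pullback.fst (𝓤.f x) (𝓤.f y) ≫ (O x).ι ≫ U.ι ≫ t)
        ((O x).ι ≫ U.ι ≫ t) := ⟨_, rfl⟩
    let b : SchemeHomOver (pullback.fst (𝓤.f x) (𝓤.f y) ≫ (O x).ι ≫ U.ι ≫ t)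
        ((O y).ι ≫ U.ι ≫ t) := ⟨pullback.snd (𝓤.f x) (𝓤.f y),
      ((pullback.condition (f := 𝓤.f x) (g := 𝓤.f y)) =≫ (U.ι ≫ t)).symm.trans
        (by rfl)⟩
    refine congrArg Subtype.val (D.inj' i (postComp (postComp (g x) (r x)) a)
      (postComp (postComp (g y) (r y)) b) ?_)
    rw [← map0_map0, ← map0_map0, ← map0_map0, ← map0_map0, hg, hg, map0_map0, map0_map0,
      map0_map0, map0_map0]
    refine V.map0_congr ?_ p
    simp only [postComp, r, a, b, incl, Category.assoc, morphismRestrict_ι]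
    exact pullback.condition_assoc (f := 𝓤.f x) (g := 𝓤.f y) _
  let G := 𝓤.glueMorphisms (fun x => (postComp (g x) (r x)).1) hov
  have hG : ∀ x, (O x).ι ≫ G = (postComp (g x) (r x)).1 := fun x => 𝓤.ι_glueMorphisms _ _ x
  have hGh : G ≫ D.h i = U.ι ≫ t := 𝓤.hom_ext _ _ fun x => by
    show (O x).ι ≫ G ≫ D.h i = (O x).ι ≫ U.ι ≫ t
    rw [← Category.assoc, hG]
    exact (postComp (g x) (r x)).2
  refine ⟨⟨G, hGh⟩, V.sep0 hglue O hO fun x => ?_⟩
  rw [map0_map0, map0_map0]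
  refine (V.map0_congr (φ' := postComp (g x) (r x)) (hG x) _).trans ?_
  rw [← map0_map0, hg, map0_map0]
  exact V.map0_congr (by simp [postComp, r, incl, O]) p

variable (V)

/-- The chart as a map of functors. -/
def ChartData.toFun0 (i : D.ι) : yoneda.obj (D.H i) ⟶ V.fun0 :=
  yonedaEquiv.symm (⟨D.h i, D.cls i⟩ : V.El (D.H i))

theorem ChartData.isOpen (hglue : V.GlueHolds) (i : D.ι) :
    IsOpenImmersion.presheaf (D.toFun0 V i) := by
  refine MorphismProperty.relative.of_exists fun T g => ?_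
  obtain ⟨⟨t, p⟩, rfl⟩ := yonedaEquiv.symm.surjective g
  obtain ⟨U, ⟨gU, hgU⟩, hmax⟩ := D.exists_max_good hglue i p
  refine ⟨U, yoneda.map gU.1, U.ι, IsPullback.of_forall_isPullback_app fun Z => ?_, inferInstance⟩
  refine (Types.isPullback_iff _ _ _ _).2 ⟨?_, fun c c' h => ?_,
    fun (a : Z.unop ⟶ D.H i) (b : Z.unop ⟶ T) h => ?_⟩
  · refine TypeCat.homEquiv.injective (funext fun c => ?_)
    show V.res0 (c ≫ gU.1) ⟨D.h i, D.cls i⟩ = V.res0 (c ≫ U.ι) ⟨t, p⟩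
    rw [← res0_res0, ← res0_res0]
    refine congrArg (V.res0 c) ?_
    refine V.res0_eq_iff.2 ⟨gU.2, ?_⟩
    exact hgU
  · exact (cancel_mono U.ι).1 h.2
  · change V.res0 a ⟨D.h i, D.cls i⟩ = V.res0 b ⟨t, p⟩ at h
    obtain ⟨h0, h1⟩ := V.res0_eq_iff.1 h
    have hb : Set.range b ⊆ Set.range U.ι := by
      rintro _ ⟨z, rfl⟩
      rw [Scheme.Opens.range_ι]
      obtain ⟨k', _, _, ψ, rfl⟩ := exists_geometric_point z
      obtain ⟨W, hW, hWg⟩ := D.exists_good p (ψ ≫ b) i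
        ⟨ψ ≫ a, (Category.assoc _ _ _).trans ((congrArg (ψ ≫ ·) h0).trans
          (Category.assoc _ _ _).symm)⟩ (by
          have h2 := congrArg (V.map0 (⟨ψ, (Category.assoc ψ b t).symm⟩ :
            SchemeHomOver ((ψ ≫ b) ≫ t) (b ≫ t))) h1
          rw [map0_map0, map0_map0] at h2
          exact (V.map0_congr rfl _).trans (h2.trans (V.map0_congr rfl _)))
      rw [Scheme.Hom.comp_apply] at hW
      exact hmax W hWg hW
    let c := IsOpenImmersion.lift U.ι b hb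
    have hc : c ≫ U.ι = b := IsOpenImmersion.lift_fac _ _ _
    refine ⟨c, congrArg Subtype.val (D.inj' i (t := b ≫ t)
      (postComp gU ⟨c, by rw [← Category.assoc, hc]⟩) ⟨a, h0⟩ ?_), hc⟩
    rw [← map0_map0, hgU, map0_map0, h1]
    exact V.map0_congr hc p

theorem ChartData.locallySurjective :
    Presheaf.IsLocallySurjective Scheme.zariskiTopology (Sigma.desc fun i => D.toFun0 V i) := by
  refine ⟨fun {T} e => ?_⟩
  obtain ⟨t, p⟩ := e
  rw [Scheme.mem_grothendieckTopology_iff]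
  choose i W hxW g hg using D.exists_good_cover p
  refine ⟨T.openCoverOfIsOpenCover W (eq_top_iff.2 fun x _ => Opens.mem_iSup.2 ⟨x, hxW x⟩), ?_⟩
  rintro Z _ ⟨x⟩
  refine ⟨(Sigma.ι (fun j => yoneda.obj (D.H j)) (i x)).app _ (g x).1, ?_⟩
  refine (congrArg (fun α : yoneda.obj (D.H (i x)) ⟶ V.fun0 => α.app _ (g x).1)
    (Sigma.ι_desc (fun j => D.toFun0 V j) (i x))).trans ?_
  show V.res0 (g x).1 ⟨D.h (i x), D.cls (i x)⟩ = V.res0 (W x).ι ⟨t, p⟩
  exact V.res0_eq_iff.2 ⟨(g x).2, hg x⟩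

/-- The representing scheme. -/
theorem repData (hglue : V.GlueHolds) (D : V.ChartData) : Nonempty V.RepData := by
  let F : Sheaf Scheme.zariskiTopology.{u} (Type u) := ⟨V.fun0, V.fun0_isSheaf hglue⟩
  let f : ∀ i, yoneda.obj (D.H i) ⟶ F.1 := fun i => D.toFun0 V i
  have hf : ∀ i, IsOpenImmersion.presheaf (f i) := fun i => D.isOpen V hglue i
  haveI : Presheaf.IsLocallySurjective Scheme.zariskiTopology (Sigma.desc f) :=
    D.locallySurjective V
  let R := Scheme.LocalRepresentability.representableBy hf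
  let J := (Scheme.LocalRepresentability.glueData hf).glued
  let e₀ : V.El J := R.homEquiv (𝟙 J)
  have hR : ∀ {T : Scheme.{u}} (g : T ⟶ J), R.homEquiv g = V.res0 g e₀ := fun g => by
    rw [R.homEquiv_eq]; rfl
  have hι : ∀ i, V.res0 ((Scheme.LocalRepresentability.glueData hf).ι i) e₀ =
      ⟨D.h i, D.cls i⟩ := fun i => by
    rw [← hR]
    exact (Scheme.LocalRepresentability.yonedaGluedToSheaf_app_toGlued hf (i := i)).trans
      (Equiv.apply_symm_apply _ _)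
  refine ⟨{ J := J, j := e₀.1, smooth := ?_, cls := e₀.2, univ := fun T t p => ?_ }⟩
  · rw [IsZariskiLocalAtSource.iff_of_openCover (P := @Smooth)
      (Scheme.LocalRepresentability.glueData hf).openCover]
    intro i
    show Smooth ((Scheme.LocalRepresentability.glueData hf).ι i ≫ e₀.1)
    rw [show (Scheme.LocalRepresentability.glueData hf).ι i ≫ e₀.1 = D.h i from
      congrArg Sigma.fst (hι i)]
    exact D.smooth i
  · let g₀ : T ⟶ J := R.homEquiv.symm (⟨t, p⟩ : V.El T)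
    obtain ⟨h0, h1⟩ := V.res0_eq_iff.1 ((hR g₀).symm.trans (R.homEquiv.apply_symm_apply _))
    refine ⟨⟨g₀, h0⟩, h1, fun g hg => Subtype.ext ?_⟩
    refine (Equiv.eq_symm_apply _).2 ((hR g.1).trans ?_)
    exact V.res0_eq_iff.2 ⟨g.2, hg⟩

end Crv

end FA.Jac

end
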