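import Fermat.Agent.Jac.Basic
import Fermat.Agent.Jac.DictBc
import Fermat.Agent.Jac.CoverPts
import Fermat.Agent.Jac.Rep
import Mathlib.Topology.LocallyConstant.Basic

/-!
# Degrees on geometric fibres are locally constant

A class of large degree at a geometric point is nonspecial there; near the point its sections are
free of constant rank, and the rank determines the degree.
-/

set_option autoImplicit false
set_option linter.style.haveILetI false
set_option linter.unusedSectionVars false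

noncomputable section

universe u

open CategoryTheory CategoryTheory.Limits AlgebraicGeometry TopologicalSpace
open NeronModelInfra AlgebraicGeometry.RelPicard AlgebraicCurve FA.Curve FA.AbTors

namespace FA.Jac.Crv

variable {k : Type u} [Field k] [IsAlgClosed k] (V : Crv k)

/-- A class of degree one. -/
theorem exists_degOne : ∃ e : FA.AbTors.Pic V.C, V.deg e = 1 := by
  obtain ⟨v, -⟩ := V.exists_place_ctr (V.point_ne_generic V.pt)
  refine ⟨FA.AbTors.Pic.mk (divCoc (Finsupp.single v (1 : ℤ))), ?_⟩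
  rw [deg_mk, dv_divCoc]
  simp [V.isFunctionField.deg_eq_one]

variable {T : Scheme.{u}} {t : T ⟶ Spec (CommRingCat.of k)}

/-- The fibre degree of a constant class. -/
theorem fibDeg_constCls {k' : Type u} [Field k'] [IsAlgClosed k']
    {a : Spec (CommRingCat.of k') ⟶ Spec (CommRingCat.of k)} (ψ : SchemeHomOver a t)
    (p : FA.AbTors.Pic V.C) :
    V.fibDeg ψ (FA.AbTors.Pic.pull (pullback.fst V.str t) p) = V.deg p := by
  refine Eq.trans ?_ (V.deg_pull_fst a p)
  show (V.bc a).deg (FA.AbTors.Pic.pull (baseChangeSnd V.str ψ)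
    (FA.AbTors.Pic.pull (pullback.fst V.str t) p)) = _
  rw [Pic.pull_pull]
  exact congrArg (V.bc a).deg
    (Pic.pull_congr ((pullback.lift_fst _ _ _).trans (Category.comp_id _)) p)

/-- The fibre degree depends only on the morphism. -/
theorem fibDeg_congr {k' : Type u} [Field k'] [IsAlgClosed k']
    {a a' : Spec (CommRingCat.of k') ⟶ Spec (CommRingCat.of k)} (ψ : SchemeHomOver a t)
    (ψ' : SchemeHomOver a' t) (h : ψ.1 = ψ'.1) (p : FA.AbTors.Pic (V.X t)) :
    V.fibDeg ψ p = V.fibDeg ψ' p := by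
  have e : a = a' := ψ.2.symm.trans (h ▸ ψ'.2)
  subst e
  rw [Subtype.ext h]

theorem secVal_add (c : Coc V.C) (s s' : Sec c ⊤) :
    V.secVal c (s + s') = V.secVal c s + V.secVal c s' :=
  map_add _ _ _

/-- The value of a section as a homomorphism. -/
def secValHom (c : Coc V.C) : Sec c ⊤ →+ V.F := AddMonoidHom.mk' (V.secVal c) (V.secVal_add c)

/-- The value of a multiple of a section. -/
theorem secVal_smulF (c : Coc V.C) (x : Γ(V.C, ⊤)) (s : Sec c ⊤) :
    V.secVal c (Sec.smulF x s) =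
      evF V.gen ⊤ (gen_le (z := genericPoint V.C) trivial) x * V.secVal c s := by
  refine (map_mul _ _ _).trans (congrArg₂ (· * ·) ?_ rfl)
  rw [rsF_eq_map]
  exact evF_res _ _ _ _

/-- The value of a scalar on a geometric fibre. -/
theorem evF_scalar {k' : Type u} [Field k'] [IsAlgClosed k']
    (a : Spec (CommRingCat.of k') ⟶ Spec (CommRingCat.of k)) (x : k') :
    evF (V.bc a).gen ⊤ (gen_le (z := genericPoint (V.bc a).C) trivial) (V.scalar a x) =
      algebraMap k' (V.bc a).F x :=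
  Growth.evF_sectionsHom (V.bc a).str (U := ⊤) (q := genericPoint (V.bc a).C) (Opens.mem_top _) x

/-- The rank of a frame and the degree at a geometric point. -/
theorem rank_eq (Cv : V.Cover) (hfi : V.FieldHolds) {A : Type u} [CommRing A]
    (a : Spec (CommRingCat.of A) ⟶ Spec (CommRingCat.of k)) (c : Coc (V.X a)) {r : ℕ}
    (s : Fin r → Sec c ⊤) (hs : V.IsFrame a Cv c s) {k' : Type u} [Field k'] [IsAlgClosed k']
    (φ : A →+* k') :
    (r : ℤ) = V.fibDeg (ringOver a φ) (FA.AbTors.Pic.mk c) + 1 - FA.Curve.genus k V.F := by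
  let a' := Spec.map (CommRingCat.ofHom φ) ≫ a
  let c' : Coc (V.bc a').C := c.pull (baseChangeSnd V.str (ringOver a φ))
  obtain ⟨hns, hbij⟩ := hs k' φ
  obtain ⟨hiff, hinj, hrange⟩ := hfi Cv k' a' c'
  have hell := hiff.1 hns
  let w : Fin r → (V.bc a').F := fun j => (V.bc a').secVal c' (V.secMap a φ c (s j))
  let L : (Fin r → k') →ₗ[k'] (V.bc a').F := Fintype.linearCombination k' w
  have hL : ∀ x, L x = (V.bc a').secVal c' (V.comb (fun j => V.secMap a φ c (s j)) x) := fun x => by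
    show _ = (V.bc a').secValHom c' (∑ j, Sec.smulF (V.scalar a' (x j)) (V.secMap a φ c (s j)))
    rw [map_sum, Fintype.linearCombination_apply]
    refine Finset.sum_congr rfl fun j _ => ?_
    rw [Algebra.smul_def, ← V.evF_scalar a' (x j)]
    exact ((V.bc a').secVal_smulF c' (V.scalar a' (x j)) (V.secMap a φ c (s j))).symm
  have hLinj : Function.Injective L := fun x y hxy =>
    hbij.1 (hinj ((hL x).symm.trans (hxy.trans (hL y))))
  have hLrange : LinearMap.range L = riemannRochSpace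
      (pullDiv (RingHom.id k') (V.bc a').isFunctionField (V.bc a').gen (V.bc a').gen_str c') := by
    refine SetLike.coe_injective (Eq.trans ?_ hrange)
    ext z
    constructor
    · rintro ⟨x, rfl⟩
      exact ⟨_, (hL x).symm⟩
    · rintro ⟨σ, rfl⟩
      obtain ⟨x, rfl⟩ := hbij.2 σ
      exact ⟨x, hL x⟩
  have hr : (r : ℤ) = ell
      (pullDiv (RingHom.id k') (V.bc a').isFunctionField (V.bc a').gen (V.bc a').gen_str c') := by
    rw [ell, ← hLrange, LinearMap.finrank_range_of_inj hLinj, Module.finrank_fin_fun]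
  rw [hr, hell]
  rfl

/-- Near every point the degree on geometric fibres is constant. -/
theorem exists_nhd_fibDeg (Cv : V.Cover) (hfr : V.FrameHolds) (hfi : V.FieldHolds) (p : FA.AbTors.Pic (V.X t))
    (x : T) : ∃ W : T.Opens, x ∈ W ∧ ∃ n : ℤ, ∀ (k' : Type u) [Field k'] [IsAlgClosed k']
      (a : Spec (CommRingCat.of k') ⟶ Spec (CommRingCat.of k)) (ψ : SchemeHomOver a t),
      ψ.1 (IsLocalRing.closedPoint k') ∈ W → V.fibDeg ψ p = n := by
  obtain ⟨U, hU, hxU, -⟩ := exists_isAffineOpen_mem_and_subset (U := (⊤ : T.Opens)) (x := x) trivial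
  let A : Type u := Γ(T, U)
  let a : Spec (CommRingCat.of A) ⟶ Spec (CommRingCat.of k) := hU.fromSpec ≫ t
  let φ : SchemeHomOver a t := ⟨hU.fromSpec, rfl⟩
  obtain ⟨y, hy⟩ : x ∈ Set.range hU.fromSpec := by rw [hU.range_fromSpec]; exact hxU
  obtain ⟨k₀, _, _, ψ₀, hψ₀⟩ := exists_geometric_point (T := Spec (CommRingCat.of A)) y
  let ψ₀' : SchemeHomOver (ψ₀ ≫ a) a := ⟨ψ₀, rfl⟩
  obtain ⟨e, he⟩ := V.exists_degOne
  obtain ⟨th, hth⟩ := exists_threshold (V.bc (ψ₀ ≫ a)).isFunctionField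
  let m : ℤ := th - V.fibDeg ψ₀' (V.pullP φ p)
  let q : FA.AbTors.Pic (V.X a) :=
    V.pullP φ p + m • FA.AbTors.Pic.pull (pullback.fst V.str a) e
  have hq : ∀ {k' : Type u} [Field k'] [IsAlgClosed k']
      {a' : Spec (CommRingCat.of k') ⟶ Spec (CommRingCat.of k)} (ψ : SchemeHomOver a' a),
      V.fibDeg ψ q = V.fibDeg ψ (V.pullP φ p) + m := by
    intro k' _ _ a' ψ
    rw [map_add, map_zsmul, fibDeg_constCls, he, smul_eq_mul, mul_one]
  obtain ⟨c, hc⟩ := FA.AbTors.Pic.mk_surjective q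
  have hd : V.fibDeg ψ₀' q = th := by rw [hq]; ring
  have hns : Cv.Nonspecial (ψ₀ ≫ a) (c.pull (baseChangeSnd V.str ψ₀')) := by
    refine ((hfi Cv k₀ (ψ₀ ≫ a) (c.pull (baseChangeSnd V.str ψ₀'))).1).2 ?_
    refine (hth _ (le_of_eq ?_)).trans (by rw [V.genus_bc])
    rw [← hd, ← hc]
    rfl
  obtain ⟨f, hf, r, s, hs⟩ := hfr Cv A a c k₀ (ψ₀ ≫ a) ψ₀' hns
  let D : (Spec (CommRingCat.of A)).Opens := PrimeSpectrum.basicOpen f
  refine ⟨hU.fromSpec ''ᵁ D, ⟨y, hψ₀ ▸ hf, hy⟩, (r : ℤ) - 1 + FA.Curve.genus k V.F - m, ?_⟩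
  intro k' _ _ a' ψ hψ
  obtain ⟨z, hz, hzψ⟩ := hψ
  have hrange : Set.range ψ.1 ⊆ Set.range hU.fromSpec := by
    rintro _ ⟨w, rfl⟩
    exact ⟨z, hzψ.trans (congrArg ψ.1 (Subsingleton.elim (α := PrimeSpectrum k') _ _))⟩
  let ψ' : Spec (CommRingCat.of k') ⟶ Spec (CommRingCat.of A) :=
    IsOpenImmersion.lift hU.fromSpec ψ.1 hrange
  have hfac : ψ' ≫ hU.fromSpec = ψ.1 := IsOpenImmersion.lift_fac _ _ _
  have hmem : ψ' (IsLocalRing.closedPoint k') ∈ D := by
    have e2 : hU.fromSpec (ψ' (IsLocalRing.closedPoint k')) = hU.fromSpec z :=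
      ((congrArg (fun g : Spec (CommRingCat.of k') ⟶ T => g (IsLocalRing.closedPoint k'))
        hfac).trans hzψ.symm)
    rwa [hU.fromSpec.isOpenEmbedding.injective e2]
  let φ' : A →+* k' := (Spec.preimage ψ').hom
  have hunit : IsUnit (φ' f) := by
    refine isUnit_iff_ne_zero.2 fun h0 => ?_
    rw [← Spec.map_preimage ψ'] at hmem
    exact hmem (show φ' f ∈ (IsLocalRing.closedPoint k').asIdeal by rw [h0]; exact zero_mem _)
  let φA : Localization.Away f →+* k' := IsLocalization.Away.lift f hunit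
  let ψ'' := postComp (ringOver a (algebraMap A (Localization.Away f)))
    (ringOver (Spec.map (CommRingCat.ofHom (algebraMap A (Localization.Away f))) ≫ a) φA)
  have h1 := V.rank_eq Cv hfi _ _ s hs φA
  rw [← FA.AbTors.Pic.pull_mk, hc] at h1
  have h2 : V.fibDeg ψ'' q = (r : ℤ) - 1 + FA.Curve.genus k V.F := by
    rw [← V.fibDeg_pullP]
    simp only [pullP]
    linarith
  have h3 : ψ''.1 ≫ hU.fromSpec = ψ.1 := by
    rw [← hfac]
    refine congrArg (· ≫ hU.fromSpec) ?_
    show Spec.map (CommRingCat.ofHom φA) ≫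
      Spec.map (CommRingCat.ofHom (algebraMap A (Localization.Away f))) = ψ'
    rw [← Spec.map_comp, ← CommRingCat.ofHom_comp, IsLocalization.Away.lift_comp]
    exact Spec.map_preimage ψ'
  rw [hq, V.fibDeg_pullP, V.fibDeg_congr (postComp φ ψ'') ψ h3 p] at h2
  linarith

/-- Degrees are constant on connected bases. -/
theorem degConst (hfr : V.FrameHolds) (hfi : V.FieldHolds) (Cv : V.Cover) : V.DegConst := by
  intro T t _ p k₁ k₂ _ _ _ _ a₁ a₂ ψ₁ ψ₂
  choose W hW n hn using V.exists_nhd_fibDeg Cv hfr hfi p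
  have key : ∀ (k' : Type u) [Field k'] [IsAlgClosed k']
      (a : Spec (CommRingCat.of k') ⟶ Spec (CommRingCat.of k)) (ψ : SchemeHomOver a t),
      V.fibDeg ψ p = n (ψ.1 (IsLocalRing.closedPoint k')) := fun k' _ _ a ψ =>
    hn _ k' a ψ (hW _)
  have hloc : IsLocallyConstant n := by
    refine (IsLocallyConstant.iff_exists_open n).2 fun x => ⟨W x, (W x).2, hW x, fun y hy => ?_⟩
    obtain ⟨k', _, _, ψ, rfl⟩ := exists_geometric_point y
    exact (key k' _ (⟨ψ, rfl⟩ : SchemeHomOver (ψ ≫ t) t)).symm.trans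
      (hn x k' _ (⟨ψ, rfl⟩ : SchemeHomOver (ψ ≫ t) t) hy)
  rw [key, key]
  exact hloc.apply_eq_of_preconnectedSpace _ _

end FA.Jac.Crv

end
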