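import Fermat.Agent.Jac.DictPlace
import Fermat.Agent.Jac.Defs

/-!
# Classes of cocycles are classes of divisors

The cocycle of a divisor is built from local equations: near a point the divisor is the divisor of
a rational function.
-/

set_option autoImplicit false
set_option linter.style.haveILetI false
set_option linter.unusedSectionVars false

noncomputable section

universe u

open CategoryTheory CategoryTheory.Limits AlgebraicGeometry TopologicalSpace
open NeronModelInfra AlgebraicCurve FA.Curve FA.AbTors FA.ModField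

namespace FA.Jac.Crv

variable {k : Type u} [Field k] [IsAlgClosed k] (V : Crv k)

/-- The divisor of a cocycle. -/
abbrev dv (c : Coc V.C) : Divisor k V.F :=
  pullDiv (RingHom.id k) V.isFunctionField V.gen V.gen_str c

theorem dv_apply (c : Coc V.C) (v : Place k V.F) :
    V.dv c v = v.ord (c.rat (V.cen v) (ctr V.gen)) := rfl

theorem dv_mul (c d : Coc V.C) : V.dv (c * d) = V.dv c + V.dv d :=
  Finsupp.ext fun v => pullDiv_mul (RingHom.id k) V.gen V.gen_str c d v

theorem dv_inv (c : Coc V.C) : V.dv c⁻¹ = -V.dv c := by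
  refine eq_neg_of_add_eq_zero_left (Finsupp.ext fun v => ?_)
  have hq : genericPoint V.C ∈ (c⁻¹ * c).U (V.cen v) ⊓ (c⁻¹ * c).U (ctr V.gen) :=
    ⟨genericPoint_mem ((c⁻¹ * c).mem _), genericPoint_mem ((c⁻¹ * c).mem _)⟩
  rw [← V.dv_mul, dv_apply, (c⁻¹ * c).rat_eq_at inf_le_left inf_le_right hq, Coc.mul_at,
    Coc.inv_at, inv_mul_cancel, map_one, Units.val_one, Finsupp.zero_apply]
  exact v.ord_one

theorem divCls_mk (c : Coc V.C) :
    V.divCls (FA.AbTors.Pic.mk c) = QuotientAddGroup.mk (V.dv c) := rfl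

theorem deg_mk (c : Coc V.C) : V.deg (FA.AbTors.Pic.mk c) = Divisor.degree (V.dv c) := rfl

variable {V}

theorem exists_unit {W : V.C.Opens} (hW : genericPoint V.C ∈ W) {n : V.F}
    (h : ∀ q ∈ W, UnitAt q n) :
    ∃ w : Γ(V.C, W)ˣ, (evU (genPt V.C) W (gen_le hW) w : V.C.functionField) = n := by
  obtain ⟨a, ha⟩ := exists_sec hW fun q hq => (h q hq).regAt
  obtain ⟨b, hb⟩ := exists_sec hW fun q hq => (h q hq).inv.regAt
  have hn : n ≠ 0 := (h _ hW).ne_zero
  have hab : a * b = 1 := evF_genPt_injective hW (by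
    rw [map_mul, map_one, ha, hb]; exact mul_inv_cancel₀ hn)
  exact ⟨⟨a, b, hab, mul_comm a b ▸ hab⟩, ha⟩

theorem unit_ext {W : V.C.Opens} {a b : Γ(V.C, W)ˣ}
    (h : ∀ (q : V.C) (hq : q ∈ W), (evU (genPt V.C) W (gen_le hq) a : V.C.functionField) =
      evU (genPt V.C) W (gen_le hq) b) : a = b := by
  by_cases hW : ∃ q, q ∈ W
  · obtain ⟨q, hq⟩ := hW
    exact Units.ext (evF_genPt_injective hq (h q hq))
  · exact Units.ext (@Subsingleton.elim _ (sec_subsingleton fun q hq => hW ⟨q, hq⟩) _ _)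

theorem exists_eqn (D : Divisor k V.F) (x : V.C) : ∃ N : V.F, N ≠ 0 ∧
    (x = ctr V.gen → N = 1) ∧ ∀ v : Place k V.F, V.cen v = x → v.ord N = D v := by
  by_cases hx : ∃ v, V.cen v = x
  · obtain ⟨v, rfl⟩ := hx
    obtain ⟨π, hπ⟩ := exists_uniformizer v
    have hπ0 : π ≠ 0 := fun e => by simp [e] at hπ
    refine ⟨π ^ D v, zpow_ne_zero _ hπ0, fun e => absurd (e.trans V.ctr_gen) (cen_ne v),
      fun w hw => ?_⟩
    rw [cen_injective hw, v.ord_zpow, hπ, mul_one]
  · exact ⟨1, one_ne_zero, fun _ => rfl, fun v hv => absurd ⟨v, hv⟩ hx⟩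

/-- A local equation of a divisor. -/
def eqn (D : Divisor k V.F) (x : V.C) : V.F := (exists_eqn D x).choose

theorem finite_bad (D : Divisor k V.F) (x : V.C) :
    {v : Place k V.F | v.ord (eqn D x) ≠ D v}.Finite :=
  (D.support.finite_toSet.union (finite_support V.isFunctionField (eqn D x))).subset fun v hv => by
    by_contra h
    simp only [Set.mem_union, SetLike.mem_coe, Finsupp.mem_support_iff, Set.mem_ofPred_eq, not_or,
      not_not] at h
    exact hv (h.2.trans h.1.symm)

/-- The open where the local equation holds. -/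
def eqnOpen (D : Divisor k V.F) (x : V.C) : V.C.Opens := avoid (finite_bad D x).toFinset

theorem mem_eqnOpen (D : Divisor k V.F) (x : V.C) : x ∈ eqnOpen D x := by
  obtain rfl | ⟨v, rfl⟩ := eq_generic_or_cen x
  · exact generic_mem_avoid _
  · refine cen_mem_avoid.2 fun h => ?_
    exact ((finite_bad D _).mem_toFinset.1 h) ((exists_eqn D _).choose_spec.2.2 v rfl)

theorem unitAt_div_eqn (D : Divisor k V.F) (x y q : V.C) (hx : q ∈ eqnOpen D x)
    (hy : q ∈ eqnOpen D y) : UnitAt q (eqn D x / eqn D y) := by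
  have h0 : ∀ z, eqn D z ≠ 0 := fun z => (exists_eqn D z).choose_spec.1
  obtain rfl | ⟨v, rfl⟩ := eq_generic_or_cen q
  · exact unitAt_generic (div_ne_zero (h0 x) (h0 y))
  · have h1 : ∀ z, V.cen v ∈ eqnOpen D z → v.ord (eqn D z) = D v := fun z hz => by
      by_contra hne
      exact cen_mem_avoid.1 hz ((finite_bad D z).mem_toFinset.2 hne)
    rw [V.unitAt_cen_iff (div_ne_zero (h0 x) (h0 y)), div_eq_mul_inv,
      v.ord_mul (h0 x) (inv_ne_zero (h0 y)), v.ord_inv, h1 x hx, h1 y hy, add_neg_cancel]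

/-- The transition function of a divisor. -/
def eqnUnit (D : Divisor k V.F) (x y : V.C) : Γ(V.C, eqnOpen D x ⊓ eqnOpen D y)ˣ :=
  (exists_unit (W := eqnOpen D x ⊓ eqnOpen D y) ⟨generic_mem_avoid _, generic_mem_avoid _⟩
    fun q hq => unitAt_div_eqn D x y q hq.1 hq.2).choose

theorem eqnUnit_spec (D : Divisor k V.F) (x y : V.C) :
    (evU (genPt V.C) (eqnOpen D x ⊓ eqnOpen D y)
      (gen_le (z := genericPoint V.C) ⟨generic_mem_avoid _, generic_mem_avoid _⟩)
      (eqnUnit D x y) : V.C.functionField) = eqn D x / eqn D y :=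
  (exists_unit (W := eqnOpen D x ⊓ eqnOpen D y) ⟨generic_mem_avoid _, generic_mem_avoid _⟩
    fun q hq => unitAt_div_eqn D x y q hq.1 hq.2).choose_spec

/-- The cocycle of a divisor. -/
def divCoc (D : Divisor k V.F) : Coc V.C where
  U := eqnOpen D
  mem := mem_eqnOpen D
  g := eqnUnit D
  cocycle x y z W hx hy hz := unit_ext fun q hq => by
    rw [map_mul, Units.val_mul, evU_uRes, evU_uRes, evU_uRes, eqnUnit_spec, eqnUnit_spec,
      eqnUnit_spec]
    exact (div_mul_div_cancel₀ (exists_eqn D y).choose_spec.1).symm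

theorem dv_divCoc (D : Divisor k V.F) : V.dv (divCoc D) = D := by
  refine Finsupp.ext fun v => ?_
  rw [dv_apply]
  refine (congrArg v.ord (eqnUnit_spec D (V.cen v) (ctr V.gen))).trans ?_
  show v.ord (eqn D (V.cen v) / eqn D (ctr V.gen)) = D v
  rw [show eqn D (ctr V.gen) = 1 from (exists_eqn D _).choose_spec.2.1 rfl, div_one]
  exact (exists_eqn D _).choose_spec.2.2 v rfl

theorem unitAt_rat_mul {c : Coc V.C} {f : V.F} (hf : f ≠ 0) {v : Place k V.F}
    (h : V.dv c v + v.ord f = 0) :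
    UnitAt (V.cen v) (c.rat (V.cen v) (ctr V.gen) * (show V.C.functionField from f)) := by
  let r : V.F := c.rat (V.cen v) (ctr V.gen)
  have hr : r ≠ 0 := c.rat_ne_zero _ _
  show UnitAt (V.cen v) (r * f)
  refine (V.unitAt_cen_iff (mul_ne_zero hr hf)).2 ?_
  rw [v.ord_mul hr hf]
  exact h

variable (V) in
theorem divCls_injective : Function.Injective V.divCls := by
  rw [injective_iff_map_eq_zero]
  intro p hp
  obtain ⟨c, rfl⟩ := FA.AbTors.Pic.mk_surjective p
  rw [divCls_mk, QuotientAddGroup.eq_zero_iff] at hp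
  obtain ⟨f, hf, hv⟩ := Divisor.mem_principal.1 hp
  refine IsTriv.mk_eq_zero (N := (f⁻¹ : V.F)) ⟨inv_ne_zero hf, fun q _ => ?_⟩
  rw [show genericPoint V.C = ctr V.gen from V.ctr_gen.symm]
  obtain rfl | ⟨v, rfl⟩ := eq_generic_or_cen q
  · exact unitAt_generic (mul_ne_zero (c.rat_ne_zero _ _) (inv_ne_zero hf))
  · exact unitAt_rat_mul (inv_ne_zero hf) (by rw [v.ord_inv, hv v, add_neg_cancel])

variable (V) in
theorem divCls_surjective : Function.Surjective V.divCls := fun p => by
  obtain ⟨D, rfl⟩ := QuotientAddGroup.mk_surjective p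
  exact ⟨FA.AbTors.Pic.mk (divCoc D), by rw [divCls_mk, dv_divCoc]⟩

end FA.Jac.Crv

namespace FA.Jac.Crv

/-- Classes of cocycles are classes of divisors. -/
theorem divHolds {k : Type u} [Field k] [IsAlgClosed k] (V : Crv k) : V.DivHolds :=
  ⟨V.divCls_injective, V.divCls_surjective⟩

end FA.Jac.Crv

end
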