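import Fermat.Agent.Jac.DictDiv
import Fermat.Agent.Jac.Basic

/-!
# Sections over an open are the functions with bounded poles there
-/

set_option autoImplicit false
set_option linter.style.haveILetI false
set_option linter.unusedSectionVars false

noncomputable section

universe u

open CategoryTheory CategoryTheory.Limits AlgebraicGeometry TopologicalSpace
open NeronModelInfra AlgebraicCurve FA.Curve FA.AbTors FA.ModField

namespace FA.Jac.Crv

variable {k : Type u} [Field k] (V : Crv k)

theorem evF_rsF {U U' : V.C.Opens} (h : U' ≤ U) (hU' : genericPoint V.C ∈ U') (a : Γ(V.C, U)) :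
    evF (genPt V.C) U' (gen_le hU') (rsF h a) =
      evF (genPt V.C) U (gen_le (h hU')) a := by
  rw [rsF_eq_map]; exact evF_res _ h _ a

theorem fun_ext {W : V.C.Opens} {a b : Γ(V.C, W)}
    (h : ∀ hW : genericPoint V.C ∈ W,
      evF (genPt V.C) W (gen_le hW) a = evF (genPt V.C) W (gen_le hW) b) : a = b := by
  by_cases hW : ∃ q, q ∈ W
  · obtain ⟨q, hq⟩ := hW
    exact evF_genPt_injective hq (h (genericPoint_mem hq))
  · exact @Subsingleton.elim _ (sec_subsingleton fun q hq => hW ⟨q, hq⟩) _ _

variable {V} {c : Coc V.C} {W : V.C.Opens}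

theorem gen_mem_inf (hW : genericPoint V.C ∈ W) (x : V.C) : genericPoint V.C ∈ W ⊓ c.U x :=
  ⟨hW, genericPoint_mem (c.mem x)⟩

variable (c) in
/-- The value at the generic point of a section over an open. -/
def secValW (hW : genericPoint V.C ∈ W) : Sec c W →+ V.F :=
  AddMonoidHom.mk' (fun s => (evF (genPt V.C) (W ⊓ c.U (ctr V.gen))
      (gen_le (z := genericPoint V.C) (gen_mem_inf hW _)) (s.1 (ctr V.gen)) : V.C.functionField))
    fun s t => map_add _ (s.1 _) (t.1 _)

theorem secValW_top (s : Sec c (⊤ : V.C.Opens)) (h : genericPoint V.C ∈ (⊤ : V.C.Opens)) :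
    secValW c h s = V.secVal c s := rfl

/-- The value at the generic point of each component. -/
theorem evF_sec (hW : genericPoint V.C ∈ W) (s : Sec c W) (x : V.C) :
    evF (genPt V.C) (W ⊓ c.U x) (gen_le (z := genericPoint V.C) (gen_mem_inf hW x)) (s.1 x) =
      c.rat x (ctr V.gen) * (show V.C.functionField from secValW c hW s) := by
  let O : V.C.Opens := W ⊓ (c.U x ⊓ c.U (ctr V.gen))
  have hO : genericPoint V.C ∈ O :=
    ⟨hW, genericPoint_mem (c.mem x), genericPoint_mem (c.mem _)⟩
  have h := congrArg (evF (genPt V.C) O (gen_le hO))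
    (s.2 x (ctr V.gen) O inf_le_left (inf_le_right.trans inf_le_left)
      (inf_le_right.trans inf_le_right))
  rw [map_mul, V.evF_rsF _ hO, V.evF_rsF _ hO, ← coe_evU, ← c.rat_eq_at _ _ hO] at h
  exact h

theorem secValW_injective (hW : genericPoint V.C ∈ W) : Function.Injective (secValW c hW) :=
  fun s t h => Subtype.ext (funext fun x => V.fun_ext fun _ =>
    (evF_sec hW s x).trans ((congrArg (fun f : V.F =>
      c.rat x (ctr V.gen) * (show V.C.functionField from f)) h).trans (evF_sec hW t x).symm))

theorem secValW_res {W' : V.C.Opens} (hle : W' ≤ W) (hW' : genericPoint V.C ∈ W') (s : Sec c W) :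
    secValW c hW' (Sec.res hle s) = secValW c (hle hW') s :=
  V.evF_rsF _ (gen_mem_inf hW' _) (s.1 (ctr V.gen))

variable [IsAlgClosed k]

theorem atLeast_zero_mul {v : Place k V.F} {r f : V.F} (hr : r ≠ 0) :
    AtLeast v 0 (r * f) ↔ AtLeast v (-v.ord r) f := by
  rcases eq_or_ne f 0 with rfl | hf
  · simp [atLeast_zero]
  · rw [atLeast_iff (mul_ne_zero hr hf), atLeast_iff hf, v.ord_mul hr hf]
    omega

theorem regAt_rat_mul_iff (v : Place k V.F) (f : V.F) :
    RegAt (V.cen v) (c.rat (V.cen v) (ctr V.gen) * (show V.C.functionField from f)) ↔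
      AtLeast v (-V.dv c v) f := by
  let r : V.F := c.rat (V.cen v) (ctr V.gen)
  show RegAt (V.cen v) (r * f) ↔ AtLeast v (-v.ord r) f
  rw [regAt_cen_iff, atLeast_zero_mul (c.rat_ne_zero _ _ : r ≠ 0)]

/-- The values of the sections over an open. -/
theorem mem_range_secValW (hW : genericPoint V.C ∈ W) {f : V.F} :
    f ∈ Set.range (secValW c hW) ↔
      ∀ v : Place k V.F, V.cen v ∈ W → AtLeast v (-V.dv c v) f := by
  constructor
  · rintro ⟨s, rfl⟩ v hv
    exact (regAt_rat_mul_iff v _).1 ⟨W ⊓ c.U (V.cen v), ⟨hv, c.mem _⟩, s.1 (V.cen v),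
      evF_sec hW s (V.cen v)⟩
  · intro hf
    have hreg : ∀ (x q : V.C), q ∈ W ⊓ c.U x →
        RegAt q (c.rat x (ctr V.gen) * (show V.C.functionField from f)) := by
      intro x q hq
      obtain rfl | ⟨v, rfl⟩ := eq_generic_or_cen q
      · exact regAt_generic _
      · rw [c.rat_mul x (V.cen v), mul_assoc]
        exact Growth.regAt_mul (c.unitAt_rat hq.2 (c.mem _)).regAt
          ((regAt_rat_mul_iff v f).2 (hf v hq.1))
    choose a ha using fun x : V.C =>
      exists_sec (R := W ⊓ c.U x) (gen_mem_inf hW x) (hreg x)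
    refine ⟨⟨a, fun x y O hO hx hy => V.fun_ext fun hη => ?_⟩, ?_⟩
    · rw [map_mul, V.evF_rsF _ hη, V.evF_rsF _ hη, ← coe_evU, ← c.rat_eq_at _ _ hη, ha, ha,
        c.rat_mul x y, mul_assoc]
    · refine (ha (ctr V.gen)).trans ?_
      have h1 : c.rat (ctr V.gen) (ctr V.gen) = 1 := by
        have hη : genericPoint V.C ∈ c.U (ctr V.gen) := genericPoint_mem (c.mem _)
        rw [c.rat_eq_at le_rfl le_rfl hη, c.at_self, map_one, Units.val_one]
      rw [h1, one_mul]

variable (V c) in
theorem secVal_injective : Function.Injective (V.secVal c) :=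
  secValW_injective (W := ⊤) trivial

variable (V c) in
/-- The global sections are the space of the divisor. -/
theorem range_secVal : Set.range (V.secVal c) = (riemannRochSpace (V.dv c) : Set V.F) := by
  refine Set.ext fun f => ?_
  exact (mem_range_secValW (W := ⊤) trivial).trans
    ⟨fun h => mem_riemannRochSpace.2 fun v => h v trivial,
      fun h v _ => (mem_riemannRochSpace.1 h) v⟩

end FA.Jac.Crv

end
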