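import Mathlib.RingTheory.IsTensorProduct
import Mathlib.RingTheory.TensorProduct.IsBaseChangePi
import Mathlib.RingTheory.LocalRing.Module
import Mathlib.RingTheory.LocalRing.ResidueField.Ideal
import Mathlib.RingTheory.Localization.Free
import Mathlib.RingTheory.Localization.BaseChange
import Mathlib.RingTheory.Flat.Basic
import Mathlib.RingTheory.Flat.Stability
import Mathlib.RingTheory.Flat.Localization
import Mathlib.RingTheory.Spectrum.Prime.FreeLocus
import Mathlib.RingTheory.Support

/-!
# Kernels of surjective maps onto projective modules, in families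

If a map with projective target is surjective at a point and its kernels are bounded, it is
surjective near the point with a free kernel, commuting with base change.
-/

set_option autoImplicit false
set_option linter.style.haveILetI false
set_option linter.unusedSectionVars false

noncomputable section

universe u

open TensorProduct

namespace FA.Jac.FrAlg

variable {A A' : Type u} [CommRing A] [CommRing A'] [Algebra A A']
variable {M N M' N' : Type u} [AddCommGroup M] [Module A M] [AddCommGroup N] [Module A N]
  [AddCommGroup M'] [Module A M'] [Module A' M'] [IsScalarTower A A' M']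
  [AddCommGroup N'] [Module A N'] [Module A' N'] [IsScalarTower A A' N']

/-- A retract of a base change is a base change. -/
theorem isBaseChange_retract {f : M →ₗ[A] M'} {g : N →ₗ[A] N'} (hg : IsBaseChange A' g)
    (i : M →ₗ[A] N) (r : N →ₗ[A] M) (i' : M' →ₗ[A'] N') (r' : N' →ₗ[A'] M')
    (hri : ∀ x, r (i x) = x) (hri' : ∀ x, r' (i' x) = x)
    (hi : ∀ x, i' (f x) = g (i x)) (hr : ∀ y, r' (g y) = f (r y)) : IsBaseChange A' f := by
  let L : A' ⊗[A] M →ₗ[A'] M' := (TensorProduct.isBaseChange A M A').lift f
  have hL : ∀ x, L (1 ⊗ₜ x) = f x := fun x => (TensorProduct.isBaseChange A M A').lift_eq f x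
  have h1 : ∀ z : A' ⊗[A] M, i' (L z) = hg.equiv (i.baseChange A' z) := by
    refine fun z => LinearMap.congr_fun ((TensorProduct.isBaseChange A M A').algHom_ext
      (i'.comp L) (hg.equiv.toLinearMap.comp (i.baseChange A')) fun x => ?_) z
    simp [hL, hi, IsBaseChange.equiv_tmul]
  let R : N' →ₗ[A'] A' ⊗[A] M := (r.baseChange A').comp hg.equiv.symm.toLinearMap
  have h2 : ∀ y : N', L (R y) = r' y := by
    refine fun y => LinearMap.congr_fun (hg.algHom_ext (L.comp R) r' fun x => ?_) y
    simp [R, hL, hr, IsBaseChange.equiv_symm_apply]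
  have h3 : ∀ z, R (i' (L z)) = z := fun z => by
    simp only [R, LinearMap.comp_apply, LinearEquiv.coe_coe, h1, LinearEquiv.symm_apply_apply]
    rw [← LinearMap.comp_apply, ← LinearMap.baseChange_comp,
      show r.comp i = LinearMap.id from LinearMap.ext hri, LinearMap.baseChange_id,
      LinearMap.id_apply]
  exact IsBaseChange.of_equiv (LinearEquiv.ofBijective L
    ⟨Function.HasLeftInverse.injective ⟨fun y => R (i' y), h3⟩,
      fun y => ⟨R (i' y), (h2 _).trans (hri' y)⟩⟩) hL

/-- A surjective map stays surjective. -/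
theorem surjective_of_isBaseChange {d : M →ₗ[A] N} (hd : Function.Surjective d)
    {d' : M' →ₗ[A'] N'} {fM : M →ₗ[A] M'} {fN : N →ₗ[A] N'} (hN : IsBaseChange A' fN)
    (hcomm : ∀ x, d' (fM x) = fN (d x)) : Function.Surjective d' := by
  intro y
  induction y using hN.inductionOn with
  | zero => exact ⟨0, map_zero _⟩
  | tmul n =>
    obtain ⟨m, rfl⟩ := hd n
    exact ⟨fM m, hcomm m⟩
  | smul s n ih =>
    obtain ⟨x, rfl⟩ := ih
    exact ⟨s • x, map_smul _ _ _⟩
  | add a b ha hb =>
    obtain ⟨x, rfl⟩ := ha
    obtain ⟨y, rfl⟩ := hb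
    exact ⟨x + y, map_add _ _ _⟩

/-- The map between kernels. -/
def kerMap (d : M →ₗ[A] N) (d' : M' →ₗ[A'] N') (fM : M →ₗ[A] M') (fN : N →ₗ[A] N')
    (hcomm : ∀ x, d' (fM x) = fN (d x)) : LinearMap.ker d →ₗ[A] LinearMap.ker d' where
  toFun x := ⟨fM x, by rw [LinearMap.mem_ker, hcomm, LinearMap.mem_ker.1 x.2, map_zero]⟩
  map_add' x y := Subtype.ext (map_add fM _ _)
  map_smul' a x := Subtype.ext (map_smul fM _ _)

theorem kerMap_coe (d : M →ₗ[A] N) (d' : M' →ₗ[A'] N') (fM : M →ₗ[A] M') (fN : N →ₗ[A] N')
    (hcomm : ∀ x, d' (fM x) = fN (d x)) (x : LinearMap.ker d) :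
    (kerMap d d' fM fN hcomm x : M') = fM x := rfl

/-- The kernel of a surjection onto a projective module commutes with base change. -/
theorem isBaseChange_kerMap {d : M →ₗ[A] N} (hd : Function.Surjective d) [Module.Projective A N]
    {d' : M' →ₗ[A'] N'} {fM : M →ₗ[A] M'} {fN : N →ₗ[A] N'} (hM : IsBaseChange A' fM)
    (hN : IsBaseChange A' fN) (hcomm : ∀ x, d' (fM x) = fN (d x)) :
    IsBaseChange A' (kerMap d d' fM fN hcomm) := by
  obtain ⟨σ, hσ⟩ := Module.projective_lifting_property d LinearMap.id hd
  have hσ' : ∀ y, d (σ y) = y := LinearMap.congr_fun hσ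
  let σ' : N' →ₗ[A'] M' := hN.lift (fM.comp σ)
  have hσN : ∀ n, σ' (fN n) = fM (σ n) := fun n => hN.lift_eq (fM.comp σ) n
  have hσ'' : ∀ y, d' (σ' y) = y := fun y =>
    LinearMap.congr_fun (hN.algHom_ext (d'.comp σ') LinearMap.id fun n => by
      simp [hσN, hcomm, hσ']) y
  let r : M →ₗ[A] LinearMap.ker d :=
    LinearMap.codRestrict _ (LinearMap.id - σ.comp d) fun x => by simp [LinearMap.mem_ker, hσ']
  let r' : M' →ₗ[A'] LinearMap.ker d' :=
    LinearMap.codRestrict _ (LinearMap.id - σ'.comp d') fun x => by
      simp [LinearMap.mem_ker, hσ'']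
  refine isBaseChange_retract hM (Submodule.subtype _) r (Submodule.subtype _) r'
    (fun x => Subtype.ext ?_) (fun x => Subtype.ext ?_) (fun x => rfl) (fun y => Subtype.ext ?_)
  · simp [r, LinearMap.mem_ker.1 x.2]
  · simp [r', LinearMap.mem_ker.1 x.2]
  · simp [r, r', hcomm, hσN, kerMap_coe]

/-- The kernel of a surjection onto a projective module is finite once it is bounded. -/
theorem finite_ker {d : M →ₗ[A] N} (hd : Function.Surjective d) [Module.Projective A N]
    [Module.Projective A M] (F₀ : Submodule A M) (hF₀ : F₀.FG) (hK : LinearMap.ker d ≤ F₀) :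
    Module.Finite A (LinearMap.ker d) ∧ Module.Projective A (LinearMap.ker d) := by
  obtain ⟨σ, hσ⟩ := Module.projective_lifting_property d LinearMap.id hd
  have hσ' : ∀ y, d (σ y) = y := LinearMap.congr_fun hσ
  let r : M →ₗ[A] LinearMap.ker d :=
    LinearMap.codRestrict _ (LinearMap.id - σ.comp d) fun x => by simp [LinearMap.mem_ker, hσ']
  have hr : ∀ x : LinearMap.ker d, r x = x := fun x => Subtype.ext (by
    simp [r, LinearMap.mem_ker.1 x.2])
  haveI : Module.Finite A F₀ := Module.Finite.iff_fg.2 hF₀
  exact ⟨Module.Finite.of_surjective (r.comp F₀.subtype) fun x => ⟨⟨x, hK x.2⟩, hr x⟩,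
    Module.Projective.of_split (LinearMap.ker d).subtype r (LinearMap.ext hr)⟩

/-- If the cokernel is finite and vanishes at a point, it vanishes near it. -/
theorem exists_surjective_away {k' : Type u} [Field k'] [Algebra A k'] (d : M →ₗ[A] N)
    (hQ : Module.Finite A (N ⧸ LinearMap.range d))
    (hsurj : Function.Surjective (d.baseChange k')) :
    ∃ f : A, algebraMap A k' f ≠ 0 ∧ ∀ (B : Type u) [CommRing B] [Algebra A B],
      IsUnit (algebraMap A B f) → Function.Surjective (d.baseChange B) := by
  classical
  haveI := hQ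
  let Q := N ⧸ LinearMap.range d
  let π : N →ₗ[A] Q := Submodule.mkQ _
  haveI hk' : Subsingleton (k' ⊗[A] Q) := by
    have h0 : ∀ z : k' ⊗[A] Q, z = 0 := fun z => by
      obtain ⟨y, rfl⟩ := LinearMap.lTensor_surjective k' (Submodule.mkQ_surjective _) z
      obtain ⟨x, rfl⟩ := hsurj y
      show π.lTensor k' (d.lTensor k' x) = 0
      rw [← LinearMap.comp_apply, ← LinearMap.lTensor_comp,
        show π.comp d = 0 from LinearMap.ext fun x => (Submodule.Quotient.mk_eq_zero _).2 ⟨x, rfl⟩,
        LinearMap.lTensor_zero, LinearMap.zero_apply]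
    exact ⟨fun a b => (h0 a).trans (h0 b).symm⟩
  let p : PrimeSpectrum A := ⟨RingHom.ker (algebraMap A k'), RingHom.ker_isPrime _⟩
  haveI : p.asIdeal.IsPrime := p.2
  let L : Localization.AtPrime p.asIdeal →+* k' := IsLocalization.lift (g := algebraMap A k')
    (M := p.asIdeal.primeCompl) fun y => isUnit_iff_ne_zero.2 y.2
  haveI : IsLocalHom L := ⟨fun a ha => by
    obtain ⟨x, y, rfl⟩ := IsLocalization.exists_mk'_eq p.asIdeal.primeCompl a
    rw [IsLocalization.AtPrime.isUnit_mk'_iff (Localization.AtPrime p.asIdeal) p.asIdeal]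
    intro hx
    refine ha.ne_zero ?_
    rw [IsLocalization.lift_mk'_spec, mul_zero]
    exact hx⟩
  let ρ : p.asIdeal.ResidueField →+* k' := IsLocalRing.ResidueField.lift L
  letI : Algebra p.asIdeal.ResidueField k' := ρ.toAlgebra
  haveI : IsScalarTower A p.asIdeal.ResidueField k' := IsScalarTower.of_algebraMap_eq fun x => by
    show algebraMap A k' x = IsLocalRing.ResidueField.lift L
      (IsLocalRing.residue _ (algebraMap A (Localization.AtPrime p.asIdeal) x))
    exact (IsLocalization.lift_eq _ x).symm
  have hp : p ∉ Module.support A Q := by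
    rw [Module.mem_support_iff_nontrivial_residueField_tensorProduct, not_nontrivial_iff_subsingleton]
    haveI := (AlgebraTensorModule.cancelBaseChange A p.asIdeal.ResidueField k' k' Q).injective.subsingleton
    exact (Module.Flat.tensorProduct_mk_injective p.asIdeal.ResidueField
      (p.asIdeal.ResidueField ⊗[A] Q) k').subsingleton
  rw [Module.support_eq_zeroLocus, PrimeSpectrum.mem_zeroLocus, Set.not_subset] at hp
  obtain ⟨f, hf, hfp⟩ := hp
  refine ⟨f, hfp, fun B _ _ hu y => ?_⟩
  obtain ⟨b, hb⟩ := hu
  have hex : Function.Exact (d.lTensor B) (π.lTensor B) :=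
    lTensor_exact B (LinearMap.exact_map_mkQ_range d) (Submodule.mkQ_surjective _)
  refine (hex y).1 ?_
  set z := π.lTensor B y
  have hz : algebraMap A B f • z = 0 := by
    induction z using TensorProduct.induction_on with
    | zero => rw [smul_zero]
    | tmul b q =>
      rw [algebraMap_smul, TensorProduct.smul_tmul', TensorProduct.smul_tmul,
        (Module.mem_annihilator.1 hf q), TensorProduct.tmul_zero]
    | add a b ha hb => rw [smul_add, ha, hb, add_zero]
  rw [← hb] at hz
  exact (smul_eq_zero_iff_eq b).1 hz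

/-- A finite projective module is free near every point. -/
theorem exists_free_nbhd {R : Type u} [CommRing R] {K : Type u} [AddCommGroup K] [Module R K]
    [Module.Finite R K] [Module.Projective R K] {k' : Type u} [Field k'] (χ : R →+* k') :
    ∃ g : R, χ g ≠ 0 ∧ ∀ (B : Type u) [CommRing B] [Algebra R B],
      IsUnit (algebraMap R B g) → Module.Free B (B ⊗[R] K) := by
  classical
  haveI : Module.FinitePresentation R K := Module.finitePresentation_of_projective R K
  let p : Ideal R := RingHom.ker χ
  haveI : p.IsPrime := RingHom.ker_isPrime _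
  haveI : Module.Free (Localization.AtPrime p) (LocalizedModule p.primeCompl K) := by
    have h : (⟨p, inferInstance⟩ : PrimeSpectrum R) ∈ Module.freeLocus R K := by
      rw [Module.freeLocus_eq_univ]; trivial
    exact h
  obtain ⟨g, hg, hfree, -⟩ := Module.FinitePresentation.exists_free_localizedModule_powers
    p.primeCompl (LocalizedModule.mkLinearMap p.primeCompl K) (Localization.AtPrime p)
  refine ⟨g, hg, fun B _ _ hgu => ?_⟩
  let Rg := Localization (Submonoid.powers g)
  letI : Algebra Rg B := (IsLocalization.Away.lift g hgu).toAlgebra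
  haveI : IsScalarTower R Rg B := IsScalarTower.of_algebraMap_eq fun x =>
    (IsLocalization.Away.lift_eq g hgu x).symm
  have hloc := IsLocalizedModule.isBaseChange (Submonoid.powers g) Rg
    (LocalizedModule.mkLinearMap (Submonoid.powers g) K)
  haveI : Module.Free Rg (Rg ⊗[R] K) := Module.Free.of_equiv hloc.equiv.symm
  exact Module.Free.of_equiv (AlgebraTensorModule.cancelBaseChange R Rg B B K)

/-- Near a point where it is surjective, a map with bounded kernel is surjective with free
kernel. -/
theorem exists_free_ker {k' : Type u} [Field k'] [Algebra A k'] (d : M →ₗ[A] N)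
    [Module.Projective A M] [Module.Projective A N]
    (hQ : Module.Finite A (N ⧸ LinearMap.range d))
    (F₀ : Submodule A M) (hF₀ : F₀.FG) (hK : LinearMap.ker d ≤ F₀)
    (hsurj : Function.Surjective (d.baseChange k')) :
    ∃ F : A, algebraMap A k' F ≠ 0 ∧
      Function.Surjective (d.baseChange (Localization.Away F)) ∧
      Module.Finite (Localization.Away F) (LinearMap.ker (d.baseChange (Localization.Away F))) ∧
      Module.Free (Localization.Away F) (LinearMap.ker (d.baseChange (Localization.Away F))) := by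
  classical
  obtain ⟨f, hf, hsur⟩ := exists_surjective_away d hQ hsurj
  let A₁ := Localization.Away f
  let d₁ := d.baseChange A₁
  have hd₁ : Function.Surjective d₁ := hsur A₁ (IsLocalization.Away.algebraMap_isUnit f)
  haveI : Module.Flat A A₁ := IsLocalization.flat A₁ (Submonoid.powers f)
  let F₁ : Submodule A₁ (A₁ ⊗[A] M) := LinearMap.range (F₀.subtype.baseChange A₁)
  have hK₁ : LinearMap.ker d₁ ≤ F₁ := by
    intro z hz
    have hz' : d.lTensor A₁ z = 0 := hz
    obtain ⟨w, hw⟩ := (Module.Flat.lTensor_exact A₁ (LinearMap.exact_subtype_ker_map d) z).1 hz'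
    refine ⟨(Submodule.inclusion hK).lTensor A₁ w, ?_⟩
    show F₀.subtype.lTensor A₁ ((Submodule.inclusion hK).lTensor A₁ w) = z
    rw [← LinearMap.comp_apply, ← LinearMap.lTensor_comp]
    exact hw
  haveI : Module.Finite A F₀ := Module.Finite.iff_fg.2 hF₀
  have hF₁ : F₁.FG := by
    rw [← Module.Finite.iff_fg]
    exact Module.Finite.range _
  obtain ⟨hfin, hproj⟩ := finite_ker hd₁ F₁ hF₁ hK₁
  haveI := hfin
  haveI := hproj
  -- the point
  let χ : A₁ →+* k' := IsLocalization.Away.lift f (g := algebraMap A k')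
    (isUnit_iff_ne_zero.2 hf)
  obtain ⟨g, hg, hfree⟩ := exists_free_nbhd (K := LinearMap.ker d₁) χ
  obtain ⟨m, g', hg'⟩ := IsLocalization.Away.surj f g
  have hχ : χ g ≠ 0 := hg
  have hg'0 : algebraMap A k' g' ≠ 0 := by
    have e := congrArg χ hg'
    simp only [map_mul, map_pow, χ, IsLocalization.Away.lift_eq] at e
    rw [← e]
    exact mul_ne_zero hχ (pow_ne_zero _ hf)
  refine ⟨f * g', by rw [map_mul]; exact mul_ne_zero hf hg'0, ?_⟩
  let B := Localization.Away (f * g')
  have hF : IsUnit (algebraMap A B f) ∧ IsUnit (algebraMap A B g') := by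
    rw [← IsUnit.mul_iff, ← map_mul]
    exact IsLocalization.Away.algebraMap_isUnit (f * g')
  refine ⟨hsur B hF.1, ?_⟩
  letI : Algebra A₁ B := (IsLocalization.Away.lift f (g := algebraMap A B) hF.1).toAlgebra
  haveI : IsScalarTower A A₁ B := IsScalarTower.of_algebraMap_eq fun x =>
    (IsLocalization.Away.lift_eq f hF.1 x).symm
  have hgu : IsUnit (algebraMap A₁ B g) := by
    have e := congrArg (algebraMap A₁ B) hg'
    rw [map_mul, ← IsScalarTower.algebraMap_apply, map_pow,
      ← IsScalarTower.algebraMap_apply] at e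
    exact isUnit_of_mul_isUnit_left (e ▸ hF.2)
  -- the comparison
  let fM : A₁ ⊗[A] M →ₗ[A₁] B ⊗[A] M :=
    AlgebraTensorModule.map (Algebra.linearMap A₁ B) LinearMap.id
  let fN : A₁ ⊗[A] N →ₗ[A₁] B ⊗[A] N :=
    AlgebraTensorModule.map (Algebra.linearMap A₁ B) LinearMap.id
  have hbM : IsBaseChange B fM := IsBaseChange.of_comp (TensorProduct.isBaseChange A M A₁) (by
    convert TensorProduct.isBaseChange A M B using 1
    ext x
    simp [fM])
  have hbN : IsBaseChange B fN := IsBaseChange.of_comp (TensorProduct.isBaseChange A N A₁) (by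
    convert TensorProduct.isBaseChange A N B using 1
    ext x
    simp [fN])
  have hcomm : ∀ z, d.baseChange B (fM z) = fN (d₁ z) := fun z => by
    induction z using TensorProduct.induction_on with
    | zero => simp
    | tmul a x => simp [fM, fN, d₁]
    | add a b ha hb => simp only [map_add, ha, hb]
  have hbK := isBaseChange_kerMap hd₁ hbM hbN hcomm
  haveI := hfree B hgu
  exact ⟨Module.Finite.equiv hbK.equiv, Module.Free.of_equiv hbK.equiv⟩

end FA.Jac.FrAlg

end
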