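import Fermat.Agent.Jac.FrameSec
import Fermat.Agent.Jac.FrameAlg

/-!
# Sections over preimages of affines in a family, as modules over the base

Functions, and sections of a cocycle, on the preimage of an affine open commute with base change.
-/

set_option autoImplicit false
set_option linter.style.haveILetI false
set_option linter.unusedSectionVars false

noncomputable section

universe u

open CategoryTheory CategoryTheory.Limits AlgebraicGeometry TopologicalSpace
open NeronModelInfra AlgebraicGeometry.RelPicard FA.AbTors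
open scoped TensorProduct

namespace FA.Jac.Crv

variable {k : Type u} [Field k] (V : Crv k)
variable {A : Type u} [CommRing A] (a : Spec (CommRingCat.of A) ⟶ Spec (CommRingCat.of k))
variable (U : V.C.Opens)

/-- The preimage of an open of the curve. -/
abbrev WU : (V.X a).Opens := pullback.fst V.str a ⁻¹ᵁ U

/-- Functions on the preimage, as a module over the base. -/
def GW : Type u := Γ(V.X a, V.WU a U)

instance : AddCommGroup (V.GW a U) := inferInstanceAs (AddCommGroup Γ(V.X a, V.WU a U))

instance : Module A (V.GW a U) :=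
  Module.compHom Γ(V.X a, V.WU a U) (V.scalarW a U)

variable (c : Coc (V.X a))

/-- Sections on the preimage, as a module over the base. -/
def SW : Type u := Sec c (V.WU a U)

instance : AddCommGroup (V.SW a U c) := inferInstanceAs (AddCommGroup (Sec c (V.WU a U)))

instance : Module A (V.SW a U c) := Module.compHom (Sec c (V.WU a U)) (V.scalarW a U)

/-- A function as an element of the module. -/
def mkGW : Γ(V.X a, V.WU a U) ≃+ V.GW a U := AddEquiv.refl _

/-- A section as an element of the module. -/
def mkSW : Sec c (V.WU a U) ≃+ V.SW a U c := AddEquiv.refl _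

variable {U}

theorem smul_mkSW (x : A) (s : Sec c (V.WU a U)) :
    x • V.mkSW a U c s = V.mkSW a U c (V.scalarW a U x • s) := rfl

variable {U' : V.C.Opens}

theorem wu_mono (h : U' ≤ U) : V.WU a U' ≤ V.WU a U := fun _ hz => h hz

theorem rsF_scalarW (h : U' ≤ U) (x : A) : rsF (V.wu_mono a h) (V.scalarW a U x) = V.scalarW a U' x := by
  simp only [scalarW, RingHom.comp_apply, rsF_rsF]

/-- Restriction as a linear map. -/
def resL (h : U' ≤ U) : V.SW a U c →ₗ[A] V.SW a U' c where
  toFun s := V.mkSW a U' c (Sec.res (V.wu_mono a h) ((V.mkSW a U c).symm s))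
  map_add' s t := map_add (Sec.res (V.wu_mono a h)) _ _
  map_smul' x s := by
    show Sec.res (V.wu_mono a h) (V.scalarW a U x • ((V.mkSW a U c).symm s)) =
      V.scalarW a U' x • Sec.res (V.wu_mono a h) ((V.mkSW a U c).symm s)
    rw [Sec.res_smul, V.rsF_scalarW a h]

variable {A' : Type u} [CommRing A'] (φ : A →+* A')

/-- The map of the families. -/
abbrev bcMap : V.X (Spec.map (CommRingCat.ofHom φ) ≫ a) ⟶ V.X a := baseChangeSnd V.str (ringOver a φ)

theorem bcMap_fst : V.bcMap a φ ≫ pullback.fst V.str a = pullback.fst V.str _ :=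
  (pullback.lift_fst _ _ _).trans (Category.comp_id _)

theorem bcMap_snd : V.bcMap a φ ≫ pullback.snd V.str a =
    pullback.snd V.str _ ≫ Spec.map (CommRingCat.ofHom φ) :=
  pullback.lift_snd _ _ _

variable (U) in
theorem bc_le : V.WU (Spec.map (CommRingCat.ofHom φ) ≫ a) U ≤ V.bcMap a φ ⁻¹ᵁ V.WU a U := by
  rw [← Scheme.Hom.comp_preimage, bcMap_fst]

theorem apF_scalarW (x : A) :
    apF (V.bcMap a φ) (V.bc_le a U φ) (V.scalarW a U x) = V.scalarW _ U (φ x) := by
  simp only [scalarW, RingHom.comp_apply]
  rw [← V.apF_scalar a φ x]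
  exact (apF_rsF _ _ _ _).trans (rsF_apF _ _ _ _).symm

theorem apF_fnW' (r : Γ(V.C, U)) :
    apF (V.bcMap a φ) (V.bc_le a U φ) (V.fnW a U r) = V.fnW _ U r := by
  rw [V.apF_fnW a φ r (V.bc_le a U φ) le_rfl, rsF_self]

variable (U)

/-- Pullback of functions. -/
def gPull : V.GW a U →+ V.GW (Spec.map (CommRingCat.ofHom φ) ≫ a) U :=
  (apF (V.bcMap a φ) (V.bc_le a U φ)).toAddMonoidHom

/-- Pullback of sections. -/
def sPull : V.SW a U c →+ V.SW (Spec.map (CommRingCat.ofHom φ) ≫ a) U (c.pull (V.bcMap a φ)) :=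
  Sec.pull (V.bcMap a φ) (V.bc_le a U φ)

theorem gPull_smul (x : A) (g : V.GW a U) : V.gPull a U φ (x • g) = φ x • V.gPull a U φ g := by
  show apF (V.bcMap a φ) (V.bc_le a U φ) (V.scalarW a U x * (V.mkGW a U).symm g) =
    V.scalarW _ U (φ x) * apF (V.bcMap a φ) (V.bc_le a U φ) ((V.mkGW a U).symm g)
  rw [map_mul, V.apF_scalarW]

theorem sPull_smul (x : A) (s : V.SW a U c) :
    V.sPull a U c φ (x • s) = φ x • V.sPull a U c φ s := by
  show Sec.pull (V.bcMap a φ) (V.bc_le a U φ) (V.scalarW a U x • ((V.mkSW a U c).symm s)) =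
    V.scalarW (Spec.map (CommRingCat.ofHom φ) ≫ a) U (φ x) • Sec.pull (V.bcMap a φ) (V.bc_le a U φ) ((V.mkSW a U c).symm s)
  rw [Sec.pull_smul, V.apF_scalarW]

section Alg

variable [Algebra A A']

instance : Module A (V.GW (Spec.map (CommRingCat.ofHom (algebraMap A A')) ≫ a) U) :=
  Module.compHom _ (algebraMap A A')

instance : IsScalarTower A A' (V.GW (Spec.map (CommRingCat.ofHom (algebraMap A A')) ≫ a) U) :=
  IsScalarTower.of_algebraMap_smul fun _ _ => rfl

instance (c' : Coc (V.X (Spec.map (CommRingCat.ofHom (algebraMap A A')) ≫ a))) :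
    Module A (V.SW (Spec.map (CommRingCat.ofHom (algebraMap A A')) ≫ a) U c') :=
  Module.compHom _ (algebraMap A A')

instance (c' : Coc (V.X (Spec.map (CommRingCat.ofHom (algebraMap A A')) ≫ a))) :
    IsScalarTower A A' (V.SW (Spec.map (CommRingCat.ofHom (algebraMap A A')) ≫ a) U c') :=
  IsScalarTower.of_algebraMap_smul fun _ _ => rfl

variable (A')

/-- Pullback of functions, linear. -/
def gPullL : V.GW a U →ₗ[A] V.GW (Spec.map (CommRingCat.ofHom (algebraMap A A')) ≫ a) U :=
  { V.gPull a U (algebraMap A A') with map_smul' := V.gPull_smul a U (algebraMap A A') }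

/-- Pullback of sections, linear. -/
def sPullL : V.SW a U c →ₗ[A]
    V.SW (Spec.map (CommRingCat.ofHom (algebraMap A A')) ≫ a) U
      (c.pull (V.bcMap a (algebraMap A A'))) :=
  { V.sPull a U c (algebraMap A A') with map_smul' := V.sPull_smul a U c (algebraMap A A') }

variable {A'}

theorem exists_gEquiv [Algebra k A] (ha : a = Spec.map (CommRingCat.ofHom (algebraMap k A)))
    (hU : IsAffineOpen U) :
    letI := (Loc.sectionsHom V.str U).toAlgebra
    ∃ e : A ⊗[k] Γ(V.C, U) ≃ₗ[A] V.GW a U,
      ∀ (x : A) (r : Γ(V.C, U)), e (x ⊗ₜ r) = x • V.mkGW a U (V.fnW a U r) := by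
  letI := (Loc.sectionsHom V.str U).toAlgebra
  obtain ⟨e, he⟩ := V.exists_tensorEquiv a ha hU
  let e₀ : A ⊗[k] Γ(V.C, U) ≃+ V.GW a U := e.toAddEquiv
  refine ⟨e₀.toLinearEquiv fun x z => ?_, fun x r => he x r⟩
  show e (x • z) = V.scalarW a U x * e z
  induction z using TensorProduct.induction_on with
  | zero => simp
  | tmul y r => rw [TensorProduct.smul_tmul', smul_eq_mul, he, he, map_mul, mul_assoc]
  | add y z hy hz => rw [smul_add, map_add, hy, hz, map_add, mul_add]

/-- Functions on preimages of affines commute with base change. -/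
theorem isBaseChange_gPullL (hU : IsAffineOpen U) : IsBaseChange A' (V.gPullL a U A') := by
  letI : Algebra k A := (Spec.preimage a).hom.toAlgebra
  have ha : a = Spec.map (CommRingCat.ofHom (algebraMap k A)) := (Spec.map_preimage a).symm
  letI : Algebra k A' := ((algebraMap A A').comp (algebraMap k A)).toAlgebra
  haveI : IsScalarTower k A A' := IsScalarTower.of_algebraMap_eq fun _ => rfl
  have ha' : Spec.map (CommRingCat.ofHom (algebraMap A A')) ≫ a =
      Spec.map (CommRingCat.ofHom (algebraMap k A')) := by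
    conv_lhs => rw [ha]
    rw [← Spec.map_comp, ← CommRingCat.ofHom_comp]
  letI := (Loc.sectionsHom V.str U).toAlgebra
  obtain ⟨e, he⟩ := V.exists_gEquiv a U ha hU
  obtain ⟨e', he'⟩ := V.exists_gEquiv _ U ha' hU
  refine IsBaseChange.of_equiv ((e.symm.baseChange A A' _ _) ≪≫ₗ
    (TensorProduct.AlgebraTensorModule.cancelBaseChange k A A' A' Γ(V.C, U)) ≪≫ₗ e') fun g => ?_
  obtain ⟨z, rfl⟩ := e.surjective g
  simp only [LinearEquiv.trans_apply, LinearEquiv.baseChange_tmul, LinearEquiv.symm_apply_apply]
  induction z using TensorProduct.induction_on with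
  | zero => simp
  | tmul x r =>
    rw [TensorProduct.AlgebraTensorModule.cancelBaseChange_tmul, he, Algebra.smul_def, mul_one,
      he', map_smul]
    exact congrArg (algebraMap A A' x • ·) (V.apF_fnW' a (algebraMap A A') r).symm
  | add y z hy hz => simp only [TensorProduct.tmul_add, map_add, hy, hz]

variable {c}

/-- The coordinates in a dual frame. -/
def coordL (Φ : Sec.DualFrame c (V.WU a U)) : V.SW a U c →ₗ[A] (Fin Φ.n → V.GW a U) where
  toFun s := Φ.coord ((V.mkSW a U c).symm s)
  map_add' s t := map_add Φ.coord _ _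
  map_smul' x s := by
    show Φ.coord (V.scalarW a U x • ((V.mkSW a U c).symm s)) = _
    rw [map_smul]
    rfl

/-- The combinations in a dual frame. -/
def combL (Φ : Sec.DualFrame c (V.WU a U)) : (Fin Φ.n → V.GW a U) →ₗ[A] V.SW a U c where
  toFun g := V.mkSW a U c (Φ.comb fun i => (V.mkGW a U).symm (g i))
  map_add' _ _ := map_add Φ.comb _ _
  map_smul' x g := map_smul Φ.comb (V.scalarW a U x) fun i => (V.mkGW a U).symm (g i)

theorem combL_coordL (Φ : Sec.DualFrame c (V.WU a U)) (s : V.SW a U c) :
    V.combL a U Φ (V.coordL a U Φ s) = s := Φ.comb_coord _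

/-- Sections on preimages of affines commute with base change. -/
theorem isBaseChange_sPullL (hU : IsAffineOpen U) : IsBaseChange A' (V.sPullL a U c A') := by
  obtain ⟨Φ⟩ := Sec.nonempty_dualFrame c (V.isAffineOpen_W a hU)
  let Φ' := Φ.pull (V.bcMap a (algebraMap A A')) (V.bc_le a U (algebraMap A A'))
  refine FrAlg.isBaseChange_retract
    (g := (V.gPullL a U A').compLeft (Fin Φ.n))
    (IsBaseChange.finitePow (Fin Φ.n) (V.isBaseChange_gPullL a U hU))
    (V.coordL a U Φ) (V.combL a U Φ) (V.coordL _ U Φ') (V.combL _ U Φ')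
    (V.combL_coordL a U Φ) (V.combL_coordL _ U Φ') (fun s => ?_) fun g => ?_
  · funext i
    exact Sec.pair_pull _ _ _ _
  · show Φ'.comb (fun i => apF (V.bcMap a (algebraMap A A')) (V.bc_le a U _)
        ((V.mkGW a U).symm (g i))) =
      Sec.pull (V.bcMap a (algebraMap A A')) (V.bc_le a U _)
        (Φ.comb fun i => (V.mkGW a U).symm (g i))
    rw [Sec.DualFrame.comb_apply, Sec.DualFrame.comb_apply, map_sum]
    refine Finset.sum_congr rfl fun i _ => ?_
    rw [Sec.pull_smul]
    rfl

/-- The sections on the preimage of an affine form a projective module. -/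
theorem projective_SW (hU : IsAffineOpen U) : Module.Projective A (V.SW a U c) := by
  letI : Algebra k A := (Spec.preimage a).hom.toAlgebra
  have ha : a = Spec.map (CommRingCat.ofHom (algebraMap k A)) := (Spec.map_preimage a).symm
  letI := (Loc.sectionsHom V.str U).toAlgebra
  obtain ⟨e, -⟩ := V.exists_gEquiv a U ha hU
  haveI : Module.Projective A (V.GW a U) := Module.Projective.of_equiv e
  obtain ⟨Φ⟩ := Sec.nonempty_dualFrame c (V.isAffineOpen_W a hU)
  haveI : Module.Projective A (Fin Φ.n → V.GW a U) :=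
    Module.Projective.of_equiv (DFinsupp.linearEquivFunOnFintype (R := A))
  exact Module.Projective.of_split (V.coordL a U Φ) (V.combL a U Φ)
    (LinearMap.ext (V.combL_coordL a U Φ))

end Alg

end FA.Jac.Crv

end
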