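import Fermat.Agent.Jac.Basic
import Mathlib.Algebra.Module.Pi
import Mathlib.RingTheory.Localization.Away.Basic

/-!
# Dual frames of sections of a cocycle on an affine open

On an affine open there are finitely many sections `u i` of a cocycle and sections `v i` of the
inverse cocycle with `∑ v i * u i = 1`: the sections are then a retract of finitely many functions,
compatibly with restriction and pullback.
-/

set_option autoImplicit false
set_option linter.style.haveILetI false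
set_option linter.unusedSectionVars false

noncomputable section

universe u

open CategoryTheory AlgebraicGeometry TopologicalSpace FA.AbTors

namespace FA.Jac

variable {X Y : Scheme.{u}}

namespace Sec

variable {c : Coc X} {W W' : X.Opens}

theorem ext' {s t : Sec c W} (h : ∀ x, s.1 x = t.1 x) : s = t := Subtype.ext (funext h)

theorem add_val (s t : Sec c W) (x : X) : (s + t).1 x = s.1 x + t.1 x := rfl

instance instSMul : SMul Γ(X, W) (Sec c W) := ⟨smulF⟩

theorem smul_val (a : Γ(X, W)) (s : Sec c W) (x : X) :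
    (a • s).1 x = rsF inf_le_left a * s.1 x := rfl

instance instModule : Module Γ(X, W) (Sec c W) where
  one_smul s := ext' fun x => by rw [smul_val, map_one, one_mul]
  mul_smul a b s := ext' fun x => by rw [smul_val, smul_val, smul_val, map_mul, mul_assoc]
  smul_zero a := ext' fun x => by
    rw [smul_val]
    exact mul_zero _
  smul_add a s t := ext' fun x => by
    rw [smul_val, add_val, add_val, smul_val, smul_val, mul_add]
  add_smul a b s := ext' fun x => by rw [smul_val, add_val, smul_val, smul_val, map_add, add_mul]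
  zero_smul s := ext' fun x => by
    rw [smul_val, map_zero, zero_mul]
    rfl

theorem res_smul (h : W' ≤ W) (a : Γ(X, W)) (s : Sec c W) :
    res h (a • s) = rsF h a • res h s := ext' fun x => by
  rw [res_val, smul_val, smul_val, map_mul, rsF_rsF, rsF_rsF, res_val]

theorem res_res {W'' : X.Opens} (h : W' ≤ W) (h' : W'' ≤ W') (s : Sec c W) :
    res h' (res h s) = res (h'.trans h) s := ext' fun x => by
  rw [res_val, res_val, res_val, rsF_rsF]

theorem pull_val (f : Y ⟶ X) {V : Y.Opens} (h : V ≤ f ⁻¹ᵁ W) (s : Sec c W) (y : Y) :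
    (pull f h s).1 y = apF f (U := W ⊓ c.U (f y))
      (le_inf (inf_le_left.trans h) inf_le_right : V ⊓ (c.pull f).U y ≤ f ⁻¹ᵁ (W ⊓ c.U (f y)))
      (s.1 (f y)) := rfl

theorem pull_smul (f : Y ⟶ X) {V : Y.Opens} (h : V ≤ f ⁻¹ᵁ W) (a : Γ(X, W)) (s : Sec c W) :
    pull f h (a • s) = apF f h a • pull f h s := ext' fun x => by
  rw [pull_val, smul_val, smul_val, map_mul, pull_val]
  exact congrArg (· * _) ((apF_rsF f _ _ a).trans (rsF_apF f _ _ a).symm)

theorem pull_res (f : Y ⟶ X) {V V' : Y.Opens} (h : V ≤ f ⁻¹ᵁ W) (h' : V' ≤ f ⁻¹ᵁ W')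
    (hW : W' ≤ W) (hV : V' ≤ V) (s : Sec c W) :
    res hV (pull f h s) = pull f h' (res hW s) := ext' fun x => by
  rw [res_val, pull_val, pull_val, res_val]
  exact (rsF_apF f _ _ _).trans (apF_rsF f _ _ _).symm

/-- Sections on two opens agreeing on the intersection glue. -/
theorem existsUnique_glue₂ (W₀ W₁ : X.Opens) (h₀ : W₀ ≤ W) (h₁ : W₁ ≤ W) (hcov : W ≤ W₀ ⊔ W₁)
    (s₀ : Sec c W₀) (s₁ : Sec c W₁)
    (h : res inf_le_left s₀ = (res (inf_le_right : W₀ ⊓ W₁ ≤ W₁) s₁)) :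
    ∃! s : Sec c W, res h₀ s = s₀ ∧ res h₁ s = s₁ := by
  let O : ULift.{u} Bool → X.Opens := fun i => if i.down then W₀ else W₁
  have hO : ∀ i, O i ≤ W := by rintro ⟨_ | _⟩ <;> simp [O, h₀, h₁]
  have hcov' : ∀ V : X.Opens, W ⊓ V ≤ ⨆ i, O i ⊓ V := fun V z hz => by
    rcases hcov hz.1 with h' | h'
    · exact Opens.mem_iSup.2 ⟨⟨true⟩, ⟨h', hz.2⟩⟩
    · exact Opens.mem_iSup.2 ⟨⟨false⟩, ⟨h', hz.2⟩⟩
  have key : ∀ x, ∃ a : Γ(X, W ⊓ c.U x), rsF (inf_le_inf_right _ h₀) a = s₀.1 x ∧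
      rsF (inf_le_inf_right _ h₁) a = s₁.1 x := fun x => by
    have he : ∀ (O' : X.Opens) (h0 : O' ≤ W₀) (h1 : O' ≤ W₁) (hx : O' ≤ c.U x),
        rsF (le_inf h0 hx) (s₀.1 x) = rsF (le_inf h1 hx) (s₁.1 x) := fun O' h0 h1 hx => by
      have e := congrArg (fun s : Sec c (W₀ ⊓ W₁) => rsF (le_inf (le_inf h0 h1) hx) (s.1 x)) h
      simpa only [res_val, rsF_rsF] using e
    let f : ∀ i, Γ(X, O i ⊓ c.U x) := fun i => match i with
      | ⟨true⟩ => s₀.1 x
      | ⟨false⟩ => s₁.1 x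
    obtain ⟨a, ha⟩ := rsF_glue (fun i => O i ⊓ c.U x) (fun i => inf_le_inf_right _ (hO i))
      (hcov' _) f (by
        rintro ⟨_ | _⟩ ⟨_ | _⟩
        · rfl
        · exact (he _ (inf_le_right.trans inf_le_left) (inf_le_left.trans inf_le_left)
            (inf_le_left.trans inf_le_right)).symm
        · exact he _ (inf_le_left.trans inf_le_left) (inf_le_right.trans inf_le_left)
            (inf_le_left.trans inf_le_right)
        · rfl)
    exact ⟨a, ha ⟨true⟩, ha ⟨false⟩⟩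
  choose a ha₀ ha₁ using key
  have hext : ∀ (x : X) (O' : X.Opens) (p q : Γ(X, O')) (hO' : O' ≤ W),
      (rsF (inf_le_left : O' ⊓ W₀ ≤ O') p = rsF inf_le_left q) →
      (rsF (inf_le_left : O' ⊓ W₁ ≤ O') p = rsF inf_le_left q) → p = q := fun x O' p q hO' e0 e1 =>
    rsF_ext (fun i => O' ⊓ O i) (fun _ => inf_le_left) (fun z hz => by
      rcases hcov (hO' hz) with h' | h'
      · exact Opens.mem_iSup.2 ⟨⟨true⟩, hz, h'⟩
      · exact Opens.mem_iSup.2 ⟨⟨false⟩, hz, h'⟩) (by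
      rintro ⟨_ | _⟩
      · exact e1
      · exact e0)
  refine ⟨⟨a, fun x y O' hW hx hy => hext x O' _ _ hW ?_ ?_⟩,
    ⟨ext' ha₀, ext' ha₁⟩, fun t ht => ext' fun x => hext x _ _ _ inf_le_left ?_ ?_⟩
  · have e := s₀.2 x y (O' ⊓ W₀) inf_le_right (inf_le_left.trans hx) (inf_le_left.trans hy)
    rw [← ha₀, ← ha₀, rsF_rsF, rsF_rsF] at e
    rw [map_mul, rsF_rsF, rsF_rsF, rsF_uRes, Coc.uRes_at]
    exact e
  · have e := s₁.2 x y (O' ⊓ W₁) inf_le_right (inf_le_left.trans hx) (inf_le_left.trans hy)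
    rw [← ha₁, ← ha₁, rsF_rsF, rsF_rsF] at e
    rw [map_mul, rsF_rsF, rsF_rsF, rsF_uRes, Coc.uRes_at]
    exact e
  · show rsF _ (t.1 x) = rsF _ (a x)
    have e := congrArg (fun s : Sec c W₀ => s.1 x) ht.1
    simp only [res_val] at e
    have e' := congrArg (rsF (le_inf inf_le_right (inf_le_left.trans inf_le_right) :
      W ⊓ c.U x ⊓ W₀ ≤ W₀ ⊓ c.U x)) (e.trans (ha₀ x).symm)
    simpa only [rsF_rsF] using e'
  · show rsF _ (t.1 x) = rsF _ (a x)
    have e := congrArg (fun s : Sec c W₁ => s.1 x) ht.2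
    simp only [res_val] at e
    have e' := congrArg (rsF (le_inf inf_le_right (inf_le_left.trans inf_le_right) :
      W ⊓ c.U x ⊓ W₁ ≤ W₁ ⊓ c.U x)) (e.trans (ha₁ x).symm)
    simpa only [rsF_rsF] using e'

/-- A compatible family on a cover is a section. -/
theorem exists_of_cover {ι : Type u} (O : ι → X.Opens) (hO : ∀ i, O i ≤ W)
    (hcov : W ≤ ⨆ i, O i) (p : ι → X) (hp : ∀ i, O i ≤ c.U (p i)) (f : ∀ i, Γ(X, O i))
    (h : ∀ i j, rsF (inf_le_left : O i ⊓ O j ≤ O i) (f i) =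
      (c.at (p i) (p j) _ (inf_le_left.trans (hp i)) (inf_le_right.trans (hp j)) : Γ(X, O i ⊓ O j)) *
        rsF inf_le_right (f j)) :
    ∃ s : Sec c W, ∀ i, rsF (le_inf (hO i) (hp i)) (s.1 (p i)) = f i := by
  have hcov' : ∀ V : X.Opens, W ⊓ V ≤ ⨆ i, O i ⊓ V := fun V z hz => by
    obtain ⟨i, hi⟩ := Opens.mem_iSup.1 (hcov hz.1)
    exact Opens.mem_iSup.2 ⟨i, hi, hz.2⟩
  have key : ∀ x, ∃ a : Γ(X, W ⊓ c.U x), ∀ i, rsF (inf_le_inf_right _ (hO i)) a =
      (c.at x (p i) _ inf_le_right (inf_le_left.trans (hp i)) : Γ(X, O i ⊓ c.U x)) *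
        rsF inf_le_left (f i) := fun x =>
    rsF_glue (fun i => O i ⊓ c.U x) (fun i => inf_le_inf_right _ (hO i)) (hcov' _)
      (fun i => (c.at x (p i) _ inf_le_right (inf_le_left.trans (hp i)) : Γ(X, O i ⊓ c.U x)) *
        rsF inf_le_left (f i)) fun i j => by
      set T := (O i ⊓ c.U x) ⊓ (O j ⊓ c.U x)
      have hi : T ≤ O i := inf_le_left.trans inf_le_left
      have hj : T ≤ O j := inf_le_right.trans inf_le_left
      have hx : T ≤ c.U x := inf_le_left.trans inf_le_right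
      have e := congrArg (rsF (le_inf hi hj)) (h i j)
      rw [map_mul, rsF_rsF, rsF_rsF, rsF_uRes, Coc.uRes_at] at e
      rw [map_mul, map_mul, rsF_rsF, rsF_rsF, rsF_uRes, rsF_uRes, Coc.uRes_at, Coc.uRes_at, e,
        ← mul_assoc, ← Units.val_mul]
      exact congrArg (fun u : Γ(X, T)ˣ => (u : Γ(X, T)) * rsF hj (f j))
        (c.at_mul x (p i) (p j) hx (hi.trans (hp i)) (hj.trans (hp j))).symm
  choose a ha using key
  refine ⟨⟨a, fun x y T hW hx hy => ?_⟩, fun i => ?_⟩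
  · refine rsF_ext (fun i => T ⊓ O i) (fun _ => inf_le_left) (fun z hz => ?_) fun i => ?_
    · obtain ⟨i, hi⟩ := Opens.mem_iSup.1 (hcov (hW hz))
      exact Opens.mem_iSup.2 ⟨i, hz, hi⟩
    have e := congrArg (rsF (le_inf inf_le_right (inf_le_left.trans hx) : T ⊓ O i ≤ O i ⊓ c.U x))
      (ha x i)
    have e' := congrArg (rsF (le_inf inf_le_right (inf_le_left.trans hy) : T ⊓ O i ≤ O i ⊓ c.U y))
      (ha y i)
    simp only [map_mul, rsF_rsF, rsF_uRes, Coc.uRes_at] at e e'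
    rw [map_mul, rsF_rsF, rsF_rsF, rsF_uRes, Coc.uRes_at, e, e', ← mul_assoc, ← Units.val_mul]
    exact congrArg (fun u : Γ(X, T ⊓ O i)ˣ => (u : Γ(X, T ⊓ O i)) * rsF inf_le_right (f i))
      (c.at_mul x y (p i) (inf_le_left.trans hx) (inf_le_left.trans hy)
        (inf_le_right.trans (hp i)))
  · have e := congrArg (rsF (le_inf le_rfl (hp i) : O i ≤ O i ⊓ c.U (p i))) (ha (p i) i)
    simp only [rsF_rsF, Coc.at_self, Units.val_one, one_mul, rsF_self] at e
    exact e

/-! ### Pairing with the inverse cocycle -/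

theorem exists_pair (v : Sec c⁻¹ W) (s : Sec c W) :
    ∃ a : Γ(X, W), ∀ x, rsF (inf_le_left : W ⊓ c.U x ≤ W) a = v.1 x * s.1 x :=
  rsF_glue (fun x => W ⊓ c.U x) (fun _ => inf_le_left)
    (fun z hz => Opens.mem_iSup.2 ⟨z, hz, c.mem z⟩) (fun x => v.1 x * s.1 x) fun x y => by
    set T := (W ⊓ c.U x) ⊓ (W ⊓ c.U y)
    have hW : T ≤ W := inf_le_left.trans inf_le_left
    have hx : T ≤ c.U x := inf_le_left.trans inf_le_right
    have hy : T ≤ c.U y := inf_le_right.trans inf_le_right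
    show rsF (le_inf hW hx) (v.1 x * s.1 x) = rsF (le_inf hW hy) (v.1 y * s.1 y)
    rw [map_mul, map_mul, s.2 x y T hW hx hy]
    erw [v.2 x y T hW hx hy]
    rw [Coc.inv_at, mul_mul_mul_comm, Units.inv_mul, one_mul]

/-- The pairing. -/
def pair (v : Sec c⁻¹ W) (s : Sec c W) : Γ(X, W) := (exists_pair v s).choose

theorem rsF_pair (v : Sec c⁻¹ W) (s : Sec c W) (x : X) :
    rsF (inf_le_left : W ⊓ c.U x ≤ W) (pair v s) = v.1 x * s.1 x :=
  (exists_pair v s).choose_spec x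

theorem pair_ext {a b : Γ(X, W)}
    (h : ∀ x, rsF (inf_le_left : W ⊓ c.U x ≤ W) a = rsF inf_le_left b) : a = b :=
  rsF_ext (fun x => W ⊓ c.U x) (fun _ => inf_le_left)
    (fun z hz => Opens.mem_iSup.2 ⟨z, hz, c.mem z⟩) h

theorem pair_add (v : Sec c⁻¹ W) (s t : Sec c W) : pair v (s + t) = pair v s + pair v t :=
  pair_ext (c := c) fun x => by rw [map_add, rsF_pair, rsF_pair, rsF_pair, add_val, mul_add]

theorem pair_smul (v : Sec c⁻¹ W) (a : Γ(X, W)) (s : Sec c W) :
    pair v (a • s) = a * pair v s :=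
  pair_ext (c := c) fun x => by rw [map_mul, rsF_pair, rsF_pair, smul_val, mul_left_comm]

/-- The pairing as a linear map. -/
def pairL (v : Sec c⁻¹ W) : Sec c W →ₗ[Γ(X, W)] Γ(X, W) where
  toFun := pair v
  map_add' := pair_add v
  map_smul' a s := pair_smul v a s

theorem smulF_pair (v : Sec c⁻¹ W) (s t : Sec c W) : pair v s • t = pair v t • s :=
  ext' fun x => by rw [smul_val, smul_val, rsF_pair, rsF_pair, mul_right_comm]

theorem pair_res (h : W' ≤ W) (v : Sec c⁻¹ W) (s : Sec c W) :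
    pair (res h v) (res h s) = rsF h (pair v s) := pair_ext (c := c) fun x => by
  have e := congrArg (rsF (inf_le_inf_right _ h : W' ⊓ c.U x ≤ W ⊓ c.U x)) (rsF_pair v s x)
  rw [rsF_rsF, map_mul] at e
  rw [rsF_pair, rsF_rsF, e, res_val, res_val]

/-- Pullback of a section of the inverse cocycle. -/
def pullInv (f : Y ⟶ X) {V : Y.Opens} (h : V ≤ f ⁻¹ᵁ W) (v : Sec c⁻¹ W) : Sec (c.pull f)⁻¹ V :=
  ⟨(pull f h v).1, fun x y O hW hx hy => by
    have e := (pull f h v).2 x y O hW hx hy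
    have hO : O ≤ f ⁻¹ᵁ (c.U (f x) ⊓ c.U (f y)) := le_inf hx hy
    refine e.trans ?_
    rw [Coc.pull_at f c⁻¹ x y hx hy (inf_le_left : c.U (f x) ⊓ c.U (f y) ≤ _) inf_le_right hO,
      Coc.inv_at, Coc.inv_at,
      Coc.pull_at f c x y hx hy (inf_le_left : c.U (f x) ⊓ c.U (f y) ≤ _) inf_le_right hO, map_inv]
    rfl⟩

theorem pair_pull (f : Y ⟶ X) {V : Y.Opens} (h : V ≤ f ⁻¹ᵁ W) (v : Sec c⁻¹ W) (s : Sec c W) :
    pair (pullInv f h v) (pull f h s) = apF f h (pair v s) := pair_ext (c := c.pull f) fun y => by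
  have hle : V ⊓ (c.pull f).U y ≤ f ⁻¹ᵁ (W ⊓ c.U (f y)) :=
    le_inf (inf_le_left.trans h) inf_le_right
  have e := congrArg (apF f hle) (rsF_pair v s (f y))
  rw [apF_rsF, map_mul] at e
  rw [rsF_pair, rsF_apF, e]
  rfl

/-! ### Dual frames -/

/-- Dual frames of a cocycle on an open. -/
structure DualFrame (c : Coc X) (W : X.Opens) : Type u where
  /-- The number of sections. -/
  n : ℕ
  /-- The sections. -/
  u : Fin n → Sec c W
  /-- The sections of the inverse. -/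
  v : Fin n → Sec c⁻¹ W
  sum_eq : ∑ i, pair (v i) (u i) = 1

namespace DualFrame

variable (Φ : DualFrame c W)

/-- The coordinates. -/
def coord : Sec c W →ₗ[Γ(X, W)] (Fin Φ.n → Γ(X, W)) := LinearMap.pi fun i => pairL (Φ.v i)

theorem coord_apply (s : Sec c W) (i : Fin Φ.n) : Φ.coord s i = pair (Φ.v i) s := rfl

/-- The combination. -/
def comb : (Fin Φ.n → Γ(X, W)) →ₗ[Γ(X, W)] Sec c W :=
  ∑ i, (LinearMap.toSpanSingleton _ _ (Φ.u i)).comp (LinearMap.proj i)

theorem comb_apply (a : Fin Φ.n → Γ(X, W)) : Φ.comb a = ∑ i, a i • Φ.u i := by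
  simp [comb, LinearMap.toSpanSingleton_apply]

theorem comb_coord (s : Sec c W) : Φ.comb (Φ.coord s) = s := by
  rw [comb_apply]
  simp only [coord_apply]
  rw [Finset.sum_congr rfl fun i _ => smulF_pair (Φ.v i) s (Φ.u i), ← Finset.sum_smul,
    Φ.sum_eq, one_smul]

/-- Restriction of a dual frame. -/
def res (h : W' ≤ W) : DualFrame c W' where
  n := Φ.n
  u i := Sec.res h (Φ.u i)
  v i := Sec.res h (Φ.v i)
  sum_eq := by
    simp only [pair_res]
    rw [← map_sum, Φ.sum_eq, map_one]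

/-- Pullback of a dual frame. -/
def pull (f : Y ⟶ X) {V : Y.Opens} (h : V ≤ f ⁻¹ᵁ W) : DualFrame (c.pull f) V where
  n := Φ.n
  u i := Sec.pull f h (Φ.u i)
  v i := pullInv f h (Φ.v i)
  sum_eq := by
    simp only [pair_pull]
    rw [← map_sum, Φ.sum_eq, map_one]

end DualFrame

/-! ### Existence on affine opens -/

theorem exists_ext_pow (hW : IsAffineOpen W) (h : Γ(X, W)) {O : X.Opens}
    (hO : O = X.basicOpen h) (hOW : O ≤ W) (b : Γ(X, O)) :
    ∃ (N : ℕ) (a : Γ(X, W)), rsF hOW a = rsF hOW h ^ N * b := by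
  subst hO
  haveI := hW.isLocalization_basicOpen h
  obtain ⟨⟨a, ⟨t, ht⟩⟩, e⟩ := IsLocalization.surj (Submonoid.powers h) b
  obtain ⟨N, hN⟩ := ht
  subst hN
  refine ⟨N, a, ?_⟩
  rw [← map_pow, rsF_eq_map, rsF_eq_map, mul_comm]
  exact e.symm

theorem exists_kill_pow (hW : IsAffineOpen W) (h : Γ(X, W)) {O : X.Opens}
    (hO : O = X.basicOpen h) (hOW : O ≤ W) {a : Γ(X, W)} (ha : rsF hOW a = 0) :
    ∃ N : ℕ, h ^ N * a = 0 := by
  subst hO
  haveI := hW.isLocalization_basicOpen h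
  rw [rsF_eq_map] at ha
  obtain ⟨⟨t, ht⟩, e⟩ := (IsLocalization.map_eq_zero_iff (Submonoid.powers h)
    Γ(X, X.basicOpen h) a).1 ha
  obtain ⟨N, rfl⟩ := ht
  exact ⟨N, e⟩

theorem basicOpen_rsF {U V : X.Opens} (hVU : V ≤ U) (h : Γ(X, U)) :
    X.basicOpen (rsF hVU h) = V ⊓ X.basicOpen h := by
  rw [rsF_eq_map, Scheme.basicOpen_res]

/-- Sections of a cocycle extending powers of a basic function times a trivialisation. -/
theorem exists_extend {n : ℕ} (hW : IsAffineOpen W) (h : Fin n → Γ(X, W)) (p : Fin n → X)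
    (hp : ∀ i, X.basicOpen (h i) ≤ c.U (p i)) (hcov : W ≤ ⨆ i, X.basicOpen (h i)) (i : Fin n) :
    ∃ N : ℕ, ∀ M, N ≤ M → ∃ s : Sec c W,
      rsF (le_inf (X.basicOpen_le (h i)) (hp i)) (s.1 (p i)) = rsF (X.basicOpen_le _) (h i ^ M) := by
  classical
  have hD : ∀ j, (X.basicOpen (h j)) ≤ W := fun j => X.basicOpen_le _
  have key : ∀ j, ∃ (N : ℕ) (a : Γ(X, (X.basicOpen (h j)))), rsF (inf_le_left : (X.basicOpen (h j)) ⊓ (X.basicOpen (h i)) ≤ (X.basicOpen (h j))) a =
      rsF (inf_le_left.trans (hD j)) (h i ^ N) *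
        (c.at (p j) (p i) _ (inf_le_left.trans (hp j)) (inf_le_right.trans (hp i)) :
          Γ(X, (X.basicOpen (h j)) ⊓ (X.basicOpen (h i)))) := fun j => by
    obtain ⟨N, a, ha⟩ := exists_ext_pow (hW.basicOpen (h j)) (rsF (hD j) (h i))
      (basicOpen_rsF (hD j) (h i)).symm inf_le_left
      (c.at (p j) (p i) _ (inf_le_left.trans (hp j)) (inf_le_right.trans (hp i)) :
        Γ(X, (X.basicOpen (h j)) ⊓ (X.basicOpen (h i))))
    refine ⟨N, a, ?_⟩
    rw [ha, map_pow, rsF_rsF]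
  choose N a ha using key
  set N₀ := Finset.univ.sup N
  let a' : ∀ j, Γ(X, (X.basicOpen (h j))) := fun j => rsF (hD j) (h i ^ (N₀ - N j)) * a j
  have ha' : ∀ j, rsF (inf_le_left : (X.basicOpen (h j)) ⊓ (X.basicOpen (h i)) ≤ (X.basicOpen (h j))) (a' j) =
      rsF (inf_le_left.trans (hD j)) (h i ^ N₀) *
        (c.at (p j) (p i) _ (inf_le_left.trans (hp j)) (inf_le_right.trans (hp i)) :
          Γ(X, (X.basicOpen (h j)) ⊓ (X.basicOpen (h i)))) := fun j => by
    simp only [a', map_mul, ha, rsF_rsF]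
    rw [← mul_assoc, ← map_mul, ← pow_add, Nat.sub_add_cancel (Finset.le_sup (Finset.mem_univ j))]
  -- compatibility up to a power
  have key2 : ∀ j l, ∃ M : ℕ, rsF (inf_le_left.trans (hD j)) (h i ^ M) *
      (rsF (inf_le_left : (X.basicOpen (h j)) ⊓ (X.basicOpen (h l)) ≤ (X.basicOpen (h j))) (a' j) -
        (c.at (p j) (p l) _ (inf_le_left.trans (hp j)) (inf_le_right.trans (hp l)) :
          Γ(X, (X.basicOpen (h j)) ⊓ (X.basicOpen (h l)))) * rsF inf_le_right (a' l)) = 0 := fun j l => by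
    have haff : IsAffineOpen ((X.basicOpen (h j)) ⊓ (X.basicOpen (h l))) := by
      rw [show (X.basicOpen (h j)) ⊓ (X.basicOpen (h l)) = X.basicOpen (h j * h l) from (X.basicOpen_mul _ _).symm]
      exact hW.basicOpen _
    obtain ⟨M, hM⟩ := exists_kill_pow haff (rsF (inf_le_left.trans (hD j)) (h i))
      (a := rsF (inf_le_left : (X.basicOpen (h j)) ⊓ (X.basicOpen (h l)) ≤ (X.basicOpen (h j))) (a' j) -
        (c.at (p j) (p l) _ (inf_le_left.trans (hp j)) (inf_le_right.trans (hp l)) :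
          Γ(X, (X.basicOpen (h j)) ⊓ (X.basicOpen (h l)))) * rsF inf_le_right (a' l))
      (O := (X.basicOpen (h j)) ⊓ (X.basicOpen (h l)) ⊓ (X.basicOpen (h i))) (basicOpen_rsF _ (h i)).symm inf_le_left (by
        set T := (X.basicOpen (h j)) ⊓ (X.basicOpen (h l)) ⊓ (X.basicOpen (h i))
        have hj : T ≤ (X.basicOpen (h j)) := inf_le_left.trans inf_le_left
        have hl : T ≤ (X.basicOpen (h l)) := inf_le_left.trans inf_le_right
        have hi : T ≤ (X.basicOpen (h i)) := inf_le_right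
        have e := congrArg (rsF (le_inf hj hi)) (ha' j)
        have e' := congrArg (rsF (le_inf hl hi)) (ha' l)
        simp only [map_mul, rsF_rsF, rsF_uRes, Coc.uRes_at] at e e'
        simp only [map_sub, map_mul, rsF_rsF, rsF_uRes, Coc.uRes_at]
        rw [e, e', c.at_mul (p j) (p l) (p i) (hj.trans (hp j)) (hl.trans (hp l))
          (hi.trans (hp i)), Units.val_mul]
        ring)
    exact ⟨M, by rw [map_pow]; exact hM⟩
  choose M hM using key2
  set M₀ := Finset.univ.sup fun q : Fin n × Fin n => M q.1 q.2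
  refine ⟨N₀ + M₀, fun K hK => ?_⟩
  let f : ∀ j : ULift.{u} (Fin n), Γ(X, (X.basicOpen (h j.down))) :=
    fun j => rsF (hD j.down) (h i ^ (K - N₀)) * a' j.down
  obtain ⟨s, hs⟩ := exists_of_cover (c := c) (fun j : ULift.{u} (Fin n) => (X.basicOpen (h j.down)))
    (fun j => hD j.down) (fun z hz => by
      obtain ⟨j, hj⟩ := Opens.mem_iSup.1 (hcov hz)
      exact Opens.mem_iSup.2 ⟨⟨j⟩, hj⟩) (fun j => p j.down) (fun j => hp j.down) f
    fun ⟨j⟩ ⟨l⟩ => by
      set T := (X.basicOpen (h j)) ⊓ (X.basicOpen (h l))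
      have h1 : M j l ≤ K - N₀ := by
        have := Finset.le_sup (f := fun q : Fin n × Fin n => M q.1 q.2) (Finset.mem_univ (j, l))
        simp only at this
        omega
      have e := hM j l
      simp only [f, map_mul, rsF_rsF]
      rw [← Nat.sub_add_cancel h1, pow_add, map_mul]
      linear_combination (rsF (inf_le_left.trans (hD j)) (h i ^ (K - N₀ - M j l))) * e
  refine ⟨s, (hs ⟨i⟩).trans ?_⟩
  have e := congrArg (rsF (le_inf le_rfl le_rfl : (X.basicOpen (h i)) ≤ (X.basicOpen (h i)) ⊓ (X.basicOpen (h i)))) (ha' i)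
  simp only [rsF_rsF, rsF_self, Coc.at_self, Units.val_one, mul_one] at e
  simp only [f]
  rw [e, ← map_mul, ← pow_add, Nat.sub_add_cancel (le_trans (Nat.le_add_right _ _) hK)]

/-- Dual frames exist on affine opens. -/
theorem nonempty_dualFrame (c : Coc X) (hW : IsAffineOpen W) : Nonempty (DualFrame c W) := by
  classical
  have hloc : ∀ z : W, ∃ h : Γ(X, W), X.basicOpen h ≤ c.U z ∧ (z : X) ∈ X.basicOpen h := fun z =>
    hW.exists_basicOpen_le (V := c.U z) ⟨z, c.mem _⟩ z.2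
  choose h hhU hhm using hloc
  obtain ⟨t, ht⟩ := hW.isCompact.elim_finite_subcover (fun z : W => (X.basicOpen (h z) : Set X))
    (fun z => (X.basicOpen (h z)).2) fun z hz => Set.mem_iUnion.2 ⟨⟨z, hz⟩, hhm _⟩
  let e := (Fintype.equivFin t).symm
  let h' : Fin (Fintype.card t) → Γ(X, W) := fun i => h (e i).1
  let p : Fin (Fintype.card t) → X := fun i => ((e i).1 : X)
  have hp : ∀ i, X.basicOpen (h' i) ≤ c.U (p i) := fun i => hhU _
  have hcov : W ≤ ⨆ i, X.basicOpen (h' i) := fun z hz => by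
    obtain ⟨q, hq, hzq⟩ := Set.mem_iUnion₂.1 (ht hz)
    refine Opens.mem_iSup.2 ⟨e.symm ⟨q, hq⟩, ?_⟩
    simp only [h', Equiv.apply_symm_apply]
    exact hzq
  choose N hN using exists_extend (c := c) hW h' p hp hcov
  choose N' hN' using exists_extend (c := c⁻¹) hW h' p hp hcov
  set K := Finset.univ.sup N + Finset.univ.sup N' + 1
  choose u hu using fun i => hN i K (by
    have := Finset.le_sup (f := N) (Finset.mem_univ i); omega)
  choose v hv using fun i => hN' i K (by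
    have := Finset.le_sup (f := N') (Finset.mem_univ i); omega)
  -- the pairings are units at the points of the basic opens
  have hpair : ∀ i, rsF (X.basicOpen_le (h' i)) (pair (v i) (u i)) =
      rsF (X.basicOpen_le (h' i)) (h' i ^ K * h' i ^ K) := fun i => by
    have h1 := congrArg (rsF (le_inf (X.basicOpen_le (h' i)) (hp i))) (rsF_pair (v i) (u i) (p i))
    rw [rsF_rsF, map_mul] at h1
    rw [h1, map_mul, hu i]
    exact congrArg (· * _) (hv i)
  have hspan : Ideal.span (Set.range fun i => pair (v i) (u i)) = ⊤ := by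
    rw [← hW.self_le_iSup_basicOpen_iff]
    intro z hz
    obtain ⟨i, hi⟩ := Opens.mem_iSup.1 (hcov hz)
    refine Opens.mem_iSup.2 ⟨⟨_, i, rfl⟩, ?_⟩
    have h1 : z ∈ X.basicOpen (rsF (X.basicOpen_le (h' i)) (pair (v i) (u i))) := by
      rw [hpair i, basicOpen_rsF]
      refine ⟨hi, ?_⟩
      rw [X.basicOpen_mul]
      have hpow : z ∈ X.basicOpen (h' i ^ K) := by
        rw [X.basicOpen_pow _ (by omega)]
        exact hi
      exact ⟨hpow, hpow⟩
    rw [basicOpen_rsF] at h1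
    exact h1.2
  obtain ⟨l, hl⟩ := Ideal.mem_span_range_iff_exists_fun.1 ((Ideal.eq_top_iff_one _).1 hspan)
  refine ⟨⟨_, u, fun i => l i • v i, ?_⟩⟩
  rw [← hl]
  refine Finset.sum_congr rfl fun i _ => pair_ext (c := c) fun x => ?_
  rw [rsF_pair, map_mul, rsF_pair]
  exact mul_assoc _ _ _

end Sec

end FA.Jac

end
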