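import Fermat.Agent.Jac.Curve
import Mathlib.AlgebraicGeometry.Geometrically.Integral
import Mathlib.AlgebraicGeometry.Geometrically.Connected
import Mathlib.AlgebraicGeometry.Morphisms.Flat
import Mathlib.FieldTheory.IsAlgClosed.AlgebraicClosure
import Mathlib.RingTheory.Flat.FaithfullyFlat.Algebra

/-!
# Geometric properties over a field

Smooth schemes are geometrically reduced; the curve is geometrically irreducible; images of
geometrically irreducible schemes.
-/

set_option autoImplicit false
set_option linter.style.haveILetI false
set_option linter.unusedSectionVars false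

noncomputable section

universe u

open CategoryTheory CategoryTheory.Limits AlgebraicGeometry TopologicalSpace

namespace FA.Jac

/-- Reducedness descends along flat surjective maps. -/
theorem isReduced_of_flat_cover {X Y : Scheme.{u}} (f : X ⟶ Y) [Flat f] [Surjective f]
    [IsReduced X] : IsReduced Y := by
  haveI : ∀ y : Y, _root_.IsReduced (Y.presheaf.stalk y) := fun y => by
    obtain ⟨x, rfl⟩ := f.surjective y
    letI : Algebra (Y.presheaf.stalk (f x)) (X.presheaf.stalk x) := (f.stalkMap x).hom.toAlgebra
    haveI : Module.Flat (Y.presheaf.stalk (f x)) (X.presheaf.stalk x) := Flat.stalkMap f x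
    haveI : IsLocalHom (algebraMap (Y.presheaf.stalk (f x)) (X.presheaf.stalk x)) :=
      f.toLRSHom.prop x
    haveI := Module.FaithfullyFlat.of_flat_of_isLocalHom
      (A := Y.presheaf.stalk (f x)) (B := X.presheaf.stalk x)
    exact isReduced_of_injective (algebraMap (Y.presheaf.stalk (f x)) (X.presheaf.stalk x))
      (FaithfulSMul.algebraMap_injective _ _)
  exact isReduced_of_isReduced_stalk Y

variable {K : Type u} [Field K]

/-- The algebraic closure, as a cover of the spectrum of a field. -/
def acl (K : Type u) [Field K] :
    Spec (CommRingCat.of (AlgebraicClosure K)) ⟶ Spec (CommRingCat.of K) :=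
  Spec.map (CommRingCat.ofHom (algebraMap K (AlgebraicClosure K)))

instance : Surjective (acl K) := ⟨fun x => ⟨IsLocalRing.closedPoint _, Subsingleton.elim _ _⟩⟩

instance : Flat (acl K) := by
  rw [acl, HasRingHomProperty.Spec_iff (P := @Flat)]
  exact RingHom.flat_algebraMap_iff.2 inferInstance

/-- Smooth schemes over fields are reduced. -/
theorem isReduced_of_smooth {X : Scheme.{u}} (s : X ⟶ Spec (CommRingCat.of K)) [Smooth s] :
    IsReduced X := by
  haveI : IsReduced (pullback s (acl K)) :=
    FA.AbTors.Loc.isReduced_of_smooth (pullback.snd s (acl K))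
  haveI : Surjective (pullback.fst s (acl K)) := MorphismProperty.pullback_fst _ _ inferInstance
  exact isReduced_of_flat_cover (pullback.fst s (acl K))

variable {k : Type u} [Field k]

/-- Smooth schemes are geometrically reduced. -/
theorem geometricallyReduced_of_smooth {X : Scheme.{u}} (s : X ⟶ Spec (CommRingCat.of k))
    [Smooth s] : GeometricallyReduced s := by
  refine ⟨geometrically_iff_of_isClosedUnderIsomorphisms.2 fun K _ a => ?_⟩
  exact isReduced_of_smooth (pullback.snd s a)

/-- The image of a geometrically irreducible scheme is geometrically irreducible. -/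
theorem geometricallyIrreducible_of_surjective {X Y : Scheme.{u}} (f : Y ⟶ X)
    (s : X ⟶ Spec (CommRingCat.of k)) [Surjective f] [GeometricallyIrreducible (f ≫ s)] :
    GeometricallyIrreducible s := by
  refine ⟨geometrically_iff_of_isClosedUnderIsomorphisms.2 fun K _ a => ?_⟩
  haveI : IrreducibleSpace (pullback (f ≫ s) a : Scheme.{u}) :=
    pullback_of_geometrically (GeometricallyIrreducible.eq_geometrically.le _ _ _ ‹_›) K a
  haveI : IrreducibleSpace (pullback f (pullback.fst s a) : Scheme.{u}) :=
    (pullbackRightPullbackFstIso s a f).hom.homeomorph.irreducibleSpace_iff.2 inferInstance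
  haveI : Surjective (pullback.snd f (pullback.fst s a)) :=
    MorphismProperty.pullback_snd _ _ inferInstance
  exact (pullback.snd f (pullback.fst s a)).surjective.irreducibleSpace
    (pullback.snd f (pullback.fst s a)).continuous

/-- Geometrically irreducible implies geometrically connected. -/
theorem geometricallyConnected_of_irreducible {X : Scheme.{u}} (s : X ⟶ Spec (CommRingCat.of k))
    [GeometricallyIrreducible s] : GeometricallyConnected s := by
  refine ⟨geometrically_iff_of_isClosedUnderIsomorphisms.2 fun K _ a => ?_⟩
  haveI : IrreducibleSpace (pullback s a : Scheme.{u}) :=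
    pullback_of_geometrically (GeometricallyIrreducible.eq_geometrically.le _ _ _ ‹_›) K a
  infer_instance

variable [IsAlgClosed k]

/-- The curve is geometrically irreducible. -/
theorem Crv.geometricallyIrreducible (V : Crv k) : GeometricallyIrreducible V.str := by
  refine ⟨geometrically_iff_of_isClosedUnderIsomorphisms.2 fun K _ a => ?_⟩
  haveI := V.isIntegral_bc (acl K ≫ a)
  haveI : IrreducibleSpace (pullback V.str (acl K ≫ a) : Scheme.{u}) := inferInstance
  haveI : IrreducibleSpace (pullback (pullback.snd V.str a) (acl K) : Scheme.{u}) :=
    (pullbackLeftPullbackSndIso V.str a (acl K)).hom.homeomorph.irreducibleSpace_iff.2 inferInstance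
  haveI : Surjective (pullback.fst (pullback.snd V.str a) (acl K)) :=
    MorphismProperty.pullback_fst _ _ inferInstance
  exact (pullback.fst (pullback.snd V.str a) (acl K)).surjective.irreducibleSpace
    (pullback.fst (pullback.snd V.str a) (acl K)).continuous

end FA.Jac

end
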