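import Fermat.Agent.Jac.GlueOver

/-!
# The glued class and its restrictions
-/

set_option autoImplicit false
set_option linter.unusedSectionVars false

noncomputable section

universe u

open CategoryTheory AlgebraicGeometry TopologicalSpace Opposite FA.AbTors

namespace FA.Jac.Glue

theorem aux_rel {G : Type*} [CommGroup G] {g a b c : G} (h : g * b = a * c) :
    g * (a⁻¹ / b⁻¹) = c := by
  rw [inv_div_inv, mul_div_assoc', h, mul_div_cancel_left]

variable {X T : Scheme.{u}} {π : X ⟶ T} {σ : T ⟶ X} {ι : Type u} {Wf : ι → T.Opens}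
  (hσ : σ ≫ π = 𝟙 T) (hπ : ∀ O : T.Opens, Function.Bijective (π.app O).hom)
  (hW : ∀ p : T, ∃ i, p ∈ Wf i) (A : ∀ i, LCoc π σ (Wf i)) (M : ∀ i j, Mor (A i) (A j))

/-- A member of the cover at a point. -/
def idx (π : X ⟶ T) (hW : ∀ p : T, ∃ i, p ∈ Wf i) (x : X) : ι := (hW (π x)).choose

/-- An index of the member at a point. -/
def sub (x : X) : (A (idx π hW x)).ι := ((A (idx π hW x)).cover x (hW (π x)).choose_spec).choose

theorem mem_sub (x : X) : x ∈ (A (idx π hW x)).U (sub hW A x) :=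
  ((A (idx π hW x)).cover x (hW (π x)).choose_spec).choose_spec

/-- The glued cocycle. -/
def glueCoc : Coc X where
  U x := (A (idx π hW x)).U (sub hW A x)
  mem := mem_sub hW A
  g x y := (M (idx π hW x) (idx π hW y)).H (sub hW A x) (sub hW A y)
  cocycle x y z _ hx hy hz :=
    (Mor.mul_eq hσ hπ (M (idx π hW x) (idx π hW y)) (M (idx π hW y) (idx π hW z))
      (M (idx π hW x) (idx π hW z)) _ _ _ hx hy hz).symm

theorem pull_glueCoc : Pic.pull σ (Pic.mk (glueCoc hσ hπ hW A M)) = 0 := by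
  rw [Pic.pull_mk, Pic.mk_eq_zero]
  refine ⟨fun p => σ ⁻¹ᵁ (A (idx π hW (σ p))).U (sub hW A (σ p)), fun p => mem_sub hW A (σ p),
    fun p => le_rfl, fun p => (A (idx π hW (σ p))).v (sub hW A (σ p)), fun p q O hp hq => ?_⟩
  rw [Coc.pull_at σ (glueCoc hσ hπ hW A M) p q hp hq (V := _ ⊓ _) inf_le_left inf_le_right
    (le_pre_inf σ hp hq)]
  exact (M (idx π hW (σ p)) (idx π hW (σ q))).uApp_at _ _ inf_le_left inf_le_right _

variable {Z : Scheme.{u}} (j : Z ⟶ X) [IsOpenImmersion j] {W : T.Opens}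
  (hj : j.opensRange = π ⁻¹ᵁ W) (σ' : W.toScheme ⟶ Z) (hσ' : σ' ≫ j = W.ι ≫ σ) (c : Coc Z)
  (hc : Pic.pull σ' (Pic.mk c) = 0) (K : ∀ i, Mor (A i) (LCoc.ofImage j hj hσ σ' hσ' c hc))

include K in
/-- The glued class restricts to any class mapped to compatibly. -/
theorem pull_glueCoc_eq : Pic.pull j (Pic.mk (glueCoc hσ hπ hW A M)) = Pic.mk c := by
  rw [Pic.pull_mk, Pic.mk_eq_mk]
  let C := LCoc.ofImage j hj hσ σ' hσ' c hc
  let S : Z → Z.Opens := fun z =>
    j ⁻¹ᵁ ((A (idx π hW (j z))).U (sub hW A (j z))) ⊓ c.U z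
  have hS : ∀ z, S z ≤ j ⁻¹ᵁ ((A (idx π hW (j z))).U (sub hW A (j z)) ⊓ j ''ᵁ c.U z) := fun z =>
    le_pre_inf j inf_le_left (inf_le_right.trans (j.preimage_image_eq _).ge)
  refine ⟨S, fun z => ⟨mem_sub hW A (j z), c.mem z⟩, fun z => inf_le_left, fun z => inf_le_right,
    fun z => (uApp j _ (S z) (hS z) ((K (idx π hW (j z))).H (sub hW A (j z)) z))⁻¹,
    fun z z' O hz hz' => ?_⟩
  let Q : X.Opens := (A (idx π hW (j z))).U (sub hW A (j z)) ⊓
    (A (idx π hW (j z'))).U (sub hW A (j z')) ⊓ (j ''ᵁ c.U z ⊓ j ''ᵁ c.U z')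
  have a1 : Q ≤ (A (idx π hW (j z))).U (sub hW A (j z)) := inf_le_left.trans inf_le_left
  have a2 : Q ≤ (A (idx π hW (j z'))).U (sub hW A (j z')) := inf_le_left.trans inf_le_right
  have b1 : Q ≤ j ''ᵁ c.U z := inf_le_right.trans inf_le_left
  have b2 : Q ≤ j ''ᵁ c.U z' := inf_le_right.trans inf_le_right
  have hQ : O ≤ j ⁻¹ᵁ Q := le_pre_inf j
    (le_pre_inf j (hz.trans inf_le_left) (hz'.trans inf_le_left))
    ((le_pre_inf j (hz.trans inf_le_right |>.trans (j.preimage_image_eq _).ge)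
      (hz'.trans inf_le_right |>.trans (j.preimage_image_eq _).ge)))
  have h := Mor.mul_eq hσ hπ (M (idx π hW (j z)) (idx π hW (j z'))) (K (idx π hW (j z')))
    (K (idx π hW (j z))) (sub hW A (j z)) (sub hW A (j z')) z' a1 a2 b2
  have ht : (K (idx π hW (j z))).at (sub hW A (j z)) z' Q a1 b2 =
      (A (idx π hW (j z))).at (sub hW A (j z)) (sub hW A (j z)) Q a1 a1 *
        (K (idx π hW (j z))).at (sub hW A (j z)) z Q a1 b1 * C.at z z' Q b1 b2 :=
    (K (idx π hW (j z))).trans _ _ _ _ Q a1 a1 b2 b1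
  rw [LCoc.at_self, one_mul] at ht
  have h' := congrArg (uApp j Q O hQ) (h.trans ht)
  rw [map_mul, map_mul] at h'
  have eK : ∀ (i : ι) (a : (A i).ι) (b : Z) (ha : Q ≤ (A i).U a) (hb : Q ≤ j ''ᵁ c.U b),
      uApp j Q O hQ ((K i).at a b Q ha hb) =
        uApp j _ O (hQ.trans (le_pre_inf j (j.preimage_mono ha) (j.preimage_mono hb)))
          ((K i).H a b) := fun i a b ha hb => uApp_uRes' j (le_inf ha hb) hQ _
  have eC : uApp j Q O hQ (C.at z z' Q b1 b2) =
      c.at z z' O (hz.trans inf_le_right) (hz'.trans inf_le_right) :=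
    uApp_gImage j c z z' b1 b2 hQ
  rw [eK, eK, eC] at h'
  rw [Coc.pull_at j (glueCoc hσ hπ hW A M) z z' (hz.trans inf_le_left) (hz'.trans inf_le_left)
    (V := Q) a1 a2 hQ, map_inv, map_inv]
  erw [uRes_uApp, uRes_uApp]
  exact (aux_rel h').symm

end FA.Jac.Glue

end
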