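import Fermat.Agent.AbTors.Pic

/-!
# Rigidified cocycles on a family with no more functions than the base

Morphisms of rigidified cocycles are unique, so rigidified cocycles glue.
-/

set_option autoImplicit false
set_option linter.unusedSectionVars false

noncomputable section

universe u

open CategoryTheory AlgebraicGeometry TopologicalSpace Opposite FA.AbTors

namespace FA.Jac.Glue

variable {X : Scheme.{u}}

theorem coe_uRes {U V : X.Opens} (h : V ≤ U) (r : Γ(X, U)ˣ) :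
    (uRes U V h r : Γ(X, V)) = (X.presheaf.map (homOfLE h).op).hom (r : Γ(X, U)) := by
  have h1 : ∀ e, (𝟙 X : X ⟶ X).appLE U V e = X.presheaf.map (homOfLE h).op := fun e =>
    (Scheme.Hom.appLE_map (𝟙 X) (U := U) (V := U) le_rfl (homOfLE h).op).symm.trans (by
      rw [show (𝟙 X : X ⟶ X).appLE U U le_rfl = 𝟙 _ from
        (Scheme.Hom.appLE_eq_app (𝟙 X)).trans (Scheme.Hom.id_app _), Category.id_comp])
  exact congrArg (fun ψ : Γ(X, U) ⟶ Γ(X, V) => ψ.hom (r : Γ(X, U))) (h1 _)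

/-- Units agree once they agree locally. -/
theorem unit_ext {O : X.Opens} {a b : Γ(X, O)ˣ} {α : Type u} (W : α → X.Opens)
    (hle : ∀ i, W i ≤ O) (hcov : ∀ p ∈ O, ∃ i, p ∈ W i)
    (h : ∀ i, uRes O (W i) (hle i) a = uRes O (W i) (hle i) b) : a = b :=
  Units.ext (X.sheaf.eq_of_locally_eq' W O (fun i => homOfLE (hle i))
    (fun p hp => Opens.mem_iSup.2 (hcov p hp)) _ _ fun i =>
      ((coe_uRes (hle i) a).symm.trans (congrArg Units.val (h i))).trans (coe_uRes (hle i) b))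

/-- Compatible units glue. -/
theorem exists_unit {O : X.Opens} {α : Type u} (W : α → X.Opens)
    (hle : ∀ i, W i ≤ O) (hcov : ∀ p ∈ O, ∃ i, p ∈ W i) (r : ∀ i, Γ(X, W i)ˣ)
    (h : ∀ i j, uRes (W i) (W i ⊓ W j) inf_le_left (r i) =
      uRes (W j) (W i ⊓ W j) inf_le_right (r j)) :
    ∃ s : Γ(X, O)ˣ, ∀ i, uRes O (W i) (hle i) s = r i := by
  have hc : ∀ p : ∀ i, Γ(X, W i)ˣ, (∀ i j, uRes (W i) (W i ⊓ W j) inf_le_left (p i) =
      uRes (W j) (W i ⊓ W j) inf_le_right (p j)) →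
      ∃ s : Γ(X, O), ∀ i, (X.presheaf.map (homOfLE (hle i)).op).hom s = p i := fun p hp => by
    obtain ⟨s, hs, -⟩ := X.sheaf.existsUnique_gluing' W O (fun i => homOfLE (hle i))
      (fun q hq => Opens.mem_iSup.2 (hcov q hq)) (fun i => (p i : Γ(X, W i)))
      fun i j => ((coe_uRes _ _).symm.trans (congrArg Units.val (hp i j))).trans (coe_uRes _ _)
    exact ⟨s, hs⟩
  obtain ⟨s, hs⟩ := hc r h
  obtain ⟨t, ht⟩ := hc (fun i => (r i)⁻¹) fun i j => by rw [map_inv, map_inv, h i j]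
  have hst : s * t = 1 := X.sheaf.eq_of_locally_eq' W O (fun i => homOfLE (hle i))
    (fun q hq => Opens.mem_iSup.2 (hcov q hq)) _ _ fun i => by
      show (X.presheaf.map (homOfLE (hle i)).op).hom (s * t) =
        (X.presheaf.map (homOfLE (hle i)).op).hom 1
      rw [map_mul, map_one, hs i, ht i, Units.mul_inv]
  exact ⟨⟨s, t, hst, (mul_comm t s).trans hst⟩, fun i => Units.ext ((coe_uRes _ _).trans (hs i))⟩

theorem mul_mul_inv_div {G : Type*} [CommGroup G] (a m b n d p : G) :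
    a * m * b⁻¹ * (b * n * d) / (a * p * d) = m * n / p := by
  rw [show a * m * b⁻¹ * (b * n * d) = a * (m * n) * d by simp [mul_assoc],
    mul_div_mul_right_eq_div, mul_div_mul_left_eq_div]

variable {T : Scheme.{u}} (π : X ⟶ T) (σ : T ⟶ X)

/-- A rigidified cocycle over an open of the base. -/
structure LCoc (W : T.Opens) : Type (u + 1) where
  /-- The indices. -/
  ι : Type u
  /-- The opens. -/
  U : ι → X.Opens
  le : ∀ a, U a ≤ π ⁻¹ᵁ W
  cover : ∀ x, π x ∈ W → ∃ a, x ∈ U a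
  /-- The transition functions. -/
  g : ∀ a b, Γ(X, U a ⊓ U b)ˣ
  cocycle : ∀ (a b d : ι) (O : X.Opens) (ha : O ≤ U a) (hb : O ≤ U b) (hd : O ≤ U d),
    uRes _ O (le_inf ha hd) (g a d) =
      uRes _ O (le_inf ha hb) (g a b) * uRes _ O (le_inf hb hd) (g b d)
  /-- The trivialisation on the section. -/
  v : ∀ a, Γ(T, σ ⁻¹ᵁ U a)ˣ
  rig : ∀ (a b : ι) (O : T.Opens) (ha : O ≤ σ ⁻¹ᵁ U a) (hb : O ≤ σ ⁻¹ᵁ U b),
    uApp σ (U a ⊓ U b) O (le_inf ha hb) (g a b) = uRes _ O ha (v a) / uRes _ O hb (v b)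

variable {π σ} {W W' W'' : T.Opens}

/-- A transition function on a smaller open. -/
def LCoc.at (A : LCoc π σ W) (a b : A.ι) (O : X.Opens) (ha : O ≤ A.U a) (hb : O ≤ A.U b) :
    Γ(X, O)ˣ := uRes _ O (le_inf ha hb) (A.g a b)

theorem LCoc.at_mul (A : LCoc π σ W) (a b d : A.ι) {O : X.Opens} (ha : O ≤ A.U a) (hb : O ≤ A.U b)
    (hd : O ≤ A.U d) : A.at a d O ha hd = A.at a b O ha hb * A.at b d O hb hd :=
  A.cocycle a b d O ha hb hd

theorem LCoc.at_self (A : LCoc π σ W) (a : A.ι) {O : X.Opens} (ha : O ≤ A.U a) :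
    A.at a a O ha ha = 1 := left_eq_mul.mp (A.at_mul a a a ha ha ha)

theorem LCoc.at_symm (A : LCoc π σ W) (a b : A.ι) {O : X.Opens} (ha : O ≤ A.U a) (hb : O ≤ A.U b) :
    A.at b a O hb ha = (A.at a b O ha hb)⁻¹ := by
  refine eq_inv_of_mul_eq_one_right ?_
  rw [← A.at_mul, A.at_self]

theorem LCoc.uApp_at (A : LCoc π σ W) (a b : A.ι) {O : X.Opens} (ha : O ≤ A.U a)
    (hb : O ≤ A.U b) {P : T.Opens} (hP : P ≤ σ ⁻¹ᵁ O) :
    uApp σ O P hP (A.at a b O ha hb) =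
      uRes _ P (hP.trans (σ.preimage_mono ha)) (A.v a) /
        uRes _ P (hP.trans (σ.preimage_mono hb)) (A.v b) := by
  rw [LCoc.at, uApp_uRes]
  exact A.rig a b P _ _

/-- A normalised morphism of rigidified cocycles. -/
structure Mor (A : LCoc π σ W) (B : LCoc π σ W') : Type u where
  /-- The components. -/
  H : ∀ a b, Γ(X, A.U a ⊓ B.U b)ˣ
  trans : ∀ (a a' : A.ι) (b b' : B.ι) (O : X.Opens) (ha : O ≤ A.U a) (ha' : O ≤ A.U a')
    (hb : O ≤ B.U b) (hb' : O ≤ B.U b'),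
    uRes _ O (le_inf ha hb) (H a b) =
      A.at a a' O ha ha' * uRes _ O (le_inf ha' hb') (H a' b') * B.at b' b O hb' hb
  norm : ∀ (a : A.ι) (b : B.ι) (O : T.Opens) (ha : O ≤ σ ⁻¹ᵁ A.U a) (hb : O ≤ σ ⁻¹ᵁ B.U b),
    uApp σ (A.U a ⊓ B.U b) O (le_inf ha hb) (H a b) =
      uRes _ O ha (A.v a) / uRes _ O hb (B.v b)

/-- A component on a smaller open. -/
def Mor.at {A : LCoc π σ W} {B : LCoc π σ W'} (M : Mor A B) (a : A.ι) (b : B.ι) (O : X.Opens)
    (ha : O ≤ A.U a) (hb : O ≤ B.U b) : Γ(X, O)ˣ := uRes _ O (le_inf ha hb) (M.H a b)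

theorem Mor.uRes_at {A : LCoc π σ W} {B : LCoc π σ W'} (M : Mor A B) (a : A.ι) (b : B.ι)
    {O O' : X.Opens} (ha : O ≤ A.U a) (hb : O ≤ B.U b) (h : O' ≤ O) :
    uRes O O' h (M.at a b O ha hb) = M.at a b O' (h.trans ha) (h.trans hb) := by
  rw [Mor.at, uRes_uRes]; rfl

theorem Mor.uApp_at {A : LCoc π σ W} {B : LCoc π σ W'} (M : Mor A B) (a : A.ι) (b : B.ι)
    {O : X.Opens} (ha : O ≤ A.U a) (hb : O ≤ B.U b) {P : T.Opens} (hP : P ≤ σ ⁻¹ᵁ O) :
    uApp σ O P hP (M.at a b O ha hb) =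
      uRes _ P (hP.trans (σ.preimage_mono ha)) (A.v a) /
        uRes _ P (hP.trans (σ.preimage_mono hb)) (B.v b) := by
  rw [Mor.at, uApp_uRes]
  exact M.norm a b P _ _

/-- The identity. -/
def Mor.refl (A : LCoc π σ W) : Mor A A where
  H := A.g
  trans a a' b b' O ha ha' hb hb' := by
    show A.at a b O ha hb = A.at a a' O ha ha' * A.at a' b' O ha' hb' * A.at b' b O hb' hb
    rw [← A.at_mul, ← A.at_mul]
  norm := A.rig

variable (hσ : σ ≫ π = 𝟙 T) (hπ : ∀ O : T.Opens, Function.Bijective (π.app O).hom)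

include hπ in
theorem exists_uApp_eq {O : T.Opens} (r : Γ(X, π ⁻¹ᵁ O)ˣ) :
    ∃ s : Γ(T, O)ˣ, uApp π O (π ⁻¹ᵁ O) le_rfl s = r := by
  let e := RingEquiv.ofBijective (π.app O).hom (hπ O)
  refine ⟨Units.map e.symm.toMonoidHom r, Units.ext ?_⟩
  refine (congrArg (fun ψ : Γ(T, O) ⟶ Γ(X, π ⁻¹ᵁ O) => ψ.hom (e.symm (r : Γ(X, π ⁻¹ᵁ O))))
    (Scheme.Hom.appLE_eq_app π)).trans ?_
  exact e.apply_symm_apply _

include hσ in
theorem sigma_pi (p : T) : π (σ p) = p :=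
  congrArg (fun f : T ⟶ T => f p) hσ

include hσ in
theorem le_sigma_pi {O P : T.Opens} (h : P ≤ O) : P ≤ σ ⁻¹ᵁ (π ⁻¹ᵁ O) := fun p hp => by
  show π (σ p) ∈ O
  rw [sigma_pi hσ]
  exact h hp

include hσ in
theorem uApp_sigma_pi {O P : T.Opens} (h : P ≤ O) (s : Γ(T, O)ˣ) :
    uApp σ (π ⁻¹ᵁ O) P (le_sigma_pi hσ h) (uApp π O (π ⁻¹ᵁ O) le_rfl s) = uRes O P h s :=
  (uApp_uApp σ π _ _ s).trans (uApp_congr hσ _ s)

include hσ hπ in
/-- A rigidified family of functions is trivial. -/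
theorem eq_one {W₀ : T.Opens} {α : Type u} (O : α → X.Opens) (hle : ∀ i, O i ≤ π ⁻¹ᵁ W₀)
    (hcov : ∀ x, π x ∈ W₀ → ∃ i, x ∈ O i) (R : ∀ i, Γ(X, O i)ˣ)
    (hc : ∀ i j, uRes _ (O i ⊓ O j) inf_le_left (R i) = uRes _ (O i ⊓ O j) inf_le_right (R j))
    (hn : ∀ i, uApp σ (O i) (σ ⁻¹ᵁ O i) le_rfl (R i) = 1) (i : α) : R i = 1 := by
  obtain ⟨r, hr⟩ := exists_unit O hle hcov R hc
  obtain ⟨s, hs⟩ := exists_uApp_eq hπ r
  have hle' : ∀ i, σ ⁻¹ᵁ O i ≤ W₀ := fun i p hp => by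
    rw [← sigma_pi hσ p]; exact hle i hp
  have hs1 : s = 1 := unit_ext (fun i => σ ⁻¹ᵁ O i) hle'
    (fun p hp => hcov (σ p) (by rwa [sigma_pi hσ])) fun i => by
      rw [map_one, ← uApp_sigma_pi hσ (hle' i), hs, ← hn i, ← hr i, uApp_uRes]
  rw [← hr i, ← hs, hs1, map_one, map_one]

include hσ hπ in
/-- Morphisms compose as expected. -/
theorem Mor.mul_eq {A : LCoc π σ W} {B : LCoc π σ W'} {D : LCoc π σ W''} (M : Mor A B)
    (N : Mor B D) (P : Mor A D) (a : A.ι) (b : B.ι) (d : D.ι) {O : X.Opens} (ha : O ≤ A.U a)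
    (hb : O ≤ B.U b) (hd : O ≤ D.U d) :
    M.at a b O ha hb * N.at b d O hb hd = P.at a d O ha hd := by
  let α := A.ι × B.ι × D.ι
  let Q : α → X.Opens := fun i => A.U i.1 ⊓ (B.U i.2.1 ⊓ D.U i.2.2)
  let R : ∀ i : α, Γ(X, Q i)ˣ := fun i =>
    M.at i.1 i.2.1 _ inf_le_left (inf_le_right.trans inf_le_left) *
      N.at i.2.1 i.2.2 _ (inf_le_right.trans inf_le_left) (inf_le_right.trans inf_le_right) /
      P.at i.1 i.2.2 _ inf_le_left (inf_le_right.trans inf_le_right)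
  have h := eq_one hσ hπ (W₀ := W ⊓ (W' ⊓ W'')) Q
    (fun i => le_inf (inf_le_left.trans (A.le _))
      (le_inf ((inf_le_right.trans inf_le_left).trans (B.le _))
        ((inf_le_right.trans inf_le_right).trans (D.le _))))
    (fun x hx => by
      obtain ⟨a, ha⟩ := A.cover x hx.1
      obtain ⟨b, hb⟩ := B.cover x hx.2.1
      obtain ⟨d, hd⟩ := D.cover x hx.2.2
      exact ⟨(a, b, d), ha, hb, hd⟩)
    R (fun i j => by
      dsimp only [R, Q]
      simp only [map_div, map_mul, Mor.uRes_at]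
      set V := A.U i.1 ⊓ (B.U i.2.1 ⊓ D.U i.2.2) ⊓ (A.U j.1 ⊓ (B.U j.2.1 ⊓ D.U j.2.2))
      have h1 : V ≤ A.U i.1 := inf_le_left.trans inf_le_left
      have h2 : V ≤ B.U i.2.1 := inf_le_left.trans (inf_le_right.trans inf_le_left)
      have h3 : V ≤ D.U i.2.2 := inf_le_left.trans (inf_le_right.trans inf_le_right)
      have h1' : V ≤ A.U j.1 := inf_le_right.trans inf_le_left
      have h2' : V ≤ B.U j.2.1 := inf_le_right.trans (inf_le_right.trans inf_le_left)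
      have h3' : V ≤ D.U j.2.2 := inf_le_right.trans (inf_le_right.trans inf_le_right)
      have eM : M.at i.1 i.2.1 V h1 h2 = A.at i.1 j.1 V h1 h1' * M.at j.1 j.2.1 V h1' h2' *
          B.at j.2.1 i.2.1 V h2' h2 := M.trans _ _ _ _ V h1 h1' h2 h2'
      have eN : N.at i.2.1 i.2.2 V h2 h3 = B.at i.2.1 j.2.1 V h2 h2' * N.at j.2.1 j.2.2 V h2' h3' *
          D.at j.2.2 i.2.2 V h3' h3 := N.trans _ _ _ _ V h2 h2' h3 h3'
      have eP : P.at i.1 i.2.2 V h1 h3 = A.at i.1 j.1 V h1 h1' * P.at j.1 j.2.2 V h1' h3' *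
          D.at j.2.2 i.2.2 V h3' h3 := P.trans _ _ _ _ V h1 h1' h3 h3'
      rw [eM, eN, eP, B.at_symm i.2.1 j.2.1 h2 h2', mul_mul_inv_div])
    (fun i => by
      dsimp only [R, Q]
      simp only [map_div, map_mul, Mor.uApp_at]
      rw [div_mul_div_cancel, div_self'])
    (a, b, d)
  have h' := congrArg (uRes (Q (a, b, d)) O (le_inf ha (le_inf hb hd))) h
  dsimp only [R, Q] at h'
  simp only [map_div, map_mul, map_one, Mor.uRes_at] at h'
  exact div_eq_one.1 h'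

end FA.Jac.Glue

end
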