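import Fermat.Agent.Jac.GlueMor

/-!
# Rigidified cocycles from open subschemes
-/

set_option autoImplicit false
set_option linter.unusedSectionVars false

noncomputable section

universe u

open CategoryTheory AlgebraicGeometry TopologicalSpace Opposite FA.AbTors

namespace FA.Jac.Glue

variable {X T Z : Scheme.{u}} {π : X ⟶ T} {σ : T ⟶ X} (j : Z ⟶ X) [IsOpenImmersion j]

/-- Units on an open of the image are determined by their pullback. -/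
theorem unit_ext_image {O : X.Opens} (hO : O ≤ j.opensRange) {a b : Γ(X, O)ˣ}
    (h : uApp j O (j ⁻¹ᵁ O) le_rfl a = uApp j O (j ⁻¹ᵁ O) le_rfl b) : a = b := by
  have e : j ''ᵁ (j ⁻¹ᵁ O) = O := by
    rw [Scheme.Hom.image_preimage_eq_opensRange_inf, inf_eq_right.2 hO]
  have h' : uRes O _ e.le a = uRes O _ e.le b := by
    refine (uApp_image_bijective j _).1 ?_
    rw [uApp_uRes, uApp_uRes]
    exact h
  have h'' := congrArg (uRes _ O e.ge) h'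
  rwa [uRes_uRes, uRes_uRes, uRes_self, uRes_self] at h''

theorem uApp_imU_res {V P : Z.Opens} (h : P ≤ V) (hP : P ≤ j ⁻¹ᵁ (j ''ᵁ V)) (w : Γ(Z, V)ˣ) :
    uApp j (j ''ᵁ V) P hP (imU j V w) = uRes V P h w := by
  rw [← uRes_uApp j (j.preimage_image_eq V).ge h, uApp_imU]

theorem image_le_opensRange {V : Z.Opens} {O : X.Opens} (h : O ≤ j ''ᵁ V) : O ≤ j.opensRange :=
  h.trans (j.image_le_opensRange V)

theorem pre_image_le {V : Z.Opens} {O : X.Opens} {P : Z.Opens} (hO : P ≤ j ⁻¹ᵁ O)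
    (h : O ≤ j ''ᵁ V) : P ≤ V := by
  refine (hO.trans (j.preimage_mono h)).trans ?_
  rw [j.preimage_image_eq]

theorem inf_image_le (a b : Z.Opens) : j ''ᵁ a ⊓ j ''ᵁ b ≤ j ''ᵁ (a ⊓ b) := by
  rintro x ⟨⟨z, hz, rfl⟩, ⟨z', hz', h⟩⟩
  obtain rfl := j.isOpenEmbedding.injective h
  exact ⟨z', ⟨hz, hz'⟩, rfl⟩

/-- The transition functions of a cocycle on an open subscheme. -/
def gImage (c : Coc Z) (z z' : Z) : Γ(X, j ''ᵁ c.U z ⊓ j ''ᵁ c.U z')ˣ :=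
  uRes _ _ (inf_image_le j _ _) (imU j (c.U z ⊓ c.U z') (c.g z z'))

theorem uApp_gImage (c : Coc Z) (z z' : Z) {O : X.Opens} {P : Z.Opens} (hz : O ≤ j ''ᵁ c.U z)
    (hz' : O ≤ j ''ᵁ c.U z') (hP : P ≤ j ⁻¹ᵁ O) :
    uApp j O P hP (uRes _ O (le_inf hz hz') (gImage j c z z')) =
      c.at z z' P (pre_image_le j hP hz) (pre_image_le j hP hz') := by
  rw [gImage, uRes_uRes, uApp_uRes', uApp_imU_res j (le_inf (pre_image_le j hP hz)
    (pre_image_le j hP hz'))]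
  rfl

variable {W : T.Opens} (hW : j.opensRange = π ⁻¹ᵁ W) (hσ : σ ≫ π = 𝟙 T)
  (σ' : W.toScheme ⟶ Z) (hσ' : σ' ≫ j = W.ι ≫ σ)

include hW hσ hσ' in
theorem preimage_sigma_le (V : Z.Opens) : σ ⁻¹ᵁ (j ''ᵁ V) ≤ W.ι ''ᵁ (σ' ⁻¹ᵁ V) := by
  intro p ⟨z, hz, hzp⟩
  have hp : p ∈ W := by
    rw [← sigma_pi hσ p, ← hzp]
    exact hW.le (Set.mem_range_self z : j z ∈ j.opensRange)
  refine ⟨⟨p, hp⟩, ?_, rfl⟩
  show σ' ⟨p, hp⟩ ∈ V
  have h : j (σ' ⟨p, hp⟩) = j z :=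
    (congrArg (fun f : W.toScheme ⟶ X => f ⟨p, hp⟩) hσ').trans hzp.symm
  rwa [j.isOpenEmbedding.injective h]

include hW hσ hσ' in
/-- The rigidified cocycle of a cocycle on an open subscheme. -/
theorem exists_lcoc (c : Coc Z) (h : Pic.pull σ' (Pic.mk c) = 0) :
    ∃ v : ∀ z, Γ(T, σ ⁻¹ᵁ (j ''ᵁ c.U z))ˣ, ∀ (z z' : Z) (O : T.Opens)
      (hz : O ≤ σ ⁻¹ᵁ (j ''ᵁ c.U z)) (hz' : O ≤ σ ⁻¹ᵁ (j ''ᵁ c.U z')),
      uApp σ (j ''ᵁ c.U z ⊓ j ''ᵁ c.U z') O (le_pre_inf σ hz hz') (gImage j c z z') =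
        uRes _ O hz (v z) / uRes _ O hz' (v z') := by
  rw [Pic.pull_mk] at h
  obtain ⟨V, hV, hVc, w, hw⟩ := Pic.mk_eq_zero.1 h
  -- the trivialisations on the open subscheme
  have hex : ∀ z : Z, ∃ u : Γ(W.toScheme, σ' ⁻¹ᵁ c.U z)ˣ, ∀ (p : W.toScheme) (O : W.toScheme.Opens)
      (hz : O ≤ σ' ⁻¹ᵁ c.U z) (hp : O ≤ V p), uRes _ O hz u =
        uApp σ' (c.U z ⊓ c.U (σ' p)) O (le_pre_inf σ' hz (hp.trans (hVc p)))
          (c.at z (σ' p) _ inf_le_left inf_le_right) * uRes _ O hp (w p) := by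
    intro z
    let R : ∀ p : W.toScheme, Γ(W.toScheme, σ' ⁻¹ᵁ c.U z ⊓ V p)ˣ := fun p =>
      uApp σ' (c.U z ⊓ c.U (σ' p)) _ (le_pre_inf σ' inf_le_left (inf_le_right.trans (hVc p)))
        (c.at z (σ' p) _ inf_le_left inf_le_right) * uRes _ _ inf_le_right (w p)
    obtain ⟨u, hu⟩ := exists_unit (fun p => σ' ⁻¹ᵁ c.U z ⊓ V p) (fun p => inf_le_left)
      (fun q hq => ⟨q, hq, hV q⟩) R fun p p' => by
        set O := σ' ⁻¹ᵁ c.U z ⊓ V p ⊓ (σ' ⁻¹ᵁ c.U z ⊓ V p')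
        have hp : O ≤ V p := inf_le_left.trans inf_le_right
        have hp' : O ≤ V p' := inf_le_right.trans inf_le_right
        have hz : O ≤ σ' ⁻¹ᵁ c.U z := inf_le_left.trans inf_le_left
        let Y₀ : Z.Opens := c.U z ⊓ c.U (σ' p) ⊓ c.U (σ' p')
        have hY : O ≤ σ' ⁻¹ᵁ Y₀ :=
          le_pre_inf σ' (le_pre_inf σ' hz (hp.trans (hVc p))) (hp'.trans (hVc p'))
        have e := hw p p' O hp hp'
        rw [Coc.pull_at σ' c p p' _ _ (V := Y₀) (inf_le_left.trans inf_le_right) inf_le_right hY]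
          at e
        simp only [R, map_mul, uRes_uRes, uRes_uApp]
        rw [← uApp_uRes σ' (U' := Y₀) inf_le_left hY, ← uApp_uRes σ' (U' := Y₀)
          (le_inf (inf_le_left.trans inf_le_left) inf_le_right) hY, Coc.uRes_at, Coc.uRes_at,
          c.at_mul z (σ' p) (σ' p') (inf_le_left.trans inf_le_left)
            (inf_le_left.trans inf_le_right) inf_le_right, map_mul, e, mul_assoc, div_mul_cancel]
    refine ⟨u, fun p O hz hp => ?_⟩
    have h := congrArg (uRes _ O (le_inf hz hp)) (hu p)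
    rw [uRes_uRes] at h
    refine h.trans ?_
    simp only [R, map_mul, uRes_uRes, uRes_uApp]
  choose u hu using hex
  refine ⟨fun z => uRes _ _ (preimage_sigma_le j hW hσ σ' hσ' (c.U z))
    (imU W.ι (σ' ⁻¹ᵁ c.U z) (u z)), fun z z' O hz hz' => ?_⟩
  rw [uRes_uRes, uRes_uRes]
  set O' := W.ι ⁻¹ᵁ O
  have hO : O ≤ W.ι.opensRange := image_le_opensRange W.ι (hz.trans
    (preimage_sigma_le j hW hσ σ' hσ' (c.U z)))
  have h1 : O' ≤ σ' ⁻¹ᵁ c.U z := pre_image_le W.ι le_rfl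
    (hz.trans (preimage_sigma_le j hW hσ σ' hσ' (c.U z)))
  have h2 : O' ≤ σ' ⁻¹ᵁ c.U z' := pre_image_le W.ι le_rfl
    (hz'.trans (preimage_sigma_le j hW hσ σ' hσ' (c.U z')))
  refine unit_ext_image W.ι hO ?_
  rw [map_div, uApp_uRes', uApp_uRes', uApp_imU_res W.ι h1, uApp_imU_res W.ι h2, uApp_uApp',
    uApp_congr hσ'.symm, ← uApp_uApp' σ' j (le_pre_inf j
      ((inf_le_left : c.U z ⊓ c.U z' ≤ c.U z).trans (j.preimage_image_eq _).ge)
      ((inf_le_right : c.U z ⊓ c.U z' ≤ c.U z').trans (j.preimage_image_eq _).ge))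
      (le_pre_inf σ' h1 h2)]
  refine unit_ext (fun p => O' ⊓ V p) (fun p => inf_le_left) (fun q hq => ⟨q, hq, hV q⟩) fun p => ?_
  rw [map_div, uRes_uRes, uRes_uRes, uRes_uApp, hu z p _ (inf_le_left.trans h1) inf_le_right,
    hu z' p _ (inf_le_left.trans h2) inf_le_right, mul_div_mul_right_eq_div]
  have hp : O' ⊓ V p ≤ σ' ⁻¹ᵁ c.U (σ' p) := inf_le_right.trans (hVc p)
  let Y₀ : Z.Opens := c.U z ⊓ c.U z' ⊓ c.U (σ' p)
  have hY : O' ⊓ V p ≤ σ' ⁻¹ᵁ Y₀ :=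
    le_pre_inf σ' (le_pre_inf σ' (inf_le_left.trans h1) (inf_le_left.trans h2)) hp
  have hG : uApp j (j ''ᵁ c.U z ⊓ j ''ᵁ c.U z') (c.U z ⊓ c.U z') (le_pre_inf j
      ((inf_le_left : c.U z ⊓ c.U z' ≤ c.U z).trans (j.preimage_image_eq _).ge)
      ((inf_le_right : c.U z ⊓ c.U z' ≤ c.U z').trans (j.preimage_image_eq _).ge))
      (gImage j c z z') = c.g z z' := by
    rw [gImage, uApp_uRes', uApp_imU]
  have e1 : Y₀ ≤ c.U z := inf_le_left.trans inf_le_left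
  have e2 : Y₀ ≤ c.U z' := inf_le_left.trans inf_le_right
  have e3 : Y₀ ≤ c.U (σ' p) := inf_le_right
  rw [hG, ← uApp_uRes' σ' (inf_le_left : Y₀ ≤ c.U z ⊓ c.U z') hY,
    ← uApp_uRes' σ' (le_inf e1 e3) hY, ← uApp_uRes' σ' (le_inf e2 e3) hY,
    Coc.uRes_at, Coc.uRes_at, ← map_div,
    show uRes _ Y₀ (inf_le_left : Y₀ ≤ c.U z ⊓ c.U z') (c.g z z') = c.at z z' Y₀ e1 e2 from rfl,
    c.at_mul z z' (σ' p) e1 e2 e3, mul_div_cancel_right]

/-- A cocycle on an open subscheme, trivial on the section, as a rigidified cocycle. -/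
def LCoc.ofImage (c : Coc Z) (h : Pic.pull σ' (Pic.mk c) = 0) : LCoc π σ W where
  ι := Z
  U z := j ''ᵁ c.U z
  le z := (j.image_le_opensRange _).trans hW.le
  cover x hx := by
    obtain ⟨z, rfl⟩ := hW.ge (hx : x ∈ π ⁻¹ᵁ W)
    exact ⟨z, z, c.mem z, rfl⟩
  g := gImage j c
  cocycle a b d O ha hb hd := by
    refine unit_ext_image j (image_le_opensRange j ha) ?_
    rw [map_mul, uApp_gImage j c a d ha hd le_rfl, uApp_gImage j c a b ha hb le_rfl,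
      uApp_gImage j c b d hb hd le_rfl]
    exact c.at_mul a b d _ _ _
  v := (exists_lcoc j hW hσ σ' hσ' c h).choose
  rig := (exists_lcoc j hW hσ σ' hσ' c h).choose_spec

/-- Transition functions pulled back to a scheme over the subscheme. -/
theorem uApp_gImage_comp (c : Coc Z) {R : Scheme.{u}} (e : R ⟶ Z) (l : R ⟶ X) (hl : e ≫ j = l)
    (r r' : R) {O : X.Opens} {P : R.Opens} (hz : O ≤ j ''ᵁ c.U (e r))
    (hz' : O ≤ j ''ᵁ c.U (e r')) (hP : P ≤ l ⁻¹ᵁ O) (h1 : P ≤ (c.pull e).U r)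
    (h2 : P ≤ (c.pull e).U r') :
    uApp l O P hP (uRes _ O (le_inf hz hz') (gImage j c (e r) (e r'))) =
      (c.pull e).at r r' P h1 h2 := by
  subst hl
  rw [Coc.pull_at e c r r' h1 h2 (pre_image_le j le_rfl hz) (pre_image_le j le_rfl hz')
    (hP : P ≤ e ⁻¹ᵁ (j ⁻¹ᵁ O)), ← uApp_gImage j c (e r) (e r') hz hz' le_rfl]
  exact (uApp_uApp' e j le_rfl hP _).symm

end FA.Jac.Glue

end
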