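import Fermat.Agent.Jac.GlueCore

/-!
# Morphisms of rigidified cocycles from local data, and transfer along open immersions
-/

set_option autoImplicit false
set_option linter.unusedSectionVars false

noncomputable section

universe u

open CategoryTheory AlgebraicGeometry TopologicalSpace Opposite FA.AbTors

namespace FA.Jac.Glue

variable {X Z : Scheme.{u}} (j : Z ⟶ X) [IsOpenImmersion j]

theorem uApp_image_bijective (V : Z.Opens) :
    Function.Bijective (uApp j (j ''ᵁ V) V (j.preimage_image_eq V).ge) := by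
  have h : ∀ a : Γ(X, j ''ᵁ V), (j.appLE (j ''ᵁ V) V (j.preimage_image_eq V).ge).hom a =
      (j.appIso V).hom.hom a := fun a => by rw [Scheme.Hom.appIso_hom']
  let e := (j.appIso V).commRingCatIsoToRingEquiv
  have he : (uApp j (j ''ᵁ V) V (j.preimage_image_eq V).ge : Γ(X, j ''ᵁ V)ˣ → Γ(Z, V)ˣ) =
      Units.mapEquiv e.toMulEquiv := funext fun a => Units.ext (h a)
  rw [he]
  exact (Units.mapEquiv e.toMulEquiv).bijective

/-- The image of a unit under an open immersion. -/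
def imU (V : Z.Opens) : Γ(Z, V)ˣ →* Γ(X, j ''ᵁ V)ˣ :=
  (MulEquiv.ofBijective _ (uApp_image_bijective j V)).symm.toMonoidHom

theorem uApp_imU (V : Z.Opens) (w : Γ(Z, V)ˣ) :
    uApp j (j ''ᵁ V) V (j.preimage_image_eq V).ge (imU j V w) = w :=
  (MulEquiv.ofBijective _ (uApp_image_bijective j V)).apply_symm_apply w

theorem imU_eq {V : Z.Opens} {w : Γ(Z, V)ˣ} {a : Γ(X, j ''ᵁ V)ˣ}
    (h : uApp j (j ''ᵁ V) V (j.preimage_image_eq V).ge a = w) : imU j V w = a :=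
  (uApp_image_bijective j V).1 ((uApp_imU j V w).trans h.symm)

theorem uRes_imU {V V' : Z.Opens} (h : V' ≤ V) (w : Γ(Z, V)ˣ) :
    uRes (j ''ᵁ V) (j ''ᵁ V') (j.image_mono h) (imU j V w) = imU j V' (uRes V V' h w) := by
  refine (imU_eq j ?_).symm
  rw [uApp_uRes, ← uRes_uApp j (j.preimage_image_eq V).ge h, uApp_imU]

variable {T : Scheme.{u}} {π : X ⟶ T} {σ : T ⟶ X} {W W' : T.Opens}

theorem aux_trans {G : Type*} [CommGroup G] (a w b : G) (a' b' : G) :
    a * (a' * w * b') * b = a * a' * w * (b' * b) := by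
  simp only [mul_assoc]

theorem aux_norm {G : Type*} [CommGroup G] (h x x' y y' : G) :
    x / x' * h * (y' / y) / (x / y) = h / (x' / y') := by
  have e : x / x' * h * (y' / y) = h / (x' / y') * (x / y) := by
    simp only [div_eq_mul_inv, mul_inv_rev, inv_inv]
    ac_rfl
  rw [e, mul_div_cancel_right]

theorem le_pre_inf {S S' : Scheme.{u}} (f : S ⟶ S') {O : S.Opens} {A B : S'.Opens}
    (ha : O ≤ f ⁻¹ᵁ A) (hb : O ≤ f ⁻¹ᵁ B) : O ≤ f ⁻¹ᵁ (A ⊓ B) := le_inf ha hb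

theorem le_pre_comp {R S S' : Scheme.{u}} (f : R ⟶ S) (g : S ⟶ S') {U : S'.Opens} {V : S.Opens}
    {O : R.Opens} (e₁ : V ≤ g ⁻¹ᵁ U) (e₂ : O ≤ f ⁻¹ᵁ V) : O ≤ (f ≫ g) ⁻¹ᵁ U :=
  fun _ hx => e₁ (e₂ hx)

theorem uApp_uApp' {R S S' : Scheme.{u}} (f : R ⟶ S) (g : S ⟶ S') {U : S'.Opens} {V : S.Opens}
    {O : R.Opens} (e₁ : V ≤ g ⁻¹ᵁ U) (e₂ : O ≤ f ⁻¹ᵁ V) (a : Γ(S', U)ˣ) :
    uApp f V O e₂ (uApp g U V e₁ a) = uApp (f ≫ g) U O (le_pre_comp f g e₁ e₂) a :=
  uApp_uApp f g e₁ e₂ a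

theorem uApp_uRes' {S S' : Scheme.{u}} (f : S ⟶ S') {U U' : S'.Opens} {O : S.Opens} (h : U' ≤ U)
    (e : O ≤ f ⁻¹ᵁ U') (a : Γ(S', U)ˣ) :
    uApp f U' O e (uRes U U' h a) = uApp f U O (e.trans (f.preimage_mono h)) a :=
  uApp_uRes f h e a

variable (hσ : σ ≫ π = 𝟙 T)

include hσ in
/-- A morphism from local comparisons. -/
theorem exists_mor (A : LCoc π σ W) (B : LCoc π σ W') {ζ : Type u} (Q : ζ → X.Opens)
    (a : ζ → A.ι) (b : ζ → B.ι) (hA : ∀ z, Q z ≤ A.U (a z)) (hB : ∀ z, Q z ≤ B.U (b z))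
    (hcov : ∀ x, π x ∈ W → π x ∈ W' → ∃ z, x ∈ Q z) (w : ∀ z, Γ(X, Q z)ˣ)
    (hw : ∀ (z z' : ζ) (O : X.Opens) (hz : O ≤ Q z) (hz' : O ≤ Q z'),
      uRes _ O hz (w z) = A.at (a z) (a z') O (hz.trans (hA z)) (hz'.trans (hA z')) *
        uRes _ O hz' (w z') * B.at (b z') (b z) O (hz'.trans (hB z')) (hz.trans (hB z))) :
    Nonempty (Mor A B) := by
  let piece : ∀ (p : A.ι) (q : B.ι) (z : ζ), Γ(X, A.U p ⊓ B.U q ⊓ Q z)ˣ := fun p q z =>
    A.at p (a z) _ (inf_le_left.trans inf_le_left) (inf_le_right.trans (hA z)) *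
      uRes _ _ inf_le_right (w z) *
      B.at (b z) q _ (inf_le_right.trans (hB z)) (inf_le_left.trans inf_le_right)
  have hat : ∀ (p : A.ι) (q : B.ι) (z : ζ) (O : X.Opens) (hp : O ≤ A.U p) (hq : O ≤ B.U q)
      (hz : O ≤ Q z), uRes _ O (le_inf (le_inf hp hq) hz) (piece p q z) =
        A.at p (a z) O hp (hz.trans (hA z)) * uRes _ O hz (w z) *
          B.at (b z) q O (hz.trans (hB z)) hq := by
    intro p q z O hp hq hz
    simp only [piece, map_mul, LCoc.at, uRes_uRes]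
  have hex : ∀ (p : A.ι) (q : B.ι), ∃ H : Γ(X, A.U p ⊓ B.U q)ˣ, ∀ z,
      uRes _ (A.U p ⊓ B.U q ⊓ Q z) inf_le_left H = piece p q z := fun p q =>
    exists_unit (fun z => A.U p ⊓ B.U q ⊓ Q z) (fun z => inf_le_left)
      (fun x hx => (hcov x (A.le p hx.1) (B.le q hx.2)).imp fun z hz => ⟨hx, hz⟩)
      (piece p q) fun z z' => by
        set O := A.U p ⊓ B.U q ⊓ Q z ⊓ (A.U p ⊓ B.U q ⊓ Q z')
        have hp : O ≤ A.U p := inf_le_left.trans (inf_le_left.trans inf_le_left)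
        have hq : O ≤ B.U q := inf_le_left.trans (inf_le_left.trans inf_le_right)
        have hz : O ≤ Q z := inf_le_left.trans inf_le_right
        have hz' : O ≤ Q z' := inf_le_right.trans inf_le_right
        refine (hat p q z O hp hq hz).trans (Eq.trans ?_ (hat p q z' O hp hq hz').symm)
        rw [hw z z' O hz hz', aux_trans, ← A.at_mul, ← B.at_mul]
  choose H hH using hex
  have hres : ∀ (p : A.ι) (q : B.ι) (z : ζ) (O : X.Opens) (hp : O ≤ A.U p) (hq : O ≤ B.U q)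
      (hz : O ≤ Q z), uRes _ O (le_inf hp hq) (H p q) =
        A.at p (a z) O hp (hz.trans (hA z)) * uRes _ O hz (w z) *
          B.at (b z) q O (hz.trans (hB z)) hq := fun p q z O hp hq hz => by
    rw [← hat p q z O hp hq hz, ← hH p q z, uRes_uRes]
  have htr : ∀ (p p' : A.ι) (q q' : B.ι) (O : X.Opens) (hp : O ≤ A.U p) (hp' : O ≤ A.U p')
      (hq : O ≤ B.U q) (hq' : O ≤ B.U q'), uRes _ O (le_inf hp hq) (H p q) =
        A.at p p' O hp hp' * uRes _ O (le_inf hp' hq') (H p' q') * B.at q' q O hq' hq := by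
    intro p p' q q' O hp hp' hq hq'
    refine unit_ext (fun z => O ⊓ Q z) (fun z => inf_le_left)
      (fun x hx => (hcov x (A.le p (hp hx)) (B.le q (hq hx))).imp fun z hz => ⟨hx, hz⟩) fun z => ?_
    have hz : O ⊓ Q z ≤ Q z := inf_le_right
    simp only [map_mul, uRes_uRes, LCoc.at]
    rw [hres p q z _ (inf_le_left.trans hp) (inf_le_left.trans hq) hz,
      hres p' q' z _ (inf_le_left.trans hp') (inf_le_left.trans hq') hz]
    show _ = A.at p p' _ (inf_le_left.trans hp) (inf_le_left.trans hp') * _ *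
      B.at q' q _ (inf_le_left.trans hq') (inf_le_left.trans hq)
    rw [aux_trans, ← A.at_mul, ← B.at_mul]
  -- normalisation
  let O' : A.ι × B.ι → T.Opens := fun i => σ ⁻¹ᵁ (A.U i.1 ⊓ B.U i.2)
  let r' : ∀ i : A.ι × B.ι, Γ(T, O' i)ˣ := fun i =>
    uApp σ _ (O' i) le_rfl (H i.1 i.2) /
      (uRes _ (O' i) (σ.preimage_mono inf_le_left) (A.v i.1) /
        uRes _ (O' i) (σ.preimage_mono inf_le_right) (B.v i.2))
  have hO' : ∀ i, O' i ≤ W ⊓ W' := fun i p hp => by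
    rw [← sigma_pi hσ p]
    exact ⟨A.le _ hp.1, B.le _ hp.2⟩
  obtain ⟨r, hr⟩ := exists_unit O' hO'
    (fun p hp => by
      obtain ⟨a₀, ha₀⟩ := A.cover (σ p) (by rw [sigma_pi hσ]; exact hp.1)
      obtain ⟨b₀, hb₀⟩ := B.cover (σ p) (by rw [sigma_pi hσ]; exact hp.2)
      exact ⟨(a₀, b₀), ha₀, hb₀⟩)
    r' (fun i i' => by
      set P := O' i ⊓ O' i'
      let O : X.Opens := A.U i.1 ⊓ B.U i.2 ⊓ (A.U i'.1 ⊓ B.U i'.2)
      have hP : P ≤ σ ⁻¹ᵁ O := fun p hp => ⟨hp.1, hp.2⟩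
      have h := congrArg (uApp σ O P hP) (htr i.1 i'.1 i.2 i'.2 O (inf_le_left.trans inf_le_left)
        (inf_le_right.trans inf_le_left) (inf_le_left.trans inf_le_right)
        (inf_le_right.trans inf_le_right))
      simp only [map_mul, uApp_uRes, LCoc.uApp_at] at h
      simp only [r', map_div, uRes_uRes, uRes_uApp]
      rw [h, aux_norm])
  refine ⟨⟨fun p q => H p q / uApp π (W ⊓ W') (A.U p ⊓ B.U q)
    (le_pre_inf π (inf_le_left.trans (A.le p)) (inf_le_right.trans (B.le q))) r, ?_, ?_⟩⟩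
  · intro p p' q q' O hp hp' hq hq'
    rw [map_div, map_div, uRes_uApp, uRes_uApp, htr p p' q q' O hp hp' hq hq', mul_div_assoc',
      mul_div_right_comm]
  · intro p q P hp hq
    have hPW : P ≤ W ⊓ W' := (le_pre_inf σ hp hq).trans (hO' (p, q))
    refine (map_div _ _ _).trans ?_
    refine (congrArg _ (show _ = uRes (W ⊓ W') P hPW r from
      (uApp_uApp σ π _ _ r).trans (uApp_congr hσ _ r))).trans ?_
    have h := congrArg (uRes (O' (p, q)) P (le_pre_inf σ hp hq)) (hr (p, q))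
    rw [uRes_uRes] at h
    refine (congrArg _ h).trans ?_
    dsimp only [r', O']
    simp only [map_div, uRes_uRes, uRes_uApp]
    exact div_div_cancel _ _

end FA.Jac.Glue

end
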