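import Fermat.Agent.Jac.GlueImage

/-!
# Morphisms from classes on overlaps
-/

set_option autoImplicit false
set_option linter.unusedSectionVars false

noncomputable section

universe u

open CategoryTheory AlgebraicGeometry TopologicalSpace Opposite FA.AbTors

namespace FA.Jac.Glue

theorem aux_cocycle {G : Type*} [CommGroup G] (a x y : G) : a * y⁻¹ * (a * (x / y))⁻¹ = x⁻¹ := by
  rw [mul_inv, inv_div, mul_mul_mul_comm, mul_inv_cancel, one_mul, div_eq_mul_inv,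
    inv_mul_cancel_left]

variable {X T Z₁ Z₂ R : Scheme.{u}} {π : X ⟶ T} {σ : T ⟶ X}
  (j₁ : Z₁ ⟶ X) [IsOpenImmersion j₁] (j₂ : Z₂ ⟶ X) [IsOpenImmersion j₂]
  {W₁ W₂ : T.Opens} (hW₁ : j₁.opensRange = π ⁻¹ᵁ W₁) (hW₂ : j₂.opensRange = π ⁻¹ᵁ W₂)
  (hσ : σ ≫ π = 𝟙 T) (σ₁ : W₁.toScheme ⟶ Z₁) (hσ₁ : σ₁ ≫ j₁ = W₁.ι ≫ σ)
  (σ₂ : W₂.toScheme ⟶ Z₂) (hσ₂ : σ₂ ≫ j₂ = W₂.ι ≫ σ)

/-- Cocycles with the same class on the overlap have a morphism. -/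
theorem exists_mor_of_rel (c₁ : Coc Z₁) (h₁ : Pic.pull σ₁ (Pic.mk c₁) = 0) (c₂ : Coc Z₂)
    (h₂ : Pic.pull σ₂ (Pic.mk c₂) = 0) (l : R ⟶ X) [IsOpenImmersion l] (e₁ : R ⟶ Z₁)
    (e₂ : R ⟶ Z₂) (he₁ : e₁ ≫ j₁ = l) (he₂ : e₂ ≫ j₂ = l)
    (hR : ∀ x, π x ∈ W₁ → π x ∈ W₂ → x ∈ l.opensRange)
    (hrel : Pic.pull e₁ (Pic.mk c₁) = Pic.pull e₂ (Pic.mk c₂)) :
    Nonempty (Mor (LCoc.ofImage j₁ hW₁ hσ σ₁ hσ₁ c₁ h₁) (LCoc.ofImage j₂ hW₂ hσ σ₂ hσ₂ c₂ h₂)) := by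
  rw [Pic.pull_mk, Pic.pull_mk, Pic.mk_eq_mk] at hrel
  obtain ⟨V, hV, hc₁, hc₂, w, hw⟩ := hrel
  have hA : ∀ r, l ''ᵁ V r ≤ j₁ ''ᵁ c₁.U (e₁ r) := fun r => by
    rintro x ⟨q, hq, rfl⟩
    exact ⟨e₁ q, hc₁ r hq, congrArg (fun f : R ⟶ X => f q) he₁⟩
  have hB : ∀ r, l ''ᵁ V r ≤ j₂ ''ᵁ c₂.U (e₂ r) := fun r => by
    rintro x ⟨q, hq, rfl⟩
    exact ⟨e₂ q, hc₂ r hq, congrArg (fun f : R ⟶ X => f q) he₂⟩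
  refine exists_mor hσ (LCoc.ofImage j₁ hW₁ hσ σ₁ hσ₁ c₁ h₁) (LCoc.ofImage j₂ hW₂ hσ σ₂ hσ₂ c₂ h₂)
    (fun r => l ''ᵁ V r) e₁ e₂ hA hB (fun x hx₁ hx₂ => ?_)
    (fun r => imU l (V r) (w r)⁻¹) fun r r' O hz hz' => ?_
  · obtain ⟨r, rfl⟩ := hR x hx₁ hx₂
    exact ⟨r, r, hV r, rfl⟩
  refine unit_ext_image l (image_le_opensRange l hz) ?_
  have p : l ⁻¹ᵁ O ≤ V r := pre_image_le l le_rfl hz
  have p' : l ⁻¹ᵁ O ≤ V r' := pre_image_le l le_rfl hz'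
  simp only [map_mul]
  show _ = uApp l O (l ⁻¹ᵁ O) le_rfl (uRes _ O (le_inf (hz.trans (hA r)) (hz'.trans (hA r')))
      (gImage j₁ c₁ (e₁ r) (e₁ r'))) * _ *
    uApp l O (l ⁻¹ᵁ O) le_rfl (uRes _ O (le_inf (hz'.trans (hB r')) (hz.trans (hB r)))
      (gImage j₂ c₂ (e₂ r') (e₂ r)))
  rw [uApp_gImage_comp j₁ c₁ e₁ l he₁ r r' (hz.trans (hA r)) (hz'.trans (hA r')) le_rfl
      (p.trans (hc₁ r)) (p'.trans (hc₁ r')),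
    uApp_gImage_comp j₂ c₂ e₂ l he₂ r' r (hz'.trans (hB r')) (hz.trans (hB r)) le_rfl
      (p'.trans (hc₂ r')) (p.trans (hc₂ r)),
    uApp_uRes' l hz, uApp_uRes' l hz', uApp_imU_res l p, uApp_imU_res l p',
    Coc.at_symm (c₂.pull e₂) r r' (p.trans (hc₂ r)) (p'.trans (hc₂ r')), hw r r' _ p p', map_inv,
    map_inv]
  exact (aux_cocycle _ _ _).symm

end FA.Jac.Glue

end
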