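import Fermat.Agent.Jac.Curve
import Mathlib.AlgebraicGeometry.Morphisms.Proper

/-!
# The only functions on the curve over a base are those of the base
-/

set_option autoImplicit false
set_option linter.style.haveILetI false
set_option linter.unusedSectionVars false

noncomputable section

universe u

open CategoryTheory CategoryTheory.Limits AlgebraicGeometry TopologicalSpace Opposite
open AlgebraicGeometry.RelPicard

namespace FA.Jac.Glue

theorem isIso_appTop {k : Type u} [Field k] [IsAlgClosed k] (V : Crv k) : IsIso V.str.appTop := by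
  haveI : IsDomain Γ(V.C, ⊤) := inferInstance
  have hfin : (V.str.appTop).hom.Finite := finite_appTop_of_universallyClosed k V.str
  let F : k →+* Γ(V.C, ⊤) :=
    V.str.appTop.hom.comp (Scheme.ΓSpecIso (CommRingCat.of k)).inv.hom
  have e : (V.str.appTop).hom = F.comp (Scheme.ΓSpecIso (CommRingCat.of k)).hom.hom := by
    ext x
    show V.str.appTop.hom x = V.str.appTop.hom _
    exact congrArg _
      ((Scheme.ΓSpecIso (CommRingCat.of k)).commRingCatIsoToRingEquiv.symm_apply_apply x).symm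
  have hF : F.IsIntegral := RingHom.IsIntegral.trans _ _
    (RingHom.isIntegral_of_surjective _
      (Scheme.ΓSpecIso (CommRingCat.of k)).commRingCatIsoToRingEquiv.symm.surjective)
    hfin.to_isIntegral
  refine (ConcreteCategory.isIso_iff_bijective _).2 ?_
  show Function.Bijective (V.str.appTop).hom
  rw [e]
  exact (IsAlgClosed.ringHom_bijective_of_isIntegral F hF).comp
    (Scheme.ΓSpecIso (CommRingCat.of k)).commRingCatIsoToRingEquiv.bijective

variable {k : Type u} [Field k] [IsAlgClosed k] (V : Crv k) {T : Scheme.{u}}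
  (t : T ⟶ Spec (CommRingCat.of k))

theorem bijective_app_snd_affine {W : T.Opens} (hW : IsAffineOpen W) :
    Function.Bijective ((pullback.snd V.str t).app W).hom := by
  haveI := isIso_appTop V
  haveI : CompactSpace V.C := QuasiCompact.compactSpace_of_compactSpace V.str
  haveI : QuasiSeparatedSpace V.C := quasiSeparatedSpace_of_quasiSeparated V.str
  have H : IsPullback (pullback.fst V.str t) (pullback.snd V.str t) V.str t :=
    IsPullback.of_hasPullback _ _
  have hST : W ≤ t ⁻¹ᵁ (⊤ : (Spec (CommRingCat.of k)).Opens) := le_top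
  have hSX : (⊤ : V.C.Opens) ≤ V.str ⁻¹ᵁ (⊤ : (Spec (CommRingCat.of k)).Opens) := le_top
  have hY : pullback.snd V.str t ⁻¹ᵁ W =
      pullback.fst V.str t ⁻¹ᵁ ⊤ ⊓ pullback.snd V.str t ⁻¹ᵁ W :=
    (inf_eq_right.2 le_top).symm
  have h := (isIso_pushoutSection_iff H hST hSX hY).1
    (isIso_pushoutSection_of_isQuasiSeparated_of_flat_right H hST hSX hY (isAffineOpen_top _) hW
      isCompact_univ isQuasiSeparated_univ)
  haveI : IsIso (V.str.appLE ⊤ ⊤ hSX) := by
    rw [show V.str.appLE ⊤ ⊤ hSX = V.str.appTop from Scheme.Hom.appLE_eq_app V.str]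
    infer_instance
  have h' := h.isIso_inr_of_isIso
  rw [Scheme.Hom.appLE_eq_app] at h'
  exact (ConcreteCategory.isIso_iff_bijective _).1 h'

theorem bijective_app_snd (O : T.Opens) :
    Function.Bijective ((pullback.snd V.str t).app O).hom := by
  set π := pullback.snd V.str t
  set σ := rigSection V.str t V.pt
  have hσ : σ ≫ π = 𝟙 T := pullback.lift_snd _ _ _
  have hO : O ≤ σ ⁻¹ᵁ (π ⁻¹ᵁ O) := fun p hp => by
    show π (σ p) ∈ O
    rwa [show π (σ p) = p from congrArg (fun f : T ⟶ T => f p) hσ]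
  have hs : ∀ a : Γ(T, O), (σ.appLE (π ⁻¹ᵁ O) O hO).hom ((π.app O).hom a) = a := fun a => by
    have h1 : π.app O ≫ σ.appLE (π ⁻¹ᵁ O) O hO = 𝟙 _ := by
      rw [← Scheme.Hom.appLE_eq_app π, Scheme.Hom.appLE_comp_appLE]
      simp only [hσ]
      exact (Scheme.Hom.appLE_eq_app (𝟙 T)).trans (Scheme.Hom.id_app _)
    exact congrArg (fun f : Γ(T, O) ⟶ Γ(T, O) => f.hom a) h1
  refine ⟨fun a b h => (hs a).symm.trans ((congrArg _ h).trans (hs b)), fun r => ?_⟩
  refine ⟨(σ.appLE (π ⁻¹ᵁ O) O hO).hom r, ?_⟩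
  let α := {W : T.Opens // IsAffineOpen W ∧ W ≤ O}
  refine (pullback V.str t).sheaf.eq_of_locally_eq' (fun W : α => π ⁻¹ᵁ W.1) (π ⁻¹ᵁ O)
    (fun W => homOfLE (π.preimage_mono W.2.2)) (fun x hx => ?_) _ _ fun W => ?_
  · obtain ⟨_, ⟨W, hW, rfl⟩, hxW, hWO⟩ :=
      T.isBasis_affineOpens.exists_subset_of_mem_open hx O.isOpen
    exact Opens.mem_iSup.2 ⟨⟨W, hW, hWO⟩, hxW⟩
  obtain ⟨W, hW, hWO⟩ := W
  show ((pullback V.str t).presheaf.map (homOfLE (π.preimage_mono hWO)).op).hom _ =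
    ((pullback V.str t).presheaf.map (homOfLE (π.preimage_mono hWO)).op).hom r
  obtain ⟨a, ha⟩ := (bijective_app_snd_affine V t hW).2
    (((pullback V.str t).presheaf.map (homOfLE (π.preimage_mono hWO)).op).hom r)
  have hW' : W ≤ σ ⁻¹ᵁ (π ⁻¹ᵁ W) := fun p hp => by
    show π (σ p) ∈ W
    rwa [show π (σ p) = p from congrArg (fun f : T ⟶ T => f p) hσ]
  have hn : ∀ s : Γ(T, O), ((pullback V.str t).presheaf.map (homOfLE (π.preimage_mono hWO)).op).hom
      ((π.app O).hom s) = (π.app W).hom ((T.presheaf.map (homOfLE hWO).op).hom s) := fun s =>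
    congrArg (fun f : Γ(T, O) ⟶ Γ(pullback V.str t, π ⁻¹ᵁ W) => f.hom s)
      (π.naturality (homOfLE hWO).op).symm
  have hres : (T.presheaf.map (homOfLE hWO).op).hom ((σ.appLE (π ⁻¹ᵁ O) O hO).hom r) = a := by
    have h1 : σ.appLE (π ⁻¹ᵁ O) O hO ≫ T.presheaf.map (homOfLE hWO).op =
        (pullback V.str t).presheaf.map (homOfLE (π.preimage_mono hWO)).op ≫
          σ.appLE (π ⁻¹ᵁ W) W hW' := by
      rw [Scheme.Hom.appLE_map, Scheme.Hom.map_appLE]
    have h2 : π.app W ≫ σ.appLE (π ⁻¹ᵁ W) W hW' = 𝟙 _ := by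
      rw [← Scheme.Hom.appLE_eq_app π, Scheme.Hom.appLE_comp_appLE]
      simp only [hσ]
      exact (Scheme.Hom.appLE_eq_app (𝟙 T)).trans (Scheme.Hom.id_app _)
    refine (congrArg (fun f : Γ(pullback V.str t, π ⁻¹ᵁ O) ⟶ Γ(T, W) => f.hom r) h1).trans ?_
    refine (congrArg (σ.appLE (π ⁻¹ᵁ W) W hW').hom ha.symm).trans ?_
    exact congrArg (fun f : Γ(T, W) ⟶ Γ(T, W) => f.hom a) h2
  rw [hn, hres, ha]

end FA.Jac.Glue

end
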