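import Fermat.Agent.Jac.Defs
import Fermat.Agent.Jac.GlueClass
import Fermat.Agent.Jac.GlueSections

/-!
# Rigidified classes of degree zero glue
-/

set_option autoImplicit false
set_option linter.unusedSectionVars false
set_option linter.style.haveILetI false

noncomputable section

universe u

open CategoryTheory CategoryTheory.Limits AlgebraicGeometry TopologicalSpace
open NeronModelInfra AlgebraicGeometry.RelPicard FA.AbTors FA.Jac.Glue

namespace FA.Jac.Crv

variable {k : Type u} [Field k] (V : Crv k) {T : Scheme.{u}} {t : T ⟶ Spec (CommRingCat.of k)}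

/-- The inclusion of a smaller open. -/
def inclLE (t : T ⟶ Spec (CommRingCat.of k)) {U U' : T.Opens} (h : U ≤ U') :
    SchemeHomOver (U.ι ≫ t) (U'.ι ≫ t) :=
  ⟨T.homOfLE h, by rw [← Category.assoc, Scheme.homOfLE_ι]⟩

theorem bcs_inclLE (t : T ⟶ Spec (CommRingCat.of k)) {U U' : T.Opens} (h : U ≤ U') :
    baseChangeSnd V.str (inclLE t h) ≫ baseChangeSnd V.str (incl t U') =
      baseChangeSnd V.str (incl t U) :=
  (baseChangeSnd_comp V.str _ _).trans
    (congrArg (fun s => baseChangeSnd V.str s) (Subtype.ext (T.homOfLE_ι h)))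

instance isOpenImmersion_bcs (U : T.Opens) :
    IsOpenImmersion (baseChangeSnd V.str (incl t U)) := by
  haveI : IsOpenImmersion (incl t U).1 := inferInstanceAs (IsOpenImmersion U.ι)
  unfold baseChangeSnd
  infer_instance

theorem opensRange_bcs (U : T.Opens) :
    (baseChangeSnd V.str (incl t U)).opensRange = pullback.snd V.str t ⁻¹ᵁ U := by
  refine Opens.ext ?_
  show Set.range (baseChangeSnd V.str (incl t U)) = _
  unfold baseChangeSnd
  refine (Scheme.Pullback.range_map _ _ _ _ _ _ _ _ _).trans ?_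
  ext x
  show (_ ∈ Set.range (𝟙 V.C : V.C ⟶ V.C) ∧ _ ∈ Set.range U.ι) ↔ pullback.snd V.str t x ∈ U
  rw [Scheme.Opens.range_ι]
  exact ⟨fun h => h.2, fun h => ⟨⟨_, rfl⟩, h⟩⟩

theorem pull_eq_zero_of_rig {U : T.Opens} {p : FA.AbTors.Pic (V.X (U.ι ≫ t))}
    (h : V.rig (U.ι ≫ t) p = 0) {c : Coc (V.X (U.ι ≫ t))} (hc : Pic.mk c = p) :
    Pic.pull (rigSection V.str (U.ι ≫ t) V.pt) (Pic.mk c) = 0 := by
  rw [hc]; exact h

variable [IsAlgClosed k]

theorem glueHolds : V.GlueHolds := by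
  intro T t ι U hU p hp
  set π := pullback.snd V.str t
  set σ := rigSection V.str t V.pt
  have hσ : σ ≫ π = 𝟙 T := pullback.lift_snd _ _ _
  have hπ : ∀ O : T.Opens, Function.Bijective (π.app O).hom := bijective_app_snd V t
  have hW : ∀ x : T, ∃ i, x ∈ U i := fun x =>
    Opens.mem_iSup.1 (hU ▸ (Opens.mem_top x : x ∈ (⊤ : T.Opens)))
  choose c hc using fun i => Pic.mk_surjective (p i).1
  have hσ' : ∀ W : T.Opens,
      rigSection V.str (W.ι ≫ t) V.pt ≫ baseChangeSnd V.str (incl t W) = W.ι ≫ σ := fun W =>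
    rigSection_baseChangeSnd V.str V.pt (incl t W)
  let A : ∀ i, LCoc π σ (U i) := fun i =>
    LCoc.ofImage (baseChangeSnd V.str (incl t (U i))) (V.opensRange_bcs (U i)) hσ
      (rigSection V.str ((U i).ι ≫ t) V.pt) (hσ' (U i)) (c i)
      (V.pull_eq_zero_of_rig (p i).2.1 (hc i))
  have hM : ∀ i l, Nonempty (Mor (A i) (A l)) := fun i l =>
    exists_mor_of_rel _ _ _ _ hσ _ _ _ _ (c i) _ (c l) _
      (baseChangeSnd V.str (incl t (U i ⊓ U l))) (baseChangeSnd V.str (inclLE t inf_le_left))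
      (baseChangeSnd V.str (inclLE t inf_le_right)) (V.bcs_inclLE t _) (V.bcs_inclLE t _)
      (fun x h₁ h₂ => (V.opensRange_bcs (U i ⊓ U l)).ge ⟨h₁, h₂⟩)
      (by
        rw [hc i, hc l]
        exact congrArg Subtype.val (hp i l _ _ (inclLE t inf_le_left) (inclLE t inf_le_right)
          ((T.homOfLE_ι inf_le_left).trans (T.homOfLE_ι inf_le_right).symm)))
  let M : ∀ i l, Mor (A i) (A l) := fun i l => (hM i l).some
  let q : FA.AbTors.Pic (V.X t) := Pic.mk (glueCoc hσ hπ hW A M)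
  have hres : ∀ i, V.pullP (incl t (U i)) q = (p i).1 := fun i =>
    (pull_glueCoc_eq hσ hπ hW A M (baseChangeSnd V.str (incl t (U i))) (V.opensRange_bcs (U i))
      (rigSection V.str ((U i).ι ≫ t) V.pt) (hσ' (U i)) (c i)
      (V.pull_eq_zero_of_rig (p i).2.1 (hc i)) fun l => M l i).trans (hc i)
  have hq : q ∈ V.P0 t := by
    refine ⟨pull_glueCoc hσ hπ hW A M, fun k' _ _ a ψ => ?_⟩
    obtain ⟨i, hi⟩ := hW (ψ.1 (IsLocalRing.closedPoint k'))
    have hr : Set.range ψ.1 ⊆ Set.range (U i).ι := by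
      rintro _ ⟨z, rfl⟩
      rw [Scheme.Opens.range_ι, Subsingleton.elim z (IsLocalRing.closedPoint k')]
      exact hi
    let φ : SchemeHomOver a ((U i).ι ≫ t) :=
      ⟨IsOpenImmersion.lift (U i).ι ψ.1 hr, by
        rw [← Category.assoc, IsOpenImmersion.lift_fac, ψ.2]⟩
    have e : postComp (incl t (U i)) φ = ψ := Subtype.ext (IsOpenImmersion.lift_fac _ _ hr)
    rw [← e, ← V.fibDeg_pullP, hres i]
    exact (p i).2.2 k' a φ
  refine ⟨⟨q, hq⟩, fun i => Subtype.ext (hres i), fun q' hq' => Subtype.ext ?_⟩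
  obtain ⟨c', hc'⟩ := Pic.mk_surjective q'.1
  have h' : Pic.pull ((⊤ : T.Opens).ι ≫ σ) (Pic.mk c') = 0 := by
    rw [← Pic.pull_pull, hc', show Pic.pull σ q'.1 = 0 from q'.2.1, map_zero]
  have hj1 : (𝟙 (V.X t) : V.X t ⟶ V.X t).opensRange = π ⁻¹ᵁ ⊤ :=
    Scheme.Hom.opensRange_of_isIso _
  have hK : ∀ i, Nonempty (Mor (A i) (LCoc.ofImage (𝟙 (V.X t))
      hj1 hσ ((⊤ : T.Opens).ι ≫ σ)
      (Category.comp_id _) c' h')) := fun i =>
    exists_mor_of_rel _ _ _ _ hσ _ _ _ _ (c i) _ c' _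
      (baseChangeSnd V.str (incl t (U i))) (𝟙 _) (baseChangeSnd V.str (incl t (U i)))
      (Category.id_comp _) (Category.comp_id _) (fun x h₁ _ => (V.opensRange_bcs (U i)).ge h₁)
      (by
        rw [hc i, hc', Pic.pull_id]
        exact (congrArg Subtype.val (hq' i)).symm)
  have h := pull_glueCoc_eq hσ hπ hW A M (𝟙 (V.X t))
      hj1 ((⊤ : T.Opens).ι ≫ σ)
      (Category.comp_id _) c' h' fun i => (hK i).some
  rw [Pic.pull_id, hc'] at h
  exact h.symm

end FA.Jac.Crv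

end
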