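import Mathlib.LinearAlgebra.TensorProduct.Tower
import Mathlib.RingTheory.TensorProduct.Maps
import Mathlib.RingTheory.FiniteType
import Mathlib.Algebra.MvPolynomial.CommRing

/-!
# Ideals with quotient free on given functions: the universal one

For `b : Fin g → R` a `b`-ideal of `A ⊗ R` is an ideal whose quotient is free over `A` on the
images of the `b j`.  They are classified by a finitely generated algebra.
-/

set_option autoImplicit false
set_option linter.style.haveILetI false
set_option linter.unusedSectionVars false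
set_option synthInstance.maxHeartbeats 200000
set_option maxHeartbeats 800000

noncomputable section

universe u

open scoped TensorProduct

namespace FA.Jac.Hilb

variable {k : Type u} [Field k] {R : Type u} [CommRing R] [Algebra k R] {g : ℕ}
  {A A' : Type u} [CommRing A] [Algebra k A] [CommRing A'] [Algebra k A'] (b : Fin g → R)

/-- The combination of the chosen functions. -/
def comb (A : Type u) [CommRing A] [Algebra k A] : (Fin g → A) →ₗ[A] A ⊗[k] R :=
  ∑ j, (LinearMap.proj j).smulRight ((1 : A) ⊗ₜ[k] b j)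

theorem comb_apply (x : Fin g → A) :
    comb (k := k) b A x = ∑ j, x j ⊗ₜ[k] b j := by
  simp [comb, TensorProduct.smul_tmul']

/-- The quotient by `J` is free on the chosen functions. -/
def IsBIdeal (J : Ideal (A ⊗[k] R)) : Prop :=
  Function.Bijective fun x : Fin g → A => Ideal.Quotient.mk J (comb b A x)

/-- Change of parameters. -/
def mapId (R : Type u) [CommRing R] [Algebra k R] (φ : A →ₐ[k] A') : A ⊗[k] R →ₐ[k] A' ⊗[k] R :=
  Algebra.TensorProduct.map φ (AlgHom.id k R)

@[simp]
theorem mapId_tmul (φ : A →ₐ[k] A') (a : A) (r : R) : mapId R φ (a ⊗ₜ r) = φ a ⊗ₜ r := rfl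

theorem mapId_comb (φ : A →ₐ[k] A') (x : Fin g → A) :
    mapId R φ (comb b A x) = comb b A' fun j => φ (x j) := by
  simp [comb_apply, map_sum]

theorem mapId_smul (φ : A →ₐ[k] A') (a : A) (z : A ⊗[k] R) :
    mapId R φ (a • z) = φ a • mapId R φ z := by
  induction z using TensorProduct.induction_on with
  | zero => simp
  | tmul c r => simp [TensorProduct.smul_tmul']
  | add y z hy hz => rw [smul_add, map_add, map_add, smul_add, hy, hz]

/-! ### Coordinates -/

variable {b} {J : Ideal (A ⊗[k] R)} (hJ : IsBIdeal b J)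

/-- The coordinates in the quotient. -/
def coord : A ⊗[k] R →ₗ[A] (Fin g → A) :=
  (LinearEquiv.ofBijective (((Ideal.Quotient.mkₐ A J).toLinearMap).comp (comb b A)) hJ).symm.toLinearMap.comp
    (Ideal.Quotient.mkₐ A J).toLinearMap

theorem sub_comb_coord_mem (z : A ⊗[k] R) : z - comb b A (coord hJ z) ∈ J := by
  rw [← Ideal.Quotient.eq]
  exact ((LinearEquiv.ofBijective (((Ideal.Quotient.mkₐ A J).toLinearMap).comp (comb b A)) hJ).apply_symm_apply
    (Ideal.Quotient.mk J z)).symm

theorem coord_comb (x : Fin g → A) : coord hJ (comb b A x) = x :=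
  (LinearEquiv.ofBijective (((Ideal.Quotient.mkₐ A J).toLinearMap).comp (comb b A)) hJ).symm_apply_apply x

theorem coord_eq_zero_iff {z : A ⊗[k] R} : coord hJ z = 0 ↔ z ∈ J := by
  constructor
  · intro h
    have := sub_comb_coord_mem hJ z
    rwa [h, map_zero, sub_zero] at this
  · intro h
    show (LinearEquiv.ofBijective (((Ideal.Quotient.mkₐ A J).toLinearMap).comp (comb b A)) hJ).symm
      (Ideal.Quotient.mk J z) = 0
    rw [Ideal.Quotient.eq_zero_iff_mem.2 h, map_zero]

/-- The rule for products. -/
theorem coord_mul (z : A ⊗[k] R) (r : R) :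
    coord hJ ((1 : A) ⊗ₜ[k] r * z) = ∑ j, coord hJ z j • coord hJ ((1 : A) ⊗ₜ[k] (r * b j)) := by
  have h : coord hJ ((1 : A) ⊗ₜ[k] r * z) = coord hJ ((1 : A) ⊗ₜ[k] r * comb b A (coord hJ z)) := by
    rw [← sub_eq_zero, ← map_sub, ← mul_sub, coord_eq_zero_iff]
    exact J.mul_mem_left _ (sub_comb_coord_mem hJ z)
  rw [h, comb_apply, Finset.mul_sum, map_sum]
  refine Finset.sum_congr rfl fun j _ => ?_
  rw [Algebra.TensorProduct.tmul_mul_tmul, one_mul, ← map_smul, TensorProduct.smul_tmul',
    smul_eq_mul, mul_one]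

theorem isBIdeal_of_retraction (κ : A ⊗[k] R →ₗ[A] (Fin g → A))
    (hκ : ∀ x, κ (comb b A x) = x) {I : Ideal (A ⊗[k] R)} (hI : ∀ z, z ∈ I ↔ κ z = 0) :
    IsBIdeal b I := by
  refine ⟨fun x y hxy => ?_, fun w => ?_⟩
  · have := (hI _).1 (Ideal.Quotient.eq.1 hxy)
    rwa [map_sub, hκ, hκ, sub_eq_zero] at this
  · obtain ⟨z, rfl⟩ := Ideal.Quotient.mk_surjective w
    exact ⟨κ z, Ideal.Quotient.eq.2 ((hI _).2 (by rw [map_sub, hκ, sub_self]))⟩

/-- An induction over the products of generators. -/
theorem forall_of_generators {s : Set R} (hs : Algebra.adjoin k s = ⊤) (Q : Submodule k R)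
    (h1 : (1 : R) ∈ Q) (hmul : ∀ r ∈ s, ∀ x ∈ Q, r * x ∈ Q) (x : R) : x ∈ Q := by
  have key : ∀ r ∈ Algebra.adjoin k s, ∀ y ∈ Q, r * y ∈ Q := by
    intro r hr
    induction hr using Algebra.adjoin_induction with
    | mem r hr => exact hmul r hr
    | algebraMap c => intro y hy; rw [← Algebra.smul_def]; exact Q.smul_mem c hy
    | add r r' _ _ h h' => intro y hy; rw [add_mul]; exact add_mem (h y hy) (h' y hy)
    | mul r r' _ _ h h' => intro y hy; rw [mul_assoc]; exact h _ (h' y hy)
  have := key x (hs ▸ Algebra.mem_top) 1 h1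
  rwa [mul_one] at this

include hJ in
/-- A `b`-ideal is finitely generated, by what the generators give. -/
theorem fg_bIdeal [Algebra.FiniteType k R] : J.FG := by
  classical
  obtain ⟨s, hs⟩ := (inferInstance : Algebra.FiniteType k R).out
  let d : R → A ⊗[k] R := fun r =>
    (1 : A) ⊗ₜ[k] r - comb b A (coord hJ ((1 : A) ⊗ₜ[k] r))
  let G : Finset (A ⊗[k] R) :=
    insert (d 1) ((s ×ˢ (Finset.univ : Finset (Fin g))).image fun p => d (p.1 * b p.2))
  refine ⟨G, le_antisymm (Ideal.span_le.2 fun z hz => ?_) fun z hz => ?_⟩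
  · rcases Finset.mem_insert.1 hz with rfl | hz
    · exact sub_comb_coord_mem hJ _
    · obtain ⟨p, -, rfl⟩ := Finset.mem_image.1 hz
      exact sub_comb_coord_mem hJ _
  set J₀ := Ideal.span (G : Set (A ⊗[k] R))
  let Q : Submodule k R :=
    { carrier := {r | d r ∈ J₀}
      add_mem' := fun {r r'} h h' => by
        show d (r + r') ∈ J₀
        simp only [d, TensorProduct.tmul_add, map_add, add_sub_add_comm]
        exact add_mem h h'
      zero_mem' := by
        show d 0 ∈ J₀
        simp [d]
      smul_mem' := fun c r h => by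
        show d (c • r) ∈ J₀
        have : d (c • r) = algebraMap k A c • d r := by
          simp only [d, smul_sub, ← map_smul]
          rw [algebraMap_smul, TensorProduct.tmul_smul]
        rw [this, Algebra.smul_def]
        exact J₀.mul_mem_left _ h }
  have hQ : ∀ r, d r ∈ J₀ := by
    refine fun r => forall_of_generators hs Q (Ideal.subset_span (Finset.mem_insert_self _ _))
      (fun x hx y hy => ?_) r
    show d (x * y) ∈ J₀
    set c := coord hJ ((1 : A) ⊗ₜ[k] y) with hc
    have he : d (x * y) = (1 : A) ⊗ₜ[k] x * d y + ∑ j, c j • d (x * b j) := by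
      simp only [d, mul_sub, Algebra.TensorProduct.tmul_mul_tmul, one_mul, smul_sub,
        Finset.sum_sub_distrib]
      rw [show coord hJ ((1 : A) ⊗ₜ[k] (x * y)) = ∑ j, c j • coord hJ ((1 : A) ⊗ₜ[k] (x * b j)) by
        rw [← coord_mul, Algebra.TensorProduct.tmul_mul_tmul, one_mul], ← hc]
      rw [map_sum, comb_apply b c, Finset.mul_sum]
      simp only [map_smul, Algebra.TensorProduct.tmul_mul_tmul, one_mul,
        TensorProduct.smul_tmul', smul_eq_mul, mul_one]
      abel
    rw [he]
    refine add_mem (J₀.mul_mem_left _ hy) (sum_mem fun j _ => ?_)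
    rw [Algebra.smul_def]
    exact J₀.mul_mem_left _ (Ideal.subset_span (Finset.mem_insert_of_mem
      (Finset.mem_image.2 ⟨(x, j), Finset.mem_product.2 ⟨hx, Finset.mem_univ j⟩, rfl⟩)))
  have hspan : ∀ w : A ⊗[k] R, w - comb b A (coord hJ w) ∈ J₀ := by
    intro w
    induction w using TensorProduct.induction_on with
    | zero => simp
    | tmul a r =>
      have : a ⊗ₜ[k] r = a • ((1 : A) ⊗ₜ[k] r) := by rw [TensorProduct.smul_tmul', smul_eq_mul, mul_one]
      rw [this, map_smul, map_smul, ← smul_sub, Algebra.smul_def]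
      exact J₀.mul_mem_left _ (hQ r)
    | add y w hy hw => rw [map_add, map_add, add_sub_add_comm]; exact add_mem hy hw
  have h := hspan z
  rwa [(coord_eq_zero_iff hJ).2 hz, map_zero, sub_zero] at h

/-! ### Change of parameters -/

variable (φ : A →ₐ[k] A')

/-- The coordinates after a change of parameters. -/
def coordMap : A' ⊗[k] R →ₗ[A'] (Fin g → A') :=
  LinearMap.liftBaseChange A'
    ({ toFun := fun r j => φ (coord hJ ((1 : A) ⊗ₜ[k] r) j)
       map_add' := fun r r' => funext fun j => by simp [TensorProduct.tmul_add]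
       map_smul' := fun c r => funext fun j => by
         rw [TensorProduct.tmul_smul, LinearMap.map_smul_of_tower]
         simp } : R →ₗ[k] (Fin g → A'))

theorem coordMap_mapId (z : A ⊗[k] R) : coordMap hJ φ (mapId R φ z) = fun j => φ (coord hJ z j) := by
  induction z using TensorProduct.induction_on with
  | zero => ext j; simp
  | tmul a r =>
    ext j
    rw [mapId_tmul, coordMap, LinearMap.liftBaseChange_tmul]
    have : a ⊗ₜ[k] r = a • ((1 : A) ⊗ₜ[k] r) := by rw [TensorProduct.smul_tmul', smul_eq_mul, mul_one]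
    rw [this, map_smul]
    simp
  | add y z hy hz => ext j; simp [hy, hz]

theorem coordMap_comb (x : Fin g → A') : coordMap hJ φ (comb b A' x) = x := by
  rw [comb_apply, map_sum]
  ext i
  have h : ∀ j, coordMap hJ φ (x j ⊗ₜ[k] b j) = x j • fun l => φ ((Pi.single j 1 : Fin g → A) l) := by
    intro j
    have hb : coord hJ ((1 : A) ⊗ₜ[k] b j) = Pi.single j 1 := by
      rw [← coord_comb hJ (Pi.single j (1 : A)), comb_apply, Finset.sum_eq_single j]
      · rw [Pi.single_eq_same]
      · intro l _ hl; rw [Pi.single_eq_of_ne hl, TensorProduct.zero_tmul]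
      · simp
    rw [coordMap, LinearMap.liftBaseChange_tmul]
    simp [hb]
  simp only [h, Finset.sum_apply, Pi.smul_apply, smul_eq_mul]
  rw [Finset.sum_eq_single i (fun j _ hj => by rw [Pi.single_eq_of_ne (Ne.symm hj), map_zero, mul_zero])
    (by simp), Pi.single_eq_same, map_one, mul_one]

theorem mem_map_iff {z : A' ⊗[k] R} : z ∈ J.map (mapId R φ) ↔ coordMap hJ φ z = 0 := by
  constructor
  · intro hz
    have key : ∀ w ∈ J, ∀ y : A' ⊗[k] R, coordMap hJ φ (mapId R φ w * y) = 0 := by
      intro w hw y
      induction y using TensorProduct.induction_on with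
      | zero => simp
      | tmul a r =>
        have he : mapId R φ w * a ⊗ₜ[k] r = a • mapId R φ (((1 : A) ⊗ₜ[k] r) * w) := by
          rw [map_mul, mapId_tmul, map_one, mul_comm _ (mapId R φ w), ← mul_smul_comm,
            TensorProduct.smul_tmul', smul_eq_mul, mul_one]
        rw [he, map_smul, coordMap_mapId, (coord_eq_zero_iff hJ).2 (J.mul_mem_left _ hw)]
        ext j; simp
      | add y y' hy hy' => rw [mul_add, map_add, hy, hy', add_zero]
    rw [Ideal.map] at hz
    have h' : ∀ y, coordMap hJ φ (y * z) = 0 := by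
      induction hz using Submodule.span_induction with
      | mem x hx => obtain ⟨w, hw, rfl⟩ := hx; intro y; rw [mul_comm]; exact key w hw y
      | zero => intro y; simp
      | add x y _ _ hx hy => intro t; rw [mul_add, map_add, hx, hy, add_zero]
      | smul c x _ hx => intro t; rw [smul_eq_mul, ← mul_assoc]; exact hx _
    have := h' 1
    rwa [one_mul] at this
  · intro hz
    have key : ∀ w : A' ⊗[k] R, w - comb b A' (coordMap hJ φ w) ∈ J.map (mapId R φ) := by
      intro w
      induction w using TensorProduct.induction_on with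
      | zero => simp
      | tmul a r =>
        have he : a ⊗ₜ[k] r - comb b A' (coordMap hJ φ (a ⊗ₜ r)) =
            a • mapId R φ ((1 : A) ⊗ₜ[k] r - comb b A (coord hJ ((1 : A) ⊗ₜ[k] r))) := by
          rw [map_sub, mapId_tmul, map_one, mapId_comb, smul_sub, TensorProduct.smul_tmul',
            smul_eq_mul, mul_one, ← map_smul, ← coordMap_mapId, ← map_smul, mapId_tmul, map_one,
            TensorProduct.smul_tmul', smul_eq_mul, mul_one]
        rw [he, Algebra.smul_def]
        exact Ideal.mul_mem_left _ _ (Ideal.mem_map_of_mem _ (sub_comb_coord_mem hJ _))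
      | add y w hy hw => rw [map_add, map_add, add_sub_add_comm]; exact add_mem hy hw
    have := key z
    rwa [hz, map_zero, sub_zero] at this

include hJ in
/-- The pullback of a `b`-ideal is a `b`-ideal. -/
theorem IsBIdeal.map : IsBIdeal b (J.map (mapId R φ)) :=
  isBIdeal_of_retraction _ (coordMap_comb hJ φ) fun _ => mem_map_iff hJ φ

/-! ### The universal one -/

variable (b)

/-- The relations. -/
def relIdeal : Ideal (MvPolynomial (R × Fin g) k) :=
  Ideal.span
    ((Set.range fun p : R × R × Fin g =>
        MvPolynomial.X (p.1 + p.2.1, p.2.2) - MvPolynomial.X (p.1, p.2.2) - MvPolynomial.X (p.2.1, p.2.2)) ∪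
      (Set.range fun p : k × R × Fin g =>
        MvPolynomial.X (p.1 • p.2.1, p.2.2) - MvPolynomial.C p.1 * MvPolynomial.X (p.2.1, p.2.2)) ∪
      (Set.range fun p : Fin g × Fin g =>
        MvPolynomial.X (b p.1, p.2) - (Pi.single p.1 1 : Fin g → MvPolynomial (R × Fin g) k) p.2) ∪
      (Set.range fun p : R × R × Fin g =>
        MvPolynomial.X (p.1 * p.2.1, p.2.2) -
          ∑ j, MvPolynomial.X (p.2.1, j) * MvPolynomial.X (p.1 * b j, p.2.2)))

/-- The parameter ring. -/
def HRing : Type u := MvPolynomial (R × Fin g) k ⧸ relIdeal (k := k) b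

instance : CommRing (HRing (k := k) b) :=
  inferInstanceAs (CommRing (MvPolynomial (R × Fin g) k ⧸ relIdeal (k := k) b))

instance : Algebra k (HRing (k := k) b) :=
  inferInstanceAs (Algebra k (MvPolynomial (R × Fin g) k ⧸ relIdeal (k := k) b))

/-- The quotient map. -/
def hMk : MvPolynomial (R × Fin g) k →ₐ[k] HRing (k := k) b :=
  Ideal.Quotient.mkₐ k (relIdeal (k := k) b)

/-- The universal coordinate. -/
def hx (r : R) (i : Fin g) : HRing (k := k) b :=
  Ideal.Quotient.mk _ (MvPolynomial.X (r, i))

theorem hx_add (r r' : R) (i : Fin g) : hx (k := k) b (r + r') i = hx b r i + hx b r' i := by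
  rw [← sub_eq_zero, ← sub_sub]
  exact Ideal.Quotient.eq_zero_iff_mem.2
    (Ideal.subset_span (Or.inl (Or.inl (Or.inl ⟨(r, r', i), rfl⟩))))

theorem hx_smul (c : k) (r : R) (i : Fin g) : hx (k := k) b (c • r) i = c • hx b r i := by
  have h := Ideal.Quotient.eq.2
    (Ideal.subset_span (Or.inl (Or.inl (Or.inr ⟨(c, r, i), rfl⟩))) :
      MvPolynomial.X (c • r, i) - MvPolynomial.C c * MvPolynomial.X (r, i) ∈ relIdeal (k := k) b)
  refine h.trans ?_
  rw [← MvPolynomial.smul_eq_C_mul]
  rfl

theorem hx_b (j i : Fin g) : hx (k := k) b (b j) i = (Pi.single j 1 : Fin g → HRing (k := k) b) i := by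
  have h := Ideal.Quotient.eq.2
    (Ideal.subset_span (Or.inl (Or.inr ⟨(j, i), rfl⟩)) :
      MvPolynomial.X (b j, i) - (Pi.single j 1 : Fin g → MvPolynomial (R × Fin g) k) i ∈ relIdeal b)
  refine h.trans ?_
  rcases eq_or_ne i j with rfl | hij
  · rw [Pi.single_eq_same, Pi.single_eq_same]; exact map_one _
  · rw [Pi.single_eq_of_ne hij, Pi.single_eq_of_ne hij]; exact map_zero _

theorem hx_mul (r r' : R) (i : Fin g) :
    hx (k := k) b (r * r') i = ∑ j, hx b r' j * hx b (r * b j) i := by
  have h := Ideal.Quotient.eq.2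
    (Ideal.subset_span (Or.inr ⟨(r, r', i), rfl⟩) :
      MvPolynomial.X (r * r', i) - ∑ j, MvPolynomial.X (r', j) * MvPolynomial.X (r * b j, i) ∈
        relIdeal (k := k) b)
  refine h.trans ((map_sum _ _ _).trans (Finset.sum_congr rfl fun j _ => ?_))
  exact map_mul _ _ _

/-- The universal coordinates. -/
def univCoord : HRing (k := k) b ⊗[k] R →ₗ[HRing (k := k) b] (Fin g → HRing (k := k) b) :=
  LinearMap.liftBaseChange (HRing (k := k) b)
    ({ toFun := fun r i => hx b r i
       map_add' := fun r r' => funext fun i => hx_add b r r' i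
       map_smul' := fun c r => funext fun i => hx_smul b c r i } : R →ₗ[k] (Fin g → HRing (k := k) b))

theorem univCoord_tmul (a : HRing (k := k) b) (r : R) :
    univCoord b (a ⊗ₜ r) = a • fun i => hx b r i := LinearMap.liftBaseChange_tmul _ _ _ _

theorem univCoord_mul (z : HRing (k := k) b ⊗[k] R) (r : R) :
    univCoord b ((1 : HRing (k := k) b) ⊗ₜ[k] r * z) =
      ∑ j, univCoord b z j • fun i => hx b (r * b j) i := by
  induction z using TensorProduct.induction_on with
  | zero => simp
  | tmul a r' =>
    rw [Algebra.TensorProduct.tmul_mul_tmul, one_mul, univCoord_tmul, univCoord_tmul]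
    ext i
    simp only [Pi.smul_apply, smul_eq_mul, Finset.sum_apply, hx_mul b r r' i, Finset.mul_sum,
      mul_assoc]
  | add y z hy hz => simp only [mul_add, map_add, hy, hz, Pi.add_apply, add_smul, Finset.sum_add_distrib]

/-- The universal ideal. -/
def univIdeal : Ideal (HRing (k := k) b ⊗[k] R) where
  carrier := {z | univCoord b z = 0}
  add_mem' := fun {y z} (hy : univCoord b y = 0) (hz : univCoord b z = 0) => by
    show univCoord b (y + z) = 0
    rw [map_add, hy, hz, add_zero]
  zero_mem' := map_zero (univCoord b)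
  smul_mem' := fun y z (hz : univCoord b z = 0) => by
    show univCoord b (y * z) = 0
    induction y using TensorProduct.induction_on with
    | zero => simp
    | tmul a r =>
      rw [show a ⊗ₜ[k] r = a • ((1 : HRing (k := k) b) ⊗ₜ[k] r) by
        rw [TensorProduct.smul_tmul', smul_eq_mul, mul_one], smul_mul_assoc, map_smul, univCoord_mul,
        hz]
      simp
    | add y y' hy hy' => rw [add_mul, map_add, hy, hy', add_zero]

theorem univCoord_comb (x : Fin g → HRing (k := k) b) : univCoord b (comb b _ x) = x := by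
  ext i
  rw [comb_apply, map_sum, Finset.sum_apply]
  simp only [univCoord_tmul, Pi.smul_apply, smul_eq_mul, hx_b]
  rw [Finset.sum_eq_single i (fun j _ hj => by rw [Pi.single_eq_of_ne (Ne.symm hj), mul_zero])
    (by simp), Pi.single_eq_same, mul_one]

theorem isBIdeal_univ : IsBIdeal b (univIdeal (k := k) b) :=
  isBIdeal_of_retraction _ (univCoord_comb b) fun _ => Iff.rfl

theorem coord_univ (z : HRing (k := k) b ⊗[k] R) :
    coord (isBIdeal_univ b) z = univCoord b z := by
  have h := sub_comb_coord_mem (isBIdeal_univ (k := k) b) z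
  have h' : univCoord b (z - comb b _ (coord (isBIdeal_univ b) z)) = 0 := h
  rw [map_sub, univCoord_comb, sub_eq_zero] at h'
  exact h'.symm

theorem finiteType_hRing [Algebra.FiniteType k R] : Algebra.FiniteType k (HRing (k := k) b) := by
  classical
  obtain ⟨s, hs⟩ := (inferInstance : Algebra.FiniteType k R).out
  let G : Finset (HRing (k := k) b) :=
    (Finset.univ.image fun i => hx b 1 i) ∪
      ((s ×ˢ (Finset.univ : Finset (Fin g × Fin g))).image fun p => hx b (p.1 * b p.2.1) p.2.2)
  refine ⟨⟨G, eq_top_iff.2 ?_⟩⟩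
  set S := Algebra.adjoin k (G : Set (HRing (k := k) b))
  let Q : Submodule k R :=
    { carrier := {r | ∀ i, hx b r i ∈ S}
      add_mem' := fun h h' i => by rw [hx_add]; exact add_mem (h i) (h' i)
      zero_mem' := fun i => by
        rw [← zero_smul k (0 : R), hx_smul, zero_smul]; exact zero_mem _
      smul_mem' := fun c r h i => by rw [hx_smul]; exact S.smul_mem (h i) c }
  have hQ : ∀ r i, hx b r i ∈ S := fun r => forall_of_generators hs Q
    (fun i => Algebra.subset_adjoin (Finset.mem_union_left _ (Finset.mem_image_of_mem _ (Finset.mem_univ i))))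
    (fun x hx' y hy i => by
      rw [hx_mul]
      exact sum_mem fun j _ => mul_mem (hy j) (Algebra.subset_adjoin (Finset.mem_union_right _
        (Finset.mem_image.2 ⟨(x, j, i), Finset.mem_product.2 ⟨hx', Finset.mem_univ _⟩, rfl⟩)))) r
  rintro z -
  obtain ⟨p, rfl⟩ := Ideal.Quotient.mk_surjective z
  induction p using MvPolynomial.induction_on with
  | C c => exact S.algebraMap_mem c
  | add p q hp hq => rw [map_add]; exact add_mem hp hq
  | mul_X p v hp => rw [map_mul]; exact mul_mem hp (hQ v.1 v.2)

variable {b}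

/-- The classifying map. -/
def classify : HRing (k := k) b →ₐ[k] A :=
  Ideal.Quotient.liftₐ _ (MvPolynomial.aeval fun p : R × Fin g => coord hJ ((1 : A) ⊗ₜ[k] p.1) p.2) <| by
    intro x hx
    refine (Ideal.span_le (I := RingHom.ker
      (MvPolynomial.aeval fun p : R × Fin g => coord hJ ((1 : A) ⊗ₜ[k] p.1) p.2))).2 ?_ hx
    rintro _ (((⟨⟨r, r', i⟩, rfl⟩ | ⟨⟨c, r, i⟩, rfl⟩) | ⟨⟨j, i⟩, rfl⟩) | ⟨⟨r, r', i⟩, rfl⟩) <;>
      rw [SetLike.mem_coe, RingHom.mem_ker]
    · simp [TensorProduct.tmul_add]
    · simp only [map_sub, map_mul, MvPolynomial.aeval_X, MvPolynomial.aeval_C,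
        TensorProduct.tmul_smul, LinearMap.map_smul_of_tower, Pi.smul_apply]
      rw [← Algebra.smul_def, sub_self]
    · have hb : coord hJ ((1 : A) ⊗ₜ[k] b j) = Pi.single j 1 := by
        rw [← coord_comb hJ (Pi.single j (1 : A)), comb_apply, Finset.sum_eq_single j]
        · rw [Pi.single_eq_same]
        · intro l _ hl; rw [Pi.single_eq_of_ne hl, TensorProduct.zero_tmul]
        · simp
      rcases eq_or_ne i j with rfl | hij
      · simp [hb]
      · simp [hb, Pi.single_eq_of_ne hij]
    · have h := congrFun (coord_mul hJ ((1 : A) ⊗ₜ[k] r') r) i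
      rw [Algebra.TensorProduct.tmul_mul_tmul, one_mul, Finset.sum_apply] at h
      simp [h, map_sum]

theorem classify_hx (r : R) (i : Fin g) :
    classify hJ (hx b r i) = coord hJ ((1 : A) ⊗ₜ[k] r) i :=
  MvPolynomial.aeval_X _ _

/-- The classifying map pulls the universal ideal back to the given one. -/
theorem map_classify : (univIdeal (k := k) b).map (mapId R (classify hJ)) = J := by
  ext z
  rw [mem_map_iff (isBIdeal_univ b), ← coord_eq_zero_iff hJ]
  suffices h : coordMap (isBIdeal_univ b) (classify hJ) z = coord hJ z by rw [h]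
  induction z using TensorProduct.induction_on with
  | zero => simp
  | tmul a r =>
    rw [coordMap, LinearMap.liftBaseChange_tmul,
      show a ⊗ₜ[k] r = a • ((1 : A) ⊗ₜ[k] r) by rw [TensorProduct.smul_tmul', smul_eq_mul, mul_one],
      map_smul]
    ext i
    show a * classify hJ (coord (isBIdeal_univ b) (1 ⊗ₜ r) i) = _
    rw [coord_univ, univCoord_tmul, one_smul, classify_hx]
    rfl
  | add y z hy hz => rw [map_add, map_add, hy, hz]

include hJ in
/-- The classifying map is unique. -/
theorem classify_unique {φ : HRing (k := k) b →ₐ[k] A}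
    (h : (univIdeal (k := k) b).map (mapId R φ) = J) : φ = classify hJ := by
  refine Ideal.Quotient.algHom_ext _ (MvPolynomial.algHom_ext fun p => ?_)
  obtain ⟨r, i⟩ := p
  show φ (hx b r i) = classify hJ (hx b r i)
  rw [classify_hx]
  have hm : mapId R φ ((1 : HRing (k := k) b) ⊗ₜ[k] r - comb b _ fun j => hx b r j) ∈ J := by
    rw [← h]
    refine Ideal.mem_map_of_mem _ ?_
    show univCoord b _ = 0
    rw [map_sub, univCoord_comb, univCoord_tmul, one_smul, sub_self]
  rw [map_sub, mapId_tmul, map_one, mapId_comb, ← coord_eq_zero_iff hJ, map_sub, coord_comb,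
    sub_eq_zero] at hm
  exact (congrFun hm i).symm

include hJ in
/-- **The universal property.** -/
theorem existsUnique_map_eq :
    ∃! φ : HRing (k := k) b →ₐ[k] A, (univIdeal (k := k) b).map (mapId R φ) = J :=
  ⟨classify hJ, map_classify hJ, fun _ h => classify_unique hJ h⟩

end FA.Jac.Hilb

end
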