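import Fermat.Agent.Jac.Assembly
import Fermat.Agent.Jac.Bridge
import Fermat.Agent.Jac.GlueTop
import Fermat.Agent.Jac.DictField
import Fermat.Agent.Jac.CoverAff
import Fermat.Agent.Jac.Frame
import Fermat.Agent.Jac.Deg
import Fermat.Agent.Jac.Abel

/-!
# The Jacobian of a curve, given its charts

All pieces but the charts, discharged.
-/

set_option autoImplicit false

noncomputable section

universe u

open CategoryTheory CategoryTheory.Limits AlgebraicGeometry
open NeronModelInfra GoodReductionJacobian AlgebraicGeometry.RelPicard AlgebraicCurve FA.Curve
  FA.AbTors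

namespace FA.Jac.Crv

variable {k : Type u} [Field k] [IsAlgClosed k] (V : Crv k)

/-- Degrees are constant on connected bases. -/
theorem degConst_all : V.DegConst := by
  obtain ⟨Cv⟩ := V.nonempty_cover
  exact V.degConst V.frameHolds V.fieldHolds Cv

/-- The map from the curve exists. -/
theorem nonempty_abelData : Nonempty V.AbelData := abelData (V.bc _).divHolds

/-- The Jacobian exists, given the charts. -/
theorem exists_pic0_of_charts (hchart : Nonempty V.ChartData) :
    ∃ D : RelativePic0Designation k V.str,
      Nonempty (RepresentsRelSubPic V.str V.pt (algEquivZeroCut V.str V.pt) D) ∧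
        Smooth D.toBase ∧ IsProper D.toBase ∧ GeometricallyConnected D.toBase :=
  exists_pic0_of_pieces V modulePicExists V.glueHolds hchart V.degConst_all V.nonempty_abelData

end FA.Jac.Crv

end
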