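import Fermat.Agent.Jac.Rep
import Fermat.Agent.Jac.Geom
import Mathlib.AlgebraicGeometry.Morphisms.Proper
import Mathlib.AlgebraicGeometry.AlgClosed.Basic

/-!
# Properties of the representing scheme

It is separated, the sums of points of the curve map onto it, so it is proper and geometrically
irreducible.
-/

set_option autoImplicit false
set_option linter.style.haveILetI false
set_option linter.unusedSectionVars false
set_option linter.unusedVariables false

noncomputable section

universe u

open CategoryTheory CategoryTheory.Limits AlgebraicGeometry TopologicalSpace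
open NeronModelInfra AlgebraicGeometry.RelPicard AlgebraicCurve FA.Curve FA.AbTors

namespace FA.Jac.Crv

variable {k : Type u} [Field k] [IsAlgClosed k] {V : Crv k}
variable {T T' : Scheme.{u}} {t : T ⟶ Spec (CommRingCat.of k)}
  {t' : T' ⟶ Spec (CommRingCat.of k)}

namespace RepData

variable (R : V.RepData)

/-- The point of a class. -/
def point (p : V.P0 t) : SchemeHomOver t R.j := (R.univ T t p).choose

theorem point_spec (p : V.P0 t) : V.map0 (R.point p) R.cls = p :=
  (R.univ T t p).choose_spec.1

theorem point_ext {g g' : SchemeHomOver t R.j} (h : V.map0 g R.cls = V.map0 g' R.cls) : g = g' :=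
  (R.univ T t (V.map0 g' R.cls)).unique h rfl

/-- The classifying map is natural. -/
theorem point_map0 (ψ : SchemeHomOver t' t) (p : V.P0 t) :
    R.point (V.map0 ψ p) = postComp (R.point p) ψ :=
  R.point_ext (by rw [point_spec, ← map0_map0, point_spec])

theorem isSeparated : IsSeparated R.j := by
  let P := pullback R.j R.j
  let sP : P ⟶ Spec (CommRingCat.of k) := pullback.fst R.j R.j ≫ R.j
  let p₁ : SchemeHomOver sP R.j := ⟨pullback.fst R.j R.j, rfl⟩
  let p₂ : SchemeHomOver sP R.j := ⟨pullback.snd R.j R.j, pullback.condition.symm⟩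
  let d : SchemeHomOver sP R.j := R.point (V.map0 p₁ R.cls - V.map0 p₂ R.cls)
  let e : SchemeHomOver (𝟙 (Spec (CommRingCat.of k))) R.j := R.point 0
  haveI : IsClosedImmersion e.1 := isClosedImmersion_of_comp_eq_id R.j e.1 e.2
  -- points with equal image
  have key : ∀ {T : Scheme.{u}} {t : T ⟶ Spec (CommRingCat.of k)} (s : SchemeHomOver t sP)
      (u₀ : SchemeHomOver t (𝟙 (Spec (CommRingCat.of k)))),
      postComp d s = postComp e u₀ ↔ postComp p₁ s = postComp p₂ s := fun s u₀ => by
    constructor
    · intro h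
      refine R.point_ext ?_
      have h' := congrArg (fun g => V.map0 g R.cls) h
      simp only [← map0_map0, d, e, point_spec, map_sub, map_zero] at h'
      rw [← map0_map0, ← map0_map0]
      exact sub_eq_zero.1 h'
    · intro h
      refine R.point_ext ?_
      simp only [← map0_map0, d, e, point_spec, map_sub, map_zero]
      rw [sub_eq_zero, map0_map0, map0_map0, h]
  let Δ : SchemeHomOver R.j sP := ⟨pullback.diagonal R.j, by
    simp only [sP, ← Category.assoc, pullback.diagonal_fst, Category.id_comp]⟩
  have hw : pullback.diagonal R.j ≫ d.1 = R.j ≫ e.1 := by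
    have h := (key Δ ⟨R.j, Category.comp_id _⟩).2 (Subtype.ext (by
      show pullback.diagonal R.j ≫ pullback.fst R.j R.j = pullback.diagonal R.j ≫ pullback.snd R.j R.j
      rw [pullback.diagonal_fst, pullback.diagonal_snd]))
    exact congrArg Subtype.val h
  have hpb : IsPullback (pullback.diagonal R.j) R.j d.1 e.1 := by
    refine IsPullback.of_isLimit' ⟨hw⟩ (PullbackCone.IsLimit.mk _
      (fun s => s.fst ≫ pullback.fst R.j R.j) (fun s => ?_) (fun s => ?_) (fun s m h₁ h₂ => ?_))
    · have h1 : s.snd = s.fst ≫ sP := by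
        have := congrArg (· ≫ R.j) s.condition
        simp only [Category.assoc, d.2, e.2, Category.comp_id] at this
        exact this.symm
      have h := (key (t := s.fst ≫ sP) ⟨s.fst, rfl⟩ ⟨s.snd, by rw [Category.comp_id, h1]⟩).1
        (Subtype.ext s.condition)
      apply pullback.hom_ext
      · rw [Category.assoc, pullback.diagonal_fst, Category.comp_id]
      · rw [Category.assoc, pullback.diagonal_snd, Category.comp_id]
        exact congrArg Subtype.val h
    · have := congrArg (· ≫ R.j) s.condition
      simp only [Category.assoc, d.2, e.2, Category.comp_id] at this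
      simp only [Category.assoc]
      exact this
    · rw [← h₁, Category.assoc, pullback.diagonal_fst, Category.comp_id]
  exact ⟨MorphismProperty.of_isPullback hpb.flip inferInstance⟩

/-! ### The map from the curve -/

variable (A : V.AbelData)

theorem exists_curveMap : ∃ α : SchemeHomOver V.str R.j,
    ∀ x : SchemeHomOver (𝟙 (Spec (CommRingCat.of k))) V.str,
      postComp α x = R.point (A.ptCls x) := by
  haveI := R.isSeparated
  haveI := R.smooth
  let g : ∀ i, SchemeHomOver ((A.W i).ι ≫ V.str) R.j := fun i => R.point (A.cls i)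
  let 𝓤 := V.C.openCoverOfIsOpenCover A.W A.covers
  have hg : ∀ (i : A.ι) (x : SchemeHomOver (𝟙 _) ((A.W i).ι ≫ V.str)),
      postComp (g i) x = R.point (A.ptCls (postComp (incl V.str (A.W i)) x)) := fun i x => by
    rw [← A.compat, R.point_map0]
  have hov : ∀ i j : A.ι, pullback.fst (A.W i).ι (A.W j).ι ≫ (g i).1 =
      pullback.snd (A.W i).ι (A.W j).ι ≫ (g j).1 := fun (i j : A.ι) => by
    haveI : IsReduced (pullback (A.W i).ι (A.W j).ι) :=
      isReduced_of_isOpenImmersion (pullback.fst (A.W i).ι (A.W j).ι ≫ (A.W i).ι)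
    have hfst : (pullback.fst (A.W i).ι (A.W j).ι ≫ (g i).1) ≫ R.j =
        pullback.fst (A.W i).ι (A.W j).ι ≫ (A.W i).ι ≫ V.str := by
      rw [Category.assoc, (g i).2]
    have hsnd : (pullback.snd (A.W i).ι (A.W j).ι ≫ (g j).1) ≫ R.j =
        pullback.fst (A.W i).ι (A.W j).ι ≫ (A.W i).ι ≫ V.str := by
      rw [Category.assoc, (g j).2, ← Category.assoc, ← Category.assoc, pullback.condition]
    haveI : LocallyOfFiniteType
        ((pullback.fst (A.W i).ι (A.W j).ι ≫ (g i).1) ≫ R.j) := by rw [hfst]; infer_instance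
    haveI := LocallyOfFiniteType.jacobsonSpace ((pullback.fst (A.W i).ι (A.W j).ι ≫ (g i).1) ≫ R.j)
    refine ext_of_apply_eq R.j Set.univ isClosed_univ.isLocallyClosed dense_univ
      (fun x _ hx => ?_) (hfst.trans hsnd.symm)
    let s := pullback.fst (A.W i).ι (A.W j).ι ≫ (A.W i).ι ≫ V.str
    let η : Spec (CommRingCat.of k) ⟶ pullback (A.W i).ι (A.W j).ι := pointOfClosedPoint s x hx
    have hη : η ≫ s = 𝟙 _ := pointOfClosedPoint_comp s x hx
    have hηx : η (IsLocalRing.closedPoint k) = x := pointOfClosedPoint_apply s x hx _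
    let a : SchemeHomOver (𝟙 _) ((A.W i).ι ≫ V.str) :=
      ⟨η ≫ pullback.fst (A.W i).ι (A.W j).ι, (Category.assoc _ _ _).trans hη⟩
    let b : SchemeHomOver (𝟙 _) ((A.W j).ι ≫ V.str) :=
      ⟨η ≫ pullback.snd (A.W i).ι (A.W j).ι, by
        refine Eq.trans ?_ hη
        simp only [s, Category.assoc]
        exact congrArg (η ≫ ·) (pullback.condition_assoc (f := (A.W i).ι) (g := (A.W j).ι) _).symm⟩
    have hab : postComp (incl V.str (A.W i)) a = postComp (incl V.str (A.W j)) b :=
      Subtype.ext (by
        simp only [postComp, incl, a, b, Category.assoc]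
        exact congrArg (η ≫ ·) pullback.condition)
    have h := congrArg Subtype.val ((hg i a).trans ((congrArg (fun y => R.point (A.ptCls y))
      hab).trans (hg j b).symm))
    simp only [postComp, a, b, Category.assoc] at h
    rw [← hηx]
    exact congrArg (fun φ : Spec (CommRingCat.of k) ⟶ R.J => φ (IsLocalRing.closedPoint k)) h
  let G := 𝓤.glueMorphisms (fun i => (g i).1) hov
  have hG : ∀ i, (A.W i).ι ≫ G = (g i).1 := fun i => 𝓤.ι_glueMorphisms _ _ i
  have hGj : G ≫ R.j = V.str := 𝓤.hom_ext _ _ fun i => by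
    show (A.W i).ι ≫ G ≫ R.j = (A.W i).ι ≫ V.str
    rw [← Category.assoc, hG]
    exact (g i).2
  refine ⟨⟨G, hGj⟩, fun x => ?_⟩
  obtain ⟨i, hi⟩ : ∃ i, x.1 (IsLocalRing.closedPoint k) ∈ A.W i :=
    Opens.mem_iSup.1 (A.covers ▸ (trivial : x.1 (IsLocalRing.closedPoint k) ∈ (⊤ : V.C.Opens)))
  have hr : Set.range x.1 ⊆ Set.range (A.W i).ι := by
    rintro _ ⟨y, rfl⟩
    rw [Scheme.Opens.range_ι, Subsingleton.elim y (IsLocalRing.closedPoint k)]
    exact hi
  let xi : SchemeHomOver (𝟙 _) ((A.W i).ι ≫ V.str) :=
    ⟨IsOpenImmersion.lift (A.W i).ι x.1 hr, by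
      rw [← Category.assoc, IsOpenImmersion.lift_fac, x.2]⟩
  have hxi : postComp (incl V.str (A.W i)) xi = x :=
    Subtype.ext (IsOpenImmersion.lift_fac _ _ _)
  refine Eq.trans ?_ ((hg i xi).trans (by rw [hxi]))
  refine Subtype.ext ?_
  show x.1 ≫ G = xi.1 ≫ (g i).1
  rw [← hG, ← Category.assoc, IsOpenImmersion.lift_fac]

/-- Sums of points. -/
theorem exists_sumMap (m : ℕ) : ∃ (Y : Scheme.{u}) (y : Y ⟶ Spec (CommRingCat.of k))
    (f : SchemeHomOver y R.j), IsProper y ∧ GeometricallyIrreducible y ∧ UniversallyOpen y ∧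
      ∀ x : Fin m → SchemeHomOver (𝟙 (Spec (CommRingCat.of k))) V.str,
        ∃ η : SchemeHomOver (𝟙 _) y, postComp f η = R.point (∑ j, A.ptCls (x j)) := by
  induction m with
  | zero =>
    refine ⟨_, 𝟙 _, R.point 0, inferInstance, ?_, inferInstance,
      fun x => ⟨⟨𝟙 _, Category.comp_id _⟩, Subtype.ext ?_⟩⟩
    · refine ⟨geometrically_iff_of_isClosedUnderIsomorphisms.2 fun K _ a => ?_⟩
      exact (asIso (pullback.snd (𝟙 (Spec (CommRingCat.of k))) a)).hom.homeomorph.irreducibleSpace_iff.2
        (inferInstanceAs (IrreducibleSpace (PrimeSpectrum K)))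
    · rw [Finset.univ_eq_empty, Finset.sum_empty]
      exact Category.id_comp _
  | succ m ih =>
    obtain ⟨Y, y, f, hyp, hyi, hyo, hη⟩ := ih
    obtain ⟨α, hα⟩ := R.exists_curveMap A
    haveI := hyp
    haveI := hyi
    haveI := hyo
    haveI := V.geometricallyIrreducible
    haveI : UniversallyOpen V.str := inferInstance
    let Y' := pullback V.str y
    let y' : Y' ⟶ Spec (CommRingCat.of k) := pullback.snd V.str y ≫ y
    let q₁ : SchemeHomOver y' V.str := ⟨pullback.fst V.str y, pullback.condition⟩
    let q₂ : SchemeHomOver y' y := ⟨pullback.snd V.str y, rfl⟩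
    let f' : SchemeHomOver y' R.j :=
      R.point (V.map0 (postComp α q₁) R.cls + V.map0 (postComp f q₂) R.cls)
    refine ⟨Y', y', f', inferInstance, GeometricallyIrreducible.comp _ _, inferInstance,
      fun x => ?_⟩
    obtain ⟨η, hη'⟩ := hη (fun j => x j.succ)
    let η' : SchemeHomOver (𝟙 (Spec (CommRingCat.of k))) y' :=
      ⟨pullback.lift (x 0).1 η.1 ((x 0).2.trans η.2.symm), by
        rw [← Category.assoc, pullback.lift_snd, η.2]⟩
    have e₁ : postComp q₁ η' = x 0 := Subtype.ext (pullback.lift_fst _ _ _)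
    have e₂ : postComp q₂ η' = η := Subtype.ext (pullback.lift_snd _ _ _)
    refine ⟨η', R.point_ext ?_⟩
    rw [← map0_map0, R.point_spec, map_add, map0_map0, map0_map0, R.point_spec, Fin.sum_univ_succ]
    have h1 : postComp (postComp α q₁) η' = R.point (A.ptCls (x 0)) := by
      rw [← hα, ← e₁]; exact Subtype.ext (Category.assoc _ _ _).symm
    have h2 : postComp (postComp f q₂) η' = R.point (∑ j, A.ptCls (x (Fin.succ j))) := by
      rw [← hη', ← e₂]; exact Subtype.ext (Category.assoc _ _ _).symm
    rw [h1, h2, R.point_spec, R.point_spec]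

include A in
/-- A proper geometrically irreducible scheme maps onto the representing scheme. -/
theorem exists_surjection : ∃ (Y : Scheme.{u}) (f : Y ⟶ R.J), IsProper (f ≫ R.j) ∧
    GeometricallyIrreducible (f ≫ R.j) ∧ Surjective f := by
  obtain ⟨Y, y, f, hyp, hyi, -, hη⟩ := R.exists_sumMap A A.n
  haveI := R.isSeparated
  haveI := R.smooth
  haveI : IsProper (f.1 ≫ R.j) := by rw [f.2]; exact hyp
  haveI : IsProper f.1 := IsProper.of_comp f.1 R.j
  haveI := LocallyOfFiniteType.jacobsonSpace R.j
  refine ⟨Y, f.1, inferInstance, by rw [f.2]; exact hyi, ⟨fun z => ?_⟩⟩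
  have hcl : closedPoints R.J ⊆ Set.range f.1 := fun w hw => by
    let g : SchemeHomOver (𝟙 _) R.j := ⟨pointOfClosedPoint R.j w hw, pointOfClosedPoint_comp _ _ _⟩
    obtain ⟨x, hx⟩ := A.generate (V.map0 g R.cls)
    obtain ⟨η, hη'⟩ := hη x
    have e : postComp f η = g := hη'.trans (by
      rw [← hx]; exact R.point_ext (R.point_spec _))
    exact ⟨η.1 (IsLocalRing.closedPoint k), by
      rw [← Scheme.Hom.comp_apply]
      exact (congrArg (fun φ : SchemeHomOver (𝟙 _) R.j => φ.1 (IsLocalRing.closedPoint k)) e).trans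
        (pointOfClosedPoint_apply _ _ _ _)⟩
  have hclosed : IsClosed (Set.range f.1) := f.1.isClosedMap.isClosed_range
  have : (Set.univ : Set R.J) ⊆ Set.range f.1 := by
    rw [← closure_closedPoints]
    exact hclosed.closure_subset_iff.2 hcl
  exact this (Set.mem_univ z)

include A in
theorem isProper : IsProper R.j := by
  obtain ⟨Y, f, hp, -, hs⟩ := R.exists_surjection A
  haveI := R.isSeparated
  haveI := R.smooth
  haveI : UniversallyClosed R.j := UniversallyClosed.of_comp_surjective f R.j
  exact {}

include A in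
theorem geometricallyIrreducible : GeometricallyIrreducible R.j := by
  obtain ⟨Y, f, -, hi, hs⟩ := R.exists_surjection A
  exact geometricallyIrreducible_of_surjective f R.j

include A in
theorem geometricallyIntegral : GeometricallyIntegral R.j := by
  haveI := R.smooth
  haveI := geometricallyReduced_of_smooth R.j
  haveI := R.geometricallyIrreducible A
  exact GeometricallyIntegral.of_geometricallyReduced_of_geometricallyIrreducible _

include A in
theorem geometricallyConnected : GeometricallyConnected R.j := by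
  haveI := R.geometricallyIrreducible A
  exact geometricallyConnected_of_irreducible R.j

end RepData

end FA.Jac.Crv

end
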